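/-
TW / WP7 / C5 input (helper97): the TAME FIELD cut out by an open normal subgroup of prime-to-`p`
index of `G_p = Gal(ℚ̄_p/ℚ_p)`.

* `norm_apply`                   : `G_p` acts on `PadicAlgCl p` by isometries.
* `norm_pow_finrank_eq`          : for `K0/ℚ_p` finite Galois, `‖x‖ ^ [K0:ℚ_p] = ‖N_{K0/ℚ_p} x‖`.
* `isTame_of_not_dvd_finrank`    : `K0/ℚ_p` finite Galois of degree prime to `p` is tame
                                   (`Spec72.IsTame`), with `e = [K0:ℚ_p]`; no ramification theory.
* `index_fixingSubgroup`, `finiteIndex_fixingSubgroup`, `restrictNormalHom_surjective`.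
* section `FixedField`           : for `N ≤ G_p` normal and open (`F.fixingSubgroup ≤ N`, `F` finite):
                                   `K0 := fixedField N` is finite Galois, `K0.fixingSubgroup = N`,
                                   `N.index = [K0:ℚ_p]`, tame if `p ∤ N.index`.
* `exists_primitiveRoot_fixedField` : `fixedField N` contains `ζ_p` if `N` fixes the `p`-th roots of
                                   unity.
* `exists_tame_field`, `exists_tame_field_of_hom` : the packaged forms (`N = ker ψ`, `p ∤ #A`).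
-/
import Mathlib
import Fermat.Agent.TW.FF.Spec72

set_option autoImplicit false

noncomputable section

namespace Fermat.Agent.TW.Cnt.TameField97

open Fermat.Agent.TW.FF.FlatModel68 Fermat.Agent.TW.FF.Spec72 Module IntermediateField

variable (p : ℕ) [Fact p.Prime]

/-- `G_p` acts on `PadicAlgCl p` by isometries. -/
theorem norm_apply (τ : GQp p) (y : PadicAlgCl p) : ‖τ y‖ = ‖y‖ :=
  congrArg (fun t : NNReal => (t : ℝ)) (nnnorm_padicAlgCl_algEquiv p τ y)

variable {p}

section Galois

variable (K0 : IntermediateField ℚ_[p] (PadicAlgCl p))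

/-- An automorphism of a normal subextension preserves the norm. -/
theorem norm_coe_apply [Normal ℚ_[p] K0] (σ : K0 ≃ₐ[ℚ_[p]] K0) (x : K0) :
    ‖((σ x : K0) : PadicAlgCl p)‖ = ‖(x : PadicAlgCl p)‖ := by
  have h := AlgEquiv.liftNormal_commutes σ (PadicAlgCl p) x
  change (σ.liftNormal (PadicAlgCl p)) (x : PadicAlgCl p) = ((σ x : K0) : PadicAlgCl p) at h
  rw [← h, norm_apply]

variable [FiniteDimensional ℚ_[p] K0] [IsGalois ℚ_[p] K0]

/-- `‖x‖ ^ [K0:ℚ_p] = ‖N_{K0/ℚ_p} x‖`. -/
theorem norm_pow_finrank_eq (x : K0) :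
    ‖(x : PadicAlgCl p)‖ ^ finrank ℚ_[p] K0 = ‖Algebra.norm ℚ_[p] x‖ := by
  have h := Algebra.norm_eq_prod_automorphisms ℚ_[p] x
  have h2 : algebraMap ℚ_[p] (PadicAlgCl p) (Algebra.norm ℚ_[p] x)
      = ∏ σ : K0 ≃ₐ[ℚ_[p]] K0, ((σ x : K0) : PadicAlgCl p) := by
    have := congrArg (algebraMap K0 (PadicAlgCl p)) h
    rw [map_prod, ← IsScalarTower.algebraMap_apply] at this
    exact this
  have h3 : ‖algebraMap ℚ_[p] (PadicAlgCl p) (Algebra.norm ℚ_[p] x)‖ = ‖Algebra.norm ℚ_[p] x‖ :=
    PadicAlgCl.norm_extends p _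
  rw [← h3, h2, norm_prod]
  simp only [norm_coe_apply, Finset.prod_const, Finset.card_univ]
  rw [← Nat.card_eq_fintype_card, IsGalois.card_aut_eq_finrank]

/-- The norm of a nonzero element of a finite Galois `K0/ℚ_p` satisfies `‖x‖ ^ [K0:ℚ_p] ∈ p^ℤ`. -/
theorem exists_norm_pow_finrank_eq_zpow (x : K0) (hx : x ≠ 0) :
    ∃ m : ℤ, ‖(x : PadicAlgCl p)‖ ^ finrank ℚ_[p] K0 = (p : ℝ) ^ m := by
  rw [norm_pow_finrank_eq]
  have hN : Algebra.norm ℚ_[p] x ≠ 0 := by
    rw [Ne, Algebra.norm_eq_zero_iff]
    exact hx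
  exact ⟨-(Algebra.norm ℚ_[p] x).valuation, Padic.norm_eq_zpow_neg_valuation hN⟩

/-- **Tameness from the degree.** A finite Galois extension of `ℚ_p` of degree prime to `p` is tame
in the sense of `Spec72.IsTame` (with `e = [K0:ℚ_p]`). -/
theorem isTame_of_not_dvd_finrank (h : ¬ p ∣ finrank ℚ_[p] K0) : IsTame p K0 :=
  ⟨finrank ℚ_[p] K0, h, fun x hx => exists_norm_pow_finrank_eq_zpow K0 x hx⟩

omit [FiniteDimensional ℚ_[p] K0] in
/-- Restriction `G_p → Gal(K0/ℚ_p)` is surjective. -/
theorem restrictNormalHom_surjective :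
    Function.Surjective (AlgEquiv.restrictNormalHom (F := ℚ_[p]) (K₁ := PadicAlgCl p) K0) :=
  AlgEquiv.restrictNormalHom_surjective (PadicAlgCl p)

/-- `[G_p : Gal(ℚ̄_p/K0)] = [K0 : ℚ_p]`. -/
theorem index_fixingSubgroup : K0.fixingSubgroup.index = finrank ℚ_[p] K0 := by
  rw [← IntermediateField.restrictNormalHom_ker, Subgroup.index_ker,
    MonoidHom.range_eq_top.mpr (restrictNormalHom_surjective K0), ← IsGalois.card_aut_eq_finrank]
  exact Nat.card_congr (Subgroup.topEquiv (G := K0 ≃ₐ[ℚ_[p]] K0)).toEquiv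

theorem finiteIndex_fixingSubgroup : K0.fixingSubgroup.FiniteIndex := by
  constructor
  rw [index_fixingSubgroup]
  exact Module.finrank_pos.ne'

end Galois

section FixedField

variable (N : Subgroup (GQp p)) (F : IntermediateField ℚ_[p] (PadicAlgCl p))
  [FiniteDimensional ℚ_[p] F] (hF : F.fixingSubgroup ≤ N)

include hF

/-- An "open" subgroup (one containing the fixing subgroup of a finite extension) is closed in the
Krull topology. -/
theorem isClosed_of_fixingSubgroup_le : IsClosed (N : Set (GQp p)) :=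
  Subgroup.isClosed_of_isOpen N
    (Subgroup.isOpen_mono hF (IntermediateField.fixingSubgroup_isOpen F))

/-- Galois correspondence for open subgroups. -/
theorem fixingSubgroup_fixedField : (fixedField N).fixingSubgroup = N :=
  InfiniteGalois.fixingSubgroup_fixedField
    (⟨N, isClosed_of_fixingSubgroup_le N F hF⟩ : ClosedSubgroup (GQp p))

omit [FiniteDimensional ℚ_[p] F] in
theorem fixedField_le : fixedField N ≤ F := by
  have h1 : fixedField N ≤ fixedField F.fixingSubgroup := by
    intro x hx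
    rw [IntermediateField.mem_fixedField_iff] at hx ⊢
    intro τ hτ
    exact hx τ (hF hτ)
  rwa [InfiniteGalois.fixedField_fixingSubgroup] at h1

theorem finiteDimensional_fixedField : FiniteDimensional ℚ_[p] (fixedField N) := by
  have hle := fixedField_le N F hF
  exact Module.Finite.of_injective (IntermediateField.inclusion hle).toLinearMap
    (IntermediateField.inclusion hle).injective

theorem isGalois_fixedField [N.Normal] : IsGalois ℚ_[p] (fixedField N) := by
  rw [← InfiniteGalois.normal_iff_isGalois, fixingSubgroup_fixedField N F hF]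
  infer_instance

theorem index_eq_finrank_fixedField [N.Normal] : N.index = finrank ℚ_[p] (fixedField N) := by
  have := finiteDimensional_fixedField N F hF
  have := isGalois_fixedField N F hF
  have h := index_fixingSubgroup (fixedField N)
  rwa [fixingSubgroup_fixedField N F hF] at h

theorem finiteIndex_of_fixingSubgroup_le [N.Normal] : N.FiniteIndex := by
  have := finiteDimensional_fixedField N F hF
  have := isGalois_fixedField N F hF
  have h := finiteIndex_fixingSubgroup (fixedField N)
  rwa [fixingSubgroup_fixedField N F hF] at h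

theorem isTame_fixedField [N.Normal] (hp : ¬ p ∣ N.index) : IsTame p (fixedField N) := by
  have := finiteDimensional_fixedField N F hF
  have := isGalois_fixedField N F hF
  apply isTame_of_not_dvd_finrank
  rwa [← index_eq_finrank_fixedField N F hF]

end FixedField

section Roots

/-- If `N` fixes the `p`-th roots of unity, its fixed field contains a primitive `p`-th root. -/
theorem exists_primitiveRoot_fixedField (N : Subgroup (GQp p))
    (hN : ∀ τ ∈ N, ∀ z : PadicAlgCl p, z ^ p = 1 → τ z = z) :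
    ∃ ζ : fixedField N, IsPrimitiveRoot ζ p := by
  have : NeZero (p : PadicAlgCl p) := ⟨by
    have := (Fact.out : p.Prime).ne_zero
    exact_mod_cast this⟩
  obtain ⟨ζ, hζ⟩ := HasEnoughRootsOfUnity.exists_primitiveRoot (PadicAlgCl p) p
  have hmem : ζ ∈ fixedField N := by
    rw [IntermediateField.mem_fixedField_iff]
    intro τ hτ
    exact hN τ hτ ζ hζ.pow_eq_one
  refine ⟨⟨ζ, hmem⟩, ?_⟩
  have : IsPrimitiveRoot ((algebraMap (fixedField N) (PadicAlgCl p)) ⟨ζ, hmem⟩) p := hζ
  exact IsPrimitiveRoot.of_map_of_injective this (algebraMap (fixedField N) (PadicAlgCl p)).injective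

end Roots

section Packaged

/-- **The tame field of an open normal subgroup of prime-to-`p` index.** -/
theorem exists_tame_field (N : Subgroup (GQp p)) [N.Normal]
    (F : IntermediateField ℚ_[p] (PadicAlgCl p)) [FiniteDimensional ℚ_[p] F]
    (hF : F.fixingSubgroup ≤ N) (hp : ¬ p ∣ N.index) :
    ∃ K0 : IntermediateField ℚ_[p] (PadicAlgCl p), FiniteDimensional ℚ_[p] K0 ∧
      IsGalois ℚ_[p] K0 ∧ K0.fixingSubgroup = N ∧ N.FiniteIndex ∧ N.index = finrank ℚ_[p] K0 ∧
      IsTame p K0 ∧
      ((∀ τ ∈ N, ∀ z : PadicAlgCl p, z ^ p = 1 → τ z = z) → ∃ ζ : K0, IsPrimitiveRoot ζ p) :=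
  ⟨fixedField N, finiteDimensional_fixedField N F hF, isGalois_fixedField N F hF,
    fixingSubgroup_fixedField N F hF, finiteIndex_of_fixingSubgroup_le N F hF,
    index_eq_finrank_fixedField N F hF, isTame_fixedField N F hF hp,
    exists_primitiveRoot_fixedField N⟩

/-- The index of the kernel of a homomorphism to a finite group divides the order of the group. -/
theorem index_ker_dvd_card {G A : Type*} [Group G] [Group A] [Finite A] (ψ : G →* A) :
    ψ.ker.index ∣ Nat.card A := by
  rw [Subgroup.index_ker]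
  exact Subgroup.card_subgroup_dvd_card ψ.range

/-- **The tame field cut out by a homomorphism to a finite group of order prime to `p`**
(e.g. `ψ = (ψ₁, ψ₂, ω) : G_p → kˣ × kˣ × 𝔽_pˣ`). -/
theorem exists_tame_field_of_hom {A : Type*} [Group A] [Finite A] (ψ : GQp p →* A)
    (hA : ¬ p ∣ Nat.card A) (F : IntermediateField ℚ_[p] (PadicAlgCl p))
    [FiniteDimensional ℚ_[p] F] (hF : F.fixingSubgroup ≤ ψ.ker) :
    ∃ K0 : IntermediateField ℚ_[p] (PadicAlgCl p), FiniteDimensional ℚ_[p] K0 ∧
      IsGalois ℚ_[p] K0 ∧ K0.fixingSubgroup = ψ.ker ∧ ψ.ker.FiniteIndex ∧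
      ψ.ker.index = finrank ℚ_[p] K0 ∧ ¬ p ∣ ψ.ker.index ∧ IsTame p K0 ∧
      ((∀ τ ∈ ψ.ker, ∀ z : PadicAlgCl p, z ^ p = 1 → τ z = z) →
        ∃ ζ : K0, IsPrimitiveRoot ζ p) := by
  have hp : ¬ p ∣ ψ.ker.index := fun h => hA (h.trans (index_ker_dvd_card ψ))
  obtain ⟨K0, h1, h2, h3, h4, h5, h6, h7⟩ := exists_tame_field ψ.ker F hF hp
  exact ⟨K0, h1, h2, h3, h4, h5, hp, h6, h7⟩

end Packaged

end Fermat.Agent.TW.Cnt.TameField97
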