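/-
TW / WP7 / B12 (helper72): the ADMISSIBLE FAMILY of subgroups of `G_p = Gal(ℚ̄_p/ℚ_p)` used by the count.

`admFamily p` = the kernels `{τ | τ acts trivially on V}` of the finite flat `G_p`-modules `V` killed by `p`
(`FlatModel68.LocalFlatModel`).  We prove: for a flat `V` the maps `act τ` form an action by additive
automorphisms (`act_one`, `act_mul`, `act_add`), the kernel is a normal subgroup, the family is
nonempty, and it is closed under `⊓` provided flat modules are closed under binary products
(`Spec72.ClosureProd`, brick B1).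
-/
import Mathlib
import Fermat.Agent.TW.FF.Spec72

set_option autoImplicit false

noncomputable section

namespace Fermat.Agent.TW.Cnt.AdmFlat72

open Fermat.Agent.TW.FF.FlatModel68 Fermat.Agent.TW.FF.Spec72 WithConv

variable {p : ℕ} [Fact p.Prime]

section twist

variable {H : Type} [CommRing H] [HopfAlgebra ℤ_[p] H]

/-- Post-composition of a point with a Galois automorphism. -/
def twist (τ : GQp p) (f : WithConv (H →ₐ[ℤ_[p]] PadicAlgCl p)) :
    WithConv (H →ₐ[ℤ_[p]] PadicAlgCl p) :=
  toConv (((τ : PadicAlgCl p →ₐ[ℚ_[p]] PadicAlgCl p).restrictScalars ℤ_[p]).comp f.ofConv)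

@[simp] theorem twist_apply (τ : GQp p) (f : WithConv (H →ₐ[ℤ_[p]] PadicAlgCl p)) (h : H) :
    (twist τ f) h = τ (f h) := rfl

theorem twist_one (f : WithConv (H →ₐ[ℤ_[p]] PadicAlgCl p)) : twist (1 : GQp p) f = f := by
  apply ofConv_injective
  ext h
  rfl

theorem twist_mul (σ τ : GQp p) (f : WithConv (H →ₐ[ℤ_[p]] PadicAlgCl p)) :
    twist (σ * τ) f = twist σ (twist τ f) := by
  apply ofConv_injective
  ext h
  rfl

theorem twist_convMul (τ : GQp p) (f g : WithConv (H →ₐ[ℤ_[p]] PadicAlgCl p)) :
    twist τ (f * g) = twist τ f * twist τ g := by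
  apply ofConv_injective
  exact AlgHom.comp_convMul_distrib _ f g

end twist

section action

variable {V : Type} [AddCommGroup V] {act : GQp p → V → V}

/-- The data of a local flat model, unpacked: `act τ (e f) = e (τ ∘ f)`. -/
theorem exists_model (hV : LocalFlatModel p V act) :
    ∃ (H : Type) (_ : CommRing H) (_ : HopfAlgebra ℤ_[p] H)
      (e : WithConv (H →ₐ[ℤ_[p]] PadicAlgCl p) ≃ V),
      (∀ f g, e (f * g) = e f + e g) ∧ ∀ τ f, act τ (e f) = e (twist τ f) := by
  obtain ⟨H, i1, i2, -, -, -, e, hmul, hact⟩ := hV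
  exact ⟨H, i1, i2, e, hmul, fun τ f => (hact τ f (twist τ f) (fun _ => rfl)).symm⟩

theorem act_one (hV : LocalFlatModel p V act) (v : V) : act 1 v = v := by
  obtain ⟨H, _, _, e, -, hact⟩ := exists_model hV
  obtain ⟨f, rfl⟩ := e.surjective v
  rw [hact, twist_one]

theorem act_mul (hV : LocalFlatModel p V act) (σ τ : GQp p) (v : V) :
    act (σ * τ) v = act σ (act τ v) := by
  obtain ⟨H, _, _, e, -, hact⟩ := exists_model hV
  obtain ⟨f, rfl⟩ := e.surjective v
  rw [hact, hact, hact, twist_mul]

theorem act_add (hV : LocalFlatModel p V act) (τ : GQp p) (v w : V) :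
    act τ (v + w) = act τ v + act τ w := by
  obtain ⟨H, _, _, e, hmul, hact⟩ := exists_model hV
  obtain ⟨f, rfl⟩ := e.surjective v
  obtain ⟨g, rfl⟩ := e.surjective w
  rw [← hmul, hact, hact, hact, twist_convMul, hmul]

theorem act_zero (hV : LocalFlatModel p V act) (τ : GQp p) : act τ 0 = 0 := by
  have h := act_add hV τ 0 0
  rw [add_zero] at h
  exact left_eq_add.mp h

theorem act_neg (hV : LocalFlatModel p V act) (τ : GQp p) (v : V) : act τ (-v) = - act τ v := by
  have h := act_add hV τ v (-v)
  rw [add_neg_cancel, act_zero hV] at h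
  exact (neg_eq_of_add_eq_zero_right h.symm).symm

theorem act_sub (hV : LocalFlatModel p V act) (τ : GQp p) (v w : V) :
    act τ (v - w) = act τ v - act τ w := by
  rw [sub_eq_add_neg, act_add hV, act_neg hV, sub_eq_add_neg]

theorem act_inv_act (hV : LocalFlatModel p V act) (τ : GQp p) (v : V) : act τ⁻¹ (act τ v) = v := by
  rw [← act_mul hV, inv_mul_cancel, act_one hV]

theorem act_act_inv (hV : LocalFlatModel p V act) (τ : GQp p) (v : V) : act τ (act τ⁻¹ v) = v := by
  rw [← act_mul hV, mul_inv_cancel, act_one hV]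

/-- The kernel of the action on a flat module, as a subgroup of `G_p`. -/
def kerOf (hV : LocalFlatModel p V act) : Subgroup (GQp p) where
  carrier := {τ | ∀ v, act τ v = v}
  one_mem' := fun v => act_one hV v
  mul_mem' := fun {σ τ} hσ hτ v => by rw [act_mul hV, hτ v, hσ v]
  inv_mem' := fun {τ} hτ v => by
    have := act_inv_act hV τ v
    rwa [hτ v] at this

theorem mem_kerOf (hV : LocalFlatModel p V act) (τ : GQp p) :
    τ ∈ kerOf hV ↔ ∀ v, act τ v = v := Iff.rfl

instance kerOf_normal (hV : LocalFlatModel p V act) : (kerOf hV).Normal where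
  conj_mem := fun τ hτ g v => by
    rw [act_mul hV, act_mul hV, hτ (act g⁻¹ v), act_act_inv hV]

end action

variable (p)

/-- The admissible family: kernels of finite flat `G_p`-modules killed by `p`. -/
def admFamily : Set (Subgroup (GQp p)) :=
  {N | ∃ (V : Type) (_ : AddCommGroup V) (_ : Finite V) (act : GQp p → V → V)
    (hV : LocalFlatModel p V act), KilledByP p V ∧ N = kerOf hV}

variable {p}

theorem normal_of_mem_admFamily {N : Subgroup (GQp p)} (hN : N ∈ admFamily p) : N.Normal := by
  obtain ⟨V, _, _, act, hV, -, rfl⟩ := hN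
  infer_instance

/-- Elements of an admissible subgroup act trivially on the flat module defining it; conversely the
kernel of any flat module killed by `p` is admissible. -/
theorem kerOf_mem_admFamily {V : Type} [AddCommGroup V] [Finite V] {act : GQp p → V → V}
    (hV : LocalFlatModel p V act) (hp : KilledByP p V) : kerOf hV ∈ admFamily p :=
  ⟨V, inferInstance, inferInstance, act, hV, hp, rfl⟩

/-- Closure under `⊓`, given closure of flat modules under binary products (brick B1). -/
theorem inf_mem_admFamily (hprod : ClosureProd p) {N N' : Subgroup (GQp p)}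
    (hN : N ∈ admFamily p) (hN' : N' ∈ admFamily p) : N ⊓ N' ∈ admFamily p := by
  obtain ⟨V, _, _, act, hV, hpV, rfl⟩ := hN
  obtain ⟨W, _, _, act', hW, hpW, rfl⟩ := hN'
  have hVW := hprod V W act act' hV hW
  refine ⟨V × W, inferInstance, inferInstance, _, hVW, ?_, ?_⟩
  · intro x
    ext
    · simpa using hpV x.1
    · simpa using hpW x.2
  · ext τ
    simp only [Subgroup.mem_inf, mem_kerOf, Prod.forall, Prod.mk.injEq]
    constructor
    · rintro ⟨h1, h2⟩ v w
      exact ⟨h1 v, h2 w⟩
    · intro h
      exact ⟨fun v => (h v 0).1, fun w => (h 0 w).2⟩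

/-- The zero module is flat (trivial Hopf algebra `ℤ_p`). -/
theorem localFlatModel_punit : LocalFlatModel p PUnit (fun _ x => x) := by
  refine ⟨ℤ_[p], inferInstance, inferInstance, inferInstance, inferInstance, inferInstance,
    ⟨fun _ => PUnit.unit, fun _ => 1, fun f => ?_, fun _ => rfl⟩, fun _ _ => rfl, fun _ _ _ _ => rfl⟩
  apply ofConv_injective
  exact Subsingleton.elim _ _

theorem admFamily_nonempty : (admFamily p).Nonempty :=
  ⟨_, kerOf_mem_admFamily (localFlatModel_punit (p := p)) (fun _ => rfl)⟩

end Fermat.Agent.TW.Cnt.AdmFlat72
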