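/-
TW / WP7 / brick LS of plan v2 (#630) (helper97): LOCAL STRUCTURE of `G_p = Gal(ℚ̄_p/ℚ_p)`
(`GQp p`), in the norm language of `Spec72` (`I = Spec72.inertiaSet p`, `Ω = PadicAlgCl p`).

* `inertiaSubgroup p` : `Spec72.inertiaSet p` as a normal subgroup.
* `IsFrobLoc φ` : `‖φ x - x ^ p‖ < 1` on the unit ball;  `exists_isFrobLoc` (**LS3a**).
* `exists_frob_pow_mul_inertia` (**LS3b**) : on a finite `K0`, every `g` is `φ ^ m * τ`, `τ ∈ I`.
* `exists_inertia_eq_on` (**LS1**) : `g ≡ id` on the residue field of `K0` (finite Galois)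
  `⇒ g = τ` on `K0` for some `τ ∈ I`.
* `exists_pow_mem_fixingSubgroup_of_wild` (**LS5**) : wild inertia is pro-`p`.
* `norm_conj_div_sub_pow_lt` (**LS6**) : `φ τ φ⁻¹ π / π ≡ (τ π / π) ^ p`.

LS1, LS3 are transported from the global theory (`S13.UnramBridge.exists_inertia_lift`,
`ES/FROB`, `FrobGen96`) through `Bridge/LocalGlobal97`, `Bridge/LocalInertia97` and the sharpened
Krasner lemma `Bridge/KrasnerEq97`; LS5, LS6 are proved directly with norms.
-/
import Mathlib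
import Fermat.Agent.TW.Cnt.TameField97
import Fermat.Agent.TW.Bridge.LocalInertia97
import Fermat.Agent.TW.Bridge.KrasnerEq97
import Fermat.Agent.TW.LocalQ.FrobGen96
import Fermat.Agent.ES.FROB.FrobFacts12

set_option autoImplicit false

noncomputable section

namespace Fermat.Agent.TW.Cnt.LocalStruct97

open Fermat.Agent.TW.FF.FlatModel68 Fermat.Agent.TW.FF.Spec72 Fermat.Agent.TW.Cnt.TameField97
open Fermat.Agent.TW.Bridge.LocalGlobal97 Fermat.Agent.TW.Bridge.LocalInertia97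
open Fermat.Agent.TW.Bridge.KrasnerEq97 Fermat.Agent.PT.BR.LocInj13
open Fermat.Agent.TW.OrdLocal.PadicPlace97
open Module IntermediateField

variable {p : ℕ} [Fact p.Prime]

local notation "Qb" => AlgebraicClosure ℚ

/-! ### Ultrametric preliminaries -/

theorem norm_add_le_max' (a b : PadicAlgCl p) : ‖a + b‖ ≤ max ‖a‖ ‖b‖ :=
  IsUltrametricDist.norm_add_le_max a b

theorem norm_sub_le_max' (a b : PadicAlgCl p) : ‖a - b‖ ≤ max ‖a‖ ‖b‖ := by
  rw [sub_eq_add_neg]
  refine (norm_add_le_max' a (-b)).trans ?_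
  rw [norm_neg]

theorem norm_sum_le_of_forall_le {ι : Type*} (s : Finset ι) (f : ι → PadicAlgCl p) {c : ℝ} (hc : 0 ≤ c)
    (h : ∀ i ∈ s, ‖f i‖ ≤ c) : ‖∑ i ∈ s, f i‖ ≤ c := by
  classical
  induction s using Finset.induction_on with
  | empty => simpa using hc
  | insert a s ha ih =>
    rw [Finset.sum_insert ha]
    refine (norm_add_le_max' _ _).trans (max_le (h a (Finset.mem_insert_self a s)) ?_)
    exact ih fun i hi => h i (Finset.mem_insert_of_mem hi)

theorem norm_sum_lt_of_forall_lt {ι : Type*} (s : Finset ι) (f : ι → PadicAlgCl p) {c : ℝ} (hc : 0 < c)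
    (h : ∀ i ∈ s, ‖f i‖ < c) : ‖∑ i ∈ s, f i‖ < c := by
  classical
  induction s using Finset.induction_on with
  | empty => simpa using hc
  | insert a s ha ih =>
    rw [Finset.sum_insert ha]
    refine lt_of_le_of_lt (norm_add_le_max' _ _) (max_lt (h a (Finset.mem_insert_self a s)) ?_)
    exact ih fun i hi => h i (Finset.mem_insert_of_mem hi)

/-- `‖a ^ n - b ^ n‖ ≤ ‖a - b‖` on the unit ball. -/
theorem norm_pow_sub_pow_le {a b : PadicAlgCl p} (ha : ‖a‖ ≤ 1) (hb : ‖b‖ ≤ 1) (n : ℕ) :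
    ‖a ^ n - b ^ n‖ ≤ ‖a - b‖ := by
  rw [← geom_sum₂_mul, norm_mul]
  have h : ‖∑ i ∈ Finset.range n, a ^ i * b ^ (n - 1 - i)‖ ≤ 1 := by
    apply norm_sum_le_of_forall_le _ _ zero_le_one
    intro i _
    rw [norm_mul, norm_pow, norm_pow]
    exact mul_le_one₀ (pow_le_one₀ (norm_nonneg _) ha) (pow_nonneg (norm_nonneg _) _)
      (pow_le_one₀ (norm_nonneg _) hb)
  calc ‖∑ i ∈ Finset.range n, a ^ i * b ^ (n - 1 - i)‖ * ‖a - b‖ ≤ 1 * ‖a - b‖ :=
        mul_le_mul_of_nonneg_right h (norm_nonneg _)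
    _ = ‖a - b‖ := one_mul _

/-! ### The inertia set is a normal subgroup -/

theorem one_mem_inertiaSet : (1 : GQp p) ∈ inertiaSet p := by
  intro x _
  simp

theorem mul_mem_inertiaSet {σ τ : GQp p} (hσ : σ ∈ inertiaSet p) (hτ : τ ∈ inertiaSet p) :
    σ * τ ∈ inertiaSet p := by
  intro x hx
  have e : (σ * τ) x - x = σ (τ x - x) + (σ x - x) := by
    rw [AlgEquiv.mul_apply, map_sub]; ring
  rw [e]
  refine lt_of_le_of_lt (norm_add_le_max' _ _) (max_lt ?_ (hσ x hx))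
  rw [norm_apply]
  exact hτ x hx

theorem inv_mem_inertiaSet {σ : GQp p} (hσ : σ ∈ inertiaSet p) : σ⁻¹ ∈ inertiaSet p := by
  intro x hx
  have e : σ⁻¹ x - x = - σ⁻¹ (σ x - x) := by
    rw [map_sub]
    have : σ⁻¹ (σ x) = x := σ.symm_apply_apply x
    rw [this]; ring
  rw [e, norm_neg, norm_apply]
  exact hσ x hx

theorem pow_mem_inertiaSet {σ : GQp p} (hσ : σ ∈ inertiaSet p) (n : ℕ) :
    σ ^ n ∈ inertiaSet p := by
  induction n with
  | zero => simpa using one_mem_inertiaSet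
  | succ n ih => rw [pow_succ]; exact mul_mem_inertiaSet ih hσ

theorem conj_mem_inertiaSet {τ : GQp p} (hτ : τ ∈ inertiaSet p) (g : GQp p) :
    g * τ * g⁻¹ ∈ inertiaSet p := by
  intro x hx
  have e : (g * τ * g⁻¹) x - x = g (τ (g⁻¹ x) - g⁻¹ x) := by
    rw [AlgEquiv.mul_apply, AlgEquiv.mul_apply, map_sub]
    have : g (g⁻¹ x) = x := g.apply_symm_apply x
    rw [this]
  rw [e, norm_apply]
  apply hτ
  rw [norm_apply]
  exact hx

/-- The inertia subgroup of `G_p`. -/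
def inertiaSubgroup (p : ℕ) [Fact p.Prime] : Subgroup (GQp p) where
  carrier := inertiaSet p
  one_mem' := one_mem_inertiaSet
  mul_mem' := mul_mem_inertiaSet
  inv_mem' := inv_mem_inertiaSet

theorem mem_inertiaSubgroup {τ : GQp p} : τ ∈ inertiaSubgroup p ↔ τ ∈ inertiaSet p := Iff.rfl

instance : (inertiaSubgroup p).Normal := ⟨fun _ hτ g => conj_mem_inertiaSet hτ g⟩

/-- An inertia element moves a unit `w` by a factor `≡ 1`. -/
theorem norm_apply_div_sub_one_lt {τ : GQp p} (hτ : τ ∈ inertiaSet p) {w : PadicAlgCl p} (hw : ‖w‖ = 1) :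
    ‖τ w / w - 1‖ < 1 := by
  have hw0 : w ≠ 0 := by
    intro h; rw [h, norm_zero] at hw; exact zero_ne_one hw
  have e : τ w / w - 1 = (τ w - w) / w := by field_simp
  rw [e, norm_div, hw, div_one]
  exact hτ w hw.le

/-! ### Local Frobenius elements and LS6 -/

/-- `φ` induces the `p`-power Frobenius on the residue field of `PadicAlgCl p`. -/
def IsFrobLoc (φ : GQp p) : Prop := ∀ x : PadicAlgCl p, ‖x‖ ≤ 1 → ‖φ x - x ^ p‖ < 1

/-- **LS6 (tame conjugation).** `φ τ φ⁻¹` multiplies any `π ≠ 0` by the `p`-th power (modulo the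
maximal ideal) of the factor by which `τ` does. -/
theorem norm_conj_div_sub_pow_lt {φ : GQp p} (hφ : IsFrobLoc φ) {τ : GQp p}
    (hτ : τ ∈ inertiaSet p) {π : PadicAlgCl p} (hπ : π ≠ 0) :
    ‖(φ * τ * φ⁻¹) π / π - (τ π / π) ^ p‖ < 1 := by
  set π' : PadicAlgCl p := φ⁻¹ π with hπ'
  have hφπ' : φ π' = π := φ.apply_symm_apply π
  have hπ'0 : π' ≠ 0 := by
    intro h; rw [h, map_zero] at hφπ'; exact hπ hφπ'.symm
  have hnπ' : ‖π'‖ = ‖π‖ := norm_apply p _ π
  have hnπ : 0 < ‖π‖ := norm_pos_iff.mpr hπ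
  set u' : PadicAlgCl p := τ π' / π' with hu'
  set u : PadicAlgCl p := τ π / π with hu
  have hnu' : ‖u'‖ = 1 := by
    rw [hu', norm_div, norm_apply, div_self (norm_ne_zero_iff.mpr hπ'0)]
  have hnu : ‖u‖ = 1 := by
    rw [hu, norm_div, norm_apply, div_self (norm_ne_zero_iff.mpr hπ)]
  have e1 : (φ * τ * φ⁻¹) π / π = φ u' := by
    rw [AlgEquiv.mul_apply, AlgEquiv.mul_apply, hu', map_div₀, hφπ']
  -- `u' = u * (τ w / w)` with `w = π' / π` a unit
  set w : PadicAlgCl p := π' / π with hw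
  have hnw : ‖w‖ = 1 := by rw [hw, norm_div, hnπ', div_self hnπ.ne']
  have hw0 : w ≠ 0 := div_ne_zero hπ'0 hπ
  have e2 : u' = u * (τ w / w) := by
    rw [hu', hu, hw, map_div₀]
    have h1 : τ π ≠ 0 := (map_ne_zero τ).mpr hπ
    field_simp
  have h3 : ‖u' - u‖ < 1 := by
    have : u' - u = u * (τ w / w - 1) := by rw [e2]; ring
    rw [this, norm_mul, hnu, one_mul]
    exact norm_apply_div_sub_one_lt hτ hnw
  have h4 : ‖u' ^ p - u ^ p‖ < 1 :=
    lt_of_le_of_lt (norm_pow_sub_pow_le hnu'.le hnu.le p) h3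
  have e3 : (φ * τ * φ⁻¹) π / π - u ^ p = (φ u' - u' ^ p) + (u' ^ p - u ^ p) := by
    rw [e1]; ring
  rw [e3]
  exact lt_of_le_of_lt (norm_add_le_max' _ _) (max_lt (hφ u' hnu'.le) h4)

/-! ### LS5: wild inertia is pro-`p` -/

section Wild

variable (K0 : IntermediateField ℚ_[p] (PadicAlgCl p))

/-- `K0` normal: `G_p` preserves `K0`. -/
theorem apply_mem_of_normal [Normal ℚ_[p] K0] (σ : GQp p) {x : PadicAlgCl p} (hx : x ∈ K0) : σ x ∈ K0 := by
  have h := AlgEquiv.restrictNormal_commutes σ K0 ⟨x, hx⟩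
  change ((σ.restrictNormal K0 ⟨x, hx⟩ : K0) : PadicAlgCl p) = σ x at h
  rw [← h]
  exact (σ.restrictNormal K0 ⟨x, hx⟩).2

/-- A natural number prime to `p` is a unit. -/
theorem norm_natCast_eq_one {m : ℕ} (hm : ¬ p ∣ m) : ‖(m : PadicAlgCl p)‖ = 1 := by
  have h1 : ((m : ℚ_[p]) : PadicAlgCl p) = (m : PadicAlgCl p) := map_natCast (algebraMap ℚ_[p] (PadicAlgCl p)) m
  rw [← h1, PadicAlgCl.norm_extends]
  have h2 : ‖(m : ℚ_[p])‖ = ‖((m : ℤ) : ℚ_[p])‖ := by norm_cast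
  rw [h2, Padic.norm_intCast_eq_one_iff]
  rw [Int.isCoprime_iff_gcd_eq_one, Int.gcd_natCast_natCast]
  exact (Nat.Coprime.symm ((Fact.out : p.Prime).coprime_iff_not_dvd.mpr hm))

variable {K0}

/-- Wildness propagates to powers. -/
theorem wild_pow {τ : GQp p} {π : PadicAlgCl p} (hw : ‖τ π - π‖ < ‖π‖) (j : ℕ) :
    ‖(τ ^ j) π - π‖ < ‖π‖ := by
  have hpos : 0 < ‖π‖ := lt_of_le_of_lt (norm_nonneg _) hw
  induction j with
  | zero => simpa using hpos
  | succ j ih =>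
    have e : (τ ^ (j + 1)) π - π = τ ((τ ^ j) π - π) + (τ π - π) := by
      rw [pow_succ', AlgEquiv.mul_apply, map_sub]; ring
    rw [e]
    refine lt_of_le_of_lt (norm_add_le_max' _ _) (max_lt ?_ hw)
    rw [norm_apply]
    exact ih

/-- Discreteness: an element of `K0` of norm `< 1` has norm `≤ ‖π‖`. -/
theorem norm_le_of_lt_one {π : K0} (hπ : ∀ x : K0, x ≠ 0 → ∃ n : ℤ, ‖(x : PadicAlgCl p)‖ = ‖(π : PadicAlgCl p)‖ ^ n)
    (hπ0 : 0 < ‖(π : PadicAlgCl p)‖) (hπ1 : ‖(π : PadicAlgCl p)‖ < 1) {x : PadicAlgCl p} (hx : x ∈ K0) (hx1 : ‖x‖ < 1) :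
    ‖x‖ ≤ ‖(π : PadicAlgCl p)‖ := by
  by_cases hx0 : x = 0
  · rw [hx0, norm_zero]; exact hπ0.le
  obtain ⟨n, hn⟩ := hπ ⟨x, hx⟩ (fun h => hx0 (congrArg Subtype.val h))
  change ‖x‖ = _ at hn
  rw [hn] at hx1 ⊢
  have hn1 : 1 ≤ n := by
    by_contra hcon
    have hn0 : n ≤ 0 := by omega
    have : 1 ≤ ‖(π : PadicAlgCl p)‖ ^ n := by
      obtain ⟨k, rfl⟩ : ∃ k : ℕ, n = -(k : ℤ) := ⟨n.natAbs, by omega⟩
      rw [zpow_neg, zpow_natCast]
      exact (one_le_inv₀ (pow_pos hπ0 k)).mpr (pow_le_one₀ hπ0.le hπ1.le)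
    exact absurd hx1 (not_lt.mpr this)
  calc ‖(π : PadicAlgCl p)‖ ^ n ≤ ‖(π : PadicAlgCl p)‖ ^ (1 : ℤ) :=
        zpow_le_zpow_right_of_le_one₀ hπ0 hπ1.le hn1
    _ = ‖(π : PadicAlgCl p)‖ := zpow_one _


variable [Normal ℚ_[p] K0]

theorem pow_apply_mem_of_normal (σ : GQp p) (j : ℕ) {x : PadicAlgCl p} (hx : x ∈ K0) :
    (σ ^ j) x ∈ K0 := apply_mem_of_normal K0 (σ ^ j) hx

/-- If `τ` is wild and `τ ^ m` fixes `K0` with `p ∤ m`, the orbit sum of `π` is a `τ`-fixed element of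
`K0` of the same norm. -/
theorem exists_fixed_unif {π : PadicAlgCl p} (hπK : π ∈ K0) {τ : GQp p}
    (hw : ‖τ π - π‖ < ‖π‖) {m : ℕ} (hm : ¬ p ∣ m) (hτm : τ ^ m ∈ K0.fixingSubgroup) :
    ∃ π' : PadicAlgCl p, π' ∈ K0 ∧ τ π' = π' ∧ ‖π'‖ = ‖π‖ := by
  have hpos : 0 < ‖π‖ := lt_of_le_of_lt (norm_nonneg _) hw
  refine ⟨∑ j ∈ Finset.range m, (τ ^ j) π, ?_, ?_, ?_⟩
  · exact sum_mem fun j _ => pow_apply_mem_of_normal τ j hπK
  · rw [map_sum]
    have h1 : ∀ j, τ ((τ ^ j) π) = (τ ^ (j + 1)) π := by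
      intro j; rw [pow_succ', AlgEquiv.mul_apply]
    simp only [h1]
    have h2 := Finset.sum_range_succ' (fun j => (τ ^ j) π) m
    have h3 := Finset.sum_range_succ (fun j => (τ ^ j) π) m
    have h4 : (τ ^ m) π = π := (IntermediateField.mem_fixingSubgroup_iff _ _).mp hτm π hπK
    simp only [pow_zero, AlgEquiv.one_apply, h4] at h2 h3
    rw [h3] at h2
    exact add_right_cancel h2.symm
  · have e : ∑ j ∈ Finset.range m, (τ ^ j) π
        = (m : PadicAlgCl p) * π + ∑ j ∈ Finset.range m, ((τ ^ j) π - π) := by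
      rw [Finset.sum_sub_distrib, Finset.sum_const, Finset.card_range, nsmul_eq_mul]; ring
    have h1 : ‖(m : PadicAlgCl p) * π‖ = ‖π‖ := by rw [norm_mul, norm_natCast_eq_one hm, one_mul]
    have h2 : ‖∑ j ∈ Finset.range m, ((τ ^ j) π - π)‖ < ‖π‖ :=
      norm_sum_lt_of_forall_lt _ _ hpos fun j _ => wild_pow hw j
    rw [e]
    have h3 := IsUltrametricDist.norm_add_eq_max_of_norm_ne_norm
      (x := (m : PadicAlgCl p) * π) (y := ∑ j ∈ Finset.range m, ((τ ^ j) π - π))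
      (by rw [h1]; exact h2.ne')
    rw [h3, h1, max_eq_left h2.le]


theorem pow_apply_of_fixed {τ : GQp p} {y : PadicAlgCl p} (h : τ y = y) (i : ℕ) : (τ ^ i) y = y := by
  induction i with
  | zero => simp
  | succ i ih => rw [pow_succ, AlgEquiv.mul_apply, h, ih]

/-- Key induction: a wild element of order prime to `p` on `K0` is congruent to the identity modulo
every power of the uniformizer. -/
theorem norm_sub_le_pow {π : K0}
    (hπ : ∀ x : K0, x ≠ 0 → ∃ n : ℤ, ‖(x : PadicAlgCl p)‖ = ‖(π : PadicAlgCl p)‖ ^ n)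
    (hπ0 : 0 < ‖(π : PadicAlgCl p)‖) (hπ1 : ‖(π : PadicAlgCl p)‖ < 1)
    {τ : GQp p} (hτ : τ ∈ inertiaSet p) {π' : PadicAlgCl p} (hπ'K : π' ∈ K0)
    (hπ'fix : τ π' = π') (hπ'v : ‖π'‖ = ‖(π : PadicAlgCl p)‖)
    {m : ℕ} (hm : ¬ p ∣ m) (hτm : τ ^ m ∈ K0.fixingSubgroup) (n : ℕ) :
    ∀ x ∈ K0, ‖x‖ ≤ 1 → ‖τ x - x‖ ≤ ‖(π : PadicAlgCl p)‖ ^ n := by
  have hπ'0 : π' ≠ 0 := by
    intro h; rw [h, norm_zero] at hπ'v; exact hπ0.ne hπ'v
  induction n with
  | zero =>
    intro x _ hx1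
    rw [pow_zero]
    refine (norm_sub_le_max' _ _).trans (max_le ?_ hx1)
    rw [norm_apply]; exact hx1
  | succ n ih =>
    intro x hxK hx1
    set d : PadicAlgCl p := τ x - x with hd
    have hdK : d ∈ K0 := sub_mem (apply_mem_of_normal K0 τ hxK) hxK
    set y : PadicAlgCl p := d / π' ^ n with hy
    have hyK : y ∈ K0 := div_mem hdK (pow_mem hπ'K n)
    have hdy : d = π' ^ n * y := by
      rw [hy]; field_simp
    have hy1 : ‖y‖ ≤ 1 := by
      rw [hy, norm_div, norm_pow, hπ'v]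
      exact div_le_one_of_le₀ (ih x hxK hx1) (pow_nonneg hπ0.le n)
    -- telescoping
    have htel : ∑ i ∈ Finset.range m, (τ ^ i) d = 0 := by
      have h1 : ∀ i, (τ ^ i) d = (τ ^ (i + 1)) x - (τ ^ i) x := by
        intro i
        rw [hd, map_sub, pow_succ, AlgEquiv.mul_apply]
      simp only [h1]
      rw [Finset.sum_range_sub (fun i => (τ ^ i) x) m]
      have h4 : (τ ^ m) x = x := (IntermediateField.mem_fixingSubgroup_iff _ _).mp hτm x hxK
      rw [h4, pow_zero, AlgEquiv.one_apply, sub_self]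
    have hsum : ∑ i ∈ Finset.range m, (τ ^ i) y = 0 := by
      have h1 : ∀ i, (τ ^ i) d = π' ^ n * (τ ^ i) y := by
        intro i
        rw [hdy, map_mul, map_pow, pow_apply_of_fixed hπ'fix]
      simp only [h1, ← Finset.mul_sum] at htel
      exact (mul_eq_zero.mp htel).resolve_left (pow_ne_zero n hπ'0)
    have hmy : (m : PadicAlgCl p) * y = - ∑ i ∈ Finset.range m, ((τ ^ i) y - y) := by
      rw [Finset.sum_sub_distrib, hsum, Finset.sum_const, Finset.card_range, nsmul_eq_mul]; ring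
    have hy2 : ‖y‖ ≤ ‖(π : PadicAlgCl p)‖ := by
      have h1 : ‖(m : PadicAlgCl p) * y‖ = ‖y‖ := by
        rw [norm_mul, norm_natCast_eq_one hm, one_mul]
      rw [← h1, hmy, norm_neg]
      apply norm_sum_le_of_forall_le _ _ hπ0.le
      intro i _
      apply norm_le_of_lt_one hπ hπ0 hπ1 (sub_mem (pow_apply_mem_of_normal τ i hyK) hyK)
      exact pow_mem_inertiaSet hτ i y hy1
    calc ‖d‖ = ‖(π : PadicAlgCl p)‖ ^ n * ‖y‖ := by rw [hdy, norm_mul, norm_pow, hπ'v]
      _ ≤ ‖(π : PadicAlgCl p)‖ ^ n * ‖(π : PadicAlgCl p)‖ :=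
          mul_le_mul_of_nonneg_left hy2 (pow_nonneg hπ0.le n)
      _ = ‖(π : PadicAlgCl p)‖ ^ (n + 1) := (pow_succ _ n).symm


/-- A wild inertia element whose order on `K0` is prime to `p` fixes `K0`. -/
theorem mem_fixingSubgroup_of_wild_of_coprime {π : K0}
    (hπ : ∀ x : K0, x ≠ 0 → ∃ n : ℤ, ‖(x : PadicAlgCl p)‖ = ‖(π : PadicAlgCl p)‖ ^ n)
    (hπ1 : ‖(π : PadicAlgCl p)‖ < 1) {τ : GQp p} (hτ : τ ∈ inertiaSet p)
    (hw : ‖τ (π : PadicAlgCl p) - π‖ < ‖(π : PadicAlgCl p)‖) {m : ℕ} (hm : ¬ p ∣ m)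
    (hτm : τ ^ m ∈ K0.fixingSubgroup) : τ ∈ K0.fixingSubgroup := by
  have hπ0 : 0 < ‖(π : PadicAlgCl p)‖ := lt_of_le_of_lt (norm_nonneg _) hw
  obtain ⟨π', hπ'K, hπ'fix, hπ'v⟩ := exists_fixed_unif π.2 hw hm hτm
  have key : ∀ x ∈ K0, ‖x‖ ≤ 1 → τ x = x := by
    intro x hxK hx1
    by_contra hne
    have hne' : 0 < ‖τ x - x‖ := norm_pos_iff.mpr (sub_ne_zero.mpr hne)
    obtain ⟨n, hn⟩ := exists_pow_lt_of_lt_one hne' hπ1
    exact absurd (norm_sub_le_pow hπ hπ0 hπ1 hτ hπ'K hπ'fix hπ'v hm hτm n x hxK hx1)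
      (not_le.mpr hn)
  rw [IntermediateField.mem_fixingSubgroup_iff]
  intro x hxK
  by_cases hx1 : ‖x‖ ≤ 1
  · exact key x hxK hx1
  · have hx0 : x ≠ 0 := by
      rintro rfl
      exact hx1 (by simp)
    have hinv : ‖x⁻¹‖ ≤ 1 := by
      rw [norm_inv]
      exact inv_le_one_of_one_le₀ (not_le.mp hx1).le
    have h1 := key x⁻¹ (inv_mem hxK) hinv
    rw [map_inv₀] at h1
    exact inv_injective h1

/-- **LS5 (wild inertia is a `p`-group modulo `Gal(ℚ̄_p/K0)`).** -/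
theorem exists_pow_mem_fixingSubgroup_of_wild [FiniteDimensional ℚ_[p] K0] {π : K0}
    (hπ : ∀ x : K0, x ≠ 0 → ∃ n : ℤ, ‖(x : PadicAlgCl p)‖ = ‖(π : PadicAlgCl p)‖ ^ n)
    (hπ1 : ‖(π : PadicAlgCl p)‖ < 1) {τ : GQp p} (hτ : τ ∈ inertiaSet p)
    (hw : ‖τ (π : PadicAlgCl p) - π‖ < ‖(π : PadicAlgCl p)‖) :
    ∃ a : ℕ, τ ^ p ^ a ∈ K0.fixingSubgroup := by
  have hgal : IsGalois ℚ_[p] K0 := ⟨⟩
  have hfin := finiteIndex_fixingSubgroup K0
  have hnorm : K0.fixingSubgroup.Normal := (InfiniteGalois.normal_iff_isGalois K0).mpr hgal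
  have hN : K0.fixingSubgroup.index ≠ 0 := hfin.index_ne_zero
  have hτN : τ ^ K0.fixingSubgroup.index ∈ K0.fixingSubgroup := Subgroup.pow_index_mem _ τ
  obtain ⟨a, m, hm, hNm⟩ :=
    Nat.exists_eq_pow_mul_and_not_dvd hN p (Fact.out : p.Prime).ne_one
  refine ⟨a, ?_⟩
  apply mem_fixingSubgroup_of_wild_of_coprime hπ hπ1 (pow_mem_inertiaSet hτ _)
    (wild_pow hw _) hm
  rw [← pow_mul, ← hNm]
  exact hτN

end Wild

/-! ### Transport from the global theory -/

/-- The inertia set of `G_p` corresponds to the Prelude inertia group of `padicPlace p`. -/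
theorem mem_inertiaSet_iff (τ : GQp p) :
    τ ∈ inertiaSet p ↔ localGaloisToGlobal p τ ∈ (padicPlace p).inertiaSubgroupIn ℚ :=
  (localGaloisToGlobal_mem_inertia_iff p τ).symm

/-- `ι x` has norm `≤ 1` iff `x ∈ padicPlace p`. -/
theorem norm_padicEmbedding_le_one_iff (x : Qb) : ‖padicEmbedding p x‖ ≤ 1 ↔ x ∈ padicPlace p := by
  rw [mem_padicPlace_iff, ← NNReal.coe_le_coe, coe_nnnorm, NNReal.coe_one]

/-- A local Frobenius element maps to a Frobenius element at `padicPlace p`. -/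
theorem isFrobeniusAt_of_isFrobLoc {φ : GQp p} (hφ : IsFrobLoc φ) :
    (padicPlace p).IsFrobeniusAt (localGaloisToGlobal p φ) p := by
  have hD := localGaloisToGlobal_mem_decompositionSubgroup p φ
  refine ⟨hD, fun xbar => ?_⟩
  obtain ⟨x, rfl⟩ := IsLocalRing.residue_surjective xbar
  rw [← IsLocalRing.ResidueField.residue_smul, ← map_pow, ← sub_eq_zero, ← map_sub,
    IsLocalRing.residue_eq_zero_iff, ← ValuationSubring.coe_mem_nonunits_iff]
  change localGaloisToGlobal p φ (x : Qb) - (x : Qb) ^ p ∈ (padicPlace p).nonunits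
  rw [mem_nonunits_padicPlace_iff, map_sub, map_pow, padicEmbedding_localGaloisToGlobal]
  exact hφ _ ((norm_padicEmbedding_le_one_iff _).mpr x.2)

/-- **LS3a.** A local Frobenius element exists. -/
theorem exists_isFrobLoc : ∃ φ : GQp p, IsFrobLoc φ := by
  have hp : p.Prime := Fact.out
  obtain ⟨σ, hσ⟩ := Fermat.Agent.ES.FROB.FrobFacts12.exists_isFrobeniusAt_of p hp (padicPlace p)
    (padicPlace_liesOverPrime p)
  obtain ⟨φ, hφ⟩ := exists_localGaloisToGlobal_eq p hσ.mem_decompositionSubgroup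
  refine ⟨φ, fun x hx => ?_⟩
  obtain ⟨y, hy⟩ := exists_norm_sub_padicEmbedding_lt p x one_pos
  set z := padicEmbedding p y with hz
  have hz1 : ‖z‖ ≤ 1 := by
    have e : z = x - (x - z) := by ring
    rw [e]
    exact (norm_sub_le_max' _ _).trans (max_le hx hy.le)
  have hyP : y ∈ padicPlace p := (norm_padicEmbedding_le_one_iff y).mp hz1
  have h1 : ‖φ z - z ^ p‖ < 1 := by
    have h := Fermat.Agent.TW.LocalQ.FrobGen96.frob_sub_pow_lt hσ hyP
    have h2 : σ y - y ^ p ∈ (padicPlace p).nonunits :=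
      (ValuationSubring.mem_nonunits_iff (A := padicPlace p)).mpr h
    rw [mem_nonunits_padicPlace_iff, map_sub, map_pow, ← hφ,
      padicEmbedding_localGaloisToGlobal] at h2
    exact h2
  have e : φ x - x ^ p = φ (x - z) + ((φ z - z ^ p) + (z ^ p - x ^ p)) := by
    rw [map_sub]; ring
  rw [e]
  refine lt_of_le_of_lt (norm_add_le_max' _ _) (max_lt ?_ ?_)
  · rw [norm_apply]; exact hy
  · refine lt_of_le_of_lt (norm_add_le_max' _ _) (max_lt h1 ?_)
    refine lt_of_le_of_lt (norm_pow_sub_pow_le hz1 hx p) ?_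
    rw [norm_sub_rev]; exact hy


/-- A finite extension of `ℚ_p` lies in the local field of a finite NORMAL extension of `ℚ`. -/
theorem exists_normal_le_localField (K0 : IntermediateField ℚ_[p] (PadicAlgCl p))
    [FiniteDimensional ℚ_[p] K0] :
    ∃ K : IntermediateField ℚ Qb, FiniteDimensional ℚ K ∧ Normal ℚ K ∧ K0 ≤ localField p K := by
  obtain ⟨F, hF, hle⟩ := exists_le_localField p K0
  refine ⟨IntermediateField.normalClosure ℚ F Qb, normalClosure.is_finiteDimensional ℚ F Qb,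
    normalClosure.normal ℚ F Qb, hle.trans (localField_mono p ?_)⟩
  exact IntermediateField.le_normalClosure F

/-- **LS3b.** Modulo `Gal(ℚ̄_p/K0)`, every element of `G_p` is a power of Frobenius times an
inertia element. -/
theorem exists_frob_pow_mul_inertia (K0 : IntermediateField ℚ_[p] (PadicAlgCl p))
    [FiniteDimensional ℚ_[p] K0] {φ : GQp p} (hφ : IsFrobLoc φ) (g : GQp p) :
    ∃ m : ℕ, ∃ τ ∈ inertiaSet p, ∀ x : K0, g (x : PadicAlgCl p) = (φ ^ m * τ) x := by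
  have hp : p.Prime := Fact.out
  obtain ⟨K, hKfin, hKnorm, hle⟩ := exists_normal_le_localField K0
  obtain ⟨i, τg, hτg, hu⟩ := Fermat.Agent.TW.LocalQ.FrobGen96.exists_frob_pow_mul_inertia
    (K := K) hp (padicPlace_liesOverPrime p) (isFrobeniusAt_of_isFrobLoc hφ)
    (localGaloisToGlobal_mem_decompositionSubgroup p g)
  obtain ⟨τ, hτeq, hτ⟩ := exists_local_inertia_of_mem_inertia p hτg
  refine ⟨i, τ, hτ, fun x => ?_⟩
  -- `u := (φ^i τ)⁻¹ g` fixes `localField K ⊇ K0`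
  set u : GQp p := (φ ^ i * τ)⁻¹ * g with hudef
  have hu' : u ∈ (localField p K).fixingSubgroup := by
    rw [mem_fixingSubgroup_localField_iff, hudef, map_mul, map_inv, map_mul, map_pow, hτeq]
    exact hu
  have hux : u (x : PadicAlgCl p) = x :=
    (IntermediateField.mem_fixingSubgroup_iff _ _).mp hu' _ (hle x.2)
  have hg : g = (φ ^ i * τ) * u := by rw [hudef]; group
  rw [hg, AlgEquiv.mul_apply (φ ^ i * τ) u, hux]


/-! ### LS1: inertia surjects -/

section LS1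

variable (K0 : IntermediateField ℚ_[p] (PadicAlgCl p))

/-- The global field `ι⁻¹(K0) ⊆ ℚ̄` (in general of infinite degree over `ℚ`). -/
def globalField : IntermediateField ℚ Qb :=
  (K0.restrictScalars ℚ).comap (padicEmbedding p)

theorem mem_globalField_iff (x : Qb) : x ∈ globalField K0 ↔ padicEmbedding p x ∈ K0 := Iff.rfl

variable [Normal ℚ_[p] K0]

theorem localGaloisToGlobal_apply_mem (g : GQp p) {x : Qb} (hx : x ∈ globalField K0) :
    localGaloisToGlobal p g x ∈ globalField K0 := by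
  rw [mem_globalField_iff, padicEmbedding_localGaloisToGlobal]
  exact apply_mem_of_normal K0 g hx

/-- The restriction of (the image of) `g ∈ G_p` to `ι⁻¹(K0)`. -/
def globalRes (g : GQp p) : globalField K0 ≃ₐ[ℚ] globalField K0 :=
  AlgEquiv.ofAlgHom
    (((localGaloisToGlobal p g : Qb →ₐ[ℚ] Qb).comp (globalField K0).val).codRestrict
      (globalField K0).toSubalgebra fun x => localGaloisToGlobal_apply_mem K0 g x.2)
    (((localGaloisToGlobal p g⁻¹ : Qb →ₐ[ℚ] Qb).comp (globalField K0).val).codRestrict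
      (globalField K0).toSubalgebra fun x => localGaloisToGlobal_apply_mem K0 g⁻¹ x.2)
    (by
      ext x
      change localGaloisToGlobal p g (localGaloisToGlobal p g⁻¹ (x : Qb)) = x
      rw [map_inv]
      exact (localGaloisToGlobal p g).apply_symm_apply _)
    (by
      ext x
      change localGaloisToGlobal p g⁻¹ (localGaloisToGlobal p g (x : Qb)) = x
      rw [map_inv]
      exact (localGaloisToGlobal p g).symm_apply_apply _)

theorem coe_globalRes (g : GQp p) (x : globalField K0) :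
    ((globalRes K0 g x : globalField K0) : Qb) = localGaloisToGlobal p g x := rfl

/-- **LS1 (inertia surjects).** An element of `G_p` acting trivially on the residue field of a
finite Galois `K0/ℚ_p` agrees on `K0` with an inertia element. -/
theorem exists_inertia_eq_on [FiniteDimensional ℚ_[p] K0] (g : GQp p)
    (hg : ∀ x : K0, ‖(x : PadicAlgCl p)‖ ≤ 1 → ‖g (x : PadicAlgCl p) - x‖ < 1) :
    ∃ τ ∈ inertiaSet p, ∀ x : K0, τ (x : PadicAlgCl p) = g x := by
  have hp : p.Prime := Fact.out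
  obtain ⟨σ, hσI, hσ⟩ := Fermat.Agent.S13.UnramBridge.exists_inertia_lift (globalField K0)
    (padicPlace p) hp (padicPlace_liesOverPrime p) (globalRes K0 g) (by
      intro x hx
      rw [coe_globalRes, mem_nonunits_padicPlace_iff, map_sub, padicEmbedding_localGaloisToGlobal]
      have hxP : (x : Qb) ∈ padicPlace p :=
        Fermat.Agent.Lib.FrobeniusExists.mem_valuationSubring_of_isIntegral (padicPlace p)
          (map_isIntegral_int (algebraMap (globalField K0) Qb) hx)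
      exact hg ⟨padicEmbedding p x, x.2⟩ ((norm_padicEmbedding_le_one_iff _).mpr hxP))
  obtain ⟨τ, hτeq, hτ⟩ := exists_local_inertia_of_mem_inertia p hσI
  refine ⟨τ, hτ, ?_⟩
  -- `τ` and `g` agree on a generator `ι β` of `K0`
  obtain ⟨β, hβ⟩ := exists_eq_adjoin_padicEmbedding p K0
  have hβK : β ∈ globalField K0 := by
    rw [mem_globalField_iff, hβ]
    exact IntermediateField.mem_adjoin_simple_self _ _
  have h1 : τ (padicEmbedding p β) = g (padicEmbedding p β) := by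
    have h2 := hσ ⟨β, hβK⟩
    rw [coe_globalRes] at h2
    have h3 := congrArg (padicEmbedding p) h2
    rw [← hτeq, padicEmbedding_localGaloisToGlobal, padicEmbedding_localGaloisToGlobal] at h3
    exact h3
  have h4 : K0 ≤ IntermediateField.fixedField (Subgroup.zpowers (g⁻¹ * τ)) := by
    rw [hβ, IntermediateField.adjoin_simple_le_iff, IntermediateField.mem_fixedField_iff]
    intro ρ hρ
    obtain ⟨n, rfl⟩ := Subgroup.mem_zpowers_iff.1 hρ
    have h2 : (g⁻¹ * τ) (padicEmbedding p β) = padicEmbedding p β := by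
      rw [AlgEquiv.mul_apply, h1]
      exact g.symm_apply_apply _
    have h3 : ∀ m : ℕ, ((g⁻¹ * τ) ^ m) (padicEmbedding p β) = padicEmbedding p β := by
      intro m
      induction m with
      | zero => simp
      | succ m ih => rw [pow_succ, AlgEquiv.mul_apply, h2, ih]
    cases n with
    | ofNat m => simpa using h3 m
    | negSucc m =>
      rw [zpow_negSucc]
      have := h3 (m + 1)
      conv_lhs => rw [← this]
      exact ((g⁻¹ * τ) ^ (m + 1)).symm_apply_apply _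
  intro x
  have h5 : (g⁻¹ * τ) (x : PadicAlgCl p) = x := by
    have := h4 x.2
    rw [IntermediateField.mem_fixedField_iff] at this
    exact this _ (Subgroup.mem_zpowers _)
  rw [AlgEquiv.mul_apply] at h5
  have h6 := congrArg g h5
  rw [show g (g⁻¹ (τ (x : PadicAlgCl p))) = τ x from g.apply_symm_apply _] at h6
  exact h6

end LS1

end Fermat.Agent.TW.Cnt.LocalStruct97
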