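/-
Program TW (S56), work package WP7-CNT (the count), brick C1 (helper55): admissible classes in
degree-one group cohomology.

`G` a group, `𝒩` a nonempty family of subgroups of `G` closed under binary intersection (the
"admissible" subgroups; in the application: the subgroups fixing a field of the bounded class
`Bdd`).  A 1-cocycle `c : G → A` is *admissible* if it vanishes on some `N ∈ 𝒩`; `H1adm 𝒩 A` is the
image of the admissible cocycles in `H¹(G, A)`.  A representation `A` is *admissible* if some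
`N ∈ 𝒩` acts trivially on it.

This file: definitions, membership criteria, functoriality in `A`.
-/
import Mathlib

set_option autoImplicit false

universe u

open CategoryTheory groupCohomology

namespace Fermat.Agent.TW.Cnt.AdmH1_55

/-- A nonempty family of subgroups closed under binary intersection. -/
structure AdmFamily (G : Type u) [Group G] where
  /-- the admissible subgroups -/
  sets : Set (Subgroup G)
  nonempty : sets.Nonempty
  inf_mem : ∀ {N N' : Subgroup G}, N ∈ sets → N' ∈ sets → N ⊓ N' ∈ sets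

variable {k G : Type u} [Field k] [Group G]

/-- The admissible 1-cocycles: those vanishing on some admissible subgroup. -/
def Zadm (𝒩 : AdmFamily G) (A : Rep k G) : Submodule k (cocycles₁ A) where
  carrier := {c | ∃ N ∈ 𝒩.sets, ∀ n ∈ N, c n = 0}
  add_mem' := by
    rintro c c' ⟨N, hN, hc⟩ ⟨N', hN', hc'⟩
    refine ⟨N ⊓ N', 𝒩.inf_mem hN hN', fun n hn => ?_⟩
    change c n + c' n = 0
    rw [hc n hn.1, hc' n hn.2, add_zero]
  zero_mem' := by
    obtain ⟨N, hN⟩ := 𝒩.nonempty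
    exact ⟨N, hN, fun n _ => rfl⟩
  smul_mem' := by
    rintro a c ⟨N, hN, hc⟩
    refine ⟨N, hN, fun n hn => ?_⟩
    change a • c n = 0
    rw [hc n hn, smul_zero]

lemma mem_Zadm_iff (𝒩 : AdmFamily G) {A : Rep k G} (c : cocycles₁ A) :
    c ∈ Zadm 𝒩 A ↔ ∃ N ∈ 𝒩.sets, ∀ n ∈ N, c n = 0 := Iff.rfl

/-- The admissible classes in `H¹(G, A)`. -/
noncomputable def H1adm (𝒩 : AdmFamily G) (A : Rep k G) : Submodule k (H1 A) :=
  (Zadm 𝒩 A).map (H1π A).hom

/-- `A` is admissible: some admissible subgroup acts trivially. -/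
def IsAdmRep (𝒩 : AdmFamily G) (A : Rep k G) : Prop :=
  ∃ N ∈ 𝒩.sets, ∀ n ∈ N, ∀ a : A, A.ρ n a = a

lemma H1π_mem_H1adm (𝒩 : AdmFamily G) {A : Rep k G} {c : cocycles₁ A} (hc : c ∈ Zadm 𝒩 A) :
    (H1π A).hom c ∈ H1adm 𝒩 A :=
  Submodule.mem_map_of_mem hc

lemma exists_of_mem_H1adm (𝒩 : AdmFamily G) {A : Rep k G} {x : H1 A} (hx : x ∈ H1adm 𝒩 A) :
    ∃ c ∈ Zadm 𝒩 A, (H1π A).hom c = x := by
  obtain ⟨c, hc, rfl⟩ := hx
  exact ⟨c, hc, rfl⟩

/-- Coboundaries are admissible cocycles on an admissible representation. -/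
lemma d₀₁_mem_Zadm (𝒩 : AdmFamily G) {A : Rep k G} (hA : IsAdmRep 𝒩 A) (a : A)
    (c : cocycles₁ A) (hc : ∀ g, c g = A.ρ g a - a) : c ∈ Zadm 𝒩 A := by
  obtain ⟨N, hN, htriv⟩ := hA
  exact ⟨N, hN, fun n hn => by rw [hc, htriv n hn, sub_self]⟩

/-- On an admissible representation, admissibility of a class can be tested on any representing
cocycle. -/
lemma H1π_mem_H1adm_iff (𝒩 : AdmFamily G) {A : Rep k G} (hA : IsAdmRep 𝒩 A) (c : cocycles₁ A) :
    (H1π A).hom c ∈ H1adm 𝒩 A ↔ c ∈ Zadm 𝒩 A := by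
  refine ⟨fun h => ?_, H1π_mem_H1adm 𝒩⟩
  obtain ⟨c', hc', hcc'⟩ := exists_of_mem_H1adm 𝒩 h
  have h1 : (⇑c' - ⇑c : G → A) ∈ coboundaries₁ A := (H1π_eq_iff c' c).1 hcc'
  obtain ⟨a, ha⟩ := h1
  have ha' : ∀ g, A.ρ g a - a = c' g - c g := fun g => by
    have := congrFun ha g
    rw [d₀₁_hom_apply] at this
    exact this
  obtain ⟨N, hN, htriv⟩ := hA
  obtain ⟨N', hN', hc'⟩ := hc'
  refine ⟨N ⊓ N', 𝒩.inf_mem hN hN', fun n hn => ?_⟩
  have := ha' n
  rw [htriv n hn.1, sub_self, hc' n hn.2, zero_sub] at this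
  exact neg_eq_zero.1 this.symm

section Functoriality

variable {A B : Rep k G} (φ : A ⟶ B)

/-- The map induced by `φ` on `H¹`. -/
noncomputable abbrev H1map : H1 A →ₗ[k] H1 B :=
  (groupCohomology.map (MonoidHom.id G) φ 1).hom

/-- The map induced by `φ` on 1-cocycles. -/
noncomputable abbrev Z1map : cocycles₁ A →ₗ[k] cocycles₁ B :=
  (mapCocycles₁ (MonoidHom.id G) φ).hom

lemma Z1map_apply (c : cocycles₁ A) (g : G) : Z1map φ c g = φ.hom (c g) := rfl

lemma H1map_H1π (c : cocycles₁ A) :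
    H1map φ ((H1π A).hom c) = (H1π B).hom (Z1map φ c) :=
  H1π_comp_map_apply (MonoidHom.id G) φ c

lemma Z1map_mem_Zadm (𝒩 : AdmFamily G) {c : cocycles₁ A} (hc : c ∈ Zadm 𝒩 A) :
    Z1map φ c ∈ Zadm 𝒩 B := by
  obtain ⟨N, hN, hc⟩ := hc
  exact ⟨N, hN, fun n hn => by rw [Z1map_apply, hc n hn, map_zero]⟩

lemma H1map_mem_H1adm (𝒩 : AdmFamily G) {x : H1 A} (hx : x ∈ H1adm 𝒩 A) :
    H1map φ x ∈ H1adm 𝒩 B := by
  obtain ⟨c, hc, rfl⟩ := exists_of_mem_H1adm 𝒩 hx
  rw [H1map_H1π]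
  exact H1π_mem_H1adm 𝒩 (Z1map_mem_Zadm φ 𝒩 hc)

lemma map_H1adm_le (𝒩 : AdmFamily G) : (H1adm 𝒩 A).map (H1map φ) ≤ H1adm 𝒩 B := by
  rintro _ ⟨x, hx, rfl⟩
  exact H1map_mem_H1adm φ 𝒩 hx

end Functoriality

end Fermat.Agent.TW.Cnt.AdmH1_55
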