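/-
Program TW (S56), WP7 / CNT, brick B12-BRIDGE (helper54), file 1: the linear algebra of a lift to the
dual numbers.

For bases `bbar` of `ρbar.V` and `b` of `ρ.V` satisfying the matrix identity of `Defs52.IsLiftCocycle`
(`Contract95.MatrixIdentity ρbar ρ bbar b c`, i.e. `[ρ(g)]_b = [ρbar(g)] + ε [c(g) ρbar(g)]`), the map

  `splitEquiv bbar b : ρ.V ≃+ ρbar.V × ρbar.V`,  `Σ (xᵢ + ε yᵢ) bᵢ ↦ (Σ xᵢ bbarᵢ, Σ yᵢ bbarᵢ)`

carries `ρ(g)` to `(v, w) ↦ (ρbar(g) v, ρbar(g) w + c(g) (ρbar(g) v))`  (`splitEquiv_ρ`),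
and `v ↦ Σ xᵢ bbarᵢ` induces `ρ.V ⧸ (ker fst) • ⊤ ≃+ ρbar.V`, carrying `ρ(g)` to `ρbar(g)`.
-/
import Mathlib
import Fermat.Agent.TW.Spec.Contract52
import Fermat.Agent.TW.Cocycle.Contract95

set_option autoImplicit false

noncomputable section

namespace Fermat.Agent.TW.Cnt.Bridge54

open Fermat.Agent.TW.Cocycle.Contract95 (MatrixIdentity)
open TrivSqZeroExt

local notation "Γ" => (AlgebraicClosure ℚ ≃ₐ[ℚ] AlgebraicClosure ℚ)

variable {k : Type} [Field k] {ρbar : ResidualGaloisRep k} {ρ : GaloisRepAdic (DualNumber k)}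
  (bbar : Module.Basis (Fin 2) k ρbar.V) (b : Module.Basis (Fin 2) (DualNumber k) ρ.V)

/-- The "constant part" `Σ (xᵢ + ε yᵢ) bᵢ ↦ Σ xᵢ bbarᵢ`. -/
def part0 : ρ.V →+ ρbar.V where
  toFun v := ∑ i, (b.repr v i).fst • bbar i
  map_zero' := by simp
  map_add' v w := by simp [add_smul, Finset.sum_add_distrib]

/-- The "`ε`-part" `Σ (xᵢ + ε yᵢ) bᵢ ↦ Σ yᵢ bbarᵢ`. -/
def part1 : ρ.V →+ ρbar.V where
  toFun v := ∑ i, (b.repr v i).snd • bbar i
  map_zero' := by simp
  map_add' v w := by simp [add_smul, Finset.sum_add_distrib]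

theorem part0_apply (v : ρ.V) : part0 bbar b v = ∑ i, (b.repr v i).fst • bbar i := rfl

theorem part1_apply (v : ρ.V) : part1 bbar b v = ∑ i, (b.repr v i).snd • bbar i := rfl

theorem repr_part0 (v : ρ.V) (i : Fin 2) : bbar.repr (part0 bbar b v) i = (b.repr v i).fst := by
  rw [part0_apply, Module.Basis.repr_sum_self]

theorem repr_part1 (v : ρ.V) (i : Fin 2) : bbar.repr (part1 bbar b v) i = (b.repr v i).snd := by
  rw [part1_apply, Module.Basis.repr_sum_self]

/-- The inverse `(v, w) ↦ Σ ((v)ᵢ + ε (w)ᵢ) bᵢ`. -/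
def join (m : ρbar.V × ρbar.V) : ρ.V :=
  ∑ i, (inl (bbar.repr m.1 i) + inr (bbar.repr m.2 i) : DualNumber k) • b i

theorem repr_join (m : ρbar.V × ρbar.V) (i : Fin 2) :
    b.repr (join bbar b m) i = inl (bbar.repr m.1 i) + inr (bbar.repr m.2 i) := by
  rw [join, Module.Basis.repr_sum_self]

/-- `ρ.V ≃+ ρbar.V × ρbar.V`, `Σ (xᵢ + ε yᵢ) bᵢ ↦ (Σ xᵢ bbarᵢ, Σ yᵢ bbarᵢ)`. -/
def splitEquiv : ρ.V ≃+ ρbar.V × ρbar.V where
  toFun v := (part0 bbar b v, part1 bbar b v)
  invFun := join bbar b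
  left_inv v := by
    apply b.ext_elem
    intro i
    rw [repr_join, repr_part0, repr_part1, inl_fst_add_inr_snd_eq]
  right_inv m := by
    refine Prod.ext ?_ ?_
    · apply bbar.ext_elem
      intro i
      rw [repr_part0, repr_join]
      simp
    · apply bbar.ext_elem
      intro i
      rw [repr_part1, repr_join]
      simp
  map_add' v w := by
    simp

theorem splitEquiv_apply (v : ρ.V) : splitEquiv bbar b v = (part0 bbar b v, part1 bbar b v) := rfl

variable {bbar b}

/-- **The action in split coordinates.** -/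
theorem splitEquiv_ρ {c : Γ → Module.End k ρbar.V} (h : MatrixIdentity ρbar ρ bbar b c) (g : Γ)
    (v : ρ.V) :
    splitEquiv bbar b (ρ.ρ g v) =
      (ρbar.ρ g (splitEquiv bbar b v).1,
        ρbar.ρ g (splitEquiv bbar b v).2 + c g (ρbar.ρ g (splitEquiv bbar b v).1)) := by
  have hM := h g
  have hrepr : ∀ i, b.repr (ρ.ρ g v) i =
      ∑ j, LinearMap.toMatrix b b (ρ.ρ g) i j * b.repr v j := by
    intro i
    have := LinearMap.toMatrix_mulVec_repr b b (ρ.ρ g) v
    rw [← this]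
    rfl
  have hA : ∀ (f : Module.End k ρbar.V) (w : ρbar.V) (i : Fin 2), bbar.repr (f w) i =
      ∑ j, LinearMap.toMatrix bbar bbar f i j * bbar.repr w j := by
    intro f w i
    have := LinearMap.toMatrix_mulVec_repr bbar bbar f w
    rw [← this]
    rfl
  rw [splitEquiv_apply]
  refine Prod.ext ?_ ?_
  · apply bbar.ext_elem
    intro i
    show bbar.repr (part0 bbar b (ρ.ρ g v)) i = bbar.repr (ρbar.ρ g (part0 bbar b v)) i
    rw [repr_part0, hrepr, hA, fst_sum]
    refine Finset.sum_congr rfl fun j _ => ?_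
    rw [fst_mul, repr_part0, hM]
    simp
  · apply bbar.ext_elem
    intro i
    show bbar.repr (part1 bbar b (ρ.ρ g v)) i =
      bbar.repr (ρbar.ρ g (part1 bbar b v) + c g (ρbar.ρ g (part0 bbar b v))) i
    have hc : c g (ρbar.ρ g (part0 bbar b v)) = (c g * ρbar.ρ g) (part0 bbar b v) := rfl
    rw [map_add, Finsupp.add_apply, hc, repr_part1, hrepr, hA, hA, snd_sum, ← Finset.sum_add_distrib]
    refine Finset.sum_congr rfl fun j _ => ?_
    rw [snd_mul, repr_part0, repr_part1, hM]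
    simp

/-! ### The level `I = ⊥`: `ρ.V ⧸ (⊥ • ⊤) ≃+ ρbar.V × ρbar.V` -/

variable (bbar b)

/-- `ρ.V ⧸ (⊥ • ⊤) ≃+ ρbar.V × ρbar.V`. -/
def splitEquivBot :
    (ρ.V ⧸ ((⊥ : Ideal (DualNumber k)) • (⊤ : Submodule (DualNumber k) ρ.V))) ≃+
      ρbar.V × ρbar.V :=
  (Submodule.quotEquivOfEqBot _ (Submodule.bot_smul ⊤)).toAddEquiv.trans (splitEquiv bbar b)

theorem splitEquivBot_mk (v : ρ.V) :
    splitEquivBot bbar b (Submodule.Quotient.mk v) = splitEquiv bbar b v := by
  simp [splitEquivBot]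

variable {bbar b}

/-- The level-`⊥` action of the frozen `GaloisRepAdic.levelAction` in split coordinates. -/
theorem splitEquivBot_levelAction {c : Γ → Module.End k ρbar.V}
    (h : MatrixIdentity ρbar ρ bbar b c) (g : Γ)
    (m : ρ.V ⧸ ((⊥ : Ideal (DualNumber k)) • (⊤ : Submodule (DualNumber k) ρ.V))) :
    splitEquivBot bbar b (ρ.levelAction ⊥ g m) =
      (ρbar.ρ g (splitEquivBot bbar b m).1,
        ρbar.ρ g (splitEquivBot bbar b m).2 + c g (ρbar.ρ g (splitEquivBot bbar b m).1)) := by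
  obtain ⟨v, rfl⟩ := Submodule.Quotient.mk_surjective _ m
  have h1 : ρ.levelAction ⊥ g (Submodule.Quotient.mk v) = Submodule.Quotient.mk (ρ.ρ g v) := rfl
  rw [h1, splitEquivBot_mk, splitEquivBot_mk, splitEquiv_ρ h]

/-! ### The level `I = (ε)`: `ρ.V ⧸ ((ε) • ⊤) ≃+ ρbar.V` -/

/-- The ideal `(ε)` of the dual numbers, as the kernel of `fst : k[ε] → k`. -/
def epsIdeal (k : Type) [Field k] : Ideal (DualNumber k) := RingHom.ker (fstHom k k k)

theorem mem_epsIdeal (a : DualNumber k) : a ∈ epsIdeal k ↔ a.fst = 0 := by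
  rw [epsIdeal, RingHom.mem_ker, fstHom_apply]

variable (bbar b)

theorem part0_smul (a : DualNumber k) (v : ρ.V) :
    part0 bbar b (a • v) = a.fst • part0 bbar b v := by
  apply bbar.ext_elem
  intro i
  rw [repr_part0, map_smul, map_smul, Finsupp.smul_apply, Finsupp.smul_apply, repr_part0,
    smul_eq_mul, smul_eq_mul, fst_mul]

theorem part0_eq_zero_iff (v : ρ.V) :
    part0 bbar b v = 0 ↔ v ∈ epsIdeal k • (⊤ : Submodule (DualNumber k) ρ.V) := by
  constructor
  · intro hv
    have h0 : ∀ i, (b.repr v i).fst = 0 := by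
      intro i
      rw [← repr_part0 bbar b v i, hv, map_zero, Finsupp.zero_apply]
    rw [← b.sum_repr v]
    refine Submodule.sum_mem _ fun i _ => ?_
    exact Submodule.smul_mem_smul ((mem_epsIdeal _).2 (h0 i)) Submodule.mem_top
  · intro hv
    refine Submodule.smul_induction_on hv ?_ ?_
    · intro a ha w _
      rw [part0_smul, (mem_epsIdeal a).1 ha, zero_smul]
    · intro x y hx hy
      rw [map_add, hx, hy, add_zero]

theorem part0_surjective : Function.Surjective (part0 bbar b) := by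
  intro w
  refine ⟨join bbar b (w, 0), ?_⟩
  have := (splitEquiv bbar b).apply_symm_apply (w, 0)
  exact congrArg Prod.fst this

/-- `ρ.V ⧸ ((ε) • ⊤) ≃+ ρbar.V`, induced by `part0`. -/
def residualEquiv :
    (ρ.V ⧸ (epsIdeal k • (⊤ : Submodule (DualNumber k) ρ.V))) ≃+ ρbar.V :=
  have hker : (epsIdeal k • (⊤ : Submodule (DualNumber k) ρ.V)).restrictScalars ℤ =
      LinearMap.ker (part0 bbar b).toIntLinearMap := by
    ext v
    rw [Submodule.restrictScalars_mem, LinearMap.mem_ker, AddMonoidHom.coe_toIntLinearMap,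
      part0_eq_zero_iff]
  ((Submodule.Quotient.restrictScalarsEquiv ℤ _).symm.trans
    ((Submodule.quotEquivOfEq _ _ hker).trans
      ((part0 bbar b).toIntLinearMap.quotKerEquivOfSurjective (part0_surjective bbar b)))).toAddEquiv

theorem residualEquiv_mk (v : ρ.V) :
    residualEquiv bbar b (Submodule.Quotient.mk v) = part0 bbar b v := rfl

variable {bbar b}

/-- The level-`(ε)` action of the frozen `GaloisRepAdic.levelAction` is `ρbar`. -/
theorem residualEquiv_levelAction {c : Γ → Module.End k ρbar.V}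
    (h : MatrixIdentity ρbar ρ bbar b c) (g : Γ)
    (m : ρ.V ⧸ (epsIdeal k • (⊤ : Submodule (DualNumber k) ρ.V))) :
    residualEquiv bbar b (ρ.levelAction (epsIdeal k) g m) = ρbar.ρ g (residualEquiv bbar b m) := by
  obtain ⟨v, rfl⟩ := Submodule.Quotient.mk_surjective _ m
  have h1 : ρ.levelAction (epsIdeal k) g (Submodule.Quotient.mk v) =
      Submodule.Quotient.mk (ρ.ρ g v) := rfl
  rw [h1, residualEquiv_mk, residualEquiv_mk]
  exact congrArg Prod.fst (splitEquiv_ρ h g v)

/-! ### Finiteness -/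

omit [Field k] in
theorem finite_dualNumber [Finite k] : Finite (DualNumber k) :=
  Finite.of_injective (fun x : DualNumber k => (x.fst, x.snd)) fun _ _ hxy =>
    TrivSqZeroExt.ext (congrArg Prod.fst hxy) (congrArg Prod.snd hxy)

/-- The residue field of `k[ε]` is finite only if `k` is. -/
theorem finite_of_finite_residueField
    (h : Finite (IsLocalRing.ResidueField (DualNumber k))) : Finite k :=
  Finite.of_injective _
    ((IsLocalRing.residue (DualNumber k)).comp (algebraMap k (DualNumber k))).injective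

end Fermat.Agent.TW.Cnt.Bridge54
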