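/-
Program TW (S56), WP7 / CNT, brick B12-BRIDGE (helper54), file 2: from `IsFlatAt` of a lift to a
`LocalFlatModel` of the extension `ρbar.V × ρbar.V`, and the reduction of
`Contract52.LocalBoundFlat` to a bound on "flat classes" of `H¹(G_p, ad⁰ ρbar)`.

* `rbarLoc p ρbar τ`   : the residual action of `τ ∈ G_p = FlatModel68.GQp p` on `ρbar.V`;
* `extAct p ρbar c τ`  : `(v, w) ↦ (ρbar(τ) v, ρbar(τ) w + c(τ) (ρbar(τ) v))` on `ρbar.V × ρbar.V`;
* `FlatCocycle p ρbar c` : `LocalFlatModel p (ρbar.V × ρbar.V) (extAct p ρbar c)`;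
* `flatCocycle_of_isLiftCocycle` : a flat lift described by `c` gives a flat cocycle `c ∘ loc`;
* `localFlatModel_rbarLoc_of_isLiftCocycle` : and `ρbar.V` itself is then a `LocalFlatModel`;
* `extAct_eq_self_iff` : kernel formula;
* `FlatCocycle.of_coboundary` : `FlatCocycle` only depends on the class;
* `FlatClass p ρbar y`, `flatClass_resH1At`, `localBoundFlat_of_flatClass` : cohomological packaging.
-/
import Mathlib
import Fermat.Agent.TW.Cnt.Bridge54
import Fermat.Agent.TW.FF.LocalOfGlobal68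

set_option autoImplicit false

noncomputable section

namespace Fermat.Agent.TW.Cnt.BridgeFlat54

open Fermat.Agent.TW.Spec.Defs52 Fermat.Agent.TW.Spec.Contract52
open Fermat.Agent.TW.FF.FlatModel68 (GQp LocalFlatModel)
open Fermat.Agent.TW.Cnt.Bridge54
open Fermat.Agent.TW.Cocycle.Contract95 (MatrixIdentity exists_basis_of_isLiftCocycle)
open ExtCitation groupCohomology CategoryTheory

local notation "Γ" => (AlgebraicClosure ℚ ≃ₐ[ℚ] AlgebraicClosure ℚ)

variable (p : ℕ) [Fact p.Prime] {k : Type} [Field k] (ρbar : ResidualGaloisRep k)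

/-! ### The extension attached to a cochain -/

/-- The residual action of `G_p = Gal(ℚ̄_p/ℚ_p)` on `ρbar.V`. -/
def rbarLoc (τ : GQp p) : Module.End k ρbar.V := ρbar.ρ (localGaloisToGlobal p τ)

theorem rbarLoc_one : rbarLoc p ρbar 1 = 1 := by
  rw [rbarLoc, map_one, map_one]

theorem rbarLoc_mul (σ τ : GQp p) : rbarLoc p ρbar (σ * τ) = rbarLoc p ρbar σ * rbarLoc p ρbar τ := by
  rw [rbarLoc, map_mul, map_mul]; rfl

/-- The action of `G_p` on the extension `ρbar.V × ρbar.V` of `ρbar.V` by `ρbar.V` attached to a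
cochain `c : G_p → End(ρbar.V)`: `(v, w) ↦ (ρbar(τ) v, ρbar(τ) w + c(τ) (ρbar(τ) v))`. -/
def extAct (c : GQp p → Module.End k ρbar.V) (τ : GQp p) (m : ρbar.V × ρbar.V) :
    ρbar.V × ρbar.V :=
  (rbarLoc p ρbar τ m.1, rbarLoc p ρbar τ m.2 + c τ (rbarLoc p ρbar τ m.1))

theorem extAct_apply (c : GQp p → Module.End k ρbar.V) (τ : GQp p) (v w : ρbar.V) :
    extAct p ρbar c τ (v, w) =
      (rbarLoc p ρbar τ v, rbarLoc p ρbar τ w + c τ (rbarLoc p ρbar τ v)) := rfl

/-- `c` is a *flat cochain*: the extension `ρbar.V × ρbar.V` with the action `extAct p ρbar c` is the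
group of `ℚ̄_p`-points of a finite flat commutative cocommutative Hopf algebra over `ℤ_p`. -/
def FlatCocycle (c : GQp p → Module.End k ρbar.V) : Prop :=
  LocalFlatModel p (ρbar.V × ρbar.V) (extAct p ρbar c)

/-- **Kernel formula**: `τ` acts trivially on the extension iff `ρbar(τ) = 1` and `c(τ) = 0`. -/
theorem extAct_eq_self_iff (c : GQp p → Module.End k ρbar.V) (τ : GQp p) :
    (∀ m, extAct p ρbar c τ m = m) ↔ rbarLoc p ρbar τ = 1 ∧ c τ = 0 := by
  constructor
  · intro h
    have h1 : rbarLoc p ρbar τ = 1 := by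
      refine LinearMap.ext fun w => ?_
      have := congrArg Prod.snd (h (0, w))
      simpa [extAct_apply] using this
    refine ⟨h1, LinearMap.ext fun v => ?_⟩
    have := congrArg Prod.snd (h (v, 0))
    simpa [extAct_apply, h1] using this
  · rintro ⟨h1, h2⟩ ⟨v, w⟩
    simp [extAct_apply, h1, h2]

/-- `extAct` is additive. -/
theorem extAct_add (c : GQp p → Module.End k ρbar.V) (τ : GQp p) (m m' : ρbar.V × ρbar.V) :
    extAct p ρbar c τ (m + m') = extAct p ρbar c τ m + extAct p ρbar c τ m' := by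
  refine Prod.ext ?_ ?_
  · simp [extAct]
  · simp [extAct]; abel

/-- The sub-object `{(0, w)}`: the inclusion `w ↦ (0, w)` is equivariant. -/
theorem extAct_inr (c : GQp p → Module.End k ρbar.V) (τ : GQp p) (w : ρbar.V) :
    extAct p ρbar c τ (0, w) = (0, rbarLoc p ρbar τ w) := by
  simp [extAct_apply]

/-- The quotient: the projection `(v, w) ↦ v` is equivariant. -/
theorem extAct_fst (c : GQp p → Module.End k ρbar.V) (τ : GQp p) (m : ρbar.V × ρbar.V) :
    (extAct p ρbar c τ m).1 = rbarLoc p ρbar τ m.1 := rfl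

/-- **Coboundary invariance**: if `c' τ = c τ + (ρbar(τ) m ρbar(τ)⁻¹ - m)` then `(v, w) ↦ (v, w - m v)`
intertwines `extAct c` and `extAct c'`; so `FlatCocycle` only depends on the cohomology class. -/
theorem FlatCocycle.of_coboundary {c c' : GQp p → Module.End k ρbar.V} (m : Module.End k ρbar.V)
    (hcc' : ∀ τ, c' τ * rbarLoc p ρbar τ = c τ * rbarLoc p ρbar τ + (rbarLoc p ρbar τ * m - m * rbarLoc p ρbar τ))
    (h : FlatCocycle p ρbar c) : FlatCocycle p ρbar c' := by
  let φ : ρbar.V × ρbar.V ≃+ ρbar.V × ρbar.V :=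
    { toFun := fun x => (x.1, x.2 - m x.1)
      invFun := fun x => (x.1, x.2 + m x.1)
      left_inv := fun x => by simp
      right_inv := fun x => by simp
      map_add' := fun x y => by
        refine Prod.ext ?_ ?_
        · simp
        · simp; abel }
  refine Fermat.Agent.TW.FF.FlatModel68.LocalFlatModel.of_addEquiv φ ?_ h
  rintro τ ⟨v, w⟩
  have h1 := LinearMap.congr_fun (hcc' τ) v
  simp only [Module.End.mul_apply, LinearMap.add_apply, LinearMap.sub_apply] at h1
  refine Prod.ext ?_ ?_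
  · simp [φ, extAct_apply]
  · simp only [φ, extAct_apply, AddEquiv.coe_mk, Equiv.coe_fn_mk, map_sub]
    rw [h1]
    abel

/-! ### From a flat lift to a flat cocycle -/

variable {ρbar}

/-- **B12-BRIDGE, cochain form.** If the lift `ρ` of `ρbar` to `k[ε]` is described by `c`
(`Defs52.IsLiftCocycle`) and `ρ` is flat at `p` (frozen `GaloisRepAdic.IsFlatAt`), then the
restriction of `c` to `G_p` is a flat cochain. -/
theorem flatCocycle_of_isLiftCocycle {ρ : GaloisRepAdic (DualNumber k)} {c : Γ → Module.End k ρbar.V}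
    (hc : IsLiftCocycle ρbar ρ c) (hflat : ρ.IsFlatAt p) :
    FlatCocycle p ρbar (fun τ => c (localGaloisToGlobal p τ)) := by
  obtain ⟨bbar, b, hb⟩ := hc
  have hb' : MatrixIdentity ρbar ρ bbar b c := hb
  have : Finite k := finite_of_finite_residueField hflat.1
  have : Finite (DualNumber k) := finite_dualNumber
  have hfin : Finite (DualNumber k ⧸ (⊥ : Ideal (DualNumber k))) :=
    Finite.of_surjective _ Ideal.Quotient.mk_surjective
  have h := Fermat.Agent.TW.FF.LocalOfGlobal68.localFlatModel_of_isFlatAt p ρ hflat ⊥ hfin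
  refine Fermat.Agent.TW.FF.FlatModel68.LocalFlatModel.of_addEquiv (splitEquivBot bbar b) ?_ h
  intro τ m
  exact splitEquivBot_levelAction hb' (localGaloisToGlobal p τ) m

/-- **B12-BRIDGE, residual part.** Under the same hypotheses `ρbar.V` with the residual action of
`G_p` is a `LocalFlatModel`. -/
theorem localFlatModel_rbarLoc_of_isLiftCocycle {ρ : GaloisRepAdic (DualNumber k)}
    {c : Γ → Module.End k ρbar.V} (hc : IsLiftCocycle ρbar ρ c) (hflat : ρ.IsFlatAt p) :
    LocalFlatModel p ρbar.V (fun τ v => rbarLoc p ρbar τ v) := by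
  obtain ⟨bbar, b, hb⟩ := hc
  have hb' : MatrixIdentity ρbar ρ bbar b c := hb
  have : Finite k := finite_of_finite_residueField hflat.1
  have : Finite (DualNumber k) := finite_dualNumber
  have hfin : Finite (DualNumber k ⧸ epsIdeal k) :=
    Finite.of_surjective _ Ideal.Quotient.mk_surjective
  have h := Fermat.Agent.TW.FF.LocalOfGlobal68.localFlatModel_of_isFlatAt p ρ hflat (epsIdeal k) hfin
  refine Fermat.Agent.TW.FF.FlatModel68.LocalFlatModel.of_addEquiv (residualEquiv bbar b) ?_ h
  intro τ m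
  exact residualEquiv_levelAction hb' (localGaloisToGlobal p τ) m

/-! ### Cohomological packaging -/

section Cohomology

variable [Algebra (ZMod p) k] (ρbar)

/-- helper68's `GQp p` is (definitionally) the Prelude's local Galois group at `pPrime p`. -/
def toLoc : GQp p ≃* primeLocalGaloisGroup (pPrime p) where
  toFun τ := τ
  invFun τ := τ
  left_inv _ := rfl
  right_inv _ := rfl
  map_mul' _ _ := rfl

theorem locAt_toLoc (τ : GQp p) : locAt (pPrime p) (toLoc p τ) = localGaloisToGlobal p τ := rfl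

theorem locAt_eq (τ : primeLocalGaloisGroup (pPrime p)) :
    locAt (pPrime p) τ = localGaloisToGlobal p ((toLoc p).symm τ) := rfl

/-- A class of `H¹(G_p, ad⁰ ρbar)` is *flat* if it is represented by a level-constant cocycle which is
a flat cochain. -/
def FlatClass (y : H1 (resAt (pPrime p) (ad0 p ρbar))) : Prop :=
  ∃ c : cocycles₁ (resAt (pPrime p) (ad0 p ρbar)),
    IsLevelConstant₁ (locAt (pPrime p)) c ∧
    (H1π (resAt (pPrime p) (ad0 p ρbar))).hom c = y ∧
    FlatCocycle p ρbar (fun τ => ad0ToEnd p ρbar (c.1 (toLoc p τ)))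

variable {ρbar}

/-- The restriction to the local group at `q` of the class of a lift is represented by the
restriction of the cocycle, which is level-constant. -/
theorem exists_local_cocycle (q : Nat.Primes) {ρ : GaloisRepAdic (DualNumber k)}
    {c : cocycles₁ (ad0 p ρbar)}
    (hc : IsLiftCocycle ρbar ρ (fun g => ad0ToEnd p ρbar (c.1 g))) :
    ∃ cl : cocycles₁ (resAt q (ad0 p ρbar)),
      (∀ τ, cl.1 τ = c.1 (locAt q τ)) ∧ IsLevelConstant₁ (locAt q) cl ∧
      (H1π (resAt q (ad0 p ρbar))).hom cl =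
        resH1At q (ad0 p ρbar) ((H1π (ad0 p ρbar)).hom c) := by
  refine ⟨(mapCocycles₁ (locAt q) (𝟙 (resAt q (ad0 p ρbar)))).hom c, fun τ => rfl, ?_, ?_⟩
  · obtain ⟨bbar, b, hb⟩ := hc
    have hb' : MatrixIdentity ρbar ρ bbar b (fun g => ad0ToEnd p ρbar (c.1 g)) := hb
    obtain ⟨-, hcoc⟩ := (Fermat.Agent.TW.Cocycle.Contract95.matrixIdentity_iff bbar b _).1 hb'
    obtain ⟨L, hLfin, hL⟩ := Fermat.Agent.TW.Cocycle.MatrixLift95.exists_finite_forall_eq_one
      (Fermat.Agent.S53.MatrixModel.matCont_matrixOf ρ b)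
    refine ⟨L, hLfin, fun g s hs => ?_⟩
    show c.1 (locAt q (g * s)) = c.1 (locAt q g)
    rw [map_mul]
    apply Fermat.Agent.TW.Cocycle.Contract95.ad0ToEnd_injective
    apply (LinearMap.toMatrix bbar bbar).injective
    have h1 := hcoc (locAt q g * locAt q s)
    have h2 := hcoc (locAt q g)
    exact h1.symm.trans
      ((Fermat.Agent.TW.Cocycle.MatrixLift95.cocyc_mul_of_eq_one (locAt q g) (hL _ hs)).trans h2)
  · exact (H1π_comp_map_apply (A := ad0 p ρbar) (B := resAt q (ad0 p ρbar)) (locAt q)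
      (𝟙 (resAt q (ad0 p ρbar))) c).symm

/-- **B12-BRIDGE, class form.** The local class at `p` of a flat lift is a flat class. -/
theorem flatClass_resH1At {ρ : GaloisRepAdic (DualNumber k)} {x : H1 (ad0 p ρbar)}
    (hx : IsLiftClass ρbar p ρ x) (hflat : ρ.IsFlatAt p) :
    FlatClass p ρbar (resH1At (pPrime p) (ad0 p ρbar) x) := by
  obtain ⟨c, hc, rfl⟩ := hx
  obtain ⟨cl, hval, hlev, hcl⟩ := exists_local_cocycle p (pPrime p) hc
  refine ⟨cl, hlev, hcl, ?_⟩
  have h := flatCocycle_of_isLiftCocycle p hc hflat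
  have heq : (fun τ : GQp p => ad0ToEnd p ρbar (cl.1 (toLoc p τ))) =
      fun τ => ad0ToEnd p ρbar (c.1 (localGaloisToGlobal p τ)) := by
    funext τ
    rw [hval, locAt_toLoc]
  rw [heq]
  exact h

variable (ρbar)

/-- **Reduction of `Contract52.LocalBoundFlat`.** It suffices to bound a subspace containing all flat
classes. -/
theorem localBoundFlat_of_flatClass
    (L : Submodule (ZMod p) (H1 (resAt (pPrime p) (ad0 p ρbar))))
    (hfin : FiniteDimensional (ZMod p) L)
    (hrank : Module.finrank (ZMod p) L ≤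
      h0At (pPrime p) (ad0 p ρbar) + 1 * Module.finrank (ZMod p) k)
    (hL : ∀ y, FlatClass p ρbar y → y ∈ L) : LocalBoundFlat p ρbar :=
  ⟨L, hfin, hrank, fun _ _ hx hcond => hL _ (flatClass_resH1At p hx hcond.2)⟩

end Cohomology

end Fermat.Agent.TW.Cnt.BridgeFlat54
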