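/-
Program TW (S56), WP7 / CNT, brick B12-BRIDGE (helper54), file 3: glue between the bridge
(`BridgeFlat54`), helper72's admissible family of subgroups of `G_p` (`AdmFlat72.admFamily`) and
helper55's admissible cohomology (`AdmH1_55.H1adm`).

* `killedByP_prod`, `finite_prod` : `ρbar.V × ρbar.V` is finite and killed by `p`;
* `admFam p hprod` : `AdmFlat72.admFamily p` as an `AdmH1_55.AdmFamily` on the Prelude local group
  `primeLocalGaloisGroup (pPrime p)` (needs `Spec72.ClosureProd p` for `inf_mem`);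
* `flatClass_mem_H1adm` : flat classes are admissible;
* `isAdmRep_ad0` : `ad⁰ ρbar` restricted to `G_p` is an admissible representation as soon as `ρbar.V` is a
  local flat model;
* `localBoundFlat_of_H1adm` : `Contract52.LocalBoundFlat` from a bound for `H1adm`.
-/
import Mathlib
import Fermat.Agent.TW.Cnt.BridgeFlat54
import Fermat.Agent.TW.Cnt.AdmFlat72
import Fermat.Agent.TW.Cnt.AdmH1_55

set_option autoImplicit false

noncomputable section

namespace Fermat.Agent.TW.Cnt.BridgeAdm54

open Fermat.Agent.TW.Spec.Defs52 Fermat.Agent.TW.Spec.Contract52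
open Fermat.Agent.TW.FF.FlatModel68 (GQp LocalFlatModel)
open Fermat.Agent.TW.FF.Spec72 (KilledByP ClosureProd)
open Fermat.Agent.TW.Cnt.BridgeFlat54 Fermat.Agent.TW.Cnt.AdmFlat72 Fermat.Agent.TW.Cnt.AdmH1_55
open ExtCitation groupCohomology CategoryTheory

variable (p : ℕ) [Fact p.Prime] {k : Type} [Field k] [Algebra (ZMod p) k]
  (ρbar : ResidualGaloisRep k)

/-- A `k`-vector space is killed by `p` when `k` is a `ZMod p`-algebra. -/
theorem killedByP_of_module (V : Type) [AddCommGroup V] [Module k V] : KilledByP p V := by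
  intro v
  have : CharP k p := Fermat.Agent.TW.Cocycle.Contract95.charP_of_algebra_zmod p
  rw [← Nat.cast_smul_eq_nsmul k p v, CharP.cast_eq_zero k p, zero_smul]

theorem killedByP_prod : KilledByP p (ρbar.V × ρbar.V) := killedByP_of_module (k := k) p _

theorem finite_V [Finite k] : Finite ρbar.V := Module.finite_of_finite k

/-- The kernel of a flat cochain is an admissible subgroup. -/
theorem kerOf_mem_admFamily_of_flatCocycle [Finite k] {c : GQp p → Module.End k ρbar.V}
    (h : FlatCocycle p ρbar c) : kerOf h ∈ admFamily p :=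
  haveI := finite_V ρbar
  kerOf_mem_admFamily h (killedByP_prod p ρbar)

omit [Algebra (ZMod p) k] in
theorem mem_kerOf_flatCocycle_iff {c : GQp p → Module.End k ρbar.V} (h : FlatCocycle p ρbar c)
    (τ : GQp p) : τ ∈ kerOf h ↔ rbarLoc p ρbar τ = 1 ∧ c τ = 0 :=
  (mem_kerOf h τ).trans (extAct_eq_self_iff p ρbar c τ)

/-- `AdmFlat72.admFamily p` as an `AdmFamily` on the Prelude local group at `p`. -/
def admFam (hprod : ClosureProd p) : AdmFamily (primeLocalGaloisGroup (pPrime p)) where
  sets := {N | N.comap (toLoc p).toMonoidHom ∈ admFamily p}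
  nonempty := by
    obtain ⟨N, hN⟩ := admFamily_nonempty (p := p)
    refine ⟨N.comap (toLoc p).symm.toMonoidHom, ?_⟩
    show (N.comap (toLoc p).symm.toMonoidHom).comap (toLoc p).toMonoidHom ∈ admFamily p
    rw [Subgroup.comap_comap]
    have : (toLoc p).symm.toMonoidHom.comp (toLoc p).toMonoidHom = MonoidHom.id _ := by
      ext τ; rfl
    rw [this, Subgroup.comap_id]
    exact hN
  inf_mem := fun {N N'} hN hN' => by
    show (N ⊓ N').comap (toLoc p).toMonoidHom ∈ admFamily p
    rw [Subgroup.comap_inf]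
    exact inf_mem_admFamily hprod hN hN'

theorem mem_admFam_iff (hprod : ClosureProd p) (N : Subgroup (primeLocalGaloisGroup (pPrime p))) :
    N ∈ (admFam p hprod).sets ↔ N.comap (toLoc p).toMonoidHom ∈ admFamily p := Iff.rfl

/-- The transport to the Prelude local group of a subgroup of `GQp p`. -/
theorem comap_symm_mem_admFam (hprod : ClosureProd p) {N : Subgroup (GQp p)}
    (hN : N ∈ admFamily p) : N.comap (toLoc p).symm.toMonoidHom ∈ (admFam p hprod).sets := by
  show (N.comap (toLoc p).symm.toMonoidHom).comap (toLoc p).toMonoidHom ∈ admFamily p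
  rw [Subgroup.comap_comap]
  have : (toLoc p).symm.toMonoidHom.comp (toLoc p).toMonoidHom = MonoidHom.id _ := by
    ext τ; rfl
  rw [this, Subgroup.comap_id]
  exact hN

variable {ρbar}

/-- **Flat classes are admissible.** -/
theorem flatClass_mem_H1adm [Finite k] (hprod : ClosureProd p)
    {y : H1 (resAt (pPrime p) (ad0 p ρbar))} (hy : FlatClass p ρbar y) :
    y ∈ H1adm (admFam p hprod) (resAt (pPrime p) (ad0 p ρbar)) := by
  obtain ⟨c, -, rfl, hflat⟩ := hy
  apply H1π_mem_H1adm
  refine ⟨(kerOf hflat).comap (toLoc p).symm.toMonoidHom,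
    comap_symm_mem_admFam p hprod (kerOf_mem_admFamily_of_flatCocycle p ρbar hflat), fun n hn => ?_⟩
  have h1 : (toLoc p).symm n ∈ kerOf hflat := hn
  have h2 := ((mem_kerOf_flatCocycle_iff p ρbar hflat _).1 h1).2
  have h3 : ad0ToEnd p ρbar (c.1 n) = 0 := h2
  exact Fermat.Agent.TW.Cocycle.Contract95.ad0ToEnd_injective p ρbar h3

variable (ρbar)

/-- `ad⁰ ρbar` restricted to `G_p` is an admissible representation if `ρbar.V` is a local flat model. -/
theorem isAdmRep_ad0 [Finite k] (hprod : ClosureProd p)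
    (hV : LocalFlatModel p ρbar.V (fun τ v => rbarLoc p ρbar τ v)) :
    IsAdmRep (admFam p hprod) (resAt (pPrime p) (ad0 p ρbar)) := by
  have := finite_V ρbar
  refine ⟨(kerOf hV).comap (toLoc p).symm.toMonoidHom,
    comap_symm_mem_admFam p hprod (kerOf_mem_admFamily hV (killedByP_of_module (k := k) p _)),
    fun n hn a => ?_⟩
  have h1 : ∀ v, rbarLoc p ρbar ((toLoc p).symm n) v = v := hn
  have h2 : ρbar.ρ (locAt (pPrime p) n) = 1 := LinearMap.ext h1
  apply Fermat.Agent.TW.Cocycle.Contract95.ad0ToEnd_injective p ρbar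
  show ad0ToEnd p ρbar ((ad0 p ρbar).ρ (locAt (pPrime p) n) a) = ad0ToEnd p ρbar a
  have h3 : ρbar.ρ (locAt (pPrime p) n)⁻¹ = 1 := by
    have := map_mul ρbar.ρ (locAt (pPrime p) n)⁻¹ (locAt (pPrime p) n)
    rw [inv_mul_cancel, map_one, h2, mul_one] at this
    exact this.symm
  rw [ad0_ρ_apply, h2, h3, one_mul, mul_one]

/-- **Reduction of `Contract52.LocalBoundFlat` to a bound for `H1adm`.** -/
theorem localBoundFlat_of_H1adm [Finite k] (hprod : ClosureProd p)
    (hfin : FiniteDimensional (ZMod p)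
      (H1adm (admFam p hprod) (resAt (pPrime p) (ad0 p ρbar))))
    (hrank : Module.finrank (ZMod p) (H1adm (admFam p hprod) (resAt (pPrime p) (ad0 p ρbar))) ≤
      h0At (pPrime p) (ad0 p ρbar) + 1 * Module.finrank (ZMod p) k) :
    LocalBoundFlat p ρbar :=
  localBoundFlat_of_flatClass p ρbar _ hfin hrank fun _ hy => flatClass_mem_H1adm p hprod hy

end Fermat.Agent.TW.Cnt.BridgeAdm54
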