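/-
Program TW (S56), WP7 / CNT, brick ORD3-COCYCLE (helper54): the "ordinary shape" of flat lifts in the
language of `BridgeFlat54`.

* `Iaug p act W`     : the subgroup generated by the `act τ w - w`, `τ ∈ Spec72.inertiaSet p`, `w ∈ W`;
* `CoinvExact p`     : exactness of inertia-coinvariants on flat modules killed by `p`:
                       `W ∩ I_aug V = I_aug W` for stable `W ≤ V`;
* `coinvExact_of_star` : `Spec72.Star p → p ≠ 2 → CoinvExact p`;
* `exists_coboundary_preserving_line` : a flat cochain `c` is cohomologous to a flat cochain `c'` all of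
  whose values preserve the line `ℓ = I_aug (ρbar.V)`.
-/
import Mathlib
import Fermat.Agent.TW.Cnt.BridgeFlat54
import Fermat.Agent.TW.FF.ClosureSpec68
import Fermat.Agent.TW.Cnt.AdmFlat72
import Fermat.Agent.TW.Cnt.BridgeAdm54

set_option autoImplicit false

noncomputable section

namespace Fermat.Agent.TW.Cnt.OrdShape54

open Fermat.Agent.TW.FF.FlatModel68 (GQp LocalFlatModel)
open Fermat.Agent.TW.FF.Spec72 (inertiaSet KilledByP Star)
open Fermat.Agent.TW.Cnt.AdmFlat72 (act_one act_mul act_add act_zero act_neg act_sub act_inv_act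
  act_act_inv)
open Fermat.Agent.TW.Cnt.BridgeFlat54

variable (p : ℕ) [Fact p.Prime]

/-! ### Inertia -/

/-- Elements of `G_p` are isometries of `PadicAlgCl p`. -/
theorem norm_apply (g : GQp p) (y : PadicAlgCl p) : ‖g y‖ = ‖y‖ := by
  have := nnnorm_padicAlgCl_algEquiv p g y
  exact congrArg (fun t : NNReal => (t : ℝ)) this

/-- The inertia set is stable under conjugation. -/
theorem conj_mem_inertiaSet (g : GQp p) {τ : GQp p} (hτ : τ ∈ inertiaSet p) :
    g * τ * g⁻¹ ∈ inertiaSet p := by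
  intro x hx
  have h1 : (g * τ * g⁻¹) x - x = g (τ (g⁻¹ x) - g⁻¹ x) := by
    rw [map_sub]
    show g (τ (g⁻¹ x)) - x = g (τ (g⁻¹ x)) - g (g⁻¹ x)
    congr 1
    exact (AlgEquiv.apply_symm_apply g x).symm
  rw [h1, norm_apply]
  apply hτ
  rw [norm_apply]
  exact hx

/-! ### The augmentation subgroup -/

section Aug

variable {V : Type} [AddCommGroup V]

/-- The subgroup of `V` generated by the `act τ w - w` with `τ` in inertia and `w ∈ W`. -/
def Iaug (act : GQp p → V → V) (W : AddSubgroup V) : AddSubgroup V :=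
  AddSubgroup.closure {x : V | ∃ τ ∈ inertiaSet p, ∃ w ∈ W, x = act τ w - w}

variable {p}

theorem sub_mem_Iaug {act : GQp p → V → V} {W : AddSubgroup V} {τ : GQp p}
    (hτ : τ ∈ inertiaSet p) {w : V} (hw : w ∈ W) : act τ w - w ∈ Iaug p act W :=
  AddSubgroup.subset_closure ⟨τ, hτ, w, hw, rfl⟩

theorem Iaug_mono {act : GQp p → V → V} {W W' : AddSubgroup V} (h : W ≤ W') :
    Iaug p act W ≤ Iaug p act W' := by
  apply AddSubgroup.closure_mono
  rintro x ⟨τ, hτ, w, hw, rfl⟩
  exact ⟨τ, hτ, w, h hw, rfl⟩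

/-- The subgroup of `Spec72.Star` is `Iaug p act ⊤`. -/
theorem Iaug_top_eq (act : GQp p → V → V) :
    Iaug p act ⊤ =
      AddSubgroup.closure {w : V | ∃ τ ∈ inertiaSet p, ∃ v : V, w = act τ v - v} := by
  unfold Iaug
  congr 1
  ext x
  constructor
  · rintro ⟨τ, hτ, w, -, rfl⟩
    exact ⟨τ, hτ, w, rfl⟩
  · rintro ⟨τ, hτ, w, rfl⟩
    exact ⟨τ, hτ, w, AddSubgroup.mem_top w, rfl⟩

/-- If `W` is stable then `Iaug W ≤ W`. -/
theorem Iaug_le {act : GQp p → V → V} {W : AddSubgroup V} (hW : ∀ τ, ∀ v ∈ W, act τ v ∈ W) :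
    Iaug p act W ≤ W := by
  rw [Iaug, AddSubgroup.closure_le]
  rintro x ⟨τ, -, w, hw, rfl⟩
  exact W.sub_mem (hW τ w hw) hw

/-- `Iaug W` is stable under the action, for a stable `W` in a flat module. -/
theorem act_mem_Iaug {act : GQp p → V → V} (hV : LocalFlatModel p V act) {W : AddSubgroup V}
    (hW : ∀ τ, ∀ v ∈ W, act τ v ∈ W) (g : GQp p) {x : V} (hx : x ∈ Iaug p act W) :
    act g x ∈ Iaug p act W := by
  unfold Iaug at hx
  induction hx using AddSubgroup.closure_induction with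
  | mem x hx =>
    obtain ⟨τ, hτ, w, hw, rfl⟩ := hx
    have h1 : act g (act τ w - w) = act (g * τ * g⁻¹) (act g w) - act g w := by
      rw [act_sub hV, ← act_mul hV, ← act_mul hV, mul_assoc, mul_assoc, inv_mul_cancel, mul_one]
    rw [h1]
    exact sub_mem_Iaug (conj_mem_inertiaSet p g hτ) (hW g w hw)
  | zero =>
    rw [act_zero hV]
    exact AddSubgroup.zero_mem _
  | add x y _ _ hx hy =>
    rw [act_add hV]
    exact AddSubgroup.add_mem _ hx hy
  | neg x _ hx =>
    rw [act_neg hV]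
    exact AddSubgroup.neg_mem _ hx

/-- The image of `Iaug` under an equivariant additive map. -/
theorem map_mem_Iaug {V' : Type} [AddCommGroup V'] {act : GQp p → V → V} {act' : GQp p → V' → V'}
    (π : V →+ V') (hπ : ∀ τ v, π (act τ v) = act' τ (π v)) {W : AddSubgroup V} {W' : AddSubgroup V'}
    (hWW' : ∀ w ∈ W, π w ∈ W') {x : V} (hx : x ∈ Iaug p act W) : π x ∈ Iaug p act' W' := by
  unfold Iaug at hx
  induction hx using AddSubgroup.closure_induction with
  | mem x hx =>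
    obtain ⟨τ, hτ, w, hw, rfl⟩ := hx
    rw [map_sub, hπ]
    exact sub_mem_Iaug hτ (hWW' w hw)
  | zero =>
    rw [map_zero]
    exact AddSubgroup.zero_mem _
  | add x y _ _ hx hy =>
    rw [map_add]
    exact AddSubgroup.add_mem _ hx hy
  | neg x _ hx =>
    rw [map_neg]
    exact AddSubgroup.neg_mem _ hx

end Aug

/-! ### Exactness of inertia-coinvariants -/

/-- Exactness of inertia-coinvariants on flat modules killed by `p`: `W ∩ I_aug V ⊆ I_aug W`. -/
def CoinvExact : Prop :=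
  ∀ (V : Type) [AddCommGroup V] [Finite V] (act : GQp p → V → V),
    LocalFlatModel p V act → KilledByP p V →
    ∀ W : AddSubgroup V, (∀ τ, ∀ v ∈ W, act τ v ∈ W) →
      ∀ x ∈ W, x ∈ Iaug p act ⊤ → x ∈ Iaug p act W

/-- `STAR ⇒` exactness of inertia-coinvariants (apply `STAR` to `V ⧸ I_aug W`). -/
theorem coinvExact_of_star (hstar : Star p) (hp2 : p ≠ 2) : CoinvExact p := by
  intro V _ _ act hV hkill W hW x hxW hx
  set J : AddSubgroup V := Iaug p act W with hJ
  have hJstab : ∀ τ n, n ∈ J → act τ n ∈ J := fun τ n hn => act_mem_Iaug hV hW τ hn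
  -- the action on the quotient
  let a : GQp p → V →+ V := fun τ =>
    { toFun := act τ
      map_zero' := act_zero hV τ
      map_add' := act_add hV τ }
  let actQ : GQp p → V ⧸ J → V ⧸ J := fun τ =>
    QuotientAddGroup.map J J (a τ) (fun n hn => hJstab τ n hn)
  have hactQ : ∀ τ (m : V), actQ τ (QuotientAddGroup.mk m) = QuotientAddGroup.mk (act τ m) :=
    fun τ m => rfl
  have hQ : LocalFlatModel p (V ⧸ J) actQ :=
    Fermat.Agent.TW.FF.Closure68.LocalFlatModel.quotient hV J hJstab actQ hactQ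
  have hkillQ : KilledByP p (V ⧸ J) := by
    intro q
    induction q using QuotientAddGroup.induction_on with
    | H v =>
      rw [← QuotientAddGroup.mk_nsmul, hkill v, QuotientAddGroup.mk_zero]
  -- the image of `x` is fixed by inertia
  have hfix : ∀ τ ∈ inertiaSet p, actQ τ (QuotientAddGroup.mk x) = QuotientAddGroup.mk x := by
    intro τ hτ
    rw [hactQ, QuotientAddGroup.eq_iff_sub_mem]
    exact sub_mem_Iaug hτ hxW
  -- and lies in the augmentation subgroup of the quotient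
  have haug : (QuotientAddGroup.mk x : V ⧸ J) ∈ Iaug p actQ ⊤ :=
    map_mem_Iaug (QuotientAddGroup.mk' J) (fun τ v => (hactQ τ v).symm)
      (fun _ _ => AddSubgroup.mem_top _) hx
  rw [Iaug_top_eq] at haug
  have h0 := hstar hp2 (V ⧸ J) actQ hQ hkillQ (QuotientAddGroup.mk x) hfix haug
  exact (QuotientAddGroup.eq_zero_iff x).1 h0

/-! ### The ordinary shape of a flat cochain -/

section Main

variable {k : Type} [Field k] (ρbar : ResidualGaloisRep k)

/-- The cochain `c` modified by the coboundary of `m`. -/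
def cobTwist (c : GQp p → Module.End k ρbar.V) (m : Module.End k ρbar.V) :
    GQp p → Module.End k ρbar.V :=
  fun τ => c τ + (rbarLoc p ρbar τ * m * rbarLoc p ρbar τ⁻¹ - m)

theorem rbarLoc_inv_mul (τ : GQp p) : rbarLoc p ρbar τ⁻¹ * rbarLoc p ρbar τ = 1 := by
  rw [← rbarLoc_mul, inv_mul_cancel, rbarLoc_one]

theorem rbarLoc_mul_inv (τ : GQp p) : rbarLoc p ρbar τ * rbarLoc p ρbar τ⁻¹ = 1 := by
  rw [← rbarLoc_mul, mul_inv_cancel, rbarLoc_one]

theorem cobTwist_mul_rbarLoc (c : GQp p → Module.End k ρbar.V) (m : Module.End k ρbar.V)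
    (τ : GQp p) :
    cobTwist p ρbar c m τ * rbarLoc p ρbar τ =
      c τ * rbarLoc p ρbar τ + (rbarLoc p ρbar τ * m - m * rbarLoc p ρbar τ) := by
  rw [cobTwist, add_mul, sub_mul, mul_assoc (rbarLoc p ρbar τ * m), rbarLoc_inv_mul, mul_one]

theorem FlatCocycle.cobTwist {c : GQp p → Module.End k ρbar.V} (hc : FlatCocycle p ρbar c)
    (m : Module.End k ρbar.V) : FlatCocycle p ρbar (cobTwist p ρbar c m) :=
  FlatCocycle.of_coboundary p ρbar m (cobTwist_mul_rbarLoc p ρbar c m) hc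

theorem extAct_smul (c : GQp p → Module.End k ρbar.V) (τ : GQp p) (a : k)
    (x : ρbar.V × ρbar.V) : extAct p ρbar c τ (a • x) = a • extAct p ρbar c τ x := by
  refine Prod.ext ?_ ?_
  · simp [extAct]
  · simp [extAct, smul_add]

variable [Algebra (ZMod p) k] [Finite k]

/-- **ORD3, cochain form.** Let `c` be a flat cochain and suppose that the augmentation subgroup
`ℓ = I_aug (ρbar.V)` is a `k`-line.  Then (given exactness of inertia-coinvariants) there is
`m ∈ End_k (ρbar.V)` such that every value of the cohomologous flat cochain `cobTwist c m` preserves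
`ℓ`. -/
theorem exists_cobTwist_preserving_line (hex : CoinvExact p) {c : GQp p → Module.End k ρbar.V}
    (hc : FlatCocycle p ρbar c) (ℓ : Submodule k ρbar.V) (hℓ1 : Module.finrank k ℓ = 1)
    (hℓ : ∀ v, v ∈ ℓ ↔ v ∈ Iaug p (fun τ v => rbarLoc p ρbar τ v) ⊤) :
    ∃ m : Module.End k ρbar.V, FlatCocycle p ρbar (cobTwist p ρbar c m) ∧
      ∀ τ, ∀ v ∈ ℓ, cobTwist p ρbar c m τ v ∈ ℓ := by
  have hfinV : Finite ρbar.V := Module.finite_of_finite k
  have hkill : KilledByP p (ρbar.V × ρbar.V) := by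
    intro v
    have : CharP k p := Fermat.Agent.TW.Cocycle.Contract95.charP_of_algebra_zmod p
    rw [← Nat.cast_smul_eq_nsmul k p v, CharP.cast_eq_zero k p, zero_smul]
  set act := extAct p ρbar c with hact
  have hV : LocalFlatModel p (ρbar.V × ρbar.V) act := hc
  set L : AddSubgroup (ρbar.V × ρbar.V) := Iaug p act ⊤ with hL
  -- (i) `L` is stable under the action
  have hLact : ∀ g, ∀ x ∈ L, act g x ∈ L := fun g x hx =>
    act_mem_Iaug hV (fun _ _ _ => AddSubgroup.mem_top _) g hx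
  -- (ii) `L` is stable under `k`
  have hLsmul : ∀ a : k, ∀ x ∈ L, a • x ∈ L := fun a x hx =>
    map_mem_Iaug (DistribSMul.toAddMonoidHom (ρbar.V × ρbar.V) a)
      (fun τ v => (extAct_smul p ρbar c τ a v).symm) (fun _ _ => AddSubgroup.mem_top _) hx
  -- (iii) `L ∩ (0 × V) ⊆ 0 × ℓ`
  let W : AddSubgroup (ρbar.V × ρbar.V) := AddSubgroup.prod ⊥ ⊤
  have hmemW : ∀ x : ρbar.V × ρbar.V, x ∈ W ↔ x.1 = 0 := by
    intro x
    simp [W, AddSubgroup.mem_prod]
  have hWstab : ∀ τ, ∀ v ∈ W, act τ v ∈ W := by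
    intro τ v hv
    rw [hmemW] at hv ⊢
    rw [hact, extAct_fst, hv, map_zero]
  have hLW : ∀ x ∈ L, x.1 = 0 → x.2 ∈ ℓ := by
    intro x hx hx1
    have h1 : x ∈ Iaug p act W := hex _ act hV hkill W hWstab x ((hmemW x).2 hx1) hx
    have key : ∀ y ∈ Iaug p act W, y.2 ∈ ℓ := by
      intro y hy
      unfold Iaug at hy
      induction hy using AddSubgroup.closure_induction with
      | mem y hy =>
        obtain ⟨τ, hτ, w, hw, rfl⟩ := hy
        rw [hmemW] at hw
        have h2 : (act τ w - w).2 = rbarLoc p ρbar τ w.2 - w.2 := by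
          rw [hact, Prod.snd_sub]
          simp [extAct, hw]
        rw [h2, hℓ]
        exact sub_mem_Iaug (act := fun τ v => rbarLoc p ρbar τ v) hτ (AddSubgroup.mem_top _)
      | zero => exact ℓ.zero_mem
      | add y z _ _ hy hz => exact ℓ.add_mem hy hz
      | neg y _ hy => exact ℓ.neg_mem hy
    exact key x h1
  -- (iv) the first projection of `L` lies in `ℓ`
  have hL1 : ∀ x ∈ L, x.1 ∈ ℓ := by
    intro x hx
    rw [hℓ]
    exact map_mem_Iaug (act := act) (act' := fun τ v => rbarLoc p ρbar τ v)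
      (AddMonoidHom.fst ρbar.V ρbar.V)
      (fun τ v => extAct_fst p ρbar c τ v) (fun _ _ => AddSubgroup.mem_top _) hx
  -- (v) and is all of `ℓ`
  have hL1' : ∀ v ∈ ℓ, ∃ x ∈ L, x.1 = v := by
    intro v hv
    rw [hℓ] at hv
    unfold Iaug at hv
    induction hv using AddSubgroup.closure_induction with
    | mem v hv =>
      obtain ⟨τ, hτ, u, -, rfl⟩ := hv
      exact ⟨act τ (u, 0) - (u, 0), sub_mem_Iaug hτ (AddSubgroup.mem_top _), rfl⟩
    | zero => exact ⟨0, L.zero_mem, rfl⟩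
    | add v w _ _ hv hw =>
      obtain ⟨x, hx, rfl⟩ := hv
      obtain ⟨y, hy, rfl⟩ := hw
      exact ⟨x + y, L.add_mem hx hy, rfl⟩
    | neg v _ hv =>
      obtain ⟨x, hx, rfl⟩ := hv
      exact ⟨-x, L.neg_mem hx, rfl⟩
  -- (vi) a generator of `ℓ`
  obtain ⟨⟨e1, he1ℓ⟩, he1ne, hgen⟩ := finrank_eq_one_iff'.1 hℓ1
  have he1 : e1 ≠ 0 := fun h => he1ne (Subtype.ext h)
  have hgen' : ∀ v ∈ ℓ, ∃ a : k, a • e1 = v := by
    intro v hv
    obtain ⟨a, ha⟩ := hgen ⟨v, hv⟩
    exact ⟨a, congrArg Subtype.val ha⟩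
  obtain ⟨x1, hx1L, hx11⟩ := hL1' e1 he1ℓ
  obtain ⟨f, hf⟩ := Module.Projective.exists_dual_eq_one k he1
  -- (vii) the endomorphism `m` with `m e1 = x1.2`
  let m : Module.End k ρbar.V := LinearMap.smulRight f x1.2
  have hm : m e1 = x1.2 := by
    show f e1 • x1.2 = x1.2
    rw [hf, one_smul]
  refine ⟨m, FlatCocycle.cobTwist p ρbar hc m, ?_⟩
  -- (viii) the values of the twisted cochain preserve `ℓ`
  have hstep : ∀ τ, cobTwist p ρbar c m τ (rbarLoc p ρbar τ e1) ∈ ℓ := by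
    intro τ
    have h1 : act τ x1 ∈ L := hLact τ x1 hx1L
    have h2 : rbarLoc p ρbar τ e1 ∈ ℓ := by
      have := hL1 _ h1
      rwa [hact, extAct_fst, hx11] at this
    obtain ⟨a, ha⟩ := hgen' _ h2
    have h3 : act τ x1 - a • x1 ∈ L := L.sub_mem h1 (hLsmul a x1 hx1L)
    have h4 : (act τ x1 - a • x1).1 = 0 := by
      rw [Prod.fst_sub, hact, extAct_fst, Prod.smul_fst, hx11, ha, sub_self]
    have h5 := hLW _ h3 h4
    have h6 : (act τ x1 - a • x1).2 =
        rbarLoc p ρbar τ x1.2 + c τ (rbarLoc p ρbar τ e1) - a • x1.2 := by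
      rw [Prod.snd_sub, Prod.smul_snd, hact]
      simp [extAct, hx11]
    rw [h6] at h5
    have h7 : cobTwist p ρbar c m τ (rbarLoc p ρbar τ e1) =
        rbarLoc p ρbar τ x1.2 + c τ (rbarLoc p ρbar τ e1) - a • x1.2 := by
      have h8 := LinearMap.congr_fun (cobTwist_mul_rbarLoc p ρbar c m τ) e1
      simp only [Module.End.mul_apply, LinearMap.add_apply, LinearMap.sub_apply] at h8
      have hm2 : m (rbarLoc p ρbar τ e1) = a • x1.2 := by rw [← ha, map_smul, hm]
      rw [h8, hm, hm2]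
      abel
    rw [h7]
    exact h5
  intro τ v hv
  -- `v = b • ρbar(τ) e1`
  have h2 : rbarLoc p ρbar τ e1 ∈ ℓ := by
    have h1 : act τ x1 ∈ L := hLact τ x1 hx1L
    have := hL1 _ h1
    rwa [hact, extAct_fst, hx11] at this
  obtain ⟨a, ha⟩ := hgen' _ h2
  have ha0 : a ≠ 0 := by
    rintro rfl
    rw [zero_smul] at ha
    have h9 : rbarLoc p ρbar τ⁻¹ (rbarLoc p ρbar τ e1) = e1 := by
      have := LinearMap.congr_fun (rbarLoc_inv_mul p ρbar τ) e1
      simpa [Module.End.mul_apply] using this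
    rw [← ha, map_zero] at h9
    exact he1 h9.symm
  obtain ⟨b, hb⟩ := hgen' v hv
  have h10 : v = (b * a⁻¹) • rbarLoc p ρbar τ e1 := by
    rw [← ha, smul_smul, mul_assoc, inv_mul_cancel₀ ha0, mul_one, hb]
  rw [h10, map_smul]
  exact ℓ.smul_mem _ (hstep τ)

end Main

/-! ### Class form -/

section ClassForm

open Fermat.Agent.TW.Spec.Defs52 Fermat.Agent.TW.Cnt.AdmH1_55 Fermat.Agent.TW.Cnt.BridgeAdm54
open Fermat.Agent.TW.FF.Spec72 (ClosureProd)
open groupCohomology ExtCitation CategoryTheory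

variable {k : Type} [Field k] (ρbar : ResidualGaloisRep k)

/-- Scalars do not change the coboundary. -/
theorem cobTwist_sub_smul_one (c : GQp p → Module.End k ρbar.V) (m : Module.End k ρbar.V) (a : k) :
    cobTwist p ρbar c (m - a • (1 : Module.End k ρbar.V)) = cobTwist p ρbar c m := by
  funext τ
  unfold cobTwist
  rw [mul_sub, sub_mul, mul_smul_comm, mul_one, smul_mul_assoc, rbarLoc_mul_inv]
  abel

variable [Algebra (ZMod p) k] [Finite k]

/-- **ORD3, class form.** If `ℓ = I_aug (ρbar.V)` is a line, every flat class of `H¹(G_p, ad⁰ ρbar)` is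
represented by an admissible cocycle all of whose values preserve `ℓ` (so that
`AdFilt55.H1π_mem_map_W1` applies in a basis adapted to `ℓ`). -/
theorem flatClass_exists_zadm_preserving (hex : CoinvExact p) (hp2 : p ≠ 2)
    (hprod : ClosureProd p) (ℓ : Submodule k ρbar.V) (hℓ1 : Module.finrank k ℓ = 1)
    (hℓ : ∀ v, v ∈ ℓ ↔ v ∈ Iaug p (fun τ v => rbarLoc p ρbar τ v) ⊤)
    {y : H1 (resAt (pPrime p) (ad0 p ρbar))} (hy : FlatClass p ρbar y) :
    ∃ c' : cocycles₁ (resAt (pPrime p) (ad0 p ρbar)),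
      (H1π (resAt (pPrime p) (ad0 p ρbar))).hom c' = y ∧
      c' ∈ Zadm (admFam p hprod) (resAt (pPrime p) (ad0 p ρbar)) ∧
      ∀ τ, ∀ v ∈ ℓ, ad0ToEnd p ρbar (c'.1 τ) v ∈ ℓ := by
  obtain ⟨c, -, rfl, hflat⟩ := hy
  set c0 : GQp p → Module.End k ρbar.V := fun τ => ad0ToEnd p ρbar (c.1 (toLoc p τ)) with hc0
  obtain ⟨m, -, hpres⟩ := exists_cobTwist_preserving_line p ρbar hex hflat ℓ hℓ1 hℓ
  -- make `m` trace-free
  have hchar : CharP k p := Fermat.Agent.TW.Cocycle.Contract95.charP_of_algebra_zmod p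
  have h2 : (2 : k) ≠ 0 := by
    intro h
    have h3 : ((2 : ℕ) : k) = 0 := by exact_mod_cast h
    rw [CharP.cast_eq_zero_iff k p] at h3
    have hp : p.Prime := Fact.out
    exact hp2 ((Nat.prime_dvd_prime_iff_eq hp Nat.prime_two).1 h3)
  set a : k := 2⁻¹ * LinearMap.trace k ρbar.V m with ha
  set m0 : Module.End k ρbar.V := m - a • (1 : Module.End k ρbar.V) with hm0
  have htw : cobTwist p ρbar c0 m0 = cobTwist p ρbar c0 m := cobTwist_sub_smul_one p ρbar c0 m a
  have htr : LinearMap.trace k ρbar.V m0 = 0 := by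
    rw [hm0, map_sub, map_smul, LinearMap.trace_one, ρbar.finrank_eq, ha, smul_eq_mul]
    push_cast
    field_simp
    ring
  have hflat0 : FlatCocycle p ρbar (cobTwist p ρbar c0 m0) := FlatCocycle.cobTwist p ρbar hflat m0
  -- the element of `ad⁰` and the new cocycle
  let x0 : ad0 p ρbar := (⟨m0, (mem_End0_iff ρbar m0).2 htr⟩ : End0 ρbar)
  have hx0 : ad0ToEnd p ρbar x0 = m0 := rfl
  have hcoc : ∀ g h : primeLocalGaloisGroup (pPrime p),
      c.1 (g * h) = (resAt (pPrime p) (ad0 p ρbar)).ρ g (c.1 h) + c.1 g :=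
    (mem_cocycles₁_iff c.1).1 c.2
  let f' : primeLocalGaloisGroup (pPrime p) → resAt (pPrime p) (ad0 p ρbar) :=
    fun τ => c.1 τ + ((resAt (pPrime p) (ad0 p ρbar)).ρ τ x0 - x0)
  have hf' : f' ∈ cocycles₁ (resAt (pPrime p) (ad0 p ρbar)) := by
    rw [mem_cocycles₁_iff]
    intro g h
    show c.1 (g * h) + ((resAt (pPrime p) (ad0 p ρbar)).ρ (g * h) x0 - x0) =
      (resAt (pPrime p) (ad0 p ρbar)).ρ g
        (c.1 h + ((resAt (pPrime p) (ad0 p ρbar)).ρ h x0 - x0)) +
        (c.1 g + ((resAt (pPrime p) (ad0 p ρbar)).ρ g x0 - x0))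
    rw [hcoc g h, map_add, map_sub, map_mul, Module.End.mul_apply]
    abel
  -- the value of the new cocycle as an endomorphism
  have key : ∀ τ : primeLocalGaloisGroup (pPrime p),
      ad0ToEnd p ρbar (f' τ) = cobTwist p ρbar c0 m0 ((toLoc p).symm τ) := by
    intro τ
    show ad0ToEnd p ρbar (c.1 τ + ((resAt (pPrime p) (ad0 p ρbar)).ρ τ x0 - x0)) = _
    rw [Fermat.Agent.TW.Cocycle.Contract95.ad0ToEnd_add,
      Fermat.Agent.TW.Cocycle.Contract95.ad0ToEnd_sub]
    have h5 : ad0ToEnd p ρbar ((resAt (pPrime p) (ad0 p ρbar)).ρ τ x0) =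
        rbarLoc p ρbar ((toLoc p).symm τ) * m0 * rbarLoc p ρbar ((toLoc p).symm τ)⁻¹ := by
      show ad0ToEnd p ρbar ((ad0 p ρbar).ρ (locAt (pPrime p) τ) x0) = _
      rw [ad0_ρ_apply, hx0, locAt_eq]
      unfold rbarLoc
      rw [map_inv (localGaloisToGlobal p) ((toLoc p).symm τ)]
    rw [h5, hx0]
    rfl
  refine ⟨⟨f', hf'⟩, ?_, ?_, ?_⟩
  · rw [H1π_eq_iff]
    refine ⟨x0, ?_⟩
    funext τ
    rw [d₀₁_hom_apply]
    show (resAt (pPrime p) (ad0 p ρbar)).ρ τ x0 - x0 =
      (c.1 τ + ((resAt (pPrime p) (ad0 p ρbar)).ρ τ x0 - x0)) - c.1 τ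
    abel
  · -- admissibility
    refine ⟨(AdmFlat72.kerOf hflat0).comap (toLoc p).symm.toMonoidHom,
      comap_symm_mem_admFam p hprod (kerOf_mem_admFamily_of_flatCocycle p ρbar hflat0),
      fun n hn => ?_⟩
    have h1 : (toLoc p).symm n ∈ AdmFlat72.kerOf hflat0 := hn
    have h2 := ((mem_kerOf_flatCocycle_iff p ρbar hflat0 _).1 h1).2
    rw [← key] at h2
    exact Fermat.Agent.TW.Cocycle.Contract95.ad0ToEnd_injective p ρbar h2
  · intro τ v hv
    show ad0ToEnd p ρbar (f' τ) v ∈ ℓ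
    rw [key, htw]
    exact hpres _ v hv

end ClassForm

end Fermat.Agent.TW.Cnt.OrdShape54
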