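/-
TW / WP7 / SHAPE, part 1 (helper97): the ABSTRACT core of `Table72.IndShape` (Mathlib only).

`exists_induced_shape`: `Γ` a group, `k` a finite field of characteristic `p`, `V` a plane over `k`,
`ρ : Γ →* End_k V`, normal subgroups `I`, `W` of `Γ` and `φ : Γ` such that
* the image of `W` is a `p`-group (`ρ w ^ p ^ a = 1`),
* commutators of `I` lie in `W`, and `φ τ φ⁻¹ (τ ^ p)⁻¹ ∈ W` for `τ ∈ I`,
* every `ρ g` is `ρ (φ ^ n * τ)` with `τ ∈ I`,
* all characteristic polynomials split, and there is no stable line.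
Then `ρ` is induced from an index two subgroup `H ⊇ I`: in a suitable basis `H` is diagonal with characters
`χ₁, χ₂`, the complement of `H` is antidiagonal, `χ₂ = χ₁ ^ p` on `I` and `χ₁ ≠ χ₂` somewhere on `I`.

Proof: fixed points of `p`-groups give `ρ(W) = 1`, so `ρ(I)` is commutative and has a common eigenvector
`v₁`; `v₂ = ρ(g₀) v₁` is independent of `v₁` (no stable line) and again a common eigenvector (`I` normal).
If `I` were scalar, an eigenvector of `ρ(φ)` would span a stable line. So the two eigenlines are permuted by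
`Γ`, `H` is the stabiliser of `k v₁`, `φ ∉ H`, and conjugation by `φ` gives `χ₂ = χ₁ ^ p`.
-/
import Mathlib

set_option autoImplicit false

noncomputable section

namespace Fermat.Agent.TW.Cnt.ShapeAbs97

open Module Polynomial Matrix

variable {Γ : Type*} [Group Γ] {k : Type*} [Field k] {V : Type*} [AddCommGroup V] [Module k V]

/-! ### Generalities -/

section Basics

variable (ρ : Γ →* Module.End k V)

theorem rho_mul_apply (g h : Γ) (v : V) : ρ (g * h) v = ρ g (ρ h v) := by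
  rw [map_mul]; rfl

theorem rho_one_apply (v : V) : ρ 1 v = v := by
  rw [map_one]; rfl

theorem rho_inv_apply (g : Γ) (v : V) : ρ g⁻¹ (ρ g v) = v := by
  rw [← rho_mul_apply, inv_mul_cancel, rho_one_apply]

theorem rho_apply_inv (g : Γ) (v : V) : ρ g (ρ g⁻¹ v) = v := by
  rw [← rho_mul_apply, mul_inv_cancel, rho_one_apply]

theorem rho_injective (g : Γ) : Function.Injective (ρ g) :=
  Function.LeftInverse.injective (rho_inv_apply ρ g)

theorem rho_pow_apply_eigen {g : Γ} {v : V} {a : k} (h : ρ g v = a • v) (n : ℕ) :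
    ρ (g ^ n) v = a ^ n • v := by
  induction n with
  | zero => simp
  | succ n ih => rw [pow_succ, rho_mul_apply, h, map_smul, ih, smul_smul, pow_succ, mul_comm]

end Basics

/-! ### Pairs of independent vectors in a plane -/

section Pair

theorem linearIndependent_pair {v w : V} (hv : v ≠ 0) (hw : ¬ ∃ a : k, w = a • v) :
    LinearIndependent k ![v, w] := by
  rw [LinearIndependent.pair_iff' hv]
  intro a ha
  exact hw ⟨a, ha.symm⟩

variable (hV : finrank k V = 2)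

/-- The basis `(v, w)` of a plane. -/
def pairBasis {v w : V} (hv : v ≠ 0) (hw : ¬ ∃ a : k, w = a • v) : Basis (Fin 2) k V :=
  basisOfLinearIndependentOfCardEqFinrank (linearIndependent_pair hv hw) (by rw [hV]; rfl)

theorem pairBasis_zero {v w : V} (hv : v ≠ 0) (hw : ¬ ∃ a : k, w = a • v) :
    pairBasis hV hv hw 0 = v := by
  simp [pairBasis]

theorem pairBasis_one {v w : V} (hv : v ≠ 0) (hw : ¬ ∃ a : k, w = a • v) :
    pairBasis hV hv hw 1 = w := by
  simp [pairBasis]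

theorem eq_pair_combination {v w : V} (hv : v ≠ 0) (hw : ¬ ∃ a : k, w = a • v) (u : V) :
    u = (pairBasis hV hv hw).repr u 0 • v + (pairBasis hV hv hw).repr u 1 • w := by
  conv_lhs => rw [← (pairBasis hV hv hw).sum_repr u]
  rw [Fin.sum_univ_two, pairBasis_zero, pairBasis_one]

include hV in
theorem prime_dvd_card (p : ℕ) [Fact p.Prime] [CharP k p] [Finite V] : p ∣ Nat.card V := by
  have : Nontrivial V := Module.nontrivial_of_finrank_pos (R := k) (by rw [hV]; norm_num)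
  obtain ⟨v, hv⟩ := exists_ne (0 : V)
  have h1 : addOrderOf v = p := by
    apply addOrderOf_eq_prime
    · rw [← Nat.cast_smul_eq_nsmul k, CharP.cast_eq_zero, zero_smul]
    · exact hv
  rw [← h1]
  exact addOrderOf_dvd_natCard v

end Pair


/-! ### Representations of a group on a plane without stable line -/

section NoLine

variable [Module.Finite k V] (hV : finrank k V = 2) (ρ : Γ →* Module.End k V)
  (hline : ∀ v : V, v ≠ 0 → ∃ g : Γ, ¬ ∃ a : k, ρ g v = a • v)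

omit [Module.Finite k V] in
include hV hline in
/-- A nonzero stable subspace is everything. -/
theorem eq_top_of_stable (F : Submodule k V) (hF : ∃ v ∈ F, v ≠ 0)
    (hstab : ∀ g : Γ, ∀ v ∈ F, ρ g v ∈ F) : F = ⊤ := by
  obtain ⟨v, hvF, hv⟩ := hF
  obtain ⟨g, hg⟩ := hline v hv
  rw [Submodule.eq_top_iff']
  intro u
  rw [eq_pair_combination hV hv hg u]
  exact F.add_mem (F.smul_mem _ hvF) (F.smul_mem _ (hstab g v hvF))

include hV hline in
/-- A normal subgroup whose image is a `p`-group acts trivially. -/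
theorem rho_eq_one_of_pgroup (p : ℕ) [Fact p.Prime] [CharP k p] [Finite k]
    (W : Subgroup Γ) [hW : W.Normal] (hWp : ∀ w ∈ W, ∃ a : ℕ, ρ w ^ p ^ a = 1) :
    ∀ w ∈ W, ρ w = 1 := by
  have hVfin : Finite V := Module.finite_of_finite k
  -- the fixed space
  let F : Submodule k V :=
    { carrier := {v | ∀ w ∈ W, ρ w v = v}
      add_mem' := fun {a b} ha hb w hw => by rw [map_add, ha w hw, hb w hw]
      zero_mem' := fun w _ => map_zero _
      smul_mem' := fun c v hv w hw => by rw [map_smul, hv w hw] }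
  have hFtop : F = ⊤ := by
    apply eq_top_of_stable hV ρ hline F
    · -- a nonzero fixed vector, from the fixed point formula for `p`-groups
      let ρu : Γ →* (Module.End k V)ˣ := ρ.toHomUnits
      let P : Subgroup (Module.End k V)ˣ := W.map ρu
      have hP : IsPGroup p P := by
        rintro ⟨x, hx⟩
        obtain ⟨w, hw, rfl⟩ := Subgroup.mem_map.mp hx
        obtain ⟨a, ha⟩ := hWp w hw
        refine ⟨a, ?_⟩
        apply Subtype.ext
        apply Units.ext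
        simpa [ρu] using ha
      have h0 : (0 : V) ∈ MulAction.fixedPoints P V := by
        intro g
        exact smul_zero g
      obtain ⟨v, hvfix, hv0⟩ :=
        hP.exists_fixed_point_of_prime_dvd_card_of_fixed_point V (prime_dvd_card hV p) h0
      refine ⟨v, ?_, fun h => hv0 h.symm⟩
      intro w hw
      have := hvfix ⟨ρu w, Subgroup.mem_map_of_mem ρu hw⟩
      exact this
    · intro g v hv w hw
      have h1 : g⁻¹ * w * g ∈ W := by
        have := hW.conj_mem w hw g⁻¹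
        rwa [inv_inv] at this
      have h2 := hv _ h1
      have h3 : w * g = g * (g⁻¹ * w * g) := by group
      rw [← rho_mul_apply, h3, rho_mul_apply, h2]
  intro w hw
  apply LinearMap.ext
  intro v
  have hv : v ∈ F := by rw [hFtop]; trivial
  exact hv w hw


omit [Module.Finite k V] in
/-- If commutators of `I` act trivially, the image of `I` is commutative. -/
theorem rho_commute (I : Subgroup Γ)
    (h : ∀ τ ∈ I, ∀ τ' ∈ I, ρ (τ * τ' * τ⁻¹ * τ'⁻¹) = 1) {τ τ' : Γ} (hτ : τ ∈ I) (hτ' : τ' ∈ I)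
    (v : V) : ρ τ (ρ τ' v) = ρ τ' (ρ τ v) := by
  have h1 : τ * τ' = (τ * τ' * τ⁻¹ * τ'⁻¹) * (τ' * τ) := by group
  rw [← rho_mul_apply, h1, rho_mul_apply, h τ hτ τ' hτ', rho_mul_apply]
  rfl

/-- A root of the characteristic polynomial gives an eigenvector. -/
theorem exists_eigenvector (g : Γ)
    (hsplit : ∃ α β : k, LinearMap.charpoly (ρ g) = (X - C α) * (X - C β)) :
    ∃ (α : k) (v : V), v ≠ 0 ∧ ρ g v = α • v := by
  obtain ⟨α, β, h⟩ := hsplit
  have hroot : (LinearMap.charpoly (ρ g)).IsRoot α := by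
    rw [h, Polynomial.IsRoot.def]; simp
  have hev := (Module.End.hasEigenvalue_iff_isRoot_charpoly (ρ g) α).mpr hroot
  obtain ⟨v, hv⟩ := hev.exists_hasEigenvector
  exact ⟨α, v, hv.2, hv.apply_eq_smul⟩

include hV in
/-- A commutative family of endomorphisms of a plane with split characteristic polynomials has a
common eigenvector. -/
theorem exists_common_eigenvector (I : Subgroup Γ)
    (hc : ∀ τ ∈ I, ∀ τ' ∈ I, ∀ v : V, ρ τ (ρ τ' v) = ρ τ' (ρ τ v))
    (hsplit : ∀ g : Γ, ∃ α β : k, LinearMap.charpoly (ρ g) = (X - C α) * (X - C β)) :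
    ∃ v : V, v ≠ 0 ∧ ∀ τ ∈ I, ∃ a : k, ρ τ v = a • v := by
  by_cases hsc : ∀ τ ∈ I, ∃ a : k, ∀ v : V, ρ τ v = a • v
  · have : Nontrivial V := Module.nontrivial_of_finrank_pos (R := k) (by rw [hV]; norm_num)
    obtain ⟨v, hv⟩ := exists_ne (0 : V)
    exact ⟨v, hv, fun τ hτ => (hsc τ hτ).imp fun a ha => ha v⟩
  · push Not at hsc
    obtain ⟨τ₁, hτ₁, hns⟩ := hsc
    obtain ⟨α, v, hv, hα⟩ := exists_eigenvector ρ τ₁ (hsplit τ₁)
    refine ⟨v, hv, fun τ hτ => ?_⟩
    by_contra hcon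
    -- `v` and `ρ τ v` are independent eigenvectors of `ρ τ₁` for `α`, so `ρ τ₁` is scalar
    obtain ⟨u, hu⟩ := hns α
    apply hu
    rw [eq_pair_combination hV hv hcon u]
    rw [map_add, map_smul, map_smul, hα, hc τ₁ hτ₁ τ hτ, hα, map_smul, smul_add, smul_comm α,
      smul_comm α]

end NoLine


/-! ### Monomial `2 × 2` matrix representations -/

section Mat

variable (m : Γ →* Matrix (Fin 2) (Fin 2) k)

theorem mat_mul_apply (g h : Γ) (i j : Fin 2) :
    m (g * h) i j = m g i 0 * m h 0 j + m g i 1 * m h 1 j := by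
  rw [map_mul, Matrix.mul_apply, Fin.sum_univ_two]

theorem mat_one_apply_eq (i : Fin 2) : m 1 i i = 1 := by
  rw [map_one]; exact Matrix.one_apply_eq i

theorem mat_one_apply_ne {i j : Fin 2} (h : i ≠ j) : m 1 i j = 0 := by
  rw [map_one]; exact Matrix.one_apply_ne h

theorem mat_row_ne_zero (g : Γ) (i : Fin 2) : ¬ (m g i 0 = 0 ∧ m g i 1 = 0) := by
  rintro ⟨h0, h1⟩
  have h2 := mat_mul_apply m g g⁻¹ i i
  rw [mul_inv_cancel, h0, h1, zero_mul, zero_mul, add_zero, mat_one_apply_eq] at h2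
  exact one_ne_zero h2

/-- The elements acting diagonally. -/
def diagSubgroup : Subgroup Γ where
  carrier := {g | m g 1 0 = 0 ∧ m g 0 1 = 0}
  one_mem' := ⟨mat_one_apply_ne m (by decide), mat_one_apply_ne m (by decide)⟩
  mul_mem' := fun {g h} hg hh => by
    refine ⟨?_, ?_⟩
    · rw [mat_mul_apply, hg.1, hh.1]; ring
    · rw [mat_mul_apply, hg.2, hh.2]; ring
  inv_mem' := fun {g} hg => by
    have h00 : m g 0 0 ≠ 0 := fun h => mat_row_ne_zero m g 0 ⟨h, hg.2⟩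
    have h11 : m g 1 1 ≠ 0 := fun h => mat_row_ne_zero m g 1 ⟨hg.1, h⟩
    have e10 := mat_mul_apply m g g⁻¹ 1 0
    have e01 := mat_mul_apply m g g⁻¹ 0 1
    rw [mul_inv_cancel, mat_one_apply_ne m (by decide), hg.1, zero_mul, zero_add] at e10
    rw [mul_inv_cancel, mat_one_apply_ne m (by decide), hg.2, zero_mul, add_zero] at e01
    exact ⟨(mul_eq_zero.mp e10.symm).resolve_left h11, (mul_eq_zero.mp e01.symm).resolve_left h00⟩

theorem mem_diagSubgroup {g : Γ} : g ∈ diagSubgroup m ↔ m g 1 0 = 0 ∧ m g 0 1 = 0 := Iff.rfl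

/-- The two diagonal characters. -/
def diagChar (i : Fin 2) : ↥(diagSubgroup m) →* kˣ :=
  MonoidHom.toHomUnits
    { toFun := fun h => m (h : Γ) i i
      map_one' := mat_one_apply_eq m i
      map_mul' := fun h h' => by
        have h1 := h.2
        have h2 := h'.2
        rw [mem_diagSubgroup] at h1 h2
        fin_cases i
        · show m ((h : Γ) * (h' : Γ)) 0 0 = m (h : Γ) 0 0 * m (h' : Γ) 0 0
          rw [mat_mul_apply, h1.2]; ring
        · show m ((h : Γ) * (h' : Γ)) 1 1 = m (h : Γ) 1 1 * m (h' : Γ) 1 1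
          rw [mat_mul_apply, h1.1]; ring }

theorem coe_diagChar (i : Fin 2) (h : ↥(diagSubgroup m)) : ((diagChar m i h : kˣ) : k) = m (h : Γ) i i :=
  rfl

variable (I : Subgroup Γ) [hI : I.Normal] (hdiag : ∀ τ ∈ I, m τ 1 0 = 0 ∧ m τ 0 1 = 0)
  {τ₀ : Γ} (hτ₀ : τ₀ ∈ I) (hne : m τ₀ 0 0 ≠ m τ₀ 1 1)

include hI hdiag hτ₀ hne in
/-- Each column of `m g` has a zero: `m g` permutes the two eigenlines of `τ₀`. -/
theorem mat_col (g : Γ) (j : Fin 2) : m g 0 j = 0 ∨ m g 1 j = 0 := by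
  by_contra hcon
  push Not at hcon
  obtain ⟨h0, h1⟩ := hcon
  have hτ' : g⁻¹ * τ₀ * g ∈ I := by
    have := hI.conj_mem τ₀ hτ₀ g⁻¹
    rwa [inv_inv] at this
  have e : τ₀ * g = g * (g⁻¹ * τ₀ * g) := by group
  obtain ⟨d10, d01⟩ := hdiag τ₀ hτ₀
  obtain ⟨d10', d01'⟩ := hdiag _ hτ'
  have e0 : m (τ₀ * g) 0 j = m (g * (g⁻¹ * τ₀ * g)) 0 j := by rw [← e]
  have e1 : m (τ₀ * g) 1 j = m (g * (g⁻¹ * τ₀ * g)) 1 j := by rw [← e]
  rw [mat_mul_apply, mat_mul_apply, d01] at e0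
  rw [mat_mul_apply, mat_mul_apply, d10] at e1
  apply hne
  fin_cases j
  · simp only [Fin.zero_eta, Fin.isValue] at h0 h1 e0 e1
    rw [d10'] at e0 e1
    have a1 : m τ₀ 0 0 = m (g⁻¹ * τ₀ * g) 0 0 := by
      have : m τ₀ 0 0 * m g 0 0 = m (g⁻¹ * τ₀ * g) 0 0 * m g 0 0 := by linear_combination e0
      exact mul_right_cancel₀ h0 this
    have a2 : m τ₀ 1 1 = m (g⁻¹ * τ₀ * g) 0 0 := by
      have : m τ₀ 1 1 * m g 1 0 = m (g⁻¹ * τ₀ * g) 0 0 * m g 1 0 := by linear_combination e1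
      exact mul_right_cancel₀ h1 this
    rw [a1, a2]
  · simp only [Fin.mk_one, Fin.isValue] at h0 h1 e0 e1
    rw [d01'] at e0 e1
    have a1 : m τ₀ 0 0 = m (g⁻¹ * τ₀ * g) 1 1 := by
      have : m τ₀ 0 0 * m g 0 1 = m (g⁻¹ * τ₀ * g) 1 1 * m g 0 1 := by linear_combination e0
      exact mul_right_cancel₀ h0 this
    have a2 : m τ₀ 1 1 = m (g⁻¹ * τ₀ * g) 1 1 := by
      have : m τ₀ 1 1 * m g 1 1 = m (g⁻¹ * τ₀ * g) 1 1 * m g 1 1 := by linear_combination e1
      exact mul_right_cancel₀ h1 this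
    rw [a1, a2]

include hI hdiag hτ₀ hne in
/-- Outside the diagonal subgroup the matrices are antidiagonal. -/
theorem anti_of_not_mem {g : Γ} (hg : g ∉ diagSubgroup m) : m g 0 0 = 0 ∧ m g 1 1 = 0 := by
  rw [mem_diagSubgroup] at hg
  have c0 := mat_col m I hdiag hτ₀ hne g 0
  have c1 := mat_col m I hdiag hτ₀ hne g 1
  have r0 := mat_row_ne_zero m g 0
  have r1 := mat_row_ne_zero m g 1
  tauto

include hI hdiag hτ₀ hne in
theorem index_diagSubgroup (hex : ∃ s : Γ, s ∉ diagSubgroup m) : (diagSubgroup m).index = 2 := by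
  obtain ⟨a, ha⟩ := hex
  rw [Subgroup.index_eq_two_iff]
  refine ⟨a, fun b => ?_⟩
  by_cases hb : b ∈ diagSubgroup m
  · refine Or.inr ⟨hb, ?_⟩
    rw [Subgroup.mul_mem_cancel_left _ hb]
    exact ha
  · refine Or.inl ⟨?_, hb⟩
    obtain ⟨a00, a11⟩ := anti_of_not_mem m I hdiag hτ₀ hne ha
    obtain ⟨b00, b11⟩ := anti_of_not_mem m I hdiag hτ₀ hne hb
    rw [mem_diagSubgroup]
    refine ⟨?_, ?_⟩
    · rw [mat_mul_apply, a00, b11]; ring
    · rw [mat_mul_apply, a11, b00]; ring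

end Mat


/-! ### The matrix homomorphism attached to a basis -/

section MatHom

/-- The matrices of `ρ` in the basis `b`, as a monoid homomorphism. -/
def matHom (b : Basis (Fin 2) k V) (ρ : Γ →* Module.End k V) : Γ →* Matrix (Fin 2) (Fin 2) k where
  toFun g := LinearMap.toMatrix b b (ρ g)
  map_one' := by rw [map_one]; exact LinearMap.toMatrix_one b
  map_mul' g h := by rw [map_mul]; exact LinearMap.toMatrix_mul b _ _

theorem matHom_apply (b : Basis (Fin 2) k V) (ρ : Γ →* Module.End k V) (g : Γ) :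
    matHom b ρ g = LinearMap.toMatrix b b (ρ g) := rfl

theorem matHom_of_eigen (b : Basis (Fin 2) k V) (ρ : Γ →* Module.End k V) {g : Γ} {j : Fin 2}
    {a : k} (h : ρ g (b j) = a • b j) (i : Fin 2) :
    matHom b ρ g i j = if i = j then a else 0 := by
  rw [matHom_apply, LinearMap.toMatrix_apply, h, map_smul, Basis.repr_self, Finsupp.smul_apply,
    Finsupp.single_apply]
  split_ifs with h1 h2 h2
  · simp
  · exact absurd h1.symm h2
  · exact absurd h2.symm h1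
  · simp

theorem apply_basis_eq (b : Basis (Fin 2) k V) (ρ : Γ →* Module.End k V) (g : Γ) (j : Fin 2) :
    ρ g (b j) = matHom b ρ g 0 j • b 0 + matHom b ρ g 1 j • b 1 := by
  conv_lhs => rw [← b.sum_repr (ρ g (b j))]
  rw [Fin.sum_univ_two, matHom_apply, LinearMap.toMatrix_apply, LinearMap.toMatrix_apply]

theorem matHom_congr (b : Basis (Fin 2) k V) (ρ : Γ →* Module.End k V) {g g' : Γ}
    (h : ρ g = ρ g') : matHom b ρ g = matHom b ρ g' := by
  rw [matHom_apply, matHom_apply, h]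

end MatHom

/-! ### The main statement -/

section Main

variable [Module.Finite k V]

/-- **Abstract `IndShape`.** -/
theorem exists_induced_shape
    (p : ℕ) [Fact p.Prime] [CharP k p] [Finite k] (hV : finrank k V = 2)
    (ρ : Γ →* Module.End k V) (I W : Subgroup Γ) [hI : I.Normal] [hW : W.Normal]
    (hWp : ∀ w ∈ W, ∃ a : ℕ, ρ w ^ p ^ a = 1)
    (hcomm : ∀ τ ∈ I, ∀ τ' ∈ I, τ * τ' * τ⁻¹ * τ'⁻¹ ∈ W)
    (φ : Γ) (hφ : ∀ τ ∈ I, φ * τ * φ⁻¹ * (τ ^ p)⁻¹ ∈ W)
    (hgen : ∀ g : Γ, ∃ n : ℕ, ∃ τ ∈ I, ρ g = ρ (φ ^ n * τ))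
    (hsplit : ∀ g : Γ, ∃ α β : k, LinearMap.charpoly (ρ g) = (X - C α) * (X - C β))
    (hline : ∀ v : V, v ≠ 0 → ∃ g : Γ, ¬ ∃ a : k, ρ g v = a • v) :
    ∃ (H : Subgroup Γ) (b : Basis (Fin 2) k V) (χ₁ χ₂ : ↥H →* kˣ),
      H.index = 2 ∧ I ≤ H ∧
      (∀ h : ↥H, LinearMap.toMatrix b b (ρ (h : Γ)) = Matrix.diagonal ![(χ₁ h : k), (χ₂ h : k)]) ∧
      (∀ s : Γ, s ∉ H →
        LinearMap.toMatrix b b (ρ s) 0 0 = 0 ∧ LinearMap.toMatrix b b (ρ s) 1 1 = 0) ∧
      (∀ τ : ↥H, (τ : Γ) ∈ I → χ₂ τ = χ₁ τ ^ p) ∧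
      (∃ τ : ↥H, (τ : Γ) ∈ I ∧ χ₁ τ ≠ χ₂ τ) := by
  -- Step 1: `W` acts trivially
  have hW1 : ∀ w ∈ W, ρ w = 1 := rho_eq_one_of_pgroup hV ρ hline p W hWp
  -- Step 2: the image of `I` is commutative
  have hc : ∀ τ ∈ I, ∀ τ' ∈ I, ∀ v : V, ρ τ (ρ τ' v) = ρ τ' (ρ τ v) := fun τ hτ τ' hτ' v =>
    rho_commute ρ I (fun σ hσ σ' hσ' => hW1 _ (hcomm σ hσ σ' hσ')) hτ hτ' v
  -- Step 3: two independent common eigenvectors
  obtain ⟨v₁, hv₁, hev₁⟩ := exists_common_eigenvector hV ρ I hc hsplit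
  obtain ⟨g₀, hg₀⟩ := hline v₁ hv₁
  have hev₂ : ∀ τ ∈ I, ∃ a : k, ρ τ (ρ g₀ v₁) = a • ρ g₀ v₁ := by
    intro τ hτ
    have h1 : g₀⁻¹ * τ * g₀ ∈ I := by
      have := hI.conj_mem τ hτ g₀⁻¹
      rwa [inv_inv] at this
    obtain ⟨a, ha⟩ := hev₁ _ h1
    refine ⟨a, ?_⟩
    have h3 : τ * g₀ = g₀ * (g₀⁻¹ * τ * g₀) := by group
    rw [← rho_mul_apply, h3, rho_mul_apply, ha, map_smul]
  set b := pairBasis hV hv₁ hg₀ with hb
  have hb0 : b 0 = v₁ := pairBasis_zero hV hv₁ hg₀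
  have hb1 : b 1 = ρ g₀ v₁ := pairBasis_one hV hv₁ hg₀
  set m := matHom b ρ with hm
  have hdiag : ∀ τ ∈ I, m τ 1 0 = 0 ∧ m τ 0 1 = 0 := by
    intro τ hτ
    obtain ⟨a₁, ha₁⟩ := hev₁ τ hτ
    obtain ⟨a₂, ha₂⟩ := hev₂ τ hτ
    rw [← hb0] at ha₁
    rw [← hb1] at ha₂
    exact ⟨by rw [hm, matHom_of_eigen b ρ ha₁]; simp, by rw [hm, matHom_of_eigen b ρ ha₂]; simp⟩
  -- Step 4: `I` does not act by scalars
  have hτ₀ : ∃ τ₀ ∈ I, m τ₀ 0 0 ≠ m τ₀ 1 1 := by
    by_contra hcon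
    push Not at hcon
    have hsc : ∀ τ ∈ I, ∀ u : V, ρ τ u = m τ 0 0 • u := by
      intro τ hτ u
      have e0 := apply_basis_eq b ρ τ 0
      have e1 := apply_basis_eq b ρ τ 1
      rw [← hm, (hdiag τ hτ).1, zero_smul, add_zero] at e0
      rw [← hm, (hdiag τ hτ).2, zero_smul, zero_add, ← hcon τ hτ] at e1
      conv_lhs => rw [← b.sum_repr u]
      rw [Fin.sum_univ_two, map_add, map_smul, map_smul, e0, e1]
      conv_rhs => rw [← b.sum_repr u]
      rw [Fin.sum_univ_two, smul_add, smul_comm (m τ 0 0), smul_comm (m τ 0 0)]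
    obtain ⟨c, u, hu, hcu⟩ := exists_eigenvector ρ φ (hsplit φ)
    obtain ⟨g, hg⟩ := hline u hu
    apply hg
    obtain ⟨n, τ, hτ, hgτ⟩ := hgen g
    refine ⟨c ^ n * m τ 0 0, ?_⟩
    rw [hgτ, rho_mul_apply, hsc τ hτ, map_smul, rho_pow_apply_eigen ρ hcu, smul_smul, mul_comm]
  obtain ⟨τ₀, hτ₀I, hne⟩ := hτ₀
  -- some element does not act diagonally
  have hex : ∃ s : Γ, s ∉ diagSubgroup m := by
    refine ⟨g₀, fun hmem => hg₀ ⟨m g₀ 0 0, ?_⟩⟩
    have e0 := apply_basis_eq b ρ g₀ 0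
    rw [← hm, hmem.1, zero_smul, add_zero, hb0] at e0
    exact e0
  have hIH : I ≤ diagSubgroup m := fun τ hτ => hdiag τ hτ
  have hφH : φ ∉ diagSubgroup m := by
    intro hφmem
    obtain ⟨s, hs⟩ := hex
    apply hs
    obtain ⟨n, τ, hτ, hsτ⟩ := hgen s
    have h1 : φ ^ n * τ ∈ diagSubgroup m := mul_mem (pow_mem hφmem n) (hIH hτ)
    have h2 : m s = m (φ ^ n * τ) := matHom_congr b ρ hsτ
    rw [mem_diagSubgroup, h2]
    exact h1
  refine ⟨diagSubgroup m, b, diagChar m 0, diagChar m 1,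
    index_diagSubgroup m I hdiag hτ₀I hne hex, hIH, ?_, ?_, ?_, ?_⟩
  · intro h
    have h1 := h.2
    rw [mem_diagSubgroup] at h1
    rw [← matHom_apply, ← hm]
    ext i j
    fin_cases i <;> fin_cases j
    · simp [coe_diagChar]
    · simpa using h1.2
    · simpa using h1.1
    · simp [coe_diagChar]
  · intro s hs
    exact anti_of_not_mem m I hdiag hτ₀I hne hs
  · intro τ hτ
    obtain ⟨f00, f11⟩ := anti_of_not_mem m I hdiag hτ₀I hne hφH
    have f01 : m φ 0 1 ≠ 0 := fun h => mat_row_ne_zero m φ 0 ⟨f00, h⟩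
    have hσI : φ * (τ : Γ) * φ⁻¹ ∈ I := hI.conj_mem _ hτ φ
    have hρ : ρ (φ * (τ : Γ) * φ⁻¹) = ρ ((τ : Γ) ^ p) := by
      have h1 := hW1 _ (hφ _ hτ)
      have h2 : φ * (τ : Γ) * φ⁻¹ = (φ * (τ : Γ) * φ⁻¹ * ((τ : Γ) ^ p)⁻¹) * (τ : Γ) ^ p := by group
      rw [h2, map_mul, h1, one_mul]
    have hmσ : m (φ * (τ : Γ) * φ⁻¹) = m ((τ : Γ) ^ p) := matHom_congr b ρ hρ
    have hpow : m ((τ : Γ) ^ p) 0 0 = (m (τ : Γ) 0 0) ^ p := by
      have h1 : diagChar m 0 (τ ^ p) = (diagChar m 0 τ) ^ p := map_pow _ _ _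
      have h2 := congrArg Units.val h1
      rw [Units.val_pow_eq_pow_val, coe_diagChar, coe_diagChar] at h2
      exact h2
    have e : (φ * (τ : Γ) * φ⁻¹) * φ = φ * (τ : Γ) := by group
    have e01 : m ((φ * (τ : Γ) * φ⁻¹) * φ) 0 1 = m (φ * (τ : Γ)) 0 1 := by rw [e]
    rw [mat_mul_apply m (φ * (τ : Γ) * φ⁻¹) φ, mat_mul_apply m φ (τ : Γ), f11, f00, hmσ, hpow] at e01
    have h3 : (m (τ : Γ) 0 0) ^ p * m φ 0 1 = m (τ : Γ) 1 1 * m φ 0 1 := by linear_combination e01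
    have h4 := mul_right_cancel₀ f01 h3
    apply Units.ext
    rw [Units.val_pow_eq_pow_val, coe_diagChar, coe_diagChar]
    exact h4.symm
  · refine ⟨⟨τ₀, hIH hτ₀I⟩, hτ₀I, fun h => hne ?_⟩
    have := congrArg Units.val h
    rwa [coe_diagChar, coe_diagChar] at this

end Main

end Fermat.Agent.TW.Cnt.ShapeAbs97
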