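/-
Program TW (S56), work package WP7-CNT (the count), brick C4 (helper55): the bridge from the
End-model `Defs52.ad0 p ρbar` (Contract52) to the matrix realisation `AdReal55.Ad0Real`.

For a group homomorphism `f : G →* GQ` (e.g. `locAt q`) and a basis `b` of `ρbar.V`,
`realOfBasis p ρbar f b : Ad0Real (ZMod p) k (Rep.res f (ad0 p ρbar))` with
`ι x = toMatrix b b (ad0ToEnd x)` and `R g = toMatrix b b (ρbar.ρ (f g))`.
-/
import Mathlib
import Fermat.Agent.TW.Spec.Defs52
import Fermat.Agent.TW.Cnt.AdReal55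

set_option autoImplicit false

open CategoryTheory groupCohomology Module

namespace Fermat.Agent.TW.Cnt.AdRealEnd55

open Fermat.Agent.TW.Spec.Defs52 Fermat.Agent.TW.Cnt.AdReal55

variable (p : ℕ) [Fact p.Prime] {k : Type} [Field k] [Algebra (ZMod p) k]
  (ρbar : ResidualGaloisRep k) {G : Type} [Group G] (f : G →* GQ)
  (b : Module.Basis (Fin 2) k ρbar.V)

/-- The two-dimensional matrix representation attached to a basis. -/
noncomputable def matRep : G →* Matrix (Fin 2) (Fin 2) k :=
  ((LinearMap.toMatrixAlgEquiv b : Module.End k ρbar.V ≃ₐ[k] Matrix (Fin 2) (Fin 2) k) :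
    Module.End k ρbar.V →* Matrix (Fin 2) (Fin 2) k).comp (ρbar.ρ.comp f)

lemma matRep_apply (g : G) : matRep ρbar f b g = LinearMap.toMatrix b b (ρbar.ρ (f g)) := rfl

/-- The embedding of `ad⁰` into matrices, `ZMod p`-linear. -/
noncomputable def matEmb : (Rep.res f (ad0 p ρbar)).V →ₗ[ZMod p] Matrix (Fin 2) (Fin 2) k where
  toFun x := LinearMap.toMatrix b b (ad0ToEnd p ρbar x)
  map_add' x y := by
    change LinearMap.toMatrix b b (ad0ToEnd p ρbar x + ad0ToEnd p ρbar y) = _
    rw [map_add]
  map_smul' a x := by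
    change LinearMap.toMatrix b b (algebraMap (ZMod p) k a • ad0ToEnd p ρbar x) = _
    rw [map_smul, RingHom.id_apply, algebraMap_smul]

lemma matEmb_apply (x : (Rep.res f (ad0 p ρbar)).V) :
    matEmb p ρbar f b x = LinearMap.toMatrix b b (ad0ToEnd p ρbar x) := rfl

/-- The matrix realisation of `Rep.res f (ad0 p ρbar)` attached to a basis of `ρbar.V`. -/
noncomputable def realOfBasis : Ad0Real (ZMod p) k (Rep.res f (ad0 p ρbar)) where
  ι := matEmb p ρbar f b
  R := matRep ρbar f b
  inj := by
    intro x y h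
    rw [matEmb_apply, matEmb_apply] at h
    have h' := (LinearMap.toMatrix b b).injective h
    exact Subtype.ext h'
  trace_zero := by
    intro x
    rw [matEmb_apply, ← LinearMap.trace_eq_matrix_trace k b]
    exact (mem_End0_iff ρbar _).1 (Subtype.property (p := (· ∈ End0 ρbar)) x)
  surj := by
    intro X hX
    have hmem : Matrix.toLin b b X ∈ End0 ρbar := by
      rw [mem_End0_iff, LinearMap.trace_eq_matrix_trace k b, LinearMap.toMatrix_toLin]
      exact hX
    refine ⟨(⟨Matrix.toLin b b X, hmem⟩ : End0 ρbar), ?_⟩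
    exact LinearMap.toMatrix_toLin b b X
  equivariant := by
    intro g x
    rw [matEmb_apply, matEmb_apply, matRep_apply, matRep_apply, map_inv]
    have h := ad0_ρ_apply p ρbar (f g) x
    have h' : ad0ToEnd p ρbar ((Rep.res f (ad0 p ρbar)).ρ g x) =
        ρbar.ρ (f g) * ad0ToEnd p ρbar x * ρbar.ρ (f g)⁻¹ := h
    rw [h', LinearMap.toMatrix_mul, LinearMap.toMatrix_mul]

lemma realOfBasis_ι (x : (Rep.res f (ad0 p ρbar)).V) :
    (realOfBasis p ρbar f b).ι x = LinearMap.toMatrix b b (ad0ToEnd p ρbar x) := rfl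

lemma realOfBasis_R (g : G) :
    (realOfBasis p ρbar f b).R g = LinearMap.toMatrix b b (ρbar.ρ (f g)) := rfl

end Fermat.Agent.TW.Cnt.AdRealEnd55
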