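/-
Program TW (S56), work package WP7-CNT (the count), brick C4 (helper55): the diagonal characters of
an upper triangular `R : G →* M₂(k)`, and adapted bases for a stable line in the End-model.
-/
import Mathlib
import Fermat.Agent.TW.Cnt.AdRealEnd55

set_option autoImplicit false

open Module

namespace Fermat.Agent.TW.Cnt.AdDiag55

open Fermat.Agent.TW.Cnt.AdReal55 Fermat.Agent.TW.Cnt.AdRealEnd55

section Diag

variable {k G : Type} [Field k] [Group G] (R : G →* Matrix (Fin 2) (Fin 2) k)
  (hR : ∀ g, R g 1 0 = 0)

/-- The `i`-th diagonal entry of an upper triangular representation, as a monoid homomorphism. -/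
noncomputable def diagHom (i : Fin 2) : G →* k where
  toFun g := R g i i
  map_one' := by rw [map_one, Matrix.one_apply_eq]
  map_mul' g h := by
    rw [map_mul, mul_apply_two]
    fin_cases i
    · change R g 0 0 * R h 0 0 + R g 0 1 * R h 1 0 = R g 0 0 * R h 0 0
      rw [hR h, mul_zero, add_zero]
    · change R g 1 0 * R h 0 1 + R g 1 1 * R h 1 1 = R g 1 1 * R h 1 1
      rw [hR g, zero_mul, zero_add]

/-- The `i`-th diagonal character of an upper triangular representation. -/
noncomputable def diagChar (i : Fin 2) : G →* kˣ := (diagHom R hR i).toHomUnits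

lemma diagChar_apply (i : Fin 2) (g : G) : ((diagChar R hR i g : kˣ) : k) = R g i i := rfl

end Diag

section Line

variable (p : ℕ) [Fact p.Prime] {k : Type} [Field k] [Algebra (ZMod p) k]
  (ρbar : ResidualGaloisRep k) {G : Type} [Group G] (f : G →* Fermat.Agent.TW.Spec.Defs52.GQ)

/-- A basis whose first vector is a given nonzero vector. -/
theorem exists_basis_zero_eq (v0 : ρbar.V) (hv0 : v0 ≠ 0) :
    ∃ b : Module.Basis (Fin 2) k ρbar.V, b 0 = v0 := by
  have hfr : Module.finrank k ρbar.V = 2 := ρbar.finrank_eq
  -- a vector outside the line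
  have hne : (Submodule.span k {v0} : Submodule k ρbar.V) ≠ ⊤ := by
    intro h
    have h1 : Module.finrank k (Submodule.span k {v0} : Submodule k ρbar.V) = 1 :=
      finrank_span_singleton hv0
    rw [h, finrank_top, hfr] at h1
    exact absurd h1 (by norm_num)
  obtain ⟨v1, hv1⟩ : ∃ v1 : ρbar.V, v1 ∉ Submodule.span k {v0} := by
    by_contra hcon
    simp only [not_exists, not_not] at hcon
    exact hne ((Submodule.eq_top_iff').2 hcon)
  have hli : LinearIndependent k ![v0, v1] := by
    rw [LinearIndependent.pair_iff]
    intro s t hst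
    by_cases ht : t = 0
    · rw [ht, zero_smul, add_zero, smul_eq_zero] at hst
      rcases hst with hs | hs
      · exact ⟨hs, ht⟩
      · exact absurd hs hv0
    · exfalso
      apply hv1
      have : v1 = (-(t⁻¹ * s)) • v0 := by
        have h2 : t • v1 = -(s • v0) := by
          rw [eq_neg_iff_add_eq_zero, add_comm]; exact hst
        calc v1 = t⁻¹ • (t • v1) := by rw [smul_smul, inv_mul_cancel₀ ht, one_smul]
          _ = (-(t⁻¹ * s)) • v0 := by rw [h2, smul_neg, smul_smul, neg_smul]
      rw [this]
      exact Submodule.smul_mem _ _ (Submodule.mem_span_singleton_self v0)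
  have hcard : Fintype.card (Fin 2) = Module.finrank k ρbar.V := by
    rw [hfr]; rfl
  refine ⟨basisOfLinearIndependentOfCardEqFinrank hli hcard, ?_⟩
  rw [coe_basisOfLinearIndependentOfCardEqFinrank]
  rfl

/-- In a basis adapted to a stable line the representation is upper triangular. -/
theorem R_lower_eq_zero (b : Module.Basis (Fin 2) k ρbar.V)
    (hst : ∀ g : G, ∃ a : k, ρbar.ρ (f g) (b 0) = a • b 0) (g : G) :
    (realOfBasis p ρbar f b).R g 1 0 = 0 := by
  obtain ⟨a, ha⟩ := hst g
  rw [realOfBasis_R, LinearMap.toMatrix_apply, ha, map_smul, Module.Basis.repr_self]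
  simp

/-- In a basis adapted to a stable line the upper left entry is the eigenvalue on the line. -/
theorem R_upper_left (b : Module.Basis (Fin 2) k ρbar.V) (g : G) (a : k)
    (ha : ρbar.ρ (f g) (b 0) = a • b 0) :
    (realOfBasis p ρbar f b).R g 0 0 = a := by
  rw [realOfBasis_R, LinearMap.toMatrix_apply, ha, map_smul, Module.Basis.repr_self]
  simp

end Line

end Fermat.Agent.TW.Cnt.AdDiag55
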