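/-
Program TW (S56), work package WP7-CNT (the count), brick C4 (helper55): common definitions for the
case analysis of `ad⁰`.

* `charRep F χ`  : the representation `k(χ)` of `G` on `k` (`g • x = χ g * x`) with coefficients in a
                   subfield `F` (in the application `F = ZMod p`).
* `mkHom`        : a morphism of `Rep F G` from a linear map and an equivariance proof.
* `subRep`, `subRepι` : the subrepresentation on a stable submodule and its inclusion.
* `Ad0Real F k M` : a *matrix realisation* of `M : Rep F G` as `ad⁰` of a 2-dimensional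
                   representation `R : G →* M₂(k)`: an injective `F`-linear map
                   `ι : M → M₂(k)` onto the trace-zero matrices with
                   `ι (g • m) = R g * ι m * R g⁻¹`.
                   For `M = resAt (pPrime p) (ad0 p ρbar)`: `ι = toMatrix b b ∘ ad0ToEnd`.
* explicit formulas for the entries of `A * X * B` for `2 × 2` matrices.
-/
import Mathlib
import Fermat.Agent.TW.Cnt.AdmH1_55

set_option autoImplicit false

open CategoryTheory groupCohomology Module

namespace Fermat.Agent.TW.Cnt.AdReal55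

open Fermat.Agent.TW.Cnt.AdmH1_55

section Basic

variable (F : Type) {k G : Type} [Field F] [Field k] [Algebra F k] [Group G]

/-- The representation `k(χ)`: `G` acts on `k` through the character `χ`; coefficients `F`. -/
noncomputable abbrev charRep (χ : G →* kˣ) : Rep.{0} F G :=
  Rep.of (X := k) (((Algebra.lmul F k : k →ₐ[F] Module.End F k) : k →* Module.End F k).comp
    ((Units.coeHom k).comp χ))

lemma charRep_apply (χ : G →* kˣ) (g : G) (x : k) :
    (charRep F χ).ρ g x = (χ g : k) * x := rfl

variable {F}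

/-- Build a morphism of `Rep` from a linear map and an equivariance proof. -/
noncomputable def mkHom {A B : Rep.{0} F G} (f : A.V →ₗ[F] B.V)
    (hf : ∀ (g : G) (a : A.V), f (A.ρ g a) = B.ρ g (f a)) : A ⟶ B :=
  Rep.ofHom (ρ := A.ρ) (σ := B.ρ) (f.intertwiningMap_of_isIntertwiningMap A.ρ B.ρ hf)

lemma mkHom_apply {A B : Rep.{0} F G} (f : A.V →ₗ[F] B.V)
    (hf : ∀ (g : G) (a : A.V), f (A.ρ g a) = B.ρ g (f a)) (a : A.V) :
    (mkHom f hf).hom a = f a := rfl

lemma mkHom_toLinearMap {A B : Rep.{0} F G} (f : A.V →ₗ[F] B.V)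
    (hf : ∀ (g : G) (a : A.V), f (A.ρ g a) = B.ρ g (f a)) :
    (mkHom f hf).hom.toLinearMap = f := rfl

/-- The subrepresentation of `M` on a stable submodule. -/
noncomputable def subRep (M : Rep.{0} F G) (W : Submodule F M.V)
    (hW : ∀ g, W ≤ W.comap (M.ρ g)) : Rep.{0} F G :=
  Rep.of (M.ρ.subrepresentation W hW)

lemma subRep_apply (M : Rep.{0} F G) (W : Submodule F M.V)
    (hW : ∀ g, W ≤ W.comap (M.ρ g)) (g : G) (w : W) :
    W.subtype ((subRep M W hW).ρ g w) = M.ρ g (W.subtype w) := rfl

/-- The inclusion of a subrepresentation. -/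
noncomputable def subRepι (M : Rep.{0} F G) (W : Submodule F M.V)
    (hW : ∀ g, W ≤ W.comap (M.ρ g)) : subRep M W hW ⟶ M :=
  mkHom (A := subRep M W hW) (B := M) W.subtype (fun _ _ => rfl)

lemma subRepι_apply (M : Rep.{0} F G) (W : Submodule F M.V)
    (hW : ∀ g, W ≤ W.comap (M.ρ g)) (w : W) :
    (subRepι M W hW).hom w = W.subtype w := rfl

lemma subRepι_injective (M : Rep.{0} F G) (W : Submodule F M.V)
    (hW : ∀ g, W ≤ W.comap (M.ρ g)) :
    Function.Injective (subRepι M W hW).hom.toLinearMap :=
  Subtype.val_injective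

lemma range_subRepι (M : Rep.{0} F G) (W : Submodule F M.V)
    (hW : ∀ g, W ≤ W.comap (M.ρ g)) :
    LinearMap.range (subRepι M W hW).hom.toLinearMap = W :=
  Submodule.range_subtype W

/-- A subrepresentation of an admissible representation is admissible. -/
lemma isAdmRep_subRep (𝒩 : AdmFamily G) (M : Rep.{0} F G) (W : Submodule F M.V)
    (hW : ∀ g, W ≤ W.comap (M.ρ g)) (hM : IsAdmRep 𝒩 M) : IsAdmRep 𝒩 (subRep M W hW) := by
  obtain ⟨N, hN, h⟩ := hM
  exact ⟨N, hN, fun n hn w => Subtype.ext (h n hn (W.subtype w))⟩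

end Basic

section Matrices

variable {k : Type} [Field k]

lemma mul_mul_apply (A X B : Matrix (Fin 2) (Fin 2) k) (i j : Fin 2) :
    (A * X * B) i j = A i 0 * X 0 0 * B 0 j + A i 0 * X 0 1 * B 1 j
      + A i 1 * X 1 0 * B 0 j + A i 1 * X 1 1 * B 1 j := by
  simp only [Matrix.mul_apply, Fin.sum_univ_two]
  ring

lemma mul_apply_two (A B : Matrix (Fin 2) (Fin 2) k) (i j : Fin 2) :
    (A * B) i j = A i 0 * B 0 j + A i 1 * B 1 j := by
  simp only [Matrix.mul_apply, Fin.sum_univ_two]

lemma trace_two (X : Matrix (Fin 2) (Fin 2) k) : X.trace = X 0 0 + X 1 1 := by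
  simp [Matrix.trace, Fin.sum_univ_two]

omit [Field k] in
lemma ext_two {X Y : Matrix (Fin 2) (Fin 2) k} (h00 : X 0 0 = Y 0 0) (h01 : X 0 1 = Y 0 1)
    (h10 : X 1 0 = Y 1 0) (h11 : X 1 1 = Y 1 1) : X = Y := by
  ext i j
  fin_cases i <;> fin_cases j <;> assumption

end Matrices

section Realisation

variable (F k : Type) {G : Type} [Field F] [Field k] [Algebra F k] [Group G]

/-- A matrix realisation of `M` as `ad⁰` of `R : G →* M₂(k)`. -/
structure Ad0Real (M : Rep.{0} F G) where
  /-- the embedding into `2 × 2` matrices -/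
  ι : M.V →ₗ[F] Matrix (Fin 2) (Fin 2) k
  /-- the two-dimensional representation -/
  R : G →* Matrix (Fin 2) (Fin 2) k
  inj : Function.Injective ι
  trace_zero : ∀ m, (ι m).trace = 0
  surj : ∀ X : Matrix (Fin 2) (Fin 2) k, X.trace = 0 → ∃ m, ι m = X
  equivariant : ∀ g m, ι (M.ρ g m) = R g * ι m * R g⁻¹

variable {F k}

namespace Ad0Real

variable {M : Rep.{0} F G} (r : Ad0Real F k M)

lemma R_mul_inv (g : G) : r.R g * r.R g⁻¹ = 1 := by
  rw [← map_mul, mul_inv_cancel, map_one]

lemma R_inv_mul (g : G) : r.R g⁻¹ * r.R g = 1 := by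
  rw [← map_mul, inv_mul_cancel, map_one]

include r in
/-- `M` is finite-dimensional over `F` when `k` is. -/
lemma finiteDimensional [FiniteDimensional F k] : FiniteDimensional F M.V := by
  have : FiniteDimensional F (Matrix (Fin 2) (Fin 2) k) := by
    have : FiniteDimensional k (Matrix (Fin 2) (Fin 2) k) := inferInstance
    exact Module.Finite.trans k _
  exact FiniteDimensional.of_injective r.ι r.inj

end Ad0Real

end Realisation

end Fermat.Agent.TW.Cnt.AdReal55
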