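/-
Program TW (S56), work package WP7-CNT (the count), brick C1 (helper55): devissage for admissible
classes.

For an injective morphism `φ : A₁ ⟶ A₂` of finite-dimensional representations (`A₂` admissible) we
bound the image of `H1adm A₁` in `H¹(G, A₂)` (`finrank_map_H1adm_add_le`, the step used for `p = 3`),
and for a short exact sequence `0 → A₁ → A₂ → A₃ → 0` we prove the subadditivity of
`δ(A) = dim H1adm(A) - dim A^G` (`finrank_H1adm_add_le`).
-/
import Mathlib
import Fermat.Agent.TW.LocP.CountLocP89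
import Fermat.Agent.TW.Cnt.AdmH1_55

set_option autoImplicit false

universe u

open CategoryTheory groupCohomology Module

namespace Fermat.Agent.TW.Cnt.AdmSES55

open Fermat.Agent.TW.Cnt.AdmH1_55
open Fermat.Agent.TW.LocP.CountLocP89 hiding H1map

section LinearAlgebra

variable {k : Type u} [Field k] {V W : Type u} [AddCommGroup V] [Module k V]
  [AddCommGroup W] [Module k W]

/-- Rank–nullity on a subspace: if `D ≤ X ⊓ ker f` then `dim f(X) + dim D ≤ dim X`. -/
lemma finrank_map_add_le (f : V →ₗ[k] W) (X D : Submodule k V) [FiniteDimensional k X]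
    (hDX : D ≤ X) (hDf : D ≤ LinearMap.ker f) :
    finrank k (X.map f) + finrank k D ≤ finrank k X := by
  have h1 := LinearMap.finrank_range_add_finrank_ker (f.domRestrict X)
  rw [LinearMap.range_domRestrict] at h1
  have h2 : finrank k D ≤ finrank k (LinearMap.ker (f.domRestrict X)) := by
    refine LinearMap.finrank_le_finrank_of_injective
      (f := LinearMap.codRestrict (LinearMap.ker (f.domRestrict X)) (Submodule.inclusion hDX) ?_) ?_
    · intro d
      rw [LinearMap.mem_ker, LinearMap.domRestrict_apply]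
      exact hDf d.2
    · intro d d' h
      have := congrArg (fun z : LinearMap.ker (f.domRestrict X) => ((z : X) : V)) h
      exact Subtype.ext this
  omega

/-- If `g(Y) ≤ Z` and `Y ⊓ ker g ≤ K` with `K`, `Z` finite-dimensional then `Y` is
finite-dimensional and `dim Y ≤ dim K + dim Z`. -/
lemma finrank_le_of_map_le (g : V →ₗ[k] W) (Y K : Submodule k V) (Z : Submodule k W)
    [FiniteDimensional k K] [FiniteDimensional k Z]
    (hYZ : Y.map g ≤ Z) (hYK : Y ⊓ LinearMap.ker g ≤ K) :
    FiniteDimensional k Y ∧ finrank k Y ≤ finrank k K + finrank k Z := by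
  set g' : Y →ₗ[k] W := g.domRestrict Y with hg'
  have hr : LinearMap.range g' ≤ Z := by
    rw [hg', LinearMap.range_domRestrict]; exact hYZ
  have : FiniteDimensional k (LinearMap.range g') := Submodule.finiteDimensional_of_le hr
  let j : LinearMap.ker g' →ₗ[k] K :=
    (Y.subtype ∘ₗ (LinearMap.ker g').subtype).codRestrict K
      (fun c => hYK ⟨c.1.2, c.2⟩)
  have hj : Function.Injective j := by
    intro c c' h
    have := congrArg (fun z : K => (z : V)) h
    exact Subtype.ext (Subtype.ext this)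
  have : FiniteDimensional k (LinearMap.ker g') := FiniteDimensional.of_injective j hj
  have : FiniteDimensional k (Y ⧸ LinearMap.ker g') :=
    Module.Finite.equiv (LinearMap.quotKerEquivRange g').symm
  have hY : FiniteDimensional k Y := Module.Finite.of_submodule_quotient (LinearMap.ker g')
  refine ⟨hY, ?_⟩
  have h1 := LinearMap.finrank_range_add_finrank_ker g'
  have h2 : finrank k (LinearMap.ker g') ≤ finrank k K :=
    LinearMap.finrank_le_finrank_of_injective hj
  have h3 : finrank k (LinearMap.range g') ≤ finrank k Z := Submodule.finrank_mono hr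
  omega

end LinearAlgebra

variable {k G : Type u} [Field k] [Group G]

section Image

variable (𝒩 : AdmFamily G) {A₁ A₂ : Rep k G} (φ : A₁ ⟶ A₂)
  (hφ : Function.Injective φ.hom.toLinearMap)

/-- Connecting cocycles are admissible when the middle term is an admissible representation. -/
lemma connCocycle_mem_Zadm (hA : IsAdmRep 𝒩 A₂) (m : relInv φ) :
    connCocycle φ hφ m ∈ Zadm 𝒩 A₁ := by
  obtain ⟨N, hN, htriv⟩ := hA
  refine ⟨N, hN, fun n hn => ?_⟩
  apply hφ
  change φ.hom (connCochain φ hφ m n) = φ.hom.toLinearMap 0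
  rw [hom_connCochain, htriv n hn, sub_self, map_zero]

lemma range_connClass_le_H1adm (hA : IsAdmRep 𝒩 A₂) :
    LinearMap.range (connClass φ hφ) ≤ H1adm 𝒩 A₁ := by
  rintro _ ⟨m, rfl⟩
  exact H1π_mem_H1adm 𝒩 (connCocycle_mem_Zadm 𝒩 φ hφ hA m)

/-- `dim ker(δ) + dim A₁^G ≤ dim A₂^G + dim A₁` for the connecting map `δ` on `relInv φ`. -/
lemma finrank_ker_connClass_add_le [FiniteDimensional k A₂] :
    finrank k (LinearMap.ker (connClass φ hφ)) + finrank k A₁.ρ.invariants ≤
      finrank k A₂.ρ.invariants + finrank k A₁ := by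
  set R : Submodule k A₂ := LinearMap.range φ.hom.toLinearMap with hR
  set I : Submodule k A₂ := A₂.ρ.invariants with hI
  have hRfin : finrank k R = finrank k A₁ := LinearMap.finrank_range_of_inj hφ
  have h1 : finrank k (LinearMap.ker (connClass φ hφ)) ≤ finrank k ↥(I ⊔ R) := by
    let j : LinearMap.ker (connClass φ hφ) →ₗ[k] ↥(I ⊔ R) :=
      ((relInv φ).subtype ∘ₗ (LinearMap.ker (connClass φ hφ)).subtype).codRestrict (I ⊔ R)
        (fun c => by
          obtain ⟨x, a, h⟩ := exists_of_connClass_eq_zero φ hφ (c : relInv φ) c.2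
          change ((c : relInv φ) : A₂) ∈ I ⊔ R
          rw [h]
          exact Submodule.add_mem_sup x.2 ⟨a, rfl⟩)
    refine LinearMap.finrank_le_finrank_of_injective (f := j) ?_
    intro c c' h
    have := congrArg (fun z : ↥(I ⊔ R) => (z : A₂)) h
    exact Subtype.ext (Subtype.ext this)
  have h2 : finrank k A₁.ρ.invariants ≤ finrank k ↥(I ⊓ R) := by
    let j : A₁.ρ.invariants →ₗ[k] ↥(I ⊓ R) :=
      (φ.hom.toLinearMap ∘ₗ A₁.ρ.invariants.subtype).codRestrict (I ⊓ R)
        (fun a => by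
          refine ⟨?_, ⟨(a : A₁), rfl⟩⟩
          rw [hI, SetLike.mem_coe, Representation.mem_invariants]
          intro g
          have h1 := (Representation.mem_invariants _ _).1 a.2 g
          change A₂.ρ g (φ.hom (a : A₁)) = φ.hom (a : A₁)
          rw [← Rep.hom_comm_apply, h1])
    refine LinearMap.finrank_le_finrank_of_injective (f := j) ?_
    intro a a' h
    have := congrArg (fun z : ↥(I ⊓ R) => (z : A₂)) h
    exact Subtype.ext (hφ this)
  have h3 := Submodule.finrank_sup_add_finrank_inf_eq I R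
  omega

include hφ in
/-- **(IMG)** Bound for the image of `H1adm A₁` in `H¹(G, A₂)`:
`dim im + dim relInv φ + dim A₁^G ≤ dim H1adm(A₁) + dim A₂^G + dim A₁`. -/
theorem finrank_map_H1adm_add_le [FiniteDimensional k A₂] (hA : IsAdmRep 𝒩 A₂)
    [FiniteDimensional k (H1adm 𝒩 A₁)] :
    finrank k ((H1adm 𝒩 A₁).map (H1map φ)) + finrank k (relInv φ) + finrank k A₁.ρ.invariants ≤
      finrank k (H1adm 𝒩 A₁) + finrank k A₂.ρ.invariants + finrank k A₁ := by
  have h1 := finrank_map_add_le (H1map φ) (H1adm 𝒩 A₁) (LinearMap.range (connClass φ hφ))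
    (range_connClass_le_H1adm 𝒩 φ hφ hA) (range_connClass_le_ker φ hφ)
  have h2 := LinearMap.finrank_range_add_finrank_ker (connClass φ hφ)
  have h3 := finrank_ker_connClass_add_le φ hφ
  omega

end Image

section Exact

variable (𝒩 : AdmFamily G) {A₁ A₂ A₃ : Rep k G} (φ : A₁ ⟶ A₂) (ψ : A₂ ⟶ A₃)
  (hφ : Function.Injective φ.hom.toLinearMap)
  (hψ : Function.Surjective ψ.hom.toLinearMap)
  (hex : LinearMap.range φ.hom.toLinearMap = LinearMap.ker ψ.hom.toLinearMap)

include hex in
/-- `relInv φ` is the preimage of the invariants of the quotient. -/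
lemma relInv_eq_comap : relInv φ = A₃.ρ.invariants.comap ψ.hom.toLinearMap := by
  ext m
  rw [mem_relInv_iff, Submodule.mem_comap, Representation.mem_invariants]
  refine forall_congr' fun g => ?_
  rw [hex, LinearMap.mem_ker, map_sub, sub_eq_zero]
  change ψ.hom (A₂.ρ g m) = ψ.hom m ↔ A₃.ρ g (ψ.hom m) = ψ.hom m
  rw [Rep.hom_comm_apply]

include hφ hψ hex in
lemma finrank_relInv [FiniteDimensional k A₂] :
    finrank k (relInv φ) = finrank k A₃.ρ.invariants + finrank k A₁ := by
  have hrel := relInv_eq_comap φ ψ hex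
  let q : relInv φ →ₗ[k] A₃.ρ.invariants :=
    (ψ.hom.toLinearMap ∘ₗ (relInv φ).subtype).codRestrict A₃.ρ.invariants
      (fun m => (SetLike.ext_iff.1 hrel (m : A₂)).1 m.2)
  have hq : LinearMap.range q = ⊤ := by
    rw [LinearMap.range_eq_top]
    intro x
    obtain ⟨m, hm⟩ := hψ (x : A₃)
    refine ⟨⟨m, ?_⟩, Subtype.ext hm⟩
    rw [hrel, Submodule.mem_comap, hm]
    exact x.2
  have hk : finrank k (LinearMap.ker q) = finrank k A₁ := by
    let e : A₁ →ₗ[k] LinearMap.ker q :=
      LinearMap.codRestrict (LinearMap.ker q)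
        (LinearMap.codRestrict (relInv φ) φ.hom.toLinearMap
          (fun a => range_le_relInv φ ⟨a, rfl⟩))
        (fun a => by
          rw [LinearMap.mem_ker]
          apply Subtype.ext
          change ψ.hom.toLinearMap (φ.hom.toLinearMap a) = 0
          rw [← LinearMap.mem_ker, ← hex]
          exact ⟨a, rfl⟩)
    have he : Function.Bijective e := by
      constructor
      · intro a a' h
        have := congrArg (fun z : LinearMap.ker q => ((z : relInv φ) : A₂)) h
        exact hφ this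
      · intro c
        have hc : ((c : relInv φ) : A₂) ∈ LinearMap.ker ψ.hom.toLinearMap := by
          have := c.2
          rw [LinearMap.mem_ker] at this
          have := congrArg (fun z : A₃.ρ.invariants => (z : A₃)) this
          exact this
        rw [← hex] at hc
        obtain ⟨a, ha⟩ := hc
        exact ⟨a, Subtype.ext (Subtype.ext ha)⟩
    exact (LinearEquiv.ofBijective e he).finrank_eq.symm
  have h1 := LinearMap.finrank_range_add_finrank_ker q
  rw [hq, finrank_top] at h1
  omega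

include hφ hψ hex in
/-- Exactness in the middle for admissible classes. -/
lemma H1adm_inf_ker_le (hA : IsAdmRep 𝒩 A₂) :
    H1adm 𝒩 A₂ ⊓ LinearMap.ker (H1map ψ) ≤ (H1adm 𝒩 A₁).map (H1map φ) := by
  rintro y ⟨hy, hker⟩
  obtain ⟨c, hc, rfl⟩ := exists_of_mem_H1adm 𝒩 hy
  rw [SetLike.mem_coe, LinearMap.mem_ker, H1map_H1π, H1π_eq_zero_iff] at hker
  obtain ⟨a₃, ha₃⟩ := hker
  obtain ⟨a₂, ha₂⟩ := hψ a₃
  have ha₃' : ∀ g, A₃.ρ g a₃ - a₃ = ψ.hom (c g) := fun g => by
    have := congrFun ha₃ g
    rw [d₀₁_hom_apply] at this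
    exact this
  have hmem : ∀ g, ∃ a₁ : A₁, φ.hom a₁ = c g - (A₂.ρ g a₂ - a₂) := by
    intro g
    have h : c g - (A₂.ρ g a₂ - a₂) ∈ LinearMap.range φ.hom.toLinearMap := by
      rw [hex, LinearMap.mem_ker]
      change ψ.hom (c g - (A₂.ρ g a₂ - a₂)) = 0
      rw [map_sub, map_sub, Rep.hom_comm_apply]
      change ψ.hom (c g) - (A₃.ρ g (ψ.hom.toLinearMap a₂) - ψ.hom.toLinearMap a₂) = 0
      rw [ha₂, ha₃' g, sub_self]
    exact h
  choose c' hc' using hmem
  have hcoc : c' ∈ cocycles₁ A₁ := by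
    rw [mem_cocycles₁_iff]
    intro g h
    apply hφ
    change φ.hom (c' (g * h)) = φ.hom (A₁.ρ g (c' h) + c' g)
    rw [map_add, Rep.hom_comm_apply, hc', hc', hc', (mem_cocycles₁_iff c).1 c.2 g h, map_mul]
    simp only [Module.End.mul_apply, map_sub]
    abel
  have hadm : (⟨c', hcoc⟩ : cocycles₁ A₁) ∈ Zadm 𝒩 A₁ := by
    obtain ⟨N, hN, htriv⟩ := hA
    obtain ⟨N', hN', hcN⟩ := hc
    refine ⟨N ⊓ N', 𝒩.inf_mem hN hN', fun n hn => ?_⟩
    apply hφ
    change φ.hom (c' n) = φ.hom.toLinearMap 0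
    rw [hc', hcN n hn.2, htriv n hn.1, sub_self, sub_zero, map_zero]
  refine ⟨(H1π A₁).hom ⟨c', hcoc⟩, H1π_mem_H1adm 𝒩 hadm, ?_⟩
  rw [H1map_H1π, H1π_eq_iff]
  refine ⟨-a₂, ?_⟩
  funext g
  rw [d₀₁_hom_apply]
  change A₂.ρ g (-a₂) - -a₂ = φ.hom (c' g) - c g
  rw [hc', map_neg]
  abel

include hφ hψ hex in
/-- **(SES)** Subadditivity of `δ(A) = dim H1adm(A) - dim A^G` in short exact sequences
`0 → A₁ → A₂ → A₃ → 0` with `A₂` finite-dimensional and admissible. -/
theorem finrank_H1adm_add_le [FiniteDimensional k A₂] (hA : IsAdmRep 𝒩 A₂)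
    [FiniteDimensional k (H1adm 𝒩 A₁)] [FiniteDimensional k (H1adm 𝒩 A₃)] :
    FiniteDimensional k (H1adm 𝒩 A₂) ∧
      finrank k (H1adm 𝒩 A₂) + finrank k A₁.ρ.invariants + finrank k A₃.ρ.invariants ≤
        finrank k (H1adm 𝒩 A₁) + finrank k (H1adm 𝒩 A₃) + finrank k A₂.ρ.invariants := by
  obtain ⟨hfin, h1⟩ := finrank_le_of_map_le (H1map ψ) (H1adm 𝒩 A₂)
    ((H1adm 𝒩 A₁).map (H1map φ)) (H1adm 𝒩 A₃) (map_H1adm_le ψ 𝒩)
    (H1adm_inf_ker_le 𝒩 φ ψ hφ hψ hex hA)
  refine ⟨hfin, ?_⟩
  have h2 := finrank_map_H1adm_add_le 𝒩 φ hφ hA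
  have h3 := finrank_relInv φ ψ hφ hψ hex
  omega

end Exact

end Fermat.Agent.TW.Cnt.AdmSES55
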