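/-
Program TW (S56), work package WP7-CNT (the count), brick C4 (helper55): the reducible case.

`M` realised as `ad⁰` of an upper triangular `R : G →* M₂(k)` with diagonal characters `χ₁, χ₂`.
Filtration `0 < W0 < W1 < M` (`W1` = upper triangular, `W0` = strictly upper triangular) with
`W0 ≅ k(χ₁/χ₂)`, `W1/W0 ≅ k`, `M/W1 ≅ k(χ₂/χ₁)`, realised by the two short exact sequences
`0 → W1 → M → k(χ₂/χ₁) → 0` and `0 → k(χ₁/χ₂) → W1 → k → 0`.

* `finrank_H1adm_upper_le`  : `dim H1adm(M) ≤ h⁰(M) + δ₁ + δ_χ + δ_χ'`.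
* `finrank_map_H1adm_W1_le` : the image of `H1adm(W1)` in `H¹(M)` has `dim ≤ h⁰(M) + δ₁ + δ_χ`
                              (the ordinary classes; used for `p = 3`).
* `H1π_mem_map_W1`          : a class with an admissible upper triangular cocycle lies in that image.
-/
import Mathlib
import Fermat.Agent.TW.Cnt.AdmSES55
import Fermat.Agent.TW.Cnt.AdReal55

set_option autoImplicit false

open CategoryTheory groupCohomology Module

namespace Fermat.Agent.TW.Cnt.AdFilt55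

open Fermat.Agent.TW.Cnt.AdmH1_55 Fermat.Agent.TW.Cnt.AdmSES55 Fermat.Agent.TW.Cnt.AdReal55

variable {F k G : Type} [Field F] [Field k] [Algebra F k] [Group G] {M : Rep.{0} F G}

section Sect

variable (r : Ad0Real F k M)

/-- The `(i,j)` entry of the realisation, as a linear functional on `M`. -/
noncomputable def ent (i j : Fin 2) : M.V →ₗ[F] k := (Matrix.entryLinearMap F k i j) ∘ₗ r.ι

lemma ent_apply (i j : Fin 2) (m : M.V) : ent r i j m = r.ι m i j := rfl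

/-- Lift a linear family of trace-zero matrices to `M`. -/
noncomputable def sect {U : Type} [AddCommGroup U] [Module F U]
    (f : U →ₗ[F] Matrix (Fin 2) (Fin 2) k) (hf : ∀ u, (f u).trace = 0) : U →ₗ[F] M.V :=
  (LinearEquiv.ofInjective r.ι r.inj).symm.toLinearMap ∘ₗ
    f.codRestrict (LinearMap.range r.ι) (fun u => r.surj _ (hf u))

lemma ι_sect {U : Type} [AddCommGroup U] [Module F U]
    (f : U →ₗ[F] Matrix (Fin 2) (Fin 2) k) (hf : ∀ u, (f u).trace = 0) (u : U) :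
    r.ι (sect r f hf u) = f u := by
  have := (LinearEquiv.ofInjective r.ι r.inj).apply_symm_apply
    (f.codRestrict (LinearMap.range r.ι) (fun u => r.surj _ (hf u)) u)
  exact congrArg Subtype.val this

end Sect

section Elements

variable (F) in
/-- `x ↦ !![0, x; 0, 0]`. -/
noncomputable def upMat : k →ₗ[F] Matrix (Fin 2) (Fin 2) k :=
  Matrix.singleLinearMap F (0 : Fin 2) (1 : Fin 2)

variable (F) in
/-- `x ↦ !![0, 0; x, 0]`. -/
noncomputable def lowMat : k →ₗ[F] Matrix (Fin 2) (Fin 2) k :=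
  Matrix.singleLinearMap F (1 : Fin 2) (0 : Fin 2)

variable (F) in
/-- `y ↦ !![y, 0; 0, -y]`. -/
noncomputable def dgMat : k →ₗ[F] Matrix (Fin 2) (Fin 2) k :=
  Matrix.singleLinearMap F (0 : Fin 2) (0 : Fin 2) - Matrix.singleLinearMap F (1 : Fin 2) (1 : Fin 2)

lemma upMat_apply (x : k) : upMat F x = Matrix.single 0 1 x := rfl
lemma lowMat_apply (x : k) : lowMat F x = Matrix.single 1 0 x := rfl
lemma dgMat_apply (y : k) : dgMat F y = Matrix.single 0 0 y - Matrix.single 1 1 y := rfl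

lemma trace_upMat (x : k) : (upMat F x).trace = 0 :=
  Matrix.trace_single_eq_of_ne _ _ _ (by decide)

lemma trace_lowMat (x : k) : (lowMat F x).trace = 0 :=
  Matrix.trace_single_eq_of_ne _ _ _ (by decide)

lemma trace_dgMat (y : k) : (dgMat F y).trace = 0 := by
  rw [dgMat_apply, trace_two]
  simp

variable (r : Ad0Real F k M)

/-- The element of `M` with matrix `!![0, x; 0, 0]`. -/
noncomputable def up : k →ₗ[F] M.V := sect r (upMat F) trace_upMat

/-- The element of `M` with matrix `!![0, 0; x, 0]`. -/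
noncomputable def low : k →ₗ[F] M.V := sect r (lowMat F) trace_lowMat

/-- The element of `M` with matrix `!![y, 0; 0, -y]`. -/
noncomputable def dg : k →ₗ[F] M.V := sect r (dgMat F) trace_dgMat

lemma ι_up (x : k) : r.ι (up r x) = Matrix.single 0 1 x := by
  rw [up, ι_sect, upMat_apply]

lemma ι_low (x : k) : r.ι (low r x) = Matrix.single 1 0 x := by
  rw [low, ι_sect, lowMat_apply]

lemma ι_dg (y : k) : r.ι (dg r y) = Matrix.single 0 0 y - Matrix.single 1 1 y := by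
  rw [dg, ι_sect, dgMat_apply]

end Elements

section Upper

variable (r : Ad0Real F k M) (hR : ∀ g, r.R g 1 0 = 0)

include hR

lemma R00_mul (g : G) : r.R g 0 0 * r.R g⁻¹ 0 0 = 1 := by
  have h := congrFun (congrFun (r.R_mul_inv g) 0) 0
  rw [mul_apply_two, hR g⁻¹, mul_zero, add_zero] at h
  simpa using h

lemma R11_mul (g : G) : r.R g 1 1 * r.R g⁻¹ 1 1 = 1 := by
  have h := congrFun (congrFun (r.R_mul_inv g) 1) 1
  rw [mul_apply_two, hR g, zero_mul, zero_add] at h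
  simpa using h

lemma ι_ρ_10 (g : G) (m : M.V) :
    r.ι (M.ρ g m) 1 0 = r.R g 1 1 * r.R g⁻¹ 0 0 * r.ι m 1 0 := by
  rw [r.equivariant, mul_mul_apply, hR g, hR g⁻¹]
  ring

lemma ι_ρ_00 (g : G) (m : M.V) (hm : r.ι m 1 0 = 0) :
    r.ι (M.ρ g m) 0 0 = r.ι m 0 0 := by
  rw [r.equivariant, mul_mul_apply, hR g⁻¹, hm]
  have := R00_mul r hR g
  calc r.R g 0 0 * r.ι m 0 0 * r.R g⁻¹ 0 0 + r.R g 0 0 * r.ι m 0 1 * 0
        + r.R g 0 1 * 0 * r.R g⁻¹ 0 0 + r.R g 0 1 * r.ι m 1 1 * 0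
      = (r.R g 0 0 * r.R g⁻¹ 0 0) * r.ι m 0 0 := by ring
    _ = r.ι m 0 0 := by rw [this, one_mul]

/-- The upper triangular part `W1`. -/
noncomputable def W1 : Submodule F M.V := LinearMap.ker (ent r 1 0)

omit hR in
lemma mem_W1 (m : M.V) : m ∈ W1 r ↔ r.ι m 1 0 = 0 := LinearMap.mem_ker

lemma W1_stable (g : G) : W1 r ≤ (W1 r).comap (M.ρ g) := by
  intro m hm
  rw [mem_W1] at hm
  rw [Submodule.mem_comap, mem_W1, ι_ρ_10 r hR, hm, mul_zero]

/-- `W1` as a representation. -/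
noncomputable abbrev W1Rep : Rep.{0} F G := subRep M (W1 r) (W1_stable r hR)

variable (χ₁ χ₂ : G →* kˣ) (h₁ : ∀ g, (χ₁ g : k) = r.R g 0 0) (h₂ : ∀ g, (χ₂ g : k) = r.R g 1 1)

omit hR in
include h₁ in
lemma R00_inv (g : G) : r.R g⁻¹ 0 0 = ((χ₁ g)⁻¹ : kˣ) := by
  rw [← h₁, map_inv]

omit hR in
include h₂ in
lemma R11_inv (g : G) : r.R g⁻¹ 1 1 = ((χ₂ g)⁻¹ : kˣ) := by
  rw [← h₂, map_inv]

/-- The projection `M → k(χ₂/χ₁)`, lower left entry. -/
noncomputable def toLower : M ⟶ charRep F (χ₂ / χ₁) :=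
  mkHom (A := M) (B := charRep F (χ₂ / χ₁)) (ent r 1 0) (fun g m => by
    have key : r.ι (M.ρ g m) 1 0 = (((χ₂ / χ₁) g : kˣ) : k) * r.ι m 1 0 := by
      rw [ι_ρ_10 r hR, ← h₂, R00_inv r χ₁ h₁, MonoidHom.div_apply,
        div_eq_mul_inv, Units.val_mul]
    exact key)

lemma toLower_surjective : Function.Surjective (toLower r hR χ₁ χ₂ h₁ h₂).hom.toLinearMap := by
  intro (x : k)
  refine ⟨low r x, ?_⟩
  have key : r.ι (low r x) 1 0 = x := by
    rw [ι_low, Matrix.single_apply_same]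
  exact key

lemma range_W1_eq_ker_toLower :
    LinearMap.range (subRepι M (W1 r) (W1_stable r hR)).hom.toLinearMap =
      LinearMap.ker (toLower r hR χ₁ χ₂ h₁ h₂).hom.toLinearMap :=
  range_subRepι M (W1 r) (W1_stable r hR)

/-- The projection `W1 → k`, upper left entry. -/
noncomputable def toDiag : W1Rep r hR ⟶ charRep F (1 : G →* kˣ) :=
  mkHom (A := W1Rep r hR) (B := charRep F (1 : G →* kˣ)) (ent r 0 0 ∘ₗ (W1 r).subtype)
    (fun g w => by
      have key : r.ι (M.ρ g ((W1 r).subtype w)) 0 0 =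
          (((1 : G →* kˣ) g : kˣ) : k) * r.ι ((W1 r).subtype w) 0 0 := by
        rw [MonoidHom.one_apply, Units.val_one, one_mul]
        exact ι_ρ_00 r hR g _ ((mem_W1 r _).1 (Subtype.property (p := (· ∈ W1 r)) w))
      exact key)

omit hR in
lemma dg_mem_W1 (y : k) : dg r y ∈ W1 r := by
  rw [mem_W1, ι_dg]
  simp

omit hR in
lemma up_mem_W1 (x : k) : up r x ∈ W1 r := by
  rw [mem_W1, ι_up]
  exact Matrix.single_apply_of_ne _ _ _ _ _ (by decide)

lemma toDiag_surjective : Function.Surjective (toDiag r hR).hom.toLinearMap := by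
  intro (y : k)
  refine ⟨⟨dg r y, dg_mem_W1 r y⟩, ?_⟩
  have key : r.ι (dg r y) 0 0 = y := by
    rw [ι_dg]
    simp
  exact key

/-- The inclusion `k(χ₁/χ₂) → W1`, upper right entry. -/
noncomputable def ofUpper : charRep F (χ₁ / χ₂) ⟶ W1Rep r hR :=
  mkHom (A := charRep F (χ₁ / χ₂)) (B := W1Rep r hR)
    ((up r).codRestrict (W1 r) (up_mem_W1 r))
    (fun g x => by
      apply Subtype.ext
      apply r.inj
      have key : ∀ x : k, r.ι (up r ((((χ₁ / χ₂) g : kˣ) : k) * x)) = r.ι (M.ρ g (up r x)) := by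
        intro x
        rw [ι_up, r.equivariant, ι_up]
        apply ext_two
        · rw [mul_mul_apply, hR g⁻¹]; simp
        · rw [mul_mul_apply, R11_inv r χ₂ h₂, ← h₁]
          simp [MonoidHom.div_apply, div_eq_mul_inv]
          ring
        · rw [mul_mul_apply, hR g]; simp
        · rw [mul_mul_apply, hR g]; simp
      exact key x)

omit hR in
lemma up_injective : Function.Injective (up r) := by
  intro x x' h
  have := congrArg (fun m => r.ι m 0 1) h
  simpa [ι_up] using this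

lemma ofUpper_injective :
    Function.Injective (ofUpper r hR χ₁ χ₂ h₁ h₂).hom.toLinearMap := by
  intro x x' h
  have h' : up r x = up r x' := congrArg (fun w : W1 r => (w : M.V)) h
  exact up_injective r h'

lemma range_ofUpper_eq_ker_toDiag :
    LinearMap.range (ofUpper r hR χ₁ χ₂ h₁ h₂).hom.toLinearMap =
      LinearMap.ker (toDiag r hR).hom.toLinearMap := by
  apply le_antisymm
  · rintro _ ⟨x, rfl⟩
    rw [LinearMap.mem_ker]
    have key : r.ι (up r x) 0 0 = 0 := by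
      rw [ι_up]
      exact Matrix.single_apply_of_ne _ _ _ _ _ (by decide)
    exact key
  · intro w hw
    rw [LinearMap.mem_ker] at hw
    have hw00 : r.ι ((W1 r).subtype w) 0 0 = 0 := hw
    have hw10 : r.ι ((W1 r).subtype w) 1 0 = 0 :=
      (mem_W1 r _).1 (Subtype.property (p := (· ∈ W1 r)) w)
    have hw11 : r.ι ((W1 r).subtype w) 1 1 = 0 := by
      have := r.trace_zero ((W1 r).subtype w)
      rw [trace_two, hw00, zero_add] at this
      exact this
    refine ⟨r.ι ((W1 r).subtype w) 0 1, ?_⟩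
    apply Subtype.ext
    apply r.inj
    have key : r.ι (up r (r.ι ((W1 r).subtype w) 0 1)) = r.ι ((W1 r).subtype w) := by
      rw [ι_up]
      apply ext_two
      · rw [hw00]; exact Matrix.single_apply_of_ne _ _ _ _ _ (by decide)
      · exact Matrix.single_apply_same _ _ _
      · rw [hw10]; exact Matrix.single_apply_of_ne _ _ _ _ _ (by decide)
      · rw [hw11]; exact Matrix.single_apply_of_ne _ _ _ _ _ (by decide)
    exact key

lemma finiteDimensional_W1Rep [FiniteDimensional F k] : FiniteDimensional F (W1Rep r hR).V := by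
  have := r.finiteDimensional
  exact FiniteDimensional.of_injective (W1 r).subtype Subtype.val_injective

variable (𝒩 : AdmFamily G)

include h₁ h₂ in
/-- The bound for the upper triangular part:
`dim H1adm(W1) ≤ h⁰(W1) + δ₁ + δ_χ`. -/
theorem finrank_H1adm_W1_le [FiniteDimensional F k] (hM : IsAdmRep 𝒩 M) (δ₁ δχ : ℕ)
    [FiniteDimensional F (H1adm 𝒩 (charRep F (1 : G →* kˣ)))]
    (hδ₁ : finrank F (H1adm 𝒩 (charRep F (1 : G →* kˣ))) ≤
      finrank F (charRep F (1 : G →* kˣ)).ρ.invariants + δ₁)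
    [FiniteDimensional F (H1adm 𝒩 (charRep F (χ₁ / χ₂)))]
    (hδχ : finrank F (H1adm 𝒩 (charRep F (χ₁ / χ₂))) ≤
      finrank F (charRep F (χ₁ / χ₂)).ρ.invariants + δχ) :
    FiniteDimensional F (H1adm 𝒩 (W1Rep r hR)) ∧
      finrank F (H1adm 𝒩 (W1Rep r hR)) ≤ finrank F (W1Rep r hR).ρ.invariants + δ₁ + δχ := by
  have := finiteDimensional_W1Rep r hR
  obtain ⟨hfin, h⟩ := finrank_H1adm_add_le 𝒩 (ofUpper r hR χ₁ χ₂ h₁ h₂) (toDiag r hR)
    (ofUpper_injective r hR χ₁ χ₂ h₁ h₂) (toDiag_surjective r hR)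
    (range_ofUpper_eq_ker_toDiag r hR χ₁ χ₂ h₁ h₂)
    (isAdmRep_subRep 𝒩 M (W1 r) (W1_stable r hR) hM)
  refine ⟨hfin, ?_⟩
  omega

include h₁ h₂ in
/-- **Reducible case.** `dim H1adm(M) ≤ h⁰(M) + δ₁ + δ_χ + δ_χ'`, where the `δ`'s bound the defects
`dim H1adm - h⁰` of `k`, `k(χ₁/χ₂)`, `k(χ₂/χ₁)`. -/
theorem finrank_H1adm_upper_le [FiniteDimensional F k] (hM : IsAdmRep 𝒩 M) (δ₁ δχ δχ' : ℕ)
    [FiniteDimensional F (H1adm 𝒩 (charRep F (1 : G →* kˣ)))]
    (hδ₁ : finrank F (H1adm 𝒩 (charRep F (1 : G →* kˣ))) ≤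
      finrank F (charRep F (1 : G →* kˣ)).ρ.invariants + δ₁)
    [FiniteDimensional F (H1adm 𝒩 (charRep F (χ₁ / χ₂)))]
    (hδχ : finrank F (H1adm 𝒩 (charRep F (χ₁ / χ₂))) ≤
      finrank F (charRep F (χ₁ / χ₂)).ρ.invariants + δχ)
    [FiniteDimensional F (H1adm 𝒩 (charRep F (χ₂ / χ₁)))]
    (hδχ' : finrank F (H1adm 𝒩 (charRep F (χ₂ / χ₁))) ≤
      finrank F (charRep F (χ₂ / χ₁)).ρ.invariants + δχ') :
    FiniteDimensional F (H1adm 𝒩 M) ∧
      finrank F (H1adm 𝒩 M) ≤ finrank F M.ρ.invariants + δ₁ + δχ + δχ' := by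
  obtain ⟨hfinW, hW⟩ := finrank_H1adm_W1_le r hR χ₁ χ₂ h₁ h₂ 𝒩 hM δ₁ δχ hδ₁ hδχ
  have := r.finiteDimensional
  obtain ⟨hfin, h⟩ := finrank_H1adm_add_le 𝒩 (subRepι M (W1 r) (W1_stable r hR))
    (toLower r hR χ₁ χ₂ h₁ h₂) (subRepι_injective M (W1 r) (W1_stable r hR))
    (toLower_surjective r hR χ₁ χ₂ h₁ h₂) (range_W1_eq_ker_toLower r hR χ₁ χ₂ h₁ h₂) hM
  refine ⟨hfin, ?_⟩
  have hW' : finrank F (H1adm 𝒩 (subRep M (W1 r) (W1_stable r hR))) ≤
      finrank F (subRep M (W1 r) (W1_stable r hR)).ρ.invariants + δ₁ + δχ := hW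
  omega

include h₁ h₂ in
/-- **Ordinary classes.** The image of `H1adm(W1)` in `H¹(G, M)` has
`dim ≤ h⁰(M) + δ₁ + δ_χ`. -/
theorem finrank_map_H1adm_W1_le [FiniteDimensional F k] (hM : IsAdmRep 𝒩 M) (δ₁ δχ : ℕ)
    [FiniteDimensional F (H1adm 𝒩 (charRep F (1 : G →* kˣ)))]
    (hδ₁ : finrank F (H1adm 𝒩 (charRep F (1 : G →* kˣ))) ≤
      finrank F (charRep F (1 : G →* kˣ)).ρ.invariants + δ₁)
    [FiniteDimensional F (H1adm 𝒩 (charRep F (χ₁ / χ₂)))]
    (hδχ : finrank F (H1adm 𝒩 (charRep F (χ₁ / χ₂))) ≤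
      finrank F (charRep F (χ₁ / χ₂)).ρ.invariants + δχ) :
    finrank F ((H1adm 𝒩 (W1Rep r hR)).map (H1map (subRepι M (W1 r) (W1_stable r hR)))) ≤
      finrank F M.ρ.invariants + δ₁ + δχ := by
  obtain ⟨hfinW, hW⟩ := finrank_H1adm_W1_le r hR χ₁ χ₂ h₁ h₂ 𝒩 hM δ₁ δχ hδ₁ hδχ
  have := r.finiteDimensional
  have h := finrank_map_H1adm_add_le 𝒩 (subRepι M (W1 r) (W1_stable r hR))
    (subRepι_injective M (W1 r) (W1_stable r hR)) hM
  have h2 := finrank_relInv (subRepι M (W1 r) (W1_stable r hR))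
    (toLower r hR χ₁ χ₂ h₁ h₂) (subRepι_injective M (W1 r) (W1_stable r hR))
    (toLower_surjective r hR χ₁ χ₂ h₁ h₂) (range_W1_eq_ker_toLower r hR χ₁ χ₂ h₁ h₂)
  unfold W1Rep at hW ⊢
  omega

omit χ₁ χ₂ h₁ h₂ in
/-- A class represented by an admissible cocycle with upper triangular values lies in the image of
`H1adm(W1)`. -/
theorem H1π_mem_map_W1 (c : cocycles₁ M) (hc : c ∈ Zadm 𝒩 M) (hup : ∀ g, r.ι (c g) 1 0 = 0) :
    (H1π M).hom c ∈
      (H1adm 𝒩 (W1Rep r hR)).map (H1map (subRepι M (W1 r) (W1_stable r hR))) := by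
  have hcoc := (mem_cocycles₁_iff c).1 c.2
  let c' : G → (W1Rep r hR).V := fun g => (⟨c g, (mem_W1 r _).2 (hup g)⟩ : W1 r)
  have hc' : c' ∈ cocycles₁ (W1Rep r hR) := by
    rw [mem_cocycles₁_iff]
    intro g h
    apply Subtype.ext
    exact hcoc g h
  obtain ⟨N, hN, hcN⟩ := hc
  have hadm : (⟨c', hc'⟩ : cocycles₁ (W1Rep r hR)) ∈ Zadm 𝒩 (W1Rep r hR) :=
    ⟨N, hN, fun n hn => Subtype.ext (hcN n hn)⟩
  refine ⟨(H1π (W1Rep r hR)).hom ⟨c', hc'⟩, H1π_mem_H1adm 𝒩 hadm, ?_⟩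
  rw [H1map_H1π]
  congr 1

end Upper

end Fermat.Agent.TW.Cnt.AdFilt55
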