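/-
Program TW (S56), work package WP7-CNT (the count), brick C1 (helper55): restriction of admissible
classes to a subgroup of finite index prime to the characteristic.

* `exists_eq_d₀₁_of_vanish`: a 1-cocycle vanishing on a subgroup of finite index invertible in `k`
  is a coboundary (no normality needed).
* `HomEq 𝒩 S A`: for a normal subgroup `S` acting trivially on `A`, the `G`-equivariant admissible
  homomorphisms `S → A` (`f (g s g⁻¹) = g • f s`).
* `finrank_H1adm_le_finrank_HomEq`: `dim H1adm(G, A) ≤ dim HomEq 𝒩 S A`.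
-/
import Mathlib
import Fermat.Agent.TW.Cnt.AdmH1_55

set_option autoImplicit false

universe u

open CategoryTheory groupCohomology Module

namespace Fermat.Agent.TW.Cnt.AdmRes55

open Fermat.Agent.TW.Cnt.AdmH1_55

section LinearAlgebra

variable {k : Type u} [Field k] {V W H : Type u} [AddCommGroup V] [Module k V]
  [AddCommGroup W] [Module k W] [AddCommGroup H] [Module k H]

/-- If `Z ⊓ ker r ≤ ker π` then `π(Z)` is a quotient of `r(Z)`. -/
lemma finrank_map_le_of_ker_le (r : V →ₗ[k] W) (π : V →ₗ[k] H) (Z : Submodule k V)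
    [FiniteDimensional k (Z.map r)] (h : Z ⊓ LinearMap.ker r ≤ LinearMap.ker π) :
    FiniteDimensional k (Z.map π) ∧ finrank k (Z.map π) ≤ finrank k (Z.map r) := by
  set r' : Z →ₗ[k] W := r.domRestrict Z with hr'
  set π' : Z →ₗ[k] H := π.domRestrict Z with hπ'
  have hk : LinearMap.ker r' ≤ LinearMap.ker π' := by
    intro z hz
    exact h ⟨z.2, hz⟩
  have hrr : LinearMap.range r' = Z.map r := LinearMap.range_domRestrict Z r
  have hrp : LinearMap.range π' = Z.map π := LinearMap.range_domRestrict Z π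
  have : FiniteDimensional k (LinearMap.range r') := by rw [hrr]; infer_instance
  let l : LinearMap.range r' →ₗ[k] H :=
    ((LinearMap.ker r').liftQ π' hk) ∘ₗ (LinearMap.quotKerEquivRange r').symm.toLinearMap
  have hl : LinearMap.range l = Z.map π := by
    rw [← hrp]
    apply le_antisymm
    · rintro _ ⟨x, rfl⟩
      change ((LinearMap.ker r').liftQ π' hk) ((LinearMap.quotKerEquivRange r').symm x) ∈ _
      obtain ⟨z, hz⟩ :=
        Submodule.Quotient.mk_surjective _ ((LinearMap.quotKerEquivRange r').symm x)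
      rw [← hz, Submodule.liftQ_apply]
      exact ⟨z, rfl⟩
    · rintro _ ⟨z, rfl⟩
      refine ⟨(LinearMap.quotKerEquivRange r') (Submodule.Quotient.mk z), ?_⟩
      change ((LinearMap.ker r').liftQ π' hk) ((LinearMap.quotKerEquivRange r').symm _) = _
      rw [LinearEquiv.symm_apply_apply, Submodule.liftQ_apply]
  rw [← hl, ← hrr]
  exact ⟨inferInstance, LinearMap.finrank_range_le l⟩

end LinearAlgebra

variable {k G : Type u} [Field k] [Group G]

/-- A cocycle vanishing on a subgroup of finite index invertible in `k` is a coboundary. -/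
theorem exists_eq_d₀₁_of_vanish {A : Rep k G} (S : Subgroup G) [S.FiniteIndex]
    (hn : (S.index : k) ≠ 0) (c : cocycles₁ A) (hc : ∀ s ∈ S, c s = 0) :
    ∃ a : A, ∀ g : G, c g = A.ρ g a - a := by
  classical
  let _ : Fintype (G ⧸ S) := Subgroup.fintypeQuotientOfFiniteIndex
  have hcoc := (mem_cocycles₁_iff c).1 c.2
  have hconst : ∀ x y : G, (QuotientGroup.leftRel S) x y → c x = c y := by
    intro x y hxy
    rw [QuotientGroup.leftRel_apply] at hxy
    have : c y = c (x * (x⁻¹ * y)) := by rw [mul_inv_cancel_left]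
    rw [this, hcoc, hc _ hxy, map_zero, zero_add]
  let F : G ⧸ S → A := Quotient.lift (fun g => c g) hconst
  have hF : ∀ (g : G) (q : G ⧸ S), F (g • q) = A.ρ g (F q) + c g := by
    intro g q
    induction q using QuotientGroup.induction_on with | H h =>
    change c (g * h) = A.ρ g (c h) + c g
    exact hcoc g h
  set T : A := ∑ q : G ⧸ S, F q with hT
  have hsum : ∀ g : G, T = A.ρ g T + (S.index : k) • c g := by
    intro g
    have h1 : ∑ q : G ⧸ S, F (g • q) = T := Equiv.sum_comp (MulAction.toPerm g) F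
    have h2 : ∑ q : G ⧸ S, F (g • q) = A.ρ g T + (S.index : k) • c g := by
      simp_rw [hF, Finset.sum_add_distrib, Finset.sum_const, ← map_sum]
      rw [Finset.card_univ, Subgroup.index_eq_card, Nat.card_eq_fintype_card,
        Nat.cast_smul_eq_nsmul]
    exact h1.symm.trans h2
  refine ⟨-((S.index : k)⁻¹ • T), fun g => ?_⟩
  have h := hsum g
  have h3 : c g = (S.index : k)⁻¹ • (T - A.ρ g T) := by
    have : (S.index : k) • c g = T - A.ρ g T := by
      rw [eq_sub_iff_add_eq, add_comm]; exact h.symm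
    rw [← this, smul_smul, inv_mul_cancel₀ hn, one_smul]
  rw [h3, map_neg, map_smul, smul_sub]
  abel

/-- A cocycle whose restriction to a subgroup of finite index invertible in `k` is a coboundary
has trivial class. -/
theorem H1π_eq_zero_of_restrict {A : Rep k G} (S : Subgroup G) [S.FiniteIndex]
    (hn : (S.index : k) ≠ 0) (c : cocycles₁ A) (a : A) (hc : ∀ s ∈ S, c s = A.ρ s a - a) :
    (H1π A).hom c = 0 := by
  have hmem : (fun g => c g - (A.ρ g a - a)) ∈ cocycles₁ A := by
    have h1 : (fun g => c g - (A.ρ g a - a)) = ⇑c - (d₀₁ A).hom a := by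
      funext g
      rw [Pi.sub_apply, d₀₁_hom_apply]
    rw [h1]
    exact Submodule.sub_mem _ c.2 (d₀₁_apply_mem_cocycles₁ a)
  obtain ⟨b, hb⟩ := exists_eq_d₀₁_of_vanish S hn ⟨_, hmem⟩
    (fun s hs => by
      change c s - (A.ρ s a - a) = 0
      rw [hc s hs, sub_self])
  rw [H1π_eq_zero_iff]
  refine ⟨a + b, ?_⟩
  funext g
  have := hb g
  change c g - (A.ρ g a - a) = A.ρ g b - b at this
  rw [d₀₁_hom_apply, map_add]
  rw [sub_eq_iff_eq_add] at this
  rw [this]
  abel

section HomEq

variable (𝒩 : AdmFamily G) (S : Subgroup G) [hSn : S.Normal] (A : Rep k G)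

/-- `G`-equivariant admissible additive homomorphisms `S → A`. -/
def HomEq : Submodule k (↥S → A) where
  carrier := {f | (∀ s s' : S, f (s * s') = f s + f s') ∧
    (∀ (g : G) (s : S), f ⟨g * s * g⁻¹, hSn.conj_mem s s.2 g⟩ = A.ρ g (f s)) ∧
    ∃ N ∈ 𝒩.sets, ∀ s : S, (s : G) ∈ N → f s = 0}
  add_mem' := by
    rintro f f' ⟨h1, h2, N, hN, h3⟩ ⟨h1', h2', N', hN', h3'⟩
    refine ⟨fun s s' => ?_, fun g s => ?_, N ⊓ N', 𝒩.inf_mem hN hN', fun s hs => ?_⟩
    · simp only [Pi.add_apply, h1, h1']; abel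
    · simp only [Pi.add_apply, h2, h2', map_add]
    · simp only [Pi.add_apply, h3 s hs.1, h3' s hs.2, add_zero]
  zero_mem' := by
    obtain ⟨N, hN⟩ := 𝒩.nonempty
    exact ⟨fun _ _ => by simp, fun _ _ => by simp, N, hN, fun _ _ => rfl⟩
  smul_mem' := by
    rintro a f ⟨h1, h2, N, hN, h3⟩
    refine ⟨fun s s' => ?_, fun g s => ?_, N, hN, fun s hs => ?_⟩
    · simp only [Pi.smul_apply, h1, smul_add]
    · simp only [Pi.smul_apply, h2, map_smul]
    · simp only [Pi.smul_apply, h3 s hs, smul_zero]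

/-- Restriction of cocycles to functions on `S`. -/
def resFun : cocycles₁ A →ₗ[k] (↥S → A) :=
  (LinearMap.funLeft k A (fun s : S => (s : G))) ∘ₗ (cocycles₁ A).subtype

omit hSn in
lemma resFun_apply (c : cocycles₁ A) (s : S) : resFun S A c s = c (s : G) := rfl

variable {A}

/-- On a subgroup acting trivially, an admissible cocycle restricts to an equivariant admissible
homomorphism. -/
lemma resFun_mem_HomEq (hS : ∀ s ∈ S, ∀ a : A, A.ρ s a = a) {c : cocycles₁ A}
    (hc : c ∈ Zadm 𝒩 A) : resFun S A c ∈ HomEq 𝒩 S A := by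
  have hcoc := (mem_cocycles₁_iff c).1 c.2
  obtain ⟨N, hN, hcN⟩ := hc
  refine ⟨fun s s' => ?_, fun g s => ?_, N, hN, fun s hs => hcN _ hs⟩
  · rw [resFun_apply, resFun_apply, resFun_apply, Subgroup.coe_mul, hcoc, hS _ s.2, add_comm]
  · rw [resFun_apply, resFun_apply]
    change c (g * (s : G) * g⁻¹) = _
    rw [mul_assoc, hcoc, hcoc, hS _ s.2, map_add, cocycles₁_map_inv]
    abel

lemma map_resFun_Zadm_le (hS : ∀ s ∈ S, ∀ a : A, A.ρ s a = a) :
    (Zadm 𝒩 A).map (resFun S A) ≤ HomEq 𝒩 S A := by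
  rintro _ ⟨c, hc, rfl⟩
  exact resFun_mem_HomEq 𝒩 S hS hc

/-- **(RES)** If the normal subgroup `S` acts trivially on `A` and has finite index invertible in
`k`, then `dim H1adm(G, A) ≤ dim HomEq 𝒩 S A`. -/
theorem finrank_H1adm_le_finrank_HomEq [S.FiniteIndex] (hn : (S.index : k) ≠ 0)
    (hS : ∀ s ∈ S, ∀ a : A, A.ρ s a = a) [FiniteDimensional k (HomEq 𝒩 S A)] :
    FiniteDimensional k (H1adm 𝒩 A) ∧
      finrank k (H1adm 𝒩 A) ≤ finrank k (HomEq 𝒩 S A) := by
  have hle := map_resFun_Zadm_le 𝒩 S hS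
  have : FiniteDimensional k ((Zadm 𝒩 A).map (resFun S A)) :=
    Submodule.finiteDimensional_of_le hle
  have hker : Zadm 𝒩 A ⊓ LinearMap.ker (resFun S A) ≤ LinearMap.ker (H1π A).hom := by
    rintro c ⟨_, hc⟩
    rw [SetLike.mem_coe, LinearMap.mem_ker] at hc
    rw [LinearMap.mem_ker]
    refine H1π_eq_zero_of_restrict S hn c 0 (fun s hs => ?_)
    have := congrFun hc ⟨s, hs⟩
    rw [resFun_apply] at this
    rw [map_zero, sub_zero]
    exact this
  obtain ⟨h1, h2⟩ := finrank_map_le_of_ker_le (resFun S A) (H1π A).hom (Zadm 𝒩 A) hker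
  exact ⟨h1, h2.trans (Submodule.finrank_mono hle)⟩

end HomEq

end Fermat.Agent.TW.Cnt.AdmRes55
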