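/-
Program TW (S56), work package WP7-CNT (the count), brick C4 (helper55): the induced case.

`M` realised as `ad⁰` of `R : G →* M₂(k)`, `H ≤ G` of index `2`, `R h` diagonal for `h ∈ H` and
antidiagonal for `g ∉ H` (i.e. the two-dimensional representation is induced from a character of
`H`).  Let `ψ₁, ψ₂ : H →* kˣ` be the diagonal characters.  Projecting the restriction to `H` of a
cocycle to its upper right entry gives a map `H1adm(G, M) → H1adm(H, k(ψ₁/ψ₂))`, and we prove that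
it is injective, provided `2` is invertible and every admissible additive character `y : H → k` is
invariant under conjugation by `G` (hypothesis `hETA`; in the application admissible characters
are unramified).  Hence `dim H1adm(G, M) ≤ dim H1adm(H, k(ψ₁/ψ₂))`.
-/
import Mathlib
import Fermat.Agent.TW.Cnt.AdmRes55
import Fermat.Agent.TW.Cnt.AdFilt55

set_option autoImplicit false

open CategoryTheory groupCohomology Module

namespace Fermat.Agent.TW.Cnt.AdInd55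

open Fermat.Agent.TW.Cnt.AdmH1_55 Fermat.Agent.TW.Cnt.AdmRes55 Fermat.Agent.TW.Cnt.AdReal55
  Fermat.Agent.TW.Cnt.AdFilt55

/-- Restriction of an admissible family to a subgroup. -/
def comapFamily {G : Type} [Group G] (𝒩 : AdmFamily G) (H : Subgroup G) : AdmFamily ↥H where
  sets := (fun N : Subgroup G => N.subgroupOf H) '' 𝒩.sets
  nonempty := 𝒩.nonempty.image _
  inf_mem := by
    rintro _ _ ⟨N, hN, rfl⟩ ⟨N', hN', rfl⟩
    refine ⟨N ⊓ N', 𝒩.inf_mem hN hN', ?_⟩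
    ext h
    simp [Subgroup.mem_subgroupOf]

lemma mem_comapFamily {G : Type} [Group G] (𝒩 : AdmFamily G) (H : Subgroup G) {N : Subgroup G}
    (hN : N ∈ 𝒩.sets) : N.subgroupOf H ∈ (comapFamily 𝒩 H).sets :=
  ⟨N, hN, rfl⟩

variable {F k G : Type} [Field F] [Field k] [Algebra F k] [Group G] {M : Rep.{0} F G}
  (r : Ad0Real F k M) (H : Subgroup G)

section Diagonal

variable (hdiag : ∀ h ∈ H, r.R h 0 1 = 0 ∧ r.R h 1 0 = 0)

include hdiag

lemma diag_mul_00 {h : G} (hh : h ∈ H) : r.R h 0 0 * r.R h⁻¹ 0 0 = 1 := by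
  have e := congrFun (congrFun (r.R_mul_inv h) 0) 0
  rw [mul_apply_two, (hdiag h hh).1, zero_mul, add_zero] at e
  simpa using e

lemma diag_mul_11 {h : G} (hh : h ∈ H) : r.R h 1 1 * r.R h⁻¹ 1 1 = 1 := by
  have e := congrFun (congrFun (r.R_mul_inv h) 1) 1
  rw [mul_apply_two, (hdiag h hh).2, zero_mul, zero_add] at e
  simpa using e

lemma conj_diag_apply {h : G} (hh : h ∈ H) (X : Matrix (Fin 2) (Fin 2) k) (i j : Fin 2) :
    (r.R h * X * r.R h⁻¹) i j = r.R h i i * X i j * r.R h⁻¹ j j := by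
  have h1 := hdiag h hh
  have h2 := hdiag h⁻¹ (H.inv_mem hh)
  rw [mul_mul_apply]
  fin_cases i <;> fin_cases j <;> simp [h1.1, h1.2, h2.1, h2.2]

end Diagonal

section Anti

variable (hanti : ∀ g ∉ H, r.R g 0 0 = 0 ∧ r.R g 1 1 = 0)

include hanti

lemma anti_mul_01 {s : G} (hs : s ∉ H) : r.R s 0 1 * r.R s⁻¹ 1 0 = 1 := by
  have e := congrFun (congrFun (r.R_mul_inv s) 0) 0
  rw [mul_apply_two, (hanti s hs).1, zero_mul, zero_add] at e
  simpa using e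

lemma anti_mul_10 {s : G} (hs : s ∉ H) : r.R s 1 0 * r.R s⁻¹ 0 1 = 1 := by
  have e := congrFun (congrFun (r.R_mul_inv s) 1) 1
  rw [mul_apply_two, (hanti s hs).2, zero_mul, add_zero] at e
  simpa using e

lemma conj_anti_00 {s : G} (hs : s ∉ H) (X : Matrix (Fin 2) (Fin 2) k) :
    (r.R s * X * r.R s⁻¹) 0 0 = X 1 1 := by
  have hs' : s⁻¹ ∉ H := fun h => hs (by simpa using H.inv_mem h)
  rw [mul_mul_apply, (hanti s hs).1, (hanti s⁻¹ hs').1]
  have := anti_mul_01 r H hanti hs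
  calc _ = (r.R s 0 1 * r.R s⁻¹ 1 0) * X 1 1 := by ring
    _ = X 1 1 := by rw [this, one_mul]

lemma conj_anti_11 {s : G} (hs : s ∉ H) (X : Matrix (Fin 2) (Fin 2) k) :
    (r.R s * X * r.R s⁻¹) 1 1 = X 0 0 := by
  have hs' : s⁻¹ ∉ H := fun h => hs (by simpa using H.inv_mem h)
  rw [mul_mul_apply, (hanti s hs).2, (hanti s⁻¹ hs').2]
  have := anti_mul_10 r H hanti hs
  calc _ = (r.R s 1 0 * r.R s⁻¹ 0 1) * X 0 0 := by ring
    _ = X 0 0 := by rw [this, one_mul]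

lemma conj_anti_01 {s : G} (hs : s ∉ H) (X : Matrix (Fin 2) (Fin 2) k) :
    (r.R s * X * r.R s⁻¹) 0 1 = r.R s 0 1 * r.R s⁻¹ 0 1 * X 1 0 := by
  have hs' : s⁻¹ ∉ H := fun h => hs (by simpa using H.inv_mem h)
  rw [mul_mul_apply, (hanti s hs).1, (hanti s⁻¹ hs').2]
  ring

end Anti

section Core

variable [hHn : H.Normal] (hdiag : ∀ h ∈ H, r.R h 0 1 = 0 ∧ r.R h 1 0 = 0)
  (hanti : ∀ g ∉ H, r.R g 0 0 = 0 ∧ r.R g 1 1 = 0)

omit hHn in
/-- The basic relation between the values of a cocycle at `h` and at `s h s⁻¹`. -/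
lemma cocycle_conj (c : cocycles₁ M) (s h : G) :
    c (s * h * s⁻¹) = M.ρ s (c h) + c s - M.ρ (s * h * s⁻¹) (c s) := by
  have hcoc := (mem_cocycles₁_iff c).1 c.2
  have e1 := hcoc s h
  have e2 := hcoc (s * h * s⁻¹) s
  rw [inv_mul_cancel_right] at e2
  rw [e1] at e2
  rw [eq_sub_iff_add_eq, add_comm]
  exact e2.symm

include hdiag hanti

omit hHn hdiag in
lemma R_conj_00 {s h : G} (hs : s ∉ H) : r.R (s * h * s⁻¹) 0 0 = r.R h 1 1 := by
  rw [map_mul, map_mul, conj_anti_00 r H hanti hs]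

omit hHn hdiag in
lemma R_conj_11 {s h : G} (hs : s ∉ H) : r.R (s * h * s⁻¹) 1 1 = r.R h 0 0 := by
  rw [map_mul, map_mul, conj_anti_11 r H hanti hs]

/-- If the upper right entry of `c` vanishes on `H`, the lower left entry is a coboundary on `H`. -/
lemma lower_eq_of_upper_zero (c : cocycles₁ M) {s : G} (hs : s ∉ H)
    (h01 : ∀ h ∈ H, r.ι (c h) 0 1 = 0) {h : G} (hh : h ∈ H) :
    r.ι (c h) 1 0 =
      (r.R h 1 1 * r.R h⁻¹ 0 0 - 1) * ((r.R s 0 1 * r.R s⁻¹ 0 1)⁻¹ * r.ι (c s) 0 1) := by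
  have hh' : s * h * s⁻¹ ∈ H := hHn.conj_mem h hh s
  have e := congrArg (fun m => r.ι m 0 1) (cocycle_conj c s h)
  simp only [map_sub, map_add, Matrix.sub_apply, Matrix.add_apply] at e
  rw [h01 _ hh', r.equivariant, r.equivariant, conj_anti_01 r H hanti hs,
    conj_diag_apply r H hdiag hh', R_conj_00 r H hanti hs] at e
  have e3 : r.R (s * h * s⁻¹)⁻¹ 1 1 = r.R h⁻¹ 0 0 := by
    have : (s * h * s⁻¹)⁻¹ = s * h⁻¹ * s⁻¹ := by group
    rw [this, R_conj_11 r H hanti hs]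
  rw [e3] at e
  have hne : r.R s 0 1 * r.R s⁻¹ 0 1 ≠ 0 := by
    have hs' : s⁻¹ ∉ H := fun h => hs (by simpa using H.inv_mem h)
    have h1 := anti_mul_01 r H hanti hs
    have h2 := anti_mul_10 r H hanti hs
    intro h0
    rcases mul_eq_zero.1 h0 with h0 | h0
    · rw [h0, zero_mul] at h1; exact zero_ne_one h1
    · rw [h0, mul_zero] at h2; exact zero_ne_one h2
  have key : r.ι (c h) 1 0 = (r.R s 0 1 * r.R s⁻¹ 0 1)⁻¹ *
      ((r.R h 1 1 * r.R h⁻¹ 0 0 - 1) * r.ι (c s) 0 1) := by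
    rw [eq_inv_mul_iff_mul_eq₀ hne]
    linear_combination -e
  rw [key]
  ring

/-- The diagonal entries of `c` on `H` are swapped under conjugation by `s ∉ H`. -/
lemma diag_conj (c : cocycles₁ M) {s : G} (hs : s ∉ H)
    {h : G} (hh : h ∈ H) :
    r.ι (c (s * h * s⁻¹)) 0 0 = r.ι (c h) 1 1 := by
  have hh' : s * h * s⁻¹ ∈ H := hHn.conj_mem h hh s
  have e := congrArg (fun m => r.ι m 0 0) (cocycle_conj c s h)
  simp only [map_sub, map_add, Matrix.sub_apply, Matrix.add_apply] at e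
  rw [r.equivariant, r.equivariant, conj_anti_00 r H hanti hs,
    conj_diag_apply r H hdiag hh'] at e
  have e4 : r.R (s * h * s⁻¹) 0 0 * r.ι (c s) 0 0 * r.R (s * h * s⁻¹)⁻¹ 0 0 = r.ι (c s) 0 0 := by
    have := diag_mul_00 r H hdiag hh'
    calc _ = (r.R (s * h * s⁻¹) 0 0 * r.R (s * h * s⁻¹)⁻¹ 0 0) * r.ι (c s) 0 0 := by ring
      _ = _ := by rw [this, one_mul]
  rw [e4] at e
  rw [e]
  ring

omit hHn hanti in
/-- The diagonal entry of `c` restricted to `H` is additive. -/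
lemma diag_add (c : cocycles₁ M) {h h' : G} (hh : h ∈ H) :
    r.ι (c (h * h')) 0 0 = r.ι (c h') 0 0 + r.ι (c h) 0 0 := by
  have hcoc := (mem_cocycles₁_iff c).1 c.2
  rw [hcoc, map_add, Matrix.add_apply, r.equivariant, conj_diag_apply r H hdiag hh]
  have := diag_mul_00 r H hdiag hh
  congr 1
  calc _ = (r.R h 0 0 * r.R h⁻¹ 0 0) * r.ι (c h') 0 0 := by ring
    _ = _ := by rw [this, one_mul]

end Core

section Main

variable [hHn : H.Normal] (hdiag : ∀ h ∈ H, r.R h 0 1 = 0 ∧ r.R h 1 0 = 0)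
  (hanti : ∀ g ∉ H, r.R g 0 0 = 0 ∧ r.R g 1 1 = 0) (hind : H.index = 2) (h2 : (2 : F) ≠ 0)
  (𝒩 : AdmFamily G) (hM : IsAdmRep 𝒩 M)
  (hETA : ∀ y : H → k, (∀ h h' : H, y (h * h') = y h + y h') →
      (∃ N ∈ 𝒩.sets, ∀ h : H, (h : G) ∈ N → y h = 0) →
      ∀ (g : G) (h : H), y ⟨g * h * g⁻¹, hHn.conj_mem h h.2 g⟩ = y h)

/-- The coboundary of `m`, as a cocycle. -/
noncomputable def cob (m : M.V) : cocycles₁ M := ⟨(d₀₁ M).hom m, d₀₁_apply_mem_cocycles₁ m⟩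

omit hHn in
lemma cob_apply (m : M.V) (g : G) : cob (M := M) m g = M.ρ g m - m := by
  change (d₀₁ M).hom m g = _
  rw [d₀₁_hom_apply]

omit hHn in
lemma sub_cob_apply (c : cocycles₁ M) (m : M.V) (g : G) :
    (c - cob m) g = c g - (M.ρ g m - m) := by
  rw [← cob_apply]
  rfl

include hdiag hanti hind h2 hM hETA in
/-- **Key lemma.** If the upper right entry of an admissible cocycle is a coboundary on `H`
(for the character `ψ₁/ψ₂`), the cocycle is a coboundary on `G`. -/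
theorem H1π_eq_zero_of_upper (c : cocycles₁ M) (hc : c ∈ Zadm 𝒩 M) (a : k)
    (ha : ∀ h ∈ H, r.ι (c h) 0 1 = r.R h 0 0 * r.R h⁻¹ 1 1 * a - a) :
    (H1π M).hom c = 0 := by
  have h2k : (2 : k) ≠ 0 := by
    have : (2 : k) = algebraMap F k 2 := (map_ofNat (algebraMap F k) 2).symm
    rw [this]
    exact (map_ne_zero_iff _ (algebraMap F k).injective).2 h2
  obtain ⟨s, hs⟩ : ∃ s : G, s ∉ H := by
    by_contra hcon
    simp only [not_exists, not_not] at hcon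
    have : H = ⊤ := (Subgroup.eq_top_iff' H).2 hcon
    rw [this, Subgroup.index_top] at hind
    exact absurd hind (by norm_num)
  -- first correction
  set c₁ : cocycles₁ M := c - cob (up r a) with hc₁
  have h01₁ : ∀ h ∈ H, r.ι (c₁ h) 0 1 = 0 := by
    intro h hh
    rw [hc₁, sub_cob_apply, map_sub, map_sub, Matrix.sub_apply, Matrix.sub_apply, ha h hh,
      r.equivariant, conj_diag_apply r H hdiag hh, ι_up, Matrix.single_apply_same]
    ring
  -- second correction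
  set a' : k := (r.R s 0 1 * r.R s⁻¹ 0 1)⁻¹ * r.ι (c₁ s) 0 1 with ha'
  set c₂ : cocycles₁ M := c₁ - cob (low r a') with hc₂
  have h01₂ : ∀ h ∈ H, r.ι (c₂ h) 0 1 = 0 := by
    intro h hh
    rw [hc₂, sub_cob_apply, map_sub, map_sub, Matrix.sub_apply, Matrix.sub_apply, h01₁ h hh,
      r.equivariant, conj_diag_apply r H hdiag hh, ι_low,
      Matrix.single_apply_of_ne _ _ _ _ _ (by decide)]
    ring
  have h10₂ : ∀ h ∈ H, r.ι (c₂ h) 1 0 = 0 := by
    intro h hh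
    rw [hc₂, sub_cob_apply, map_sub, map_sub, Matrix.sub_apply, Matrix.sub_apply,
      lower_eq_of_upper_zero r H hdiag hanti c₁ hs h01₁ hh,
      r.equivariant, conj_diag_apply r H hdiag hh, ι_low, Matrix.single_apply_same, ← ha']
    ring
  -- the diagonal entry
  have hadm₂ : c₂ ∈ Zadm 𝒩 M := by
    refine Submodule.sub_mem _ (Submodule.sub_mem _ hc ?_) ?_
    · exact d₀₁_mem_Zadm 𝒩 hM (up r a) _ (cob_apply _)
    · exact d₀₁_mem_Zadm 𝒩 hM (low r a') _ (cob_apply _)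
  have hy : ∀ h : H, r.ι (c₂ (h : G)) 0 0 = 0 := by
    intro h
    have e1 := hETA (fun h : H => r.ι (c₂ (h : G)) 0 0)
      (fun h h' => by
        change r.ι (c₂ ((h : G) * (h' : G))) 0 0 = _
        rw [diag_add r H hdiag c₂ h.2, add_comm])
      (by
        obtain ⟨N, hN, hcN⟩ := hadm₂
        exact ⟨N, hN, fun h hh => by
          rw [hcN _ hh, map_zero]; rfl⟩)
      s h
    have e2 : r.ι (c₂ (s * (h : G) * s⁻¹)) 0 0 = r.ι (c₂ (h : G)) 1 1 :=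
      diag_conj r H hdiag hanti c₂ hs h.2
    have e3 : r.ι (c₂ (s * (h : G) * s⁻¹)) 0 0 = r.ι (c₂ (h : G)) 0 0 := e1
    have e4 := r.trace_zero (c₂ (h : G))
    rw [trace_two] at e4
    have e5 : (2 : k) * r.ι (c₂ (h : G)) 0 0 = 0 := by
      rw [e2] at e3
      linear_combination e4 - e3
    rcases mul_eq_zero.1 e5 with e5 | e5
    · exact absurd e5 h2k
    · exact e5
  have hvan : ∀ h ∈ H, c₂ h = 0 := by
    intro h hh
    apply r.inj
    rw [map_zero]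
    have e0 := hy ⟨h, hh⟩
    have e4 := r.trace_zero (c₂ h)
    rw [trace_two] at e4
    apply ext_two
    · exact e0
    · exact h01₂ h hh
    · exact h10₂ h hh
    · change r.ι (c₂ h) 1 1 = 0
      have e0' : r.ι (c₂ h) 0 0 = 0 := e0
      rw [e0', zero_add] at e4
      exact e4
  have : H.FiniteIndex := ⟨by rw [hind]; norm_num⟩
  have hn : ((H.index : ℕ) : F) ≠ 0 := by
    rw [hind]; exact_mod_cast h2
  obtain ⟨b, hb⟩ := exists_eq_d₀₁_of_vanish H hn c₂ hvan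
  rw [H1π_eq_zero_iff]
  refine ⟨b + up r a + low r a', ?_⟩
  funext g
  rw [d₀₁_hom_apply]
  have e := hb g
  rw [hc₂, sub_cob_apply, hc₁, sub_cob_apply] at e
  rw [map_add, map_add]
  rw [sub_eq_iff_eq_add, sub_eq_iff_eq_add] at e
  rw [e]
  abel

end Main

section Count

variable [hHn : H.Normal] (hdiag : ∀ h ∈ H, r.R h 0 1 = 0 ∧ r.R h 1 0 = 0)
  (ψ₁ ψ₂ : H →* kˣ) (hψ₁ : ∀ h : H, (ψ₁ h : k) = r.R (h : G) 0 0)
  (hψ₂ : ∀ h : H, (ψ₂ h : k) = r.R (h : G) 1 1)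

include hdiag hψ₁ hψ₂ in
omit hHn in
lemma char_eq (h : H) : (((ψ₁ / ψ₂) h : kˣ) : k) = r.R (h : G) 0 0 * r.R (h : G)⁻¹ 1 1 := by
  have e : r.R (h : G)⁻¹ 1 1 = ((ψ₂ h)⁻¹ : kˣ) := by
    have h1 := diag_mul_11 r H hdiag h.2
    rw [← hψ₂] at h1
    rw [Units.val_inv_eq_inv_val]
    exact eq_inv_of_mul_eq_one_right h1
  rw [e, ← hψ₁, MonoidHom.div_apply, div_eq_mul_inv, Units.val_mul]

/-- The upper right entry of the restriction to `H`, on functions. -/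
noncomputable def upperFun : cocycles₁ M →ₗ[F] (↥H → k) :=
  (LinearMap.pi fun h : H => (ent r 0 1) ∘ₗ (LinearMap.proj (h : G))) ∘ₗ (cocycles₁ M).subtype

omit hHn in
lemma upperFun_apply (c : cocycles₁ M) (h : H) : upperFun r H c h = r.ι (c (h : G)) 0 1 := rfl

include hdiag hψ₁ hψ₂ in
omit hHn in
lemma upperFun_mem_cocycles₁ (c : cocycles₁ M) :
    upperFun r H c ∈ cocycles₁ (charRep F (ψ₁ / ψ₂)) := by
  rw [mem_cocycles₁_iff]
  intro h h'
  have hcoc := (mem_cocycles₁_iff c).1 c.2 (h : G) (h' : G)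
  have key : r.ι (c ((h : G) * (h' : G))) 0 1 =
      (((ψ₁ / ψ₂) h : kˣ) : k) * r.ι (c (h' : G)) 0 1 + r.ι (c (h : G)) 0 1 := by
    rw [hcoc, map_add, Matrix.add_apply, r.equivariant, conj_diag_apply r H hdiag h.2,
      char_eq r H hdiag ψ₁ ψ₂ hψ₁ hψ₂]
    ring
  exact key

/-- The upper right entry of the restriction to `H`, as a map on cocycles. -/
noncomputable def upperCoc : cocycles₁ M →ₗ[F] cocycles₁ (charRep F (ψ₁ / ψ₂)) :=
  (upperFun r H).codRestrict _ (upperFun_mem_cocycles₁ r H hdiag ψ₁ ψ₂ hψ₁ hψ₂)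

omit hHn in
lemma upperCoc_apply (c : cocycles₁ M) (h : H) :
    upperCoc r H hdiag ψ₁ ψ₂ hψ₁ hψ₂ c h = r.ι (c (h : G)) 0 1 := rfl

omit hHn in
lemma upperCoc_mem_Zadm (𝒩 : AdmFamily G) {c : cocycles₁ M} (hc : c ∈ Zadm 𝒩 M) :
    upperCoc r H hdiag ψ₁ ψ₂ hψ₁ hψ₂ c ∈ Zadm (comapFamily 𝒩 H) (charRep F (ψ₁ / ψ₂)) := by
  obtain ⟨N, hN, hcN⟩ := hc
  refine ⟨N.subgroupOf H, mem_comapFamily 𝒩 H hN, fun h hh => ?_⟩
  rw [upperCoc_apply, hcN _ (Subgroup.mem_subgroupOf.1 hh), map_zero]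
  rfl

variable (hanti : ∀ g ∉ H, r.R g 0 0 = 0 ∧ r.R g 1 1 = 0) (hind : H.index = 2) (h2 : (2 : F) ≠ 0)
  (𝒩 : AdmFamily G) (hM : IsAdmRep 𝒩 M)
  (hETA : ∀ y : H → k, (∀ h h' : H, y (h * h') = y h + y h') →
      (∃ N ∈ 𝒩.sets, ∀ h : H, (h : G) ∈ N → y h = 0) →
      ∀ (g : G) (h : H), y ⟨g * h * g⁻¹, hHn.conj_mem h h.2 g⟩ = y h)

include hdiag hψ₁ hψ₂ hanti hind h2 hM hETA in
/-- **Induced case.** `dim H1adm(G, M) ≤ dim H1adm(H, k(ψ₁/ψ₂))`. -/
theorem finrank_H1adm_induced_le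
    [FiniteDimensional F (H1adm (comapFamily 𝒩 H) (charRep F (ψ₁ / ψ₂)))] :
    FiniteDimensional F (H1adm 𝒩 M) ∧
      finrank F (H1adm 𝒩 M) ≤ finrank F (H1adm (comapFamily 𝒩 H) (charRep F (ψ₁ / ψ₂))) := by
  set Φ := upperCoc r H hdiag ψ₁ ψ₂ hψ₁ hψ₂ with hΦ
  set ρ' : cocycles₁ M →ₗ[F] H1 (charRep F (ψ₁ / ψ₂)) :=
    (H1π (charRep F (ψ₁ / ψ₂))).hom ∘ₗ Φ with hρ'
  have hle : (Zadm 𝒩 M).map ρ' ≤ H1adm (comapFamily 𝒩 H) (charRep F (ψ₁ / ψ₂)) := by
    rintro _ ⟨c, hc, rfl⟩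
    exact H1π_mem_H1adm _ (upperCoc_mem_Zadm r H hdiag ψ₁ ψ₂ hψ₁ hψ₂ 𝒩 hc)
  have : FiniteDimensional F ((Zadm 𝒩 M).map ρ') := Submodule.finiteDimensional_of_le hle
  have hker : Zadm 𝒩 M ⊓ LinearMap.ker ρ' ≤ LinearMap.ker (H1π M).hom := by
    rintro c ⟨hc, hk⟩
    rw [SetLike.mem_coe, LinearMap.mem_ker] at hk
    rw [LinearMap.mem_ker]
    have hk' : (H1π (charRep F (ψ₁ / ψ₂))).hom (Φ c) = 0 := hk
    rw [H1π_eq_zero_iff] at hk'
    obtain ⟨a, ha⟩ := hk'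
    refine H1π_eq_zero_of_upper r H hdiag hanti hind h2 𝒩 hM hETA c hc a (fun h hh => ?_)
    have e := congrFun ha ⟨h, hh⟩
    rw [d₀₁_hom_apply] at e
    have e' : (((ψ₁ / ψ₂) ⟨h, hh⟩ : kˣ) : k) * a - a = r.ι (c h) 0 1 := e
    rw [← e', char_eq r H hdiag ψ₁ ψ₂ hψ₁ hψ₂]
  obtain ⟨h1, h2'⟩ := finrank_map_le_of_ker_le ρ' (H1π M).hom (Zadm 𝒩 M) hker
  exact ⟨h1, h2'.trans (Submodule.finrank_mono hle)⟩

end Count

end Fermat.Agent.TW.Cnt.AdInd55
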