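/-
Program TW (S56), work package WP7-CNT (the count), brick C4 (helper55): the case analysis of
`ad⁰ ρbar` stated directly on the End-model `Rep.res f (Defs52.ad0 p ρbar)` of Contract52
(`f : G →* GQ`, e.g. `f = locAt (pPrime p)` so that the module is `resAt (pPrime p) (ad0 p ρbar)`).

* `finrank_H1adm_ad0_reducible` : `ρbar ∘ f` stabilises the line `k · b 0`:
  `dim H1adm(ad⁰) ≤ h⁰(ad⁰) + δ₁ + δ_χ + δ_χ'`.
* `finrank_ordinary_le` / `mem_ordinary` : the classes with an upper triangular admissible cocycle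
  form a subspace of dimension `≤ h⁰(ad⁰) + δ₁ + δ_χ`.
* `finrank_H1adm_ad0_induced` : `ρbar ∘ f` is diagonal on an index-2 subgroup `H` and antidiagonal
  off `H`: `dim H1adm(G, ad⁰) ≤ dim H1adm(H, k(ψ₁/ψ₂))`.
-/
import Mathlib
import Fermat.Agent.TW.Cnt.AdDiag55
import Fermat.Agent.TW.Cnt.AdInd55

set_option autoImplicit false

open CategoryTheory groupCohomology Module

namespace Fermat.Agent.TW.Cnt.AdCases55

open Fermat.Agent.TW.Spec.Defs52 Fermat.Agent.TW.Cnt.AdmH1_55 Fermat.Agent.TW.Cnt.AdReal55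
  Fermat.Agent.TW.Cnt.AdRealEnd55 Fermat.Agent.TW.Cnt.AdDiag55 Fermat.Agent.TW.Cnt.AdFilt55
  Fermat.Agent.TW.Cnt.AdInd55

variable (p : ℕ) [Fact p.Prime] {k : Type} [Field k] [Algebra (ZMod p) k]
  [FiniteDimensional (ZMod p) k]
  (ρbar : ResidualGaloisRep k) {G : Type} [Group G] (f : G →* GQ) (𝒩 : AdmFamily G)
  (b : Module.Basis (Fin 2) k ρbar.V)

section Reducible

variable (hst : ∀ g : G, ∃ a : k, ρbar.ρ (f g) (b 0) = a • b 0)

/-- The character of `G` on the stable line (`i = 0`) resp. on the quotient (`i = 1`). -/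
noncomputable def lineChar (i : Fin 2) : G →* kˣ :=
  diagChar (realOfBasis p ρbar f b).R (R_lower_eq_zero p ρbar f b hst) i

omit [FiniteDimensional (ZMod p) k] in
lemma lineChar_apply (i : Fin 2) (g : G) :
    ((lineChar p ρbar f b hst i g : kˣ) : k) = LinearMap.toMatrix b b (ρbar.ρ (f g)) i i := rfl

/-- **Reducible case** on the End-model. -/
theorem finrank_H1adm_ad0_reducible (hM : IsAdmRep 𝒩 (Rep.res f (ad0 p ρbar))) (δ₁ δχ δχ' : ℕ)
    [FiniteDimensional (ZMod p) (H1adm 𝒩 (charRep (ZMod p) (1 : G →* kˣ)))]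
    (hδ₁ : finrank (ZMod p) (H1adm 𝒩 (charRep (ZMod p) (1 : G →* kˣ))) ≤
      finrank (ZMod p) (charRep (ZMod p) (1 : G →* kˣ)).ρ.invariants + δ₁)
    [FiniteDimensional (ZMod p)
      (H1adm 𝒩 (charRep (ZMod p) (lineChar p ρbar f b hst 0 / lineChar p ρbar f b hst 1)))]
    (hδχ : finrank (ZMod p)
        (H1adm 𝒩 (charRep (ZMod p) (lineChar p ρbar f b hst 0 / lineChar p ρbar f b hst 1))) ≤
      finrank (ZMod p)
        (charRep (ZMod p) (lineChar p ρbar f b hst 0 / lineChar p ρbar f b hst 1)).ρ.invariants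
        + δχ)
    [FiniteDimensional (ZMod p)
      (H1adm 𝒩 (charRep (ZMod p) (lineChar p ρbar f b hst 1 / lineChar p ρbar f b hst 0)))]
    (hδχ' : finrank (ZMod p)
        (H1adm 𝒩 (charRep (ZMod p) (lineChar p ρbar f b hst 1 / lineChar p ρbar f b hst 0))) ≤
      finrank (ZMod p)
        (charRep (ZMod p) (lineChar p ρbar f b hst 1 / lineChar p ρbar f b hst 0)).ρ.invariants
        + δχ') :
    FiniteDimensional (ZMod p) (H1adm 𝒩 (Rep.res f (ad0 p ρbar))) ∧
      finrank (ZMod p) (H1adm 𝒩 (Rep.res f (ad0 p ρbar))) ≤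
        finrank (ZMod p) (Rep.res f (ad0 p ρbar)).ρ.invariants + δ₁ + δχ + δχ' :=
  finrank_H1adm_upper_le (realOfBasis p ρbar f b) (R_lower_eq_zero p ρbar f b hst)
    (lineChar p ρbar f b hst 0) (lineChar p ρbar f b hst 1) (fun _ => rfl) (fun _ => rfl)
    𝒩 hM δ₁ δχ δχ' hδ₁ hδχ hδχ'

/-- The subspace of **ordinary classes**: the image of `H1adm` of the upper triangular part. -/
noncomputable def ordinaryClasses : Submodule (ZMod p) (H1 (Rep.res f (ad0 p ρbar))) :=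
  (H1adm 𝒩 (W1Rep (realOfBasis p ρbar f b) (R_lower_eq_zero p ρbar f b hst))).map
    (H1map (subRepι (Rep.res f (ad0 p ρbar)) (W1 (realOfBasis p ρbar f b))
      (W1_stable (realOfBasis p ρbar f b) (R_lower_eq_zero p ρbar f b hst))))

/-- The ordinary classes have dimension `≤ h⁰(ad⁰) + δ₁ + δ_χ`. -/
theorem finrank_ordinary_le (hM : IsAdmRep 𝒩 (Rep.res f (ad0 p ρbar))) (δ₁ δχ : ℕ)
    [FiniteDimensional (ZMod p) (H1adm 𝒩 (charRep (ZMod p) (1 : G →* kˣ)))]
    (hδ₁ : finrank (ZMod p) (H1adm 𝒩 (charRep (ZMod p) (1 : G →* kˣ))) ≤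
      finrank (ZMod p) (charRep (ZMod p) (1 : G →* kˣ)).ρ.invariants + δ₁)
    [FiniteDimensional (ZMod p)
      (H1adm 𝒩 (charRep (ZMod p) (lineChar p ρbar f b hst 0 / lineChar p ρbar f b hst 1)))]
    (hδχ : finrank (ZMod p)
        (H1adm 𝒩 (charRep (ZMod p) (lineChar p ρbar f b hst 0 / lineChar p ρbar f b hst 1))) ≤
      finrank (ZMod p)
        (charRep (ZMod p) (lineChar p ρbar f b hst 0 / lineChar p ρbar f b hst 1)).ρ.invariants
        + δχ) :
    FiniteDimensional (ZMod p) (ordinaryClasses p ρbar f 𝒩 b hst) ∧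
      finrank (ZMod p) (ordinaryClasses p ρbar f 𝒩 b hst) ≤
        finrank (ZMod p) (Rep.res f (ad0 p ρbar)).ρ.invariants + δ₁ + δχ := by
  have hfin := (finrank_H1adm_W1_le (realOfBasis p ρbar f b) (R_lower_eq_zero p ρbar f b hst)
    (lineChar p ρbar f b hst 0) (lineChar p ρbar f b hst 1) (fun _ => rfl) (fun _ => rfl)
    𝒩 hM δ₁ δχ hδ₁ hδχ).1
  refine ⟨?_, finrank_map_H1adm_W1_le (realOfBasis p ρbar f b) (R_lower_eq_zero p ρbar f b hst)
    (lineChar p ρbar f b hst 0) (lineChar p ρbar f b hst 1) (fun _ => rfl) (fun _ => rfl)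
    𝒩 hM δ₁ δχ hδ₁ hδχ⟩
  unfold ordinaryClasses
  infer_instance

omit [FiniteDimensional (ZMod p) k] in
/-- A class with an admissible cocycle whose values stabilise the line `k · b 0` is ordinary. -/
theorem mem_ordinary (c : cocycles₁ (Rep.res f (ad0 p ρbar))) (hc : c ∈ Zadm 𝒩 (Rep.res f (ad0 p ρbar)))
    (hup : ∀ g, ∃ a : k, ad0ToEnd p ρbar (c g) (b 0) = a • b 0) :
    (H1π (Rep.res f (ad0 p ρbar))).hom c ∈ ordinaryClasses p ρbar f 𝒩 b hst := by
  refine H1π_mem_map_W1 (realOfBasis p ρbar f b) (R_lower_eq_zero p ρbar f b hst) 𝒩 c hc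
    (fun g => ?_)
  obtain ⟨a, ha⟩ := hup g
  rw [realOfBasis_ι, LinearMap.toMatrix_apply, ha, map_smul, Module.Basis.repr_self]
  simp

end Reducible

section Induced

variable (H : Subgroup G) [hHn : H.Normal]
  (hdg : ∀ h ∈ H, (∃ a : k, ρbar.ρ (f h) (b 0) = a • b 0) ∧ ∃ a : k, ρbar.ρ (f h) (b 1) = a • b 1)
  (hsw : ∀ g ∉ H, (∃ a : k, ρbar.ρ (f g) (b 0) = a • b 1) ∧ ∃ a : k, ρbar.ρ (f g) (b 1) = a • b 0)

omit [FiniteDimensional (ZMod p) k] hHn in
include hdg in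
lemma R_diag {h : G} (hh : h ∈ H) :
    (realOfBasis p ρbar f b).R h 0 1 = 0 ∧ (realOfBasis p ρbar f b).R h 1 0 = 0 := by
  obtain ⟨⟨a, ha⟩, ⟨a', ha'⟩⟩ := hdg h hh
  constructor
  · rw [realOfBasis_R, LinearMap.toMatrix_apply, ha', map_smul, Module.Basis.repr_self]
    simp
  · rw [realOfBasis_R, LinearMap.toMatrix_apply, ha, map_smul, Module.Basis.repr_self]
    simp

omit [FiniteDimensional (ZMod p) k] hHn in
include hsw in
lemma R_anti {g : G} (hg : g ∉ H) :
    (realOfBasis p ρbar f b).R g 0 0 = 0 ∧ (realOfBasis p ρbar f b).R g 1 1 = 0 := by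
  obtain ⟨⟨a, ha⟩, ⟨a', ha'⟩⟩ := hsw g hg
  constructor
  · rw [realOfBasis_R, LinearMap.toMatrix_apply, ha, map_smul, Module.Basis.repr_self]
    simp
  · rw [realOfBasis_R, LinearMap.toMatrix_apply, ha', map_smul, Module.Basis.repr_self]
    simp

/-- The diagonal characters of `H`. -/
noncomputable def indChar (i : Fin 2) : H →* kˣ :=
  diagChar ((realOfBasis p ρbar f b).R.comp H.subtype)
    (fun h => (R_diag p ρbar f b H hdg h.2).2) i

omit [FiniteDimensional (ZMod p) k] hHn in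
lemma indChar_apply (i : Fin 2) (h : H) :
    ((indChar p ρbar f b H hdg i h : kˣ) : k) =
      LinearMap.toMatrix b b (ρbar.ρ (f (h : G))) i i := rfl

omit [FiniteDimensional (ZMod p) k] in
include hsw in
/-- **Induced case** on the End-model. -/
theorem finrank_H1adm_ad0_induced (hind : H.index = 2) (h2 : (2 : ZMod p) ≠ 0)
    (hM : IsAdmRep 𝒩 (Rep.res f (ad0 p ρbar)))
    (hETA : ∀ y : H → k, (∀ h h' : H, y (h * h') = y h + y h') →
      (∃ N ∈ 𝒩.sets, ∀ h : H, (h : G) ∈ N → y h = 0) →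
      ∀ (g : G) (h : H), y ⟨g * h * g⁻¹, hHn.conj_mem h h.2 g⟩ = y h)
    [FiniteDimensional (ZMod p) (H1adm (comapFamily 𝒩 H)
      (charRep (ZMod p) (indChar p ρbar f b H hdg 0 / indChar p ρbar f b H hdg 1)))] :
    FiniteDimensional (ZMod p) (H1adm 𝒩 (Rep.res f (ad0 p ρbar))) ∧
      finrank (ZMod p) (H1adm 𝒩 (Rep.res f (ad0 p ρbar))) ≤
        finrank (ZMod p) (H1adm (comapFamily 𝒩 H)
          (charRep (ZMod p) (indChar p ρbar f b H hdg 0 / indChar p ρbar f b H hdg 1))) :=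
  finrank_H1adm_induced_le (realOfBasis p ρbar f b) H (fun _ hh => R_diag p ρbar f b H hdg hh)
    (indChar p ρbar f b H hdg 0) (indChar p ρbar f b H hdg 1) (fun _ => rfl) (fun _ => rfl)
    (fun _ hg => R_anti p ρbar f b H hsw hg) hind h2 𝒩 hM hETA

end Induced

end Fermat.Agent.TW.Cnt.AdCases55
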