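/-
TW / WP7-CNT (helper72): the one-dimensional representation `k(χ)` with `ZMod p`-coefficients.

`k` a field which is a `ZMod p`-algebra, `G` a group, `χ : G →* kˣ`.  `charRep p χ` is the object of
`Rep (ZMod p) G` with carrier `k` and action `g • x = χ g * x`.
-/
import Mathlib

set_option autoImplicit false

noncomputable section

namespace Fermat.Agent.TW.Cnt.CharRep72

variable (p : ℕ) [Fact p.Prime] {k : Type} [Field k] [Algebra (ZMod p) k] {G : Type} [Group G]

/-- The representation `g ↦ (x ↦ χ g * x)` of `G` on `k`, with `ZMod p`-coefficients. -/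
def charRepresentation (χ : G →* kˣ) : Representation (ZMod p) G k where
  toFun g :=
    { toFun := fun x => (χ g : k) * x
      map_add' := fun x y => mul_add _ x y
      map_smul' := fun a x => by
        simp only [RingHom.id_apply]
        rw [Algebra.smul_def, Algebra.smul_def]
        ring }
  map_one' := by
    ext x
    simp
  map_mul' g h := by
    ext x
    simp [mul_assoc]

@[simp] theorem charRepresentation_apply (χ : G →* kˣ) (g : G) (x : k) :
    charRepresentation p χ g x = (χ g : k) * x := rfl

/-- `k(χ)` as an object of `Rep (ZMod p) G`. -/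
def charRep (χ : G →* kˣ) : Rep.{0} (ZMod p) G := Rep.of (charRepresentation p χ)

theorem charRep_V (χ : G →* kˣ) : (charRep p χ).V = k := rfl

theorem charRep_ρ_apply (χ : G →* kˣ) (g : G) (x : k) :
    ((charRep p χ).ρ g) x = (χ g : k) * x := rfl

theorem mem_invariants_charRep_iff (χ : G →* kˣ) (x : k) :
    (show (charRep p χ).V from x) ∈ (charRep p χ).ρ.invariants ↔ ∀ g, (χ g : k) * x = x := by
  rw [Representation.mem_invariants]
  exact Iff.rfl

/-- The invariants of `k(χ)` are everything if `χ = 1`. -/
theorem invariants_charRep_one :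
    (charRep p (1 : G →* kˣ)).ρ.invariants = ⊤ := by
  rw [eq_top_iff]
  intro x _
  refine (mem_invariants_charRep_iff p (1 : G →* kˣ) (show k from x)).2 fun g => ?_
  simp

/-- The invariants of `k(χ)` are zero if `χ ≠ 1`. -/
theorem invariants_charRep_of_ne_one {χ : G →* kˣ} (hχ : χ ≠ 1) :
    (charRep p χ).ρ.invariants = ⊥ := by
  rw [eq_bot_iff]
  intro x hx
  have hx' := (mem_invariants_charRep_iff p χ (show k from x)).1 hx
  obtain ⟨g, hg⟩ : ∃ g, χ g ≠ 1 := by
    by_contra h
    push Not at h
    exact hχ (MonoidHom.ext h)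
  have h1 : (χ g : k) * (show k from x) = (show k from x) := hx' g
  have h2 : ((χ g : k) - 1) * (show k from x) = 0 := by rw [sub_mul, h1, one_mul, sub_self]
  have h3 : (χ g : k) - 1 ≠ 0 := by
    intro h
    apply hg
    ext
    rw [Units.val_one]
    exact sub_eq_zero.mp h
  rcases mul_eq_zero.mp h2 with h | h
  · exact absurd h h3
  · exact h

end Fermat.Agent.TW.Cnt.CharRep72
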