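/-
TW / WP7-CNT (helper72, WP7 architect): the LITERAL interfaces of the counting side, as compiled
`def … : Prop`s (same discipline as `TW/Spec/Contract52` and `TW/FF/Spec72`).

Notation: `Gp p` is the Prelude local Galois group at `p` (definitionally `FlatModel68.GQp p`),
`𝒩 = BridgeAdm54.admFam p hprod` the admissible family of kernels of flat modules killed by `p`;
`charRep (ZMod p) χ` is helper55's `AdReal55.charRep` (definitionally equal to `CharRep72.charRep p χ`),
`comapFamily 𝒩 H` is helper55's `AdInd55.comapFamily`.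

* `inertiaLoc p`, `omegaLoc p`, `omegaK p k`   : inertia and the mod `p` cyclotomic character on `Gp p`;
* `CharCount p hprod`   (T1)                    : the count for a character of `Gp p`;
* `IndCount p hprod`    (T2)                    : the count for a character of an index-two subgroup `H ⊇ I`;
* `IndShape p`          (SHAPE)                 : `ρbar|Gp` without stable line is induced from such an `H`;
* `CoinvExact p`        (ORD3)                  : exactness of inertia-coinvariants on flat modules;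
  `coinvExact_of_star`                          : it follows from `Spec72.Star` and `Spec72.ClosureQuot`.
-/
import Mathlib
import Fermat.Agent.TW.Cnt.BridgeAdm54
import Fermat.Agent.TW.Cnt.CharRep72
import Fermat.Agent.TW.Cnt.AdCases55
import Fermat.Prelude.Def_GaloisRep_CompletionBridge

set_option autoImplicit false

noncomputable section

namespace Fermat.Agent.TW.Cnt.Table72

open Fermat.Agent.TW.Spec.Defs52 Fermat.Agent.TW.Spec.Contract52
open Fermat.Agent.TW.FF.FlatModel68 (GQp LocalFlatModel)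
open Fermat.Agent.TW.FF.Spec72
open Fermat.Agent.TW.Cnt.BridgeFlat54 Fermat.Agent.TW.Cnt.BridgeAdm54 Fermat.Agent.TW.Cnt.AdmH1_55
open Fermat.Agent.TW.Cnt.AdReal55 (charRep)
open Fermat.Agent.TW.Cnt.AdInd55 (comapFamily)
open ExtCitation groupCohomology CategoryTheory Module Polynomial

variable (p : ℕ) [Fact p.Prime]

/-- The Prelude local Galois group at `p`. -/
abbrev Gp : Type := primeLocalGaloisGroup (pPrime p)

/-- Inertia, as a subset of the Prelude local group (transport of `Spec72.inertiaSet`). -/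
def inertiaLoc : Set (Gp p) := {τ | (toLoc p).symm τ ∈ inertiaSet p}

/-- The mod `p` cyclotomic character of `Gp p` (restriction of the global one). -/
def omegaLoc : Gp p →* (ZMod p)ˣ := (cycloChar p).comp (locAt (pPrime p))

/-- The mod `p` cyclotomic character with values in `kˣ`. -/
def omegaK (k : Type) [Field k] [Algebra (ZMod p) k] : Gp p →* kˣ :=
  (Units.map ((algebraMap (ZMod p) k : ZMod p →+* k) : ZMod p →* k)).comp (omegaLoc p)

open Classical in
/-- **T1 (CharCount).**  For a character `χ` of `Gp p` which is trivial on the kernel of a flat module: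
`dim H1adm(k(χ)) ≤ d·[χ|I = ω|I] + d·[χ = 1]` (dimensions over `ZMod p`, `d = [k : 𝔽_p]`). -/
def CharCount (hprod : ClosureProd p) : Prop :=
  p ≠ 2 → ∀ (k : Type) [Field k] [Finite k] [Algebra (ZMod p) k] (χ : Gp p →* kˣ),
    (∃ N ∈ (admFam p hprod).sets, ∀ n ∈ N, χ n = 1) →
    FiniteDimensional (ZMod p) (H1adm (admFam p hprod) (charRep (ZMod p) χ)) ∧
      finrank (ZMod p) (H1adm (admFam p hprod) (charRep (ZMod p) χ)) ≤
        (if ∀ τ ∈ inertiaLoc p, χ τ = omegaK p k τ then finrank (ZMod p) k else 0) +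
          (if χ = 1 then finrank (ZMod p) k else 0)

/-- **T2 (IndCount).**  `H ≤ Gp p` of index two containing inertia and the kernel `N` of a flat module
(so `H` is open), `ξ : H →* kˣ` trivial on `N`, inverted by conjugation with elements outside `H`, of "level two" on inertia, nontrivial on
inertia, and not the corner `p = 3`, `ξ|I = ω|I`: then `dim H1adm(H, k(ξ)) ≤ d`. -/
def IndCount (hprod : ClosureProd p) : Prop :=
  p ≠ 2 → ∀ (k : Type) [Field k] [Finite k] [Algebra (ZMod p) k] (H : Subgroup (Gp p))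
    (ξ : ↥H →* kˣ),
    H.index = 2 → inertiaLoc p ⊆ (H : Set (Gp p)) →
    (∃ N ∈ (admFam p hprod).sets, N ≤ H ∧ ∀ n : ↥H, (n : Gp p) ∈ N → ξ n = 1) →
    (∀ (s : Gp p) (h h' : ↥H), s ∉ H → (h' : Gp p) = s * h * s⁻¹ → ξ h' = (ξ h)⁻¹) →
    (∀ τ : ↥H, (τ : Gp p) ∈ inertiaLoc p → ξ τ ^ (p + 1) = 1) →
    (∃ τ : ↥H, (τ : Gp p) ∈ inertiaLoc p ∧ ξ τ ≠ 1) →
    ¬ (p = 3 ∧ ∀ τ : ↥H, (τ : Gp p) ∈ inertiaLoc p → ξ τ = omegaK p k τ) →
    FiniteDimensional (ZMod p) (H1adm (comapFamily (admFam p hprod) H) (charRep (ZMod p) ξ)) ∧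
      finrank (ZMod p) (H1adm (comapFamily (admFam p hprod) H) (charRep (ZMod p) ξ)) ≤ finrank (ZMod p) k

/-- **SHAPE (IndShape).**  If all characteristic polynomials of `ρbar` split over `k` and `ρbar` restricted
to `Gp p` has no stable line, then it is induced from an index-two subgroup `H ⊇ I`: in a suitable basis
`H` acts diagonally through characters `χ₁, χ₂`, the elements outside `H` act antidiagonally, on inertia
`χ₂ = χ₁ ^ p`, and `χ₁ ≠ χ₂` on inertia. -/
def IndShape : Prop :=
  p ≠ 2 → ∀ (k : Type) [Field k] [Finite k] [Algebra (ZMod p) k] (ρbar : ResidualGaloisRep k),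
    (∀ σ : GQ, ∃ α β : k, LinearMap.charpoly (ρbar.ρ σ) = (X - C α) * (X - C β)) →
    (∀ v : ρbar.V, v ≠ 0 → ∃ τ : Gp p, ¬ ∃ a : k, ρbar.ρ (locAt (pPrime p) τ) v = a • v) →
    ∃ (H : Subgroup (Gp p)) (b : Basis (Fin 2) k ρbar.V) (χ₁ χ₂ : ↥H →* kˣ),
      H.index = 2 ∧ inertiaLoc p ⊆ (H : Set (Gp p)) ∧
      (∀ h : ↥H, LinearMap.toMatrix b b (ρbar.ρ (locAt (pPrime p) (h : Gp p))) =
        Matrix.diagonal ![(χ₁ h : k), (χ₂ h : k)]) ∧
      (∀ s : Gp p, s ∉ H →
        LinearMap.toMatrix b b (ρbar.ρ (locAt (pPrime p) s)) 0 0 = 0 ∧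
        LinearMap.toMatrix b b (ρbar.ρ (locAt (pPrime p) s)) 1 1 = 0) ∧
      (∀ τ : ↥H, (τ : Gp p) ∈ inertiaLoc p → χ₂ τ = χ₁ τ ^ p) ∧
      (∃ τ : ↥H, (τ : Gp p) ∈ inertiaLoc p ∧ χ₁ τ ≠ χ₂ τ)

/-- The subgroup of `V` generated by the `τ v - v`, `τ` in inertia, `v ∈ W`. -/
def inertiaAug {V : Type} [AddCommGroup V] (act : GQp p → V → V) (W : AddSubgroup V) :
    AddSubgroup V :=
  AddSubgroup.closure {w : V | ∃ τ ∈ inertiaSet p, ∃ v ∈ W, w = act τ v - v}

/-- **ORD3 (CoinvExact).**  Exactness of inertia-coinvariants on flat modules killed by `p` (`p` odd):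
for a `G_p`-stable subgroup `W` of a flat module `V`, `W ∩ I_aug V = I_aug W`. -/
def CoinvExact : Prop :=
  p ≠ 2 → ∀ (V : Type) [AddCommGroup V] [Finite V] (act : GQp p → V → V),
    LocalFlatModel p V act → KilledByP p V →
    ∀ W : AddSubgroup V, (∀ τ, ∀ w ∈ W, act τ w ∈ W) →
      ∀ x ∈ W, x ∈ inertiaAug p act ⊤ → x ∈ inertiaAug p act W

/-! ### Invariants of `k(χ)` (for helper55's `charRep`) -/

section Invariants

variable {k : Type} [Field k] [Algebra (ZMod p) k] {G : Type} [Group G]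

theorem finrank_invariants_charRep_one :
    finrank (ZMod p) (charRep (ZMod p) (1 : G →* kˣ)).ρ.invariants = finrank (ZMod p) k := by
  have h : (charRep (ZMod p) (1 : G →* kˣ)).ρ.invariants = ⊤ :=
    CharRep72.invariants_charRep_one p (k := k) (G := G)
  rw [h, finrank_top]

theorem finrank_invariants_charRep_of_ne_one {χ : G →* kˣ} (hχ : χ ≠ 1) :
    finrank (ZMod p) (charRep (ZMod p) χ).ρ.invariants = 0 := by
  have h : (charRep (ZMod p) χ).ρ.invariants = ⊥ :=
    CharRep72.invariants_charRep_of_ne_one p hχ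
  rw [h, finrank_bot]

end Invariants

/-! ### `CoinvExact` follows from `Star` and `ClosureQuot` -/

/-- Inertia is stable under conjugation. -/
theorem conj_mem_inertiaSet (g τ : GQp p) (hτ : τ ∈ inertiaSet p) : g * τ * g⁻¹ ∈ inertiaSet p := by
  intro x hx
  have hnorm : ∀ (σ : GQp p) (y : PadicAlgCl p), ‖σ y‖ = ‖y‖ := fun σ y =>
    congrArg (fun t : NNReal => (t : ℝ)) (nnnorm_padicAlgCl_algEquiv p σ y)
  have hy : ‖g⁻¹ x‖ ≤ 1 := by rw [hnorm]; exact hx
  have h1 := hτ (g⁻¹ x) hy
  have h2 : (g * τ * g⁻¹) x - x = g (τ (g⁻¹ x) - g⁻¹ x) := by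
    rw [map_sub]
    show g (τ (g⁻¹ x)) - x = g (τ (g⁻¹ x)) - g (g⁻¹ x)
    congr 1
    exact (AlgEquiv.apply_symm_apply g x).symm
  rw [h2, hnorm]
  exact h1

section CoinvOfStar

open Fermat.Agent.TW.Cnt.AdmFlat72

variable {p}
variable {V : Type} [AddCommGroup V] {act : GQp p → V → V}

/-- `I_aug W` is stable under `G_p` when `W` is. -/
theorem act_mem_inertiaAug (hV : LocalFlatModel p V act) (W : AddSubgroup V)
    (hW : ∀ τ, ∀ w ∈ W, act τ w ∈ W) (g : GQp p) {x : V} (hx : x ∈ inertiaAug p act W) :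
    act g x ∈ inertiaAug p act W := by
  unfold inertiaAug at hx ⊢
  induction hx using AddSubgroup.closure_induction with
  | mem w hw =>
    obtain ⟨τ, hτ, v, hv, rfl⟩ := hw
    apply AddSubgroup.subset_closure
    refine ⟨g * τ * g⁻¹, conj_mem_inertiaSet p g τ hτ, act g v, hW g v hv, ?_⟩
    rw [act_sub hV, act_mul hV, act_mul hV, act_inv_act hV]
  | zero => rw [act_zero hV]; exact AddSubgroup.zero_mem _
  | add a b _ _ ha hb => rw [act_add hV]; exact AddSubgroup.add_mem _ ha hb
  | neg a _ ha => rw [act_neg hV]; exact AddSubgroup.neg_mem _ ha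

/-- **`Star` and `ClosureQuot` give the exactness of inertia-coinvariants.** -/
theorem coinvExact_of_star (hstar : Star p) (hquot : ClosureQuot p) : CoinvExact p := by
  intro hp2 V _ _ act hV hkill W hW x hxW hx
  set A : AddSubgroup V := inertiaAug p act W with hA
  -- the action on the quotient `V ⧸ A`
  let actHom : GQp p → V →+ V := fun τ =>
    { toFun := act τ, map_zero' := act_zero hV τ, map_add' := act_add hV τ }
  have hstab : ∀ τ, A ≤ A.comap (actHom τ) := fun τ a ha =>
    act_mem_inertiaAug hV W hW τ ha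
  let actQ : GQp p → V ⧸ A → V ⧸ A := fun τ => QuotientAddGroup.map A A (actHom τ) (hstab τ)
  have hactQ : ∀ τ v, (QuotientAddGroup.mk' A) (act τ v) = actQ τ ((QuotientAddGroup.mk' A) v) :=
    fun τ v => rfl
  have hQ : LocalFlatModel p (V ⧸ A) actQ :=
    hquot V (V ⧸ A) act actQ hV (QuotientAddGroup.mk' A) (QuotientAddGroup.mk'_surjective A) hactQ
  have hkillQ : KilledByP p (V ⧸ A) := by
    intro q
    obtain ⟨v, rfl⟩ := QuotientAddGroup.mk'_surjective A q
    rw [← map_nsmul, hkill v, map_zero]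
  -- the class of `x` is fixed by inertia
  have hfix : ∀ τ ∈ inertiaSet p, actQ τ ((QuotientAddGroup.mk' A) x) = (QuotientAddGroup.mk' A) x := by
    intro τ hτ
    rw [← hactQ]
    rw [QuotientAddGroup.mk'_eq_mk']
    refine ⟨x - act τ x, ?_, ?_⟩
    · have h1 : act τ x - x ∈ A := AddSubgroup.subset_closure ⟨τ, hτ, x, hxW, rfl⟩
      have h2 := A.neg_mem h1
      rwa [neg_sub] at h2
    · abel
  -- and lies in the augmentation part of the quotient
  have haug : ∀ y : V, y ∈ inertiaAug p act ⊤ → (QuotientAddGroup.mk' A) y ∈ AddSubgroup.closure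
      {w : V ⧸ A | ∃ τ ∈ inertiaSet p, ∃ v : V ⧸ A, w = actQ τ v - v} := by
    intro y hy
    unfold inertiaAug at hy
    induction hy using AddSubgroup.closure_induction with
    | mem w hw =>
      obtain ⟨τ, hτ, v, -, rfl⟩ := hw
      apply AddSubgroup.subset_closure
      refine ⟨τ, hτ, (QuotientAddGroup.mk' A) v, ?_⟩
      rw [map_sub, hactQ]
    | zero => rw [map_zero]; exact AddSubgroup.zero_mem _
    | add a b _ _ ha hb => rw [map_add]; exact AddSubgroup.add_mem _ ha hb
    | neg a _ ha => rw [map_neg]; exact AddSubgroup.neg_mem _ ha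
  have h0 := hstar hp2 (V ⧸ A) actQ hQ hkillQ _ hfix (haug x hx)
  exact (QuotientAddGroup.eq_zero_iff x).mp h0

end CoinvOfStar

end Fermat.Agent.TW.Cnt.Table72
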