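/-
TW / WP7 / SHAPE, part 2 (helper97): TAME STRUCTURE of inertia of `G_p = GQp p`, in the norm language of
`Spec72` / `LocalStruct97` (`Ω = PadicAlgCl p`, `I = Spec72.inertiaSet p`).

* `exists_uniformizer K0`       : a finite Galois `K0/ℚ_p` has `π` with `‖π‖ < 1`, `‖x‖ ∈ ‖π‖ ^ ℤ` (`x ≠ 0`).
* `principalUnits p`            : the subgroup `1 + 𝔪` of `Ωˣ`;  `mk_eq_mk_iff`.
* `theta x : I →* Ωˣ ⧸ (1 + 𝔪)` : the tame character `τ ↦ τ x / x`;  `theta_eq_one_iff`,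
  `theta_conj_frob` (`θ_x(φ τ φ⁻¹) = θ_x(τ) ^ p`, from LS6).
* `wildSubgroup p`              : wild inertia `{τ ∈ I | ∀ x ≠ 0, ‖τ x - x‖ < ‖x‖}`, a normal subgroup of `G_p`;
  `commutator_mem_wildSubgroup` (`I / P` is commutative), `frob_conj_mem_wildSubgroup`
  (`φ τ φ⁻¹ ≡ τ ^ p` modulo `P`), `exists_pow_mem_fixingSubgroup` (LS5: `P` is pro-`p`).
-/
import Mathlib
import Fermat.Agent.TW.Cnt.LocalStruct97

set_option autoImplicit false

noncomputable section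

namespace Fermat.Agent.TW.Cnt.TameStruct97

open Fermat.Agent.TW.FF.FlatModel68 Fermat.Agent.TW.FF.Spec72 Fermat.Agent.TW.Cnt.TameField97
open Fermat.Agent.TW.Cnt.LocalStruct97
open Module IntermediateField

variable {p : ℕ} [Fact p.Prime]

/-! ### Uniformizers in the norm language -/

theorem norm_coe_natCast_p : ‖((p : ℕ) : PadicAlgCl p)‖ = (p : ℝ)⁻¹ := by
  have h1 : ((p : ℚ_[p]) : PadicAlgCl p) = (p : PadicAlgCl p) :=
    map_natCast (algebraMap ℚ_[p] (PadicAlgCl p)) p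
  rw [← h1, PadicAlgCl.norm_extends, Padic.norm_p]

/-- A finite Galois extension of `ℚ_p` has a uniformizer. -/
theorem exists_uniformizer (K0 : IntermediateField ℚ_[p] (PadicAlgCl p))
    [FiniteDimensional ℚ_[p] K0] [IsGalois ℚ_[p] K0] :
    ∃ π : K0, ‖(π : PadicAlgCl p)‖ < 1 ∧
      ∀ x : K0, x ≠ 0 → ∃ n : ℤ, ‖(x : PadicAlgCl p)‖ = ‖(π : PadicAlgCl p)‖ ^ n := by
  classical
  set n := finrank ℚ_[p] K0 with hn
  have hn0 : 0 < n := finrank_pos
  have hp1 : (1 : ℝ) < p := by exact_mod_cast (Fact.out : p.Prime).one_lt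
  have hp0 : (0 : ℝ) < p := lt_trans zero_lt_one hp1
  let S : ℕ → Prop := fun d =>
    0 < d ∧ ∃ x : K0, x ≠ 0 ∧ ‖(x : PadicAlgCl p)‖ ^ n = (p : ℝ) ^ (-(d : ℤ))
  have hS : ∃ d, S d := by
    refine ⟨n, hn0, ((p : ℕ) : K0), ?_, ?_⟩
    · exact_mod_cast (Fact.out : p.Prime).ne_zero
    · have : (((p : ℕ) : K0) : PadicAlgCl p) = ((p : ℕ) : PadicAlgCl p) := by norm_cast
      rw [this, norm_coe_natCast_p, inv_pow, zpow_neg, zpow_natCast]
  set d := Nat.find hS with hd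
  obtain ⟨hd0, π, hπ0, hπ⟩ : S d := Nat.find_spec hS
  have hdmin : ∀ r : ℕ, r < d → ¬ S r := fun r hr => Nat.find_min hS hr
  have hnπ0 : 0 < ‖(π : PadicAlgCl p)‖ := norm_pos_iff.mpr (fun h => hπ0 (Subtype.ext h))
  have hπ1 : ‖(π : PadicAlgCl p)‖ < 1 := by
    by_contra hcon
    have h1 : 1 ≤ ‖(π : PadicAlgCl p)‖ ^ n := one_le_pow₀ (not_lt.mp hcon)
    rw [hπ, zpow_neg, zpow_natCast] at h1
    have h2 : (p : ℝ) ^ d ≤ 1 := by
      have := (one_le_inv₀ (pow_pos hp0 d)).mp h1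
      exact this
    have h3 : 1 < (p : ℝ) ^ d := one_lt_pow₀ hp1 hd0.ne'
    exact absurd h2 (not_le.mpr h3)
  refine ⟨π, hπ1, fun x hx => ?_⟩
  obtain ⟨m, hm⟩ := exists_norm_pow_finrank_eq_zpow K0 x hx
  rw [← hn] at hm
  set j : ℤ := (-m) / (d : ℤ) with hj
  set r : ℤ := (-m) % (d : ℤ) with hr
  have hdZ : (0 : ℤ) < d := by exact_mod_cast hd0
  have hr0 : 0 ≤ r := Int.emod_nonneg _ hdZ.ne'
  have hrd : r < d := Int.emod_lt_of_pos _ hdZ
  have hdiv : (d : ℤ) * j + r = -m := Int.mul_ediv_add_emod _ _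
  -- `y = x * π ^ (-j)`
  set y : K0 := x * π ^ (-j) with hy
  have hy0 : y ≠ 0 := mul_ne_zero hx (zpow_ne_zero _ hπ0)
  have hny : ‖(y : PadicAlgCl p)‖ = ‖(x : PadicAlgCl p)‖ * ‖(π : PadicAlgCl p)‖ ^ (-j) := by
    have : (y : PadicAlgCl p) = (x : PadicAlgCl p) * (π : PadicAlgCl p) ^ (-j) := by
      rw [hy]; push_cast; rfl
    rw [this, norm_mul, norm_zpow]
  have hyn : ‖(y : PadicAlgCl p)‖ ^ n = (p : ℝ) ^ (-r) := by
    rw [hny, mul_pow, hm]
    have h1 : (‖(π : PadicAlgCl p)‖ ^ (-j)) ^ n = (‖(π : PadicAlgCl p)‖ ^ n) ^ (-j) := by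
      rw [← zpow_natCast, ← zpow_mul, mul_comm, zpow_mul, zpow_natCast]
    rw [h1, hπ, ← zpow_mul, ← zpow_add₀ hp0.ne']
    congr 1
    linarith
  have hr_zero : r = 0 := by
    by_contra hne
    have hrpos : 0 < r := lt_of_le_of_ne hr0 (Ne.symm hne)
    apply hdmin r.toNat (by omega)
    refine ⟨by omega, y, hy0, ?_⟩
    rw [hyn]
    congr 2
    omega
  rw [hr_zero, neg_zero, zpow_zero] at hyn
  have hy1 : ‖(y : PadicAlgCl p)‖ = 1 := by
    have := (pow_left_inj₀ (norm_nonneg _) zero_le_one hn0.ne').mp (hyn.trans (one_pow n).symm)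
    exact this
  refine ⟨j, ?_⟩
  rw [hny, zpow_neg] at hy1
  have h2 : ‖(π : PadicAlgCl p)‖ ^ j ≠ 0 := zpow_ne_zero _ hnπ0.ne'
  field_simp at hy1
  exact hy1


/-! ### Principal units and the tame character -/

theorem norm_eq_one_of_sub_one_lt {u : PadicAlgCl p} (h : ‖u - 1‖ < 1) : ‖u‖ = 1 := by
  have h1 : ‖(1 : PadicAlgCl p)‖ = 1 := norm_one
  have h2 := IsUltrametricDist.norm_add_eq_max_of_norm_ne_norm
    (x := u - 1) (y := (1 : PadicAlgCl p)) (by rw [h1]; exact h.ne)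
  rw [sub_add_cancel, h1, max_eq_right h.le] at h2
  exact h2

/-- The principal units `1 + 𝔪` of `PadicAlgCl p`. -/
def principalUnits (p : ℕ) [Fact p.Prime] : Subgroup (PadicAlgCl p)ˣ where
  carrier := {u | ‖(u : PadicAlgCl p) - 1‖ < 1}
  one_mem' := by simp
  mul_mem' := fun {a b} ha hb => by
    have ha1 : ‖(a : PadicAlgCl p)‖ = 1 := norm_eq_one_of_sub_one_lt ha
    have e : ((a * b : (PadicAlgCl p)ˣ) : PadicAlgCl p) - 1
        = (a : PadicAlgCl p) * ((b : PadicAlgCl p) - 1) + ((a : PadicAlgCl p) - 1) := by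
      rw [Units.val_mul]; ring
    show ‖((a * b : (PadicAlgCl p)ˣ) : PadicAlgCl p) - 1‖ < 1
    rw [e]
    refine lt_of_le_of_lt (norm_add_le_max' _ _) (max_lt ?_ ha)
    rw [norm_mul, ha1, one_mul]
    exact hb
  inv_mem' := fun {a} ha => by
    have ha1 : ‖(a : PadicAlgCl p)‖ = 1 := norm_eq_one_of_sub_one_lt ha
    have e : ((a⁻¹ : (PadicAlgCl p)ˣ) : PadicAlgCl p) - 1
        = ((a⁻¹ : (PadicAlgCl p)ˣ) : PadicAlgCl p) * (1 - (a : PadicAlgCl p)) := by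
      rw [mul_sub, mul_one, Units.inv_mul]
    show ‖((a⁻¹ : (PadicAlgCl p)ˣ) : PadicAlgCl p) - 1‖ < 1
    rw [e, norm_mul, Units.val_inv_eq_inv_val, norm_inv, ha1, inv_one, one_mul, norm_sub_rev]
    exact ha

theorem mem_principalUnits {u : (PadicAlgCl p)ˣ} :
    u ∈ principalUnits p ↔ ‖(u : PadicAlgCl p) - 1‖ < 1 := Iff.rfl

/-- Two units have the same class modulo principal units iff they are congruent. -/
theorem mk_eq_mk_iff (a b : (PadicAlgCl p)ˣ) :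
    (QuotientGroup.mk a : (PadicAlgCl p)ˣ ⧸ principalUnits p) = QuotientGroup.mk b ↔
      ‖(b : PadicAlgCl p) - a‖ < ‖(a : PadicAlgCl p)‖ := by
  rw [QuotientGroup.eq, mem_principalUnits]
  have ha0 : (a : PadicAlgCl p) ≠ 0 := a.ne_zero
  have e : ((a⁻¹ * b : (PadicAlgCl p)ˣ) : PadicAlgCl p) - 1
      = ((b : PadicAlgCl p) - a) / (a : PadicAlgCl p) := by
    rw [Units.val_mul, Units.val_inv_eq_inv_val]; field_simp
  rw [e, norm_div, div_lt_one (norm_pos_iff.mpr ha0)]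

/-- `τ x` as a unit. -/
def unitApply (τ : GQp p) (x : (PadicAlgCl p)ˣ) : (PadicAlgCl p)ˣ :=
  Units.map ((τ : PadicAlgCl p ≃ₐ[ℚ_[p]] PadicAlgCl p) : PadicAlgCl p →* PadicAlgCl p) x

@[simp] theorem coe_unitApply (τ : GQp p) (x : (PadicAlgCl p)ˣ) :
    ((unitApply τ x : (PadicAlgCl p)ˣ) : PadicAlgCl p) = τ (x : PadicAlgCl p) := rfl

/-- The tame character `τ ↦ τ x / x` modulo principal units, on inertia. -/
def theta (x : (PadicAlgCl p)ˣ) : ↥(inertiaSubgroup p) →* (PadicAlgCl p)ˣ ⧸ principalUnits p where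
  toFun τ := QuotientGroup.mk (unitApply (τ : GQp p) x * x⁻¹)
  map_one' := by
    have : unitApply (1 : GQp p) x = x := Units.ext rfl
    show (QuotientGroup.mk (unitApply (1 : GQp p) x * x⁻¹) : (PadicAlgCl p)ˣ ⧸ principalUnits p) = 1
    rw [this, mul_inv_cancel]; rfl
  map_mul' := fun σ τ => by
    show (QuotientGroup.mk (unitApply ((σ : GQp p) * (τ : GQp p)) x * x⁻¹) :
        (PadicAlgCl p)ˣ ⧸ principalUnits p)
      = QuotientGroup.mk (unitApply (σ : GQp p) x * x⁻¹) * QuotientGroup.mk (unitApply (τ : GQp p) x * x⁻¹)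
    rw [← QuotientGroup.mk_mul, mk_eq_mk_iff]
    have hx0 : (x : PadicAlgCl p) ≠ 0 := x.ne_zero
    have hnx : 0 < ‖(x : PadicAlgCl p)‖ := norm_pos_iff.mpr hx0
    set u : PadicAlgCl p := (τ : GQp p) (x : PadicAlgCl p) / x with hu
    have hnu : ‖u‖ = 1 := by rw [hu, norm_div, norm_apply, div_self hnx.ne']
    have e1 : ((unitApply ((σ : GQp p) * (τ : GQp p)) x * x⁻¹ : (PadicAlgCl p)ˣ) : PadicAlgCl p)
        = (σ : GQp p) u * ((σ : GQp p) (x : PadicAlgCl p) / x) := by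
      rw [Units.val_mul, Units.val_inv_eq_inv_val, coe_unitApply, AlgEquiv.mul_apply, hu, map_div₀]
      have : (σ : GQp p) (x : PadicAlgCl p) ≠ 0 := (map_ne_zero _).mpr hx0
      field_simp
    have e2 : ((unitApply (σ : GQp p) x * x⁻¹ * (unitApply (τ : GQp p) x * x⁻¹) : (PadicAlgCl p)ˣ) :
        PadicAlgCl p) = u * ((σ : GQp p) (x : PadicAlgCl p) / x) := by
      rw [Units.val_mul, Units.val_mul, Units.val_mul, Units.val_inv_eq_inv_val, coe_unitApply,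
        coe_unitApply, hu]
      ring
    rw [e1, e2, ← sub_mul, norm_mul, norm_mul, norm_apply, hnu, one_mul, norm_div, norm_apply,
      div_self hnx.ne', mul_one, norm_sub_rev]
    exact σ.2 u hnu.le

theorem theta_apply (x : (PadicAlgCl p)ˣ) (τ : ↥(inertiaSubgroup p)) :
    theta x τ = QuotientGroup.mk (unitApply (τ : GQp p) x * x⁻¹) := rfl

theorem theta_eq_one_iff (x : (PadicAlgCl p)ˣ) (τ : ↥(inertiaSubgroup p)) :
    theta x τ = 1 ↔ ‖(τ : GQp p) (x : PadicAlgCl p) - x‖ < ‖(x : PadicAlgCl p)‖ := by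
  rw [theta_apply, QuotientGroup.eq_one_iff, mem_principalUnits]
  have hx0 : (x : PadicAlgCl p) ≠ 0 := x.ne_zero
  have e : ((unitApply (τ : GQp p) x * x⁻¹ : (PadicAlgCl p)ˣ) : PadicAlgCl p) - 1
      = ((τ : GQp p) (x : PadicAlgCl p) - x) / (x : PadicAlgCl p) := by
    rw [Units.val_mul, Units.val_inv_eq_inv_val, coe_unitApply]; field_simp
  rw [e, norm_div, div_lt_one (norm_pos_iff.mpr hx0)]


/-- The Frobenius relation `θ_x(φ τ φ⁻¹) = θ_x(τ) ^ p`. -/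
theorem theta_conj_frob {φ : GQp p} (hφ : IsFrobLoc φ) (x : (PadicAlgCl p)ˣ)
    (τ : ↥(inertiaSubgroup p)) :
    theta x ⟨φ * (τ : GQp p) * φ⁻¹, conj_mem_inertiaSet τ.2 φ⟩ = theta x τ ^ p := by
  rw [theta_apply, theta_apply, ← QuotientGroup.mk_pow, mk_eq_mk_iff]
  have hx0 : (x : PadicAlgCl p) ≠ 0 := x.ne_zero
  have hnx : 0 < ‖(x : PadicAlgCl p)‖ := norm_pos_iff.mpr hx0
  have e1 : ((unitApply (φ * (τ : GQp p) * φ⁻¹) x * x⁻¹ : (PadicAlgCl p)ˣ) : PadicAlgCl p)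
      = (φ * (τ : GQp p) * φ⁻¹) (x : PadicAlgCl p) / x := by
    rw [Units.val_mul, Units.val_inv_eq_inv_val, coe_unitApply, div_eq_mul_inv]
  have e2 : (((unitApply (τ : GQp p) x * x⁻¹) ^ p : (PadicAlgCl p)ˣ) : PadicAlgCl p)
      = ((τ : GQp p) (x : PadicAlgCl p) / x) ^ p := by
    rw [Units.val_pow_eq_pow_val, Units.val_mul, Units.val_inv_eq_inv_val, coe_unitApply,
      div_eq_mul_inv]
  rw [e1, e2, norm_div, norm_apply, div_self hnx.ne', norm_sub_rev]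
  exact norm_conj_div_sub_pow_lt hφ τ.2 hx0

/-! ### The wild inertia subgroup -/

/-- The wild inertia subgroup: inertia elements with `‖τ x - x‖ < ‖x‖` for all `x ≠ 0`. -/
def wildSubgroup (p : ℕ) [Fact p.Prime] : Subgroup (GQp p) where
  carrier := {τ | τ ∈ inertiaSet p ∧ ∀ x : PadicAlgCl p, x ≠ 0 → ‖τ x - x‖ < ‖x‖}
  one_mem' := ⟨one_mem_inertiaSet, fun x hx => by
    rw [AlgEquiv.one_apply, sub_self, norm_zero]; exact norm_pos_iff.mpr hx⟩
  mul_mem' := fun {σ τ} hσ hτ => ⟨mul_mem_inertiaSet hσ.1 hτ.1, fun x hx => by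
    have e : (σ * τ) x - x = σ (τ x - x) + (σ x - x) := by
      rw [AlgEquiv.mul_apply, map_sub]; ring
    rw [e]
    refine lt_of_le_of_lt (norm_add_le_max' _ _) (max_lt ?_ (hσ.2 x hx))
    rw [norm_apply]
    exact hτ.2 x hx⟩
  inv_mem' := fun {σ} hσ => ⟨inv_mem_inertiaSet hσ.1, fun x hx => by
    have hy0 : σ⁻¹ x ≠ 0 := (map_ne_zero _).mpr hx
    have h1 := hσ.2 (σ⁻¹ x) hy0
    have e : σ (σ⁻¹ x) = x := σ.apply_symm_apply x
    rw [e, norm_apply] at h1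
    rw [norm_sub_rev]
    exact h1⟩

theorem mem_wildSubgroup {τ : GQp p} :
    τ ∈ wildSubgroup p ↔ τ ∈ inertiaSet p ∧ ∀ x : PadicAlgCl p, x ≠ 0 → ‖τ x - x‖ < ‖x‖ := Iff.rfl

theorem wildSubgroup_le : wildSubgroup p ≤ inertiaSubgroup p := fun _ h => h.1

instance : (wildSubgroup p).Normal := ⟨fun τ hτ g => by
  refine ⟨conj_mem_inertiaSet hτ.1 g, fun x hx => ?_⟩
  have hy0 : g⁻¹ x ≠ 0 := (map_ne_zero _).mpr hx
  have h1 := hτ.2 (g⁻¹ x) hy0
  have e : (g * τ * g⁻¹) x - x = g (τ (g⁻¹ x) - g⁻¹ x) := by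
    rw [map_sub, AlgEquiv.mul_apply, AlgEquiv.mul_apply]
    congr 1
    exact (g.apply_symm_apply x).symm
  rw [e, norm_apply]
  rw [norm_apply] at h1
  exact h1⟩

/-- An inertia element killed by all tame characters is wild. -/
theorem mem_wildSubgroup_of_theta (τ : ↥(inertiaSubgroup p))
    (h : ∀ x : (PadicAlgCl p)ˣ, theta x τ = 1) : (τ : GQp p) ∈ wildSubgroup p :=
  ⟨τ.2, fun x hx => (theta_eq_one_iff (Units.mk0 x hx) τ).mp (h _)⟩

/-- Inertia modulo wild inertia is commutative. -/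
theorem commutator_mem_wildSubgroup {τ τ' : GQp p} (hτ : τ ∈ inertiaSet p) (hτ' : τ' ∈ inertiaSet p) :
    τ * τ' * τ⁻¹ * τ'⁻¹ ∈ wildSubgroup p := by
  have := mem_wildSubgroup_of_theta
    ((⟨τ, hτ⟩ : ↥(inertiaSubgroup p)) * ⟨τ', hτ'⟩ * ⟨τ, hτ⟩⁻¹ * ⟨τ', hτ'⟩⁻¹) (fun x => by
      rw [map_mul, map_mul, map_mul, map_inv, map_inv]
      rw [mul_comm (theta x ⟨τ, hτ⟩), mul_inv_cancel_right, mul_inv_cancel])
  exact this

/-- The Frobenius relation modulo wild inertia. -/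
theorem frob_conj_mem_wildSubgroup {φ : GQp p} (hφ : IsFrobLoc φ) {τ : GQp p} (hτ : τ ∈ inertiaSet p) :
    φ * τ * φ⁻¹ * (τ ^ p)⁻¹ ∈ wildSubgroup p := by
  have := mem_wildSubgroup_of_theta
    ((⟨φ * τ * φ⁻¹, conj_mem_inertiaSet hτ φ⟩ : ↥(inertiaSubgroup p)) * (⟨τ, hτ⟩ ^ p)⁻¹) (fun x => by
      rw [map_mul, map_inv, map_pow, theta_conj_frob hφ x ⟨τ, hτ⟩, mul_inv_cancel])
  exact this

/-- **LS5** for the wild subgroup: modulo `Gal(ℚ̄_p/K0)` it is a `p`-group. -/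
theorem exists_pow_mem_fixingSubgroup (K0 : IntermediateField ℚ_[p] (PadicAlgCl p))
    [FiniteDimensional ℚ_[p] K0] [IsGalois ℚ_[p] K0] {τ : GQp p} (hτ : τ ∈ wildSubgroup p) :
    ∃ a : ℕ, τ ^ p ^ a ∈ K0.fixingSubgroup := by
  obtain ⟨π, hπ1, hπ⟩ := exists_uniformizer K0
  have hπ0 : (π : PadicAlgCl p) ≠ 0 := by
    intro h
    obtain ⟨n, hn⟩ := hπ 1 one_ne_zero
    rw [h, norm_zero] at hn
    have h1 : ‖((1 : K0) : PadicAlgCl p)‖ = 1 := by
      show ‖(1 : PadicAlgCl p)‖ = 1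
      exact norm_one
    rw [h1] at hn
    rcases eq_or_ne n 0 with rfl | hn0
    · -- then every nonzero element has norm `1`, in particular `p`
      obtain ⟨m, hm⟩ := hπ ((p : ℕ) : K0) (by exact_mod_cast (Fact.out : p.Prime).ne_zero)
      have : (((p : ℕ) : K0) : PadicAlgCl p) = ((p : ℕ) : PadicAlgCl p) := by norm_cast
      rw [this, norm_coe_natCast_p, h, norm_zero] at hm
      have hp0 : (0 : ℝ) < p := by exact_mod_cast (Fact.out : p.Prime).pos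
      rcases eq_or_ne m 0 with rfl | hm0
      · rw [zpow_zero] at hm
        have hp1 : (1 : ℝ) < p := by exact_mod_cast (Fact.out : p.Prime).one_lt
        have : (p : ℝ)⁻¹ < 1 := inv_lt_one_of_one_lt₀ hp1
        exact absurd hm this.ne
      · rw [zero_zpow m hm0] at hm
        exact absurd hm (inv_pos.mpr hp0).ne'
    · rw [zero_zpow n hn0] at hn
      exact one_ne_zero hn
  exact exists_pow_mem_fixingSubgroup_of_wild hπ hπ1 hτ.1 (hτ.2 _ hπ0)

end Fermat.Agent.TW.Cnt.TameStruct97
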