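/-
TW / WP7 / SHAPE, part 3 (helper97): **`indShape : Table72.IndShape p`** (unconditional).

`ρbar` a residual representation over a finite field `k` of characteristic `p` such that all characteristic
polynomials split over `k` and `ρbar|G_p` has no stable line.  Then `ρbar|G_p` is induced from an index two
subgroup `H ⊇ I` (literal statement of `Table72.IndShape`).

Proof: `ρbar ∘ (G_p → G_ℚ)` factors through `Gal(K0/ℚ_p)`, `K0` the normal closure of
`LocInj13.localField p L` (`L` the finite level of `ρbar`); the hypotheses of the abstract lemma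
`ShapeAbs97.exists_induced_shape` hold for `I = inertia`, `W = TameStruct97.wildSubgroup p` and a local
Frobenius `φ` by `TameStruct97` (LS5, LS6, commutativity of `I/W`) and `LocalStruct97` (LS3).
-/
import Mathlib
import Fermat.Agent.TW.Cnt.Table72
import Fermat.Agent.TW.Cnt.ShapeAbs97
import Fermat.Agent.TW.Cnt.TameStruct97

set_option autoImplicit false

noncomputable section

namespace Fermat.Agent.TW.Cnt.Shape97

open Fermat.Agent.TW.Spec.Defs52 Fermat.Agent.TW.Spec.Contract52
open Fermat.Agent.TW.FF.FlatModel68 (GQp)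
open Fermat.Agent.TW.FF.Spec72
open Fermat.Agent.TW.Cnt.BridgeFlat54
open Fermat.Agent.TW.Cnt.Table72
open Fermat.Agent.TW.Cnt.LocalStruct97 Fermat.Agent.TW.Cnt.TameStruct97
open Fermat.Agent.PT.BR.LocInj13
open ExtCitation Module Polynomial IntermediateField

variable (p : ℕ) [Fact p.Prime]

/-- A finite Galois extension of `ℚ_p` through which `ρbar ∘ (G_p → G_ℚ)` factors. -/
theorem exists_splitting_field {k : Type} [Field k] (ρbar : ResidualGaloisRep k) :
    ∃ K0 : IntermediateField ℚ_[p] (PadicAlgCl p), FiniteDimensional ℚ_[p] K0 ∧ IsGalois ℚ_[p] K0 ∧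
      ∀ σ : GQp p, σ ∈ K0.fixingSubgroup → ρbar.ρ (localGaloisToGlobal p σ) = 1 := by
  obtain ⟨L, hLfin, hL⟩ := ρbar.factorsThroughFiniteLevel
  have := hLfin
  refine ⟨IntermediateField.normalClosure ℚ_[p] (localField p L) (PadicAlgCl p),
    normalClosure.is_finiteDimensional ℚ_[p] (localField p L) (PadicAlgCl p), ?_, ?_⟩
  · have : Normal ℚ_[p] (IntermediateField.normalClosure ℚ_[p] (localField p L) (PadicAlgCl p)) :=
      normalClosure.normal ℚ_[p] (localField p L) (PadicAlgCl p)
    exact ⟨⟩
  · intro σ hσ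
    apply hL
    have h1 : σ ∈ (localField p L).fixingSubgroup :=
      IntermediateField.fixingSubgroup_antitone (IntermediateField.le_normalClosure (localField p L)) hσ
    have h2 := (mem_fixingSubgroup_localField_iff p L σ).mp h1
    intro x hx
    exact (IntermediateField.mem_fixingSubgroup_iff _ _).mp h2 x hx


/-- **SHAPE.**  `ρbar|G_p` with split characteristic polynomials and without stable line is induced
from an index two subgroup containing inertia. -/
theorem indShape : IndShape p := by
  intro _ k _ _ _ ρbar hsplit hline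
  obtain ⟨K0, hK0fin, hK0gal, hker⟩ := exists_splitting_field p ρbar
  obtain ⟨φ, hφ⟩ := exists_isFrobLoc (p := p)
  have hchar : CharP k p := charP_of_injective_algebraMap (algebraMap (ZMod p) k).injective p
  -- the local representation, on the Prelude group
  let ρ' : Gp p →* Module.End k ρbar.V := ρbar.ρ.comp (locAt (pPrime p))
  let e : GQp p ≃* Gp p := toLoc p
  have hρ' : ∀ σ : GQp p, ρ' (e σ) = ρbar.ρ (localGaloisToGlobal p σ) := fun σ => rfl
  have hker' : ∀ σ : GQp p, σ ∈ K0.fixingSubgroup → ρ' (e σ) = 1 := fun σ hσ => hker σ hσ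
  -- `ρ'` is constant on cosets of the kernel
  have hcoset : ∀ σ σ' : GQp p, (∀ x : K0, σ (x : PadicAlgCl p) = σ' x) → ρ' (e σ) = ρ' (e σ') := by
    intro σ σ' h
    have h1 : σ'⁻¹ * σ ∈ K0.fixingSubgroup := by
      rw [IntermediateField.mem_fixingSubgroup_iff]
      intro x hx
      rw [AlgEquiv.mul_apply, h ⟨x, hx⟩]
      exact σ'.symm_apply_apply x
    have h2 : σ = σ' * (σ'⁻¹ * σ) := by group
    rw [h2, map_mul, map_mul, hker' _ h1, mul_one]
  set I' : Subgroup (Gp p) := (inertiaSubgroup p).comap e.symm.toMonoidHom with hI'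
  set W' : Subgroup (Gp p) := (wildSubgroup p).comap e.symm.toMonoidHom with hW'
  obtain ⟨H, b, χ₁, χ₂, hidx, hIH, hdiag, hanti, hpow, hne⟩ :=
    ShapeAbs97.exists_induced_shape p ρbar.finrank_eq ρ' I' W'
      (by
        intro w hw
        obtain ⟨a, ha⟩ := exists_pow_mem_fixingSubgroup K0 (τ := e.symm w) hw
        refine ⟨a, ?_⟩
        rw [← map_pow]
        have := hker' _ ha
        rwa [map_pow, e.apply_symm_apply] at this)
      (by
        intro τ hτ τ' hτ'
        show e.symm (τ * τ' * τ⁻¹ * τ'⁻¹) ∈ wildSubgroup p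
        rw [map_mul, map_mul, map_mul, map_inv, map_inv]
        exact commutator_mem_wildSubgroup hτ hτ')
      (e φ)
      (by
        intro τ hτ
        show e.symm (e φ * τ * (e φ)⁻¹ * (τ ^ p)⁻¹) ∈ wildSubgroup p
        rw [map_mul, map_mul, map_mul, map_inv, map_inv, map_pow, e.symm_apply_apply]
        exact frob_conj_mem_wildSubgroup hφ hτ)
      (by
        intro g
        obtain ⟨n, τ, hτ, h⟩ := exists_frob_pow_mul_inertia K0 hφ (e.symm g)
        refine ⟨n, e τ, ?_, ?_⟩
        · show e.symm (e τ) ∈ inertiaSet p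
          rw [e.symm_apply_apply]; exact hτ
        · have h1 := hcoset (e.symm g) (φ ^ n * τ) h
          rw [e.apply_symm_apply, map_mul, map_pow] at h1
          exact h1)
      (fun g => hsplit (locAt (pPrime p) g))
      hline
  refine ⟨H, b, χ₁, χ₂, hidx, ?_, hdiag, hanti, hpow, hne⟩
  intro τ hτ
  exact hIH hτ

end Fermat.Agent.TW.Cnt.Shape97
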