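/-
TW / WP7-CNT (helper72): **T2 = `Table72.IndCount`** from the Kummer–Fontaine theorem, the Kummer dictionary
(`KumSpec72.KummerDict`, B10) and the instantiated unit count over `ℚ_{p²}` (`KumSpec72.ConcreteN2`).

Same route as `CharCount72`, with the group `H` (open of index two, containing inertia) in place of `G_p`:
`S := {h ∈ H | ξ h = 1, ω h = 1}` is normal in `G_p` because conjugation by elements outside `H` inverts `ξ`.
-/
import Mathlib
import Fermat.Agent.TW.Cnt.CharCount72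

set_option autoImplicit false

noncomputable section

namespace Fermat.Agent.TW.Cnt.IndCount72

open Fermat.Agent.TW.Spec.Defs52
open Fermat.Agent.TW.FF.FlatModel68 (GQp LocalFlatModel)
open Fermat.Agent.TW.FF.Spec72
open Fermat.Agent.TW.Cnt.BridgeFlat54 Fermat.Agent.TW.Cnt.BridgeAdm54 Fermat.Agent.TW.Cnt.AdmH1_55
open Fermat.Agent.TW.Cnt.AdmRes55 Fermat.Agent.TW.Cnt.AdmFlat72
open Fermat.Agent.TW.Cnt.AdReal55 (charRep)
open Fermat.Agent.TW.Cnt.AdInd55 (comapFamily)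
open Fermat.Agent.TW.Cnt.Table72 Fermat.Agent.TW.Cnt.KumSpec72 Fermat.Agent.TW.Cnt.SplitField72
open Fermat.Agent.TW.Cnt.TameField97 Fermat.Agent.TW.Cnt.CharCount72
open Fermat.Agent.TW.OrdLocal
open ExtCitation groupCohomology CategoryTheory Module

variable {p : ℕ} [Fact p.Prime]

section Core

variable {k : Type} [Field k] [Finite k] [Algebra (ZMod p) k]

/-- The homomorphism `(ξ, ω|H) : H → kˣ × 𝔽_pˣ`. -/
def xiOmega (H : Subgroup (GQp p)) (ξ : ↥H →* kˣ) : ↥H →* kˣ × (ZMod p)ˣ :=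
  ξ.prod (omegaHom.comp H.subtype)

/-- `S = {h ∈ H | ξ h = 1, ω h = 1}` as a subgroup of `G_p`. -/
def kerInd (H : Subgroup (GQp p)) (ξ : ↥H →* kˣ) : Subgroup (GQp p) :=
  (xiOmega H ξ).ker.map H.subtype

theorem mem_kerInd_iff (H : Subgroup (GQp p)) (ξ : ↥H →* kˣ) (s : GQp p) :
    s ∈ kerInd H ξ ↔ ∃ hs : s ∈ H, ξ ⟨s, hs⟩ = 1 ∧ omegaHom s = 1 := by
  constructor
  · rintro ⟨h, hh, rfl⟩
    rw [SetLike.mem_coe, MonoidHom.mem_ker, xiOmega, MonoidHom.prod_apply, Prod.mk_eq_one] at hh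
    exact ⟨h.2, hh.1, hh.2⟩
  · rintro ⟨hs, h1, h2⟩
    refine ⟨⟨s, hs⟩, ?_, rfl⟩
    rw [SetLike.mem_coe, MonoidHom.mem_ker, xiOmega, MonoidHom.prod_apply, Prod.mk_eq_one]
    exact ⟨h1, h2⟩

theorem kerInd_le (H : Subgroup (GQp p)) (ξ : ↥H →* kˣ) : kerInd H ξ ≤ H := by
  intro s hs
  obtain ⟨h, -⟩ := (mem_kerInd_iff H ξ s).1 hs
  exact h

theorem kerInd_normal (H : Subgroup (GQp p)) (hH : H.index = 2) (ξ : ↥H →* kˣ)
    (hconj : ∀ (s : GQp p) (h h' : ↥H), s ∉ H → (h' : GQp p) = s * h * s⁻¹ → ξ h' = (ξ h)⁻¹) :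
    (kerInd H ξ).Normal := by
  have hHn : H.Normal := Subgroup.normal_of_index_eq_two hH
  constructor
  intro s hs g
  obtain ⟨hsH, h1, h2⟩ := (mem_kerInd_iff H ξ s).1 hs
  rw [mem_kerInd_iff]
  refine ⟨hHn.conj_mem s hsH g, ?_, ?_⟩
  · by_cases hg : g ∈ H
    · have : (⟨g * s * g⁻¹, hHn.conj_mem s hsH g⟩ : ↥H) = ⟨g, hg⟩ * ⟨s, hsH⟩ * ⟨g, hg⟩⁻¹ := rfl
      rw [this, map_mul, map_mul, map_inv, h1, mul_one, mul_inv_cancel]
    · rw [hconj g ⟨s, hsH⟩ ⟨g * s * g⁻¹, hHn.conj_mem s hsH g⟩ hg rfl, h1, inv_one]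
  · rw [map_mul, map_mul, map_inv, h2, mul_one, mul_inv_cancel]

theorem not_dvd_index_kerInd (hp2 : p ≠ 2) (H : Subgroup (GQp p)) (hH : H.index = 2)
    (ξ : ↥H →* kˣ) : ¬ p ∣ (kerInd H ξ).index := by
  have hp : p.Prime := Fact.out
  rw [kerInd, Subgroup.index_map_subtype, hH]
  intro h
  rcases (Nat.Prime.dvd_mul hp).1 h with h | h
  · exact not_dvd_card_units_prod k (h.trans (index_ker_dvd_card (xiOmega H ξ)))
  · exact hp2 ((Nat.prime_dvd_prime_iff_eq hp Nat.prime_two).1 h)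

/-- **Core count over `H`.** -/
theorem card_family_le_ind (hp2 : p ≠ 2) (hKF : KummerFontaine p) (hB10 : KummerDict p)
    (hN2 : ConcreteN2 p) (H : Subgroup (GQp p)) (hH : H.index = 2)
    (hIH : inertiaSet p ⊆ (H : Set (GQp p))) (ξ : ↥H →* kˣ)
    (hξN : ∃ N ∈ admFamily p, N ≤ H ∧ ∀ n : ↥H, (n : GQp p) ∈ N → ξ n = 1)
    (hconj : ∀ (s : GQp p) (h h' : ↥H), s ∉ H → (h' : GQp p) = s * h * s⁻¹ → ξ h' = (ξ h)⁻¹)
    (hlev : ∀ τ : ↥H, (τ : GQp p) ∈ inertiaSet p → ξ τ ^ (p + 1) = 1)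
    (hnt : ∃ τ : ↥H, (τ : GQp p) ∈ inertiaSet p ∧ ξ τ ≠ 1)
    (hcorner : ¬ (p = 3 ∧ ∀ τ : ↥H, (τ : GQp p) ∈ inertiaSet p → ξ τ = omegaU p k τ))
    (F : Type) (ι : F → (↥(kerInd H ξ) → k)) (hι : Function.Injective ι)
    (hadd : ∀ f (s s' : ↥(kerInd H ξ)), ι f (s * s') = ι f s + ι f s')
    (hequi : ∀ f (g : ↥H) (s s' : ↥(kerInd H ξ)), (s' : GQp p) = g * s * (g : GQp p)⁻¹ →
      ι f s' = (ξ g : k) * ι f s)
    (hadm : ∀ f, ∃ N ∈ admFamily p, ∀ s : ↥(kerInd H ξ), (s : GQp p) ∈ N → ι f s = 0) :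
    Finite F ∧ Nat.card F ≤ Nat.card k := by
  -- the tame field `K0`
  obtain ⟨N0, hN0, hN0H, hξN0⟩ := hξN
  obtain ⟨E0, hE0, hE0N⟩ := exists_fixingSubgroup_le_of_mem_admFamily hN0
  obtain ⟨Eζ, hEζ, hEζω⟩ := exists_fixingSubgroup_le_ker_omegaHom (p := p)
  have hF : (E0 ⊔ Eζ).fixingSubgroup ≤ kerInd H ξ := by
    intro s hs
    have hsN : s ∈ N0 := hE0N (IntermediateField.fixingSubgroup_antitone le_sup_left hs)
    rw [mem_kerInd_iff]
    exact ⟨hN0H hsN, hξN0 ⟨s, hN0H hsN⟩ hsN,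
      MonoidHom.mem_ker.1 (hEζω (IntermediateField.fixingSubgroup_antitone le_sup_right hs))⟩
  have hfdF : FiniteDimensional ℚ_[p] ↥(E0 ⊔ Eζ) := IntermediateField.finiteDimensional_sup E0 Eζ
  have hSn : (kerInd H ξ).Normal := kerInd_normal H hH ξ hconj
  obtain ⟨K0, hK0fd, hK0gal, hK0fix, hSfin, hSidx, hK0tame, hK0ζ⟩ :=
    exists_tame_field (kerInd H ξ) (E0 ⊔ Eζ) hF (not_dvd_index_kerInd hp2 H hH ξ)
  obtain ⟨ζ, hζ⟩ := hK0ζ (fun τ hτ z hz =>
    apply_root_of_omegaHom_eq_one ((mem_kerInd_iff H ξ τ).1 hτ).2.2 z hz)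
  have hK0H : K0.fixingSubgroup ≤ H := by rw [hK0fix]; exact kerInd_le H ξ
  -- `H / S` is abelian
  have hab : ∀ σ ∈ H, ∀ τ ∈ H, ∀ x : K0,
      σ (τ (x : PadicAlgCl p)) = τ (σ (x : PadicAlgCl p)) := by
    intro σ hσ τ hτ x
    have hc : (τ * σ)⁻¹ * (σ * τ) ∈ K0.fixingSubgroup := by
      rw [hK0fix, mem_kerInd_iff]
      refine ⟨H.mul_mem (H.inv_mem (H.mul_mem hτ hσ)) (H.mul_mem hσ hτ), ?_, ?_⟩
      · have : (⟨(τ * σ)⁻¹ * (σ * τ), H.mul_mem (H.inv_mem (H.mul_mem hτ hσ)) (H.mul_mem hσ hτ)⟩ : ↥H)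
            = (⟨τ, hτ⟩ * ⟨σ, hσ⟩)⁻¹ * (⟨σ, hσ⟩ * ⟨τ, hτ⟩) := rfl
        rw [this, map_mul, map_inv, map_mul, map_mul, mul_comm (ξ ⟨τ, hτ⟩), inv_mul_cancel]
      · rw [map_mul, map_inv, map_mul, map_mul, mul_comm (omegaHom τ), inv_mul_cancel]
    have h1 := (IntermediateField.mem_fixingSubgroup_iff _ _).1 hc (x : PadicAlgCl p) x.2
    have h2 : (τ * σ) (((τ * σ)⁻¹ * (σ * τ)) (x : PadicAlgCl p)) = (σ * τ) (x : PadicAlgCl p) := by
      rw [← AlgEquiv.mul_apply, mul_inv_cancel_left]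
    rw [h1] at h2
    exact h2.symm
  -- the Kummer dictionary
  have hξK0 : ∀ g : ↥H, (g : GQp p) ∈ K0.fixingSubgroup → ξ g = 1 := by
    intro g hg
    rw [hK0fix] at hg
    obtain ⟨hg', h1, -⟩ := (mem_kerInd_iff H ξ _).1 hg
    exact h1
  obtain ⟨Φ, hkum, hΦadd, hΦequi, hΦsep⟩ := hB10 K0 ζ hζ H hK0H k ξ hξK0
  have hmemS : ∀ s : GQp p, s ∈ K0.fixingSubgroup → s ∈ kerInd H ξ := fun s hs => by
    rwa [hK0fix] at hs
  let toS : ↥K0.fixingSubgroup → ↥(kerInd H ξ) := fun s => ⟨s, hmemS s s.2⟩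
  have hj : ∀ f : F, (fun s : ↥K0.fixingSubgroup => ι f (toS s)) ∈ EqHoms p K0 H k ξ := by
    intro f
    refine ⟨fun s s' => ?_, fun g s s' hss' => ?_, ?_⟩
    · exact hadd f (toS s) (toS s')
    · exact hequi f g (toS s) (toS s') hss'
    · obtain ⟨N, hN, hfN⟩ := hadm f
      obtain ⟨E, hE, hEN⟩ := exists_fixingSubgroup_le_of_mem_admFamily hN
      exact ⟨E, hE, fun s hs => hfN (toS s) (hEN hs)⟩
  let j : F → ↥(EqHoms p K0 H k ξ) := fun f => ⟨_, hj f⟩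
  have hjinj : Function.Injective j := by
    intro f f' h
    apply hι
    funext s
    have hs : (s : GQp p) ∈ K0.fixingSubgroup := by rw [hK0fix]; exact s.2
    exact congrFun (congrArg Subtype.val h) ⟨s, hs⟩
  -- flatness of the Kummer data: Kummer–Fontaine
  have hflat : ∀ f c, IsFlatUnit p K0 ((Φ (j f) c : K0ˣ) : K0) := by
    intro f c
    obtain ⟨z, hz, hzs⟩ := hkum (j f) c
    obtain ⟨N, hN, hfN⟩ := hadm f
    obtain ⟨V, iV1, iV2, act, hV, hkill, rfl⟩ := hN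
    refine hKF hp2 V act hV hkill K0 hK0tame ⟨ζ, hζ⟩ _ z (Units.ne_zero _) hz (fun τ hτK hτV => ?_)
    have hτ : τ ∈ K0.fixingSubgroup :=
      (IntermediateField.mem_fixingSubgroup_iff _ _).2 (fun x hx => hτK ⟨x, hx⟩)
    have h1 := hzs ⟨τ, hτ⟩
    have h0 : (j f).1 ⟨τ, hτ⟩ = 0 := hfN _ hτV
    rw [h0] at h1
    simpa [trPair] using h1
  have hfin : ¬ p ∣ Module.finrank ℚ_[p] K0 := by
    rw [← hSidx]; exact not_dvd_index_kerInd hp2 H hH ξ
  exact hN2 hp2 K0 hfin ⟨ζ, hζ⟩ H hH hIH hK0H hab k ξ hξK0 hlev hnt hcorner F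
    (fun f c => Φ (j f) c) hflat (fun f c c' => hΦadd (j f) c c')
    (fun f g c => hΦequi (j f) g c) (fun f f' h => hjinj (hΦsep (j f) (j f') h))

end Core

/-! ### T2 -/

/-- **T2.**  `Table72.IndCount` from Kummer–Fontaine, the Kummer dictionary and the instantiated count
over `ℚ_{p²}`. -/
theorem indCount (hKF : KummerFontaine p) (hB10 : KummerDict p) (hN2 : ConcreteN2 p)
    (hprod : ClosureProd p) : IndCount p hprod := by
  intro hp2 k _ _ _ H ξ hH hIH hξN hconj hlev hnt hcorner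
  classical
  -- transport to `GQp p`
  let H' : Subgroup (GQp p) := H.comap (toLoc p).toMonoidHom
  let φ : ↥H' →* ↥H :=
    ((toLoc p).toMonoidHom.comp H'.subtype).codRestrict H (fun h => h.2)
  have hφ : ∀ h : ↥H', ((φ h : ↥H) : Gp p) = toLoc p (h : GQp p) := fun _ => rfl
  let ξ' : ↥H' →* kˣ := ξ.comp φ
  have hH' : H'.index = 2 := by
    rw [Subgroup.index_comap_of_surjective H (toLoc p).surjective]; exact hH
  have hsymm : ∀ τ : GQp p, (toLoc p).symm (toLoc p τ) = τ := fun τ => (toLoc p).symm_apply_apply τ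
  have hIH' : inertiaSet p ⊆ (H' : Set (GQp p)) := by
    intro τ hτ
    apply hIH
    show (toLoc p).symm (toLoc p τ) ∈ inertiaSet p
    rw [hsymm]; exact hτ
  have hξN' : ∃ N ∈ admFamily p, N ≤ H' ∧ ∀ n : ↥H', (n : GQp p) ∈ N → ξ' n = 1 := by
    obtain ⟨N, hN, hNH, hξ1⟩ := hξN
    exact ⟨N.comap (toLoc p).toMonoidHom, hN, fun n hn => hNH hn, fun n hn => hξ1 (φ n) hn⟩
  have hconj' : ∀ (s : GQp p) (h h' : ↥H'), s ∉ H' → (h' : GQp p) = s * h * s⁻¹ →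
      ξ' h' = (ξ' h)⁻¹ := by
    intro s h h' hs hh'
    refine hconj (toLoc p s) (φ h) (φ h') hs ?_
    rw [hφ, hφ, hh', map_mul, map_mul, map_inv]
  have hlev' : ∀ τ : ↥H', (τ : GQp p) ∈ inertiaSet p → ξ' τ ^ (p + 1) = 1 := by
    intro τ hτ
    refine hlev (φ τ) ?_
    show (toLoc p).symm (toLoc p (τ : GQp p)) ∈ inertiaSet p
    rw [hsymm]; exact hτ
  have hback : ∀ τ : ↥H, ∃ τ' : ↥H', φ τ' = τ ∧ (τ' : GQp p) = (toLoc p).symm (τ : Gp p) := by
    intro τ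
    have hmem : (toLoc p).symm (τ : Gp p) ∈ H' := by
      show toLoc p ((toLoc p).symm (τ : Gp p)) ∈ H
      rw [(toLoc p).apply_symm_apply]; exact τ.2
    refine ⟨⟨_, hmem⟩, Subtype.ext ?_, rfl⟩
    rw [hφ]
    exact (toLoc p).apply_symm_apply _
  have hnt' : ∃ τ : ↥H', (τ : GQp p) ∈ inertiaSet p ∧ ξ' τ ≠ 1 := by
    obtain ⟨τ, hτ, hne⟩ := hnt
    obtain ⟨τ', h1, h2⟩ := hback τ
    refine ⟨τ', ?_, ?_⟩
    · rw [h2]; exact hτ
    · show ξ (φ τ') ≠ 1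
      rw [h1]; exact hne
  have hcorner' : ¬ (p = 3 ∧ ∀ τ : ↥H', (τ : GQp p) ∈ inertiaSet p → ξ' τ = omegaU p k τ) := by
    rintro ⟨h3, h⟩
    refine hcorner ⟨h3, fun τ hτ => ?_⟩
    obtain ⟨τ', h1, h2⟩ := hback τ
    have h4 := h τ' (by rw [h2]; exact hτ)
    have h5 : ξ (φ τ') = omegaU p k (τ' : GQp p) := h4
    rw [h1, h2] at h5
    exact h5
  -- the subgroup `S` and its transport to `↥H`
  let S : Subgroup (GQp p) := kerInd H' ξ'
  have hSn : S.Normal := kerInd_normal H' hH' ξ' hconj'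
  let S0 : Subgroup (Gp p) := S.comap (toLoc p).symm.toMonoidHom
  have hS0n : S0.Normal := Subgroup.Normal.comap hSn _
  let SH : Subgroup ↥H := S0.subgroupOf H
  have hSHn : SH.Normal := Subgroup.Normal.subgroupOf hS0n H
  have hS0H : S0 ≤ H := by
    intro g hg
    have h1 : (toLoc p).symm g ∈ H' := kerInd_le H' ξ' hg
    have h2 : toLoc p ((toLoc p).symm g) ∈ H := h1
    rwa [(toLoc p).apply_symm_apply] at h2
  have hidx0 : S0.index = S.index :=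
    Subgroup.index_comap_of_surjective S (toLoc p).symm.surjective
  have hpS : ¬ p ∣ S.index := not_dvd_index_kerInd hp2 H' hH' ξ'
  have hrel : SH.index * H.index = S.index := by
    rw [← hidx0]
    exact Subgroup.relIndex_mul_index hS0H
  have hSHp : ¬ p ∣ SH.index := fun h => hpS (hrel ▸ Dvd.dvd.mul_right h _)
  have hSHfin : SH.FiniteIndex := by
    constructor
    intro h0
    exact hSHp (h0 ▸ dvd_zero p)
  have hn : ((SH.index : ℕ) : ZMod p) ≠ 0 := by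
    rw [Ne, ZMod.natCast_eq_zero_iff]
    exact hSHp
  have hmemS : ∀ s : ↥SH, (toLoc p).symm ((s : ↥H) : Gp p) ∈ S := fun s => s.2
  have hS : ∀ s ∈ SH, ∀ a : (charRep (ZMod p) ξ).V, (charRep (ZMod p) ξ).ρ s a = a := by
    intro s hs a
    have h0 : (toLoc p).symm ((s : ↥H) : Gp p) ∈ kerInd H' ξ' := hs
    obtain ⟨hsH, h1, -⟩ := (mem_kerInd_iff H' ξ' _).1 h0
    have h2 : φ ⟨_, hsH⟩ = s := by
      apply Subtype.ext
      rw [hφ]
      exact (toLoc p).apply_symm_apply _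
    have h3 : ξ s = 1 := by
      have : ξ (φ ⟨_, hsH⟩) = 1 := h1
      rwa [h2] at this
    show ((ξ s : kˣ) : k) * (show k from a) = a
    rw [h3, Units.val_one, one_mul]
  -- the family of equivariant admissible homomorphisms
  let F := ↥(HomEq (comapFamily (admFam p hprod) H) SH (charRep (ZMod p) ξ))
  have hin : ∀ s : ↥(kerInd H' ξ'), toLoc p (s : GQp p) ∈ H := fun s => kerInd_le H' ξ' s.2
  have hin2 : ∀ s : ↥(kerInd H' ξ'), (⟨toLoc p (s : GQp p), hin s⟩ : ↥H) ∈ SH := by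
    intro s
    show (toLoc p).symm (toLoc p (s : GQp p)) ∈ S
    rw [hsymm]; exact s.2
  let up : ↥(kerInd H' ξ') → ↥SH := fun s => ⟨⟨toLoc p (s : GQp p), hin s⟩, hin2 s⟩
  let ι : F → (↥(kerInd H' ξ') → k) := fun f s => (f : ↥SH → k) (up s)
  have hι : Function.Injective ι := by
    intro f f' h
    apply Subtype.ext
    funext s
    have hs : (toLoc p).symm ((s : ↥H) : Gp p) ∈ kerInd H' ξ' := s.2
    have h1 : up ⟨_, hs⟩ = s := by
      apply Subtype.ext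
      apply Subtype.ext
      exact (toLoc p).apply_symm_apply _
    have h2 := congrFun h ⟨_, hs⟩
    show (f : ↥SH → k) s = (f' : ↥SH → k) s
    rw [← h1]
    exact h2
  obtain ⟨hFfin, hcard⟩ := card_family_le_ind hp2 hKF hB10 hN2 H' hH' hIH' ξ' hξN' hconj' hlev' hnt'
    hcorner' F ι hι
    (fun f s s' => f.2.1 (up s) (up s'))
    (fun f g s s' hss' => by
      have h1 := f.2.2.1 (φ g) (up s)
      have h2 : up s' = ⟨φ g * (up s : ↥H) * (φ g)⁻¹, hSHn.conj_mem _ (up s).2 _⟩ := by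
        apply Subtype.ext
        apply Subtype.ext
        show toLoc p (s' : GQp p) = toLoc p (g : GQp p) * toLoc p (s : GQp p) * (toLoc p (g : GQp p))⁻¹
        rw [hss', map_mul, map_mul, map_inv]
      show (f : ↥SH → k) (up s') = _
      rw [h2, h1]
      rfl)
    (fun f => by
      obtain ⟨N', hN', hfN'⟩ := f.2.2.2
      obtain ⟨N0, hN0, rfl⟩ := hN'
      exact ⟨N0.comap (toLoc p).toMonoidHom, hN0, fun s hs => hfN' (up s) hs⟩)
  haveI : Finite F := hFfin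
  have hfd : FiniteDimensional (ZMod p)
      (HomEq (comapFamily (admFam p hprod) H) SH (charRep (ZMod p) ξ)) := Module.Finite.of_finite
  obtain ⟨hfdH, hrank⟩ :=
    finrank_H1adm_le_finrank_HomEq (comapFamily (admFam p hprod) H) SH hn hS
  refine ⟨hfdH, hrank.trans ?_⟩
  have hcard' : Nat.card F ≤ Nat.card k ^ 1 := by rw [pow_one]; exact hcard
  have := finrank_le_of_card_le (p := p) (W := F) (k := k) hcard'
  rwa [mul_one] at this

end Fermat.Agent.TW.Cnt.IndCount72
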