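/-
Program TW (S56), WP7-CNT (count of Fontaine-bounded classes), brick C3 part (U), helper71.

The `p`-th power map on the principal units `1 + π^j O` of a ring `O` in which `p = u π^e`.
Mathlib only.  Everything is stated with divisibility by powers of `π`:

* `add_pow_prime_expand`: `(y + z)^p = y^p + p y^(p-1) z + p z^2 w + z^p`;
* `one_add_pow_low / crit / high`: `(1 + π^j x)^p` modulo `π^(pj+1)` resp. `π^(e+j+1)` in the three
  regimes `(p-1) j < e`, `(p-1) j = e`, `(p-1) j > e`;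
* `exists_pow_eq_of_high`: if `O` is `π`-adically separated and complete and `u` is a unit, then for
  `(p-1) j > e` every `a ≡ 1 mod π^(e+j)` is the `p`-th power of some `y ≡ 1 mod π^j`.
-/
import Mathlib

set_option autoImplicit false

namespace Fermat.Agent.TW.Cnt.UnitFil71

open Finset

variable {O : Type*} [CommRing O]

/-! ### The binomial expansion for a prime exponent -/

/-- `(y + z)^p = y^p + p y^(p-1) z + p z^2 w + z^p` for a prime `p`. -/
theorem add_pow_prime_expand {p : ℕ} (hp : p.Prime) (y z : O) :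
    ∃ w : O, (y + z) ^ p = y ^ p + (p : O) * y ^ (p - 1) * z + (p : O) * z ^ 2 * w + z ^ p := by
  obtain ⟨n, rfl⟩ : ∃ n, p = n + 2 := ⟨p - 2, by have := hp.two_le; omega⟩
  have hsum : (y + z) ^ (n + 2) =
      ∑ m ∈ range n, z ^ (m + 2) * y ^ (n + 2 - (m + 2)) * ((n + 2).choose (m + 2) : O)
        + z ^ (n + 2) + ((n + 2 : ℕ) : O) * y ^ (n + 1) * z + y ^ (n + 2) := by
    rw [add_comm y z, add_pow, Finset.sum_range_succ', Finset.sum_range_succ',
      Finset.sum_range_succ]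
    simp only [pow_zero, Nat.choose_zero_right, Nat.cast_one, zero_add, pow_one,
      Nat.choose_one_right, Nat.choose_self, Nat.sub_self, one_mul, mul_one, Nat.sub_zero]
    have : n + 2 - 1 = n + 1 := by omega
    rw [this]
    ring
  have hdvd : ∀ m ∈ range n, ((n + 2 : ℕ) : O) * z ^ 2 ∣
      z ^ (m + 2) * y ^ (n + 2 - (m + 2)) * ((n + 2).choose (m + 2) : O) := by
    intro m hm
    rw [Finset.mem_range] at hm
    have hlt : m + 2 < n + 2 := by omega
    obtain ⟨c, hc⟩ := hp.dvd_choose_self (by omega) hlt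
    rw [hc, Nat.cast_mul, pow_add]
    exact ⟨z ^ m * y ^ (n + 2 - (m + 2)) * (c : O), by ring⟩
  obtain ⟨w, hw⟩ := Finset.dvd_sum hdvd
  refine ⟨w, ?_⟩
  rw [hsum, hw]
  have : n + 2 - 1 = n + 1 := by omega
  rw [this]
  ring

/-! ### `(1 + π^j x)^p` in the three regimes -/

section Regimes

variable {p : ℕ} (hp : p.Prime) (π u : O) (e : ℕ) (hpe : (p : O) = u * π ^ e)

include hp hpe

/-- General shape: `(y + π^m x)^p = y^p + u π^(e+m) y^(p-1) x + u π^(e+2m) x^2 w + π^(pm) x^p`. -/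
theorem add_mul_pow_expand (y x : O) (m : ℕ) :
    ∃ w : O, (y + π ^ m * x) ^ p =
      y ^ p + u * π ^ (e + m) * y ^ (p - 1) * x + u * π ^ (e + 2 * m) * x ^ 2 * w
        + π ^ (p * m) * x ^ p := by
  obtain ⟨w, hw⟩ := add_pow_prime_expand hp y (π ^ m * x)
  refine ⟨w, ?_⟩
  rw [hw, hpe]
  ring

/-- Low regime `(p-1) j < e`: `(1 + π^j x)^p ≡ 1 + π^(pj) x^p mod π^(pj+1)`. -/
theorem one_add_pow_low {j : ℕ} (hj : (p - 1) * j < e) (x : O) :
    π ^ (p * j + 1) ∣ (1 + π ^ j * x) ^ p - (1 + π ^ (p * j) * x ^ p) := by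
  obtain ⟨w, hw⟩ := add_mul_pow_expand hp π u e hpe 1 x j
  have hp1 : 1 ≤ p := hp.one_lt.le
  have h1 : p * j + 1 ≤ e + j := by
    have : p * j = (p - 1) * j + j := by
      conv_lhs => rw [← Nat.sub_add_cancel hp1]
      ring
    omega
  obtain ⟨d1, hd1⟩ := Nat.exists_eq_add_of_le h1
  have h2 : p * j + 1 ≤ e + 2 * j := by omega
  obtain ⟨d2, hd2⟩ := Nat.exists_eq_add_of_le h2
  rw [hw, one_pow, one_pow, hd1, hd2]
  exact ⟨u * π ^ d1 * x + u * π ^ d2 * x ^ 2 * w, by ring⟩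

/-- Critical regime `(p-1) j = e`: `(1 + π^j x)^p ≡ 1 + π^(pj) (x^p + u x) mod π^(pj+1)`
(`j ≥ 1`). -/
theorem one_add_pow_crit {j : ℕ} (hj1 : 1 ≤ j) (hj : (p - 1) * j = e) (x : O) :
    π ^ (p * j + 1) ∣ (1 + π ^ j * x) ^ p - (1 + π ^ (p * j) * (x ^ p + u * x)) := by
  obtain ⟨w, hw⟩ := add_mul_pow_expand hp π u e hpe 1 x j
  have hp1 : 1 ≤ p := hp.one_lt.le
  have h1 : p * j = e + j := by
    have : p * j = (p - 1) * j + j := by
      conv_lhs => rw [← Nat.sub_add_cancel hp1]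
      ring
    omega
  have h2 : p * j + 1 ≤ e + 2 * j := by omega
  obtain ⟨d2, hd2⟩ := Nat.exists_eq_add_of_le h2
  rw [hw, one_pow, one_pow, hd2, ← h1]
  exact ⟨u * π ^ d2 * x ^ 2 * w, by ring⟩

/-- High regime `(p-1) j > e`: `(y + π^j x)^p ≡ y^p + u π^(e+j) x mod π^(e+j+1)` for `y ≡ 1 mod π`
(`j ≥ 1`). -/
theorem add_mul_pow_high {j : ℕ} (hj1 : 1 ≤ j) (hj : e < (p - 1) * j) (y x : O)
    (hy : π ∣ y - 1) :
    π ^ (e + j + 1) ∣ (y + π ^ j * x) ^ p - (y ^ p + u * π ^ (e + j) * x) := by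
  obtain ⟨w, hw⟩ := add_mul_pow_expand hp π u e hpe y x j
  have hp1 : 1 ≤ p := hp.one_lt.le
  have h1 : e + j + 1 ≤ p * j := by
    have : p * j = (p - 1) * j + j := by
      conv_lhs => rw [← Nat.sub_add_cancel hp1]
      ring
    omega
  obtain ⟨d1, hd1⟩ := Nat.exists_eq_add_of_le h1
  have h2 : e + j + 1 ≤ e + 2 * j := by omega
  obtain ⟨d2, hd2⟩ := Nat.exists_eq_add_of_le h2
  -- `y^(p-1) = 1 + π c`
  have hy' : π ∣ y ^ (p - 1) - 1 := by
    have := sub_dvd_pow_sub_pow y 1 (p - 1)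
    rw [one_pow] at this
    exact hy.trans this
  obtain ⟨c, hc⟩ := hy'
  have hc' : y ^ (p - 1) = 1 + π * c := by rw [← hc]; ring
  rw [hw, hc', hd1, hd2]
  exact ⟨u * c * x + u * π ^ d2 * x ^ 2 * w + π ^ d1 * x ^ p, by ring⟩

end Regimes

/-! ### Successive approximation in the high regime -/

/-- `π` is a non-zero-divisor and `O` is `π`-adically separated and complete (divisibility form). -/
structure IsPiComplete (π : O) : Prop where
  nzd : ∀ x : O, π * x = 0 → x = 0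
  sep : ∀ x : O, (∀ k : ℕ, π ^ k ∣ x) → x = 0
  complete : ∀ f : ℕ → O, (∀ k, π ^ k ∣ f (k + 1) - f k) → ∃ L : O, ∀ k, π ^ k ∣ L - f k

theorem IsPiComplete.pow_mul_cancel {π : O} (h : IsPiComplete π) (k : ℕ) {x y : O}
    (hxy : π ^ k * x = π ^ k * y) : x = y := by
  induction k with
  | zero => simpa using hxy
  | succ k ih =>
    apply ih
    have : π * (π ^ k * x - π ^ k * y) = 0 := by
      have : π * (π ^ k * x - π ^ k * y) = π ^ (k + 1) * x - π ^ (k + 1) * y := by ring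
      rw [this, hxy, sub_self]
    exact sub_eq_zero.mp (h.nzd _ this)

theorem IsPiComplete.dvd_of_pow_mul_dvd {π : O} (h : IsPiComplete π) (k m : ℕ) {x : O}
    (hx : π ^ (k + m) ∣ π ^ k * x) : π ^ m ∣ x := by
  obtain ⟨c, hc⟩ := hx
  refine ⟨c, h.pow_mul_cancel k ?_⟩
  rw [hc, pow_add]; ring

section High

variable {p : ℕ} (hp : p.Prime) (π u : O) (e : ℕ) (hpe : (p : O) = u * π ^ e)

include hp hpe

/-- One Newton step in the high regime. -/
theorem exists_step_high {u' : O} (hu : u' * u = 1) {j : ℕ} (hj1 : 1 ≤ j)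
    (hj : e < (p - 1) * j) (a y : O) (hy : π ∣ y - 1) (hya : π ^ (e + j) ∣ y ^ p - a) :
    ∃ y' : O, π ^ j ∣ y' - y ∧ π ^ (e + j + 1) ∣ y' ^ p - a := by
  obtain ⟨c, hc⟩ := hya
  refine ⟨y + π ^ j * (-(u' * c)), ⟨-(u' * c), by ring⟩, ?_⟩
  have h1 := add_mul_pow_high hp π u e hpe hj1 hj y (-(u' * c)) hy
  have h2 : (y + π ^ j * (-(u' * c))) ^ p - a =
      ((y + π ^ j * (-(u' * c))) ^ p - (y ^ p + u * π ^ (e + j) * (-(u' * c))))
        + (y ^ p - a - π ^ (e + j) * c * (u' * u)) := by ring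
  rw [h2, hu, mul_one, hc, sub_self, add_zero]
  exact h1

/-- **High regime.** If `O` is `π`-adically separated and complete, `u` is a unit and
`(p-1) j > e`, then every `a ≡ 1 mod π^(e+j)` is the `p`-th power of some `y ≡ 1 mod π^j`. -/
theorem exists_pow_eq_of_high (hO : IsPiComplete π) {u' : O} (hu : u' * u = 1) {j : ℕ}
    (hj1 : 1 ≤ j) (hj : e < (p - 1) * j) (a : O) (ha : π ^ (e + j) ∣ a - 1) :
    ∃ y : O, π ^ j ∣ y - 1 ∧ y ^ p = a := by
  -- the invariant at stage `t`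
  let P : ℕ → O → Prop := fun t y => π ^ j ∣ y - 1 ∧ π ^ (e + j + t) ∣ y ^ p - a
  have hstep : ∀ t y, P t y → ∃ y', P (t + 1) y' ∧ π ^ (j + t) ∣ y' - y := by
    intro t y ⟨hy1, hy2⟩
    have hjt1 : 1 ≤ j + t := by omega
    have hjt : e < (p - 1) * (j + t) := by
      calc e < (p - 1) * j := hj
        _ ≤ (p - 1) * (j + t) := Nat.mul_le_mul_left _ (by omega)
    have hπy : π ∣ y - 1 := (dvd_pow_self π (by omega : j ≠ 0)).trans hy1
    have hya : π ^ (e + (j + t)) ∣ y ^ p - a := by rwa [← add_assoc]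
    obtain ⟨y', hy'1, hy'2⟩ := exists_step_high hp π u e hpe hu hjt1 hjt a y hπy hya
    refine ⟨y', ⟨?_, ?_⟩, hy'1⟩
    · have : y' - 1 = (y' - y) + (y - 1) := by ring
      rw [this]
      exact dvd_add ((pow_dvd_pow π (by omega)).trans hy'1) hy1
    · have : e + j + (t + 1) = e + (j + t) + 1 := by ring
      rw [this]; exact hy'2
  have h0 : P 0 1 := by
    refine ⟨by simp, ?_⟩
    rw [one_pow, add_zero]
    have : (1 : O) - a = -(a - 1) := by ring
    rw [this]; exact (dvd_neg).mpr ha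
  -- the sequence
  let seq : (t : ℕ) → {y : O // P t y} := fun t =>
    Nat.rec (motive := fun t => {y : O // P t y}) ⟨1, h0⟩
      (fun t y => ⟨(hstep t y.1 y.2).choose, (hstep t y.1 y.2).choose_spec.1⟩) t
  have hseq : ∀ t, π ^ (j + t) ∣ (seq (t + 1)).1 - (seq t).1 := fun t =>
    (hstep t (seq t).1 (seq t).2).choose_spec.2
  obtain ⟨L, hL⟩ := hO.complete (fun t => (seq t).1)
    (fun k => (pow_dvd_pow π (by omega)).trans (hseq k))
  refine ⟨L, ?_, ?_⟩
  · have : L - 1 = (L - (seq j).1) + ((seq j).1 - 1) := by ring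
    rw [this]
    exact dvd_add (hL j) (seq j).2.1
  · rw [← sub_eq_zero]
    apply hO.sep
    intro k
    have h1 : π ^ k ∣ L ^ p - (seq k).1 ^ p := (hL k).trans (sub_dvd_pow_sub_pow _ _ p)
    have h2 : π ^ k ∣ (seq k).1 ^ p - a := (pow_dvd_pow π (by omega)).trans (seq k).2.2
    have : L ^ p - a = (L ^ p - (seq k).1 ^ p) + ((seq k).1 ^ p - a) := by ring
    rw [this]
    exact dvd_add h1 h2

end High

end Fermat.Agent.TW.Cnt.UnitFil71
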