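/-
Program TW (S56), WP7 brick B11 (CNT-P), helper71.

Structure of the principal units modulo `p`-th powers.  `O` is a `π`-adically complete local ring
with maximal ideal `(π)`, perfect residue field, `p = u π^e`.  `q : O → B` is a map to an additive
group, additive on units and killing `p`-th powers of units (think of `O^× → K^×/K^{×p}`).

`lvl q i` is the subgroup `q (1 + π^i O)` of `B`.

* `lvl_eq_bot` : `lvl q i = 0` for `(p-1) i > p e`;
* `lvl_le_succ` : `lvl q i ≤ lvl q (i+1)` for `i = p j`, `(p-1) j < e`;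
* `q_crit_mem` : for `i = p j`, `(p-1) j = e`: `q (1 + π^i (x^p + u x)) ∈ lvl q (i+1)`;
* `q_add_mem` : `c ↦ q (1 + π^i c)` is additive modulo `lvl q (i+1)` and only depends on `c mod π`.
-/
import Mathlib
import Fermat.Agent.TW.Cnt.UnitFil71

set_option autoImplicit false

namespace Fermat.Agent.TW.Cnt.UnitGr71

open Fermat.Agent.TW.Cnt.UnitFil71

/-- Elementary hypotheses: `O` is `π`-adically separated and complete, local with maximal ideal
`(π)`, the residue ring is perfect of characteristic `p`, and `p = u π^e` with `u` a unit,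
`e ≥ 1`. -/
structure UnitSetup (O : Type*) [CommRing O] (p : ℕ) (π u u' : O) (e : ℕ) : Prop where
  prime : p.Prime
  complete : IsPiComplete π
  isUnit_or : ∀ x : O, π ∣ x ∨ IsUnit x
  not_dvd_one : ¬ π ∣ 1
  hpe : (p : O) = u * π ^ e
  hu : u' * u = 1
  e_pos : 1 ≤ e
  perfect : ∀ x : O, ∃ y : O, π ∣ y ^ p - x

variable {O : Type*} [CommRing O] {p : ℕ} {π u u' : O} {e : ℕ}

section Basic

variable (S : UnitSetup O p π u u' e)

include S

theorem UnitSetup.isUnit_of_dvd_sub_one {i : ℕ} (hi : 1 ≤ i) {a : O} (ha : π ^ i ∣ a - 1) :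
    IsUnit a := by
  rcases S.isUnit_or a with h | h
  · exfalso
    apply S.not_dvd_one
    have h1 : π ∣ a - 1 := (dvd_pow_self π (by omega : i ≠ 0)).trans ha
    have : (1 : O) = a - (a - 1) := by ring
    rw [this]
    exact dvd_sub h h1
  · exact h

theorem UnitSetup.isUnit_one_add {i : ℕ} (hi : 1 ≤ i) (c : O) : IsUnit (1 + π ^ i * c) :=
  S.isUnit_of_dvd_sub_one hi ⟨c, by ring⟩

end Basic

theorem dvd_mul_sub_one {i : ℕ} {a b : O} (ha : π ^ i ∣ a - 1) (hb : π ^ i ∣ b - 1) :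
    π ^ i ∣ a * b - 1 := by
  have : a * b - 1 = a * (b - 1) + (a - 1) := by ring
  rw [this]
  exact dvd_add (Dvd.dvd.mul_left hb _) ha

theorem dvd_inv_sub_one {i : ℕ} {a a' : O} (haa' : a * a' = 1) (ha : π ^ i ∣ a - 1) :
    π ^ i ∣ a' - 1 := by
  have : a' - 1 = -(a' * (a - 1)) := by
    have : a' * (a - 1) = a * a' - a' := by ring
    rw [this, haa']; ring
  rw [this]
  exact (dvd_neg).mpr (Dvd.dvd.mul_left ha _)

section Q

variable {B : Type*} [AddCommGroup B] (q : O → B)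
  (hq_mul : ∀ a b : O, IsUnit a → IsUnit b → q (a * b) = q a + q b)

include hq_mul

theorem q_one : q 1 = 0 := by
  have := hq_mul 1 1 isUnit_one isUnit_one
  rw [mul_one] at this
  exact left_eq_add.mp this

theorem q_inv {a a' : O} (haa' : a * a' = 1) : q a' = - q a := by
  have ha : IsUnit a := IsUnit.of_mul_eq_one _ haa'
  have ha' : IsUnit a' := IsUnit.of_mul_eq_one _ (by rw [mul_comm]; exact haa')
  have := hq_mul a a' ha ha'
  rw [haa', q_one q hq_mul] at this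
  exact eq_neg_of_add_eq_zero_right this.symm

theorem q_pow {a : O} (ha : IsUnit a) (n : ℕ) : q (a ^ n) = n • q a := by
  induction n with
  | zero => simp [q_one q hq_mul]
  | succ n ih => rw [pow_succ, hq_mul _ _ (ha.pow n) ha, ih, succ_nsmul]

variable (π) in
/-- The image of the units `≡ 1 mod π^i`. -/
def lvl (i : ℕ) : AddSubgroup B where
  carrier := {b | ∃ a : O, IsUnit a ∧ π ^ i ∣ a - 1 ∧ q a = b}
  zero_mem' := ⟨1, isUnit_one, by simp, q_one q hq_mul⟩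
  add_mem' := by
    rintro _ _ ⟨a, ha, ha1, rfl⟩ ⟨b, hb, hb1, rfl⟩
    exact ⟨a * b, ha.mul hb, dvd_mul_sub_one ha1 hb1, hq_mul a b ha hb⟩
  neg_mem' := by
    rintro _ ⟨a, ha, ha1, rfl⟩
    obtain ⟨a', haa'⟩ := ha.exists_right_inv
    exact ⟨a', IsUnit.of_mul_eq_one _ (by rw [mul_comm]; exact haa'), dvd_inv_sub_one haa' ha1,
      q_inv q hq_mul haa'⟩

theorem mem_lvl {i : ℕ} {b : B} :
    b ∈ lvl π q hq_mul i ↔ ∃ a : O, IsUnit a ∧ π ^ i ∣ a - 1 ∧ q a = b := Iff.rfl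

theorem lvl_anti {i i' : ℕ} (h : i ≤ i') : lvl π q hq_mul i' ≤ lvl π q hq_mul i := by
  rintro _ ⟨a, ha, ha1, rfl⟩
  exact ⟨a, ha, (pow_dvd_pow π h).trans ha1, rfl⟩

/-- Units congruent modulo `π^m` have the same image modulo `lvl m`. -/
theorem q_sub_mem {m : ℕ} {a b : O} (ha : IsUnit a) (hb : IsUnit b) (h : π ^ m ∣ a - b) :
    q a - q b ∈ lvl π q hq_mul m := by
  obtain ⟨b', hbb'⟩ := hb.exists_right_inv
  have hb' : IsUnit b' := IsUnit.of_mul_eq_one _ (by rw [mul_comm]; exact hbb')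
  have hc : IsUnit (a * b') := ha.mul hb'
  have h1 : π ^ m ∣ a * b' - 1 := by
    have : a * b' - 1 = b' * (a - b) := by rw [← hbb']; ring
    rw [this]; exact Dvd.dvd.mul_left h _
  have h2 : q a = q (a * b') + q b := by
    rw [← hq_mul _ _ hc hb]
    congr 1
    rw [mul_assoc, mul_comm b' b, hbb', mul_one]
  rw [h2, add_sub_cancel_right]
  exact ⟨a * b', hc, h1, rfl⟩

theorem exists_of_mem_lvl {i : ℕ} {b : B} (hb : b ∈ lvl π q hq_mul i) :
    ∃ c : O, b = q (1 + π ^ i * c) := by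
  obtain ⟨a, _, ⟨c, hc⟩, rfl⟩ := hb
  refine ⟨c, ?_⟩
  rw [← hc]; congr 1; ring

variable (S : UnitSetup O p π u u' e)

include S

theorem q_one_add_mem {i : ℕ} (hi : 1 ≤ i) (c : O) : q (1 + π ^ i * c) ∈ lvl π q hq_mul i :=
  ⟨_, S.isUnit_one_add hi c, ⟨c, by ring⟩, rfl⟩

/-- `c ↦ q (1 + π^i c)` is additive modulo `lvl (i+1)` and only depends on `c mod π`. -/
theorem q_add_mem {i : ℕ} (hi : 1 ≤ i) {c c₁ c₂ : O} (h : π ∣ c - (c₁ + c₂)) :
    q (1 + π ^ i * c) - (q (1 + π ^ i * c₁) + q (1 + π ^ i * c₂)) ∈ lvl π q hq_mul (i + 1) := by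
  rw [← hq_mul _ _ (S.isUnit_one_add hi c₁) (S.isUnit_one_add hi c₂)]
  apply q_sub_mem q hq_mul (S.isUnit_one_add hi c)
    ((S.isUnit_one_add hi c₁).mul (S.isUnit_one_add hi c₂))
  obtain ⟨d, hd⟩ := h
  obtain ⟨i', rfl⟩ : ∃ i', i = i' + 1 := ⟨i - 1, by omega⟩
  refine ⟨d - π ^ i' * c₁ * c₂, ?_⟩
  have : c = c₁ + c₂ + π * d := by rw [← hd]; ring
  rw [this]; ring

theorem q_congr_mem {i : ℕ} (hi : 1 ≤ i) {c c₁ : O} (h : π ∣ c - c₁) :
    q (1 + π ^ i * c) - q (1 + π ^ i * c₁) ∈ lvl π q hq_mul (i + 1) := by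
  have h0 : q (1 + π ^ i * 0) = 0 := by rw [mul_zero, add_zero]; exact q_one q hq_mul
  have := q_add_mem q hq_mul S hi (c := c) (c₁ := c₁) (c₂ := 0) (by simpa using h)
  rwa [h0, add_zero] at this

variable (hq_pow : ∀ a : O, IsUnit a → q (a ^ p) = 0)

include hq_pow

/-- High levels die: `(p-1) i > p e`. -/
theorem lvl_eq_bot {i : ℕ} (hi : p * e < (p - 1) * i) : lvl π q hq_mul i = ⊥ := by
  have hp := S.prime
  have hp1 : 1 ≤ p := hp.one_lt.le
  rw [eq_bot_iff]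
  rintro _ ⟨a, _, ha1, rfl⟩
  rw [AddSubgroup.mem_bot]
  have hpe' : p * e = (p - 1) * e + e := by
    conv_lhs => rw [← Nat.sub_add_cancel hp1]
    ring
  have hei : e < i := by
    by_contra hcon
    have : (p - 1) * i ≤ (p - 1) * e := Nat.mul_le_mul_left _ (by omega)
    omega
  obtain ⟨j, rfl⟩ : ∃ j, i = e + j := ⟨i - e, by omega⟩
  have hj1 : 1 ≤ j := by omega
  have hj : e < (p - 1) * j := by
    rw [Nat.mul_add] at hi
    omega
  obtain ⟨y, hy1, hy⟩ := exists_pow_eq_of_high hp π u e S.hpe S.complete S.hu hj1 hj a ha1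
  rw [← hy]
  exact hq_pow y (S.isUnit_of_dvd_sub_one hj1 hy1)

/-- Levels divisible by `p` below the critical one are absorbed: `i = p j`, `(p-1) j < e`. -/
theorem lvl_le_succ {j : ℕ} (hj1 : 1 ≤ j) (hj : (p - 1) * j < e) :
    lvl π q hq_mul (p * j) ≤ lvl π q hq_mul (p * j + 1) := by
  have hp := S.prime
  rintro _ ⟨a, ha, ⟨c, hc⟩, rfl⟩
  obtain ⟨x, hx⟩ := S.perfect c
  have hz : IsUnit (1 + π ^ j * x) := S.isUnit_one_add hj1 x
  have h1 := one_add_pow_low hp π u e S.hpe hj x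
  have h2 : π ^ (p * j + 1) ∣ a - (1 + π ^ j * x) ^ p := by
    obtain ⟨d, hd⟩ := hx
    have : a - (1 + π ^ j * x) ^ p =
        -((1 + π ^ j * x) ^ p - (1 + π ^ (p * j) * x ^ p)) - π ^ (p * j + 1) * d := by
      have ha' : a = 1 + π ^ (p * j) * c := by rw [← hc]; ring
      have hx' : x ^ p = c + π * d := by rw [← hd]; ring
      rw [ha', hx']; ring
    rw [this]
    exact dvd_sub ((dvd_neg).mpr h1) ⟨d, rfl⟩
  have h3 := q_sub_mem q hq_mul ha (hz.pow p) h2
  rwa [hq_pow _ hz, sub_zero] at h3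

/-- The critical level `i = p j`, `(p-1) j = e`: the image of `x ↦ x^p + u x` dies. -/
theorem q_crit_mem {j : ℕ} (hj1 : 1 ≤ j) (hj : (p - 1) * j = e) (x : O) :
    q (1 + π ^ (p * j) * (x ^ p + u * x)) ∈ lvl π q hq_mul (p * j + 1) := by
  have hp := S.prime
  have hz : IsUnit (1 + π ^ j * x) := S.isUnit_one_add hj1 x
  have hpj : 1 ≤ p * j := Nat.one_le_iff_ne_zero.mpr (Nat.mul_ne_zero hp.ne_zero (by omega))
  have h1 := one_add_pow_crit hp π u e S.hpe hj1 hj x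
  have h2 : π ^ (p * j + 1) ∣ (1 + π ^ (p * j) * (x ^ p + u * x)) - (1 + π ^ j * x) ^ p := by
    rw [← neg_sub]; exact (dvd_neg).mpr h1
  have h3 := q_sub_mem q hq_mul (S.isUnit_one_add hpj _) (hz.pow p) h2
  rwa [hq_pow _ hz, sub_zero] at h3

end Q

end Fermat.Agent.TW.Cnt.UnitGr71
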