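/-
helper90 — TW / WP7 / brick INST (interface): the LITERAL abstract statements `AbsN1 p`, `AbsN2 p`
("family form" of the final abstract N1/N2 of helper71 + helper75) from which
`KumSpec72.ConcreteN1 p`, `KumSpec72.ConcreteN2 p` are deduced in `InstConcrete90`.

Setting (everything in `Type`): `O` with `UnitSetup O p π u u' e` (helper71), a finite commutative
group `Δ` of order prime to `p` acting faithfully on `O` with `g π = π w_g`, a target `B` killed by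
`p` with `q : O → B` additive and equivariant on units, a finite residue field model
`res : O → κ`, a `p`-th root of unity `ζ = 1 + π ^ j₀ v₀` with `g ζ = ζ ^ ω(g)`.

A family `ι : F → k → B` of additive, `ψ`-equivariant maps with values in the level-`e` part
`lvl π q hq_mul e`, injective in `f`, has at most `|k| ^ m` members.
-/
import Mathlib
import Fermat.Agent.TW.Cnt.UnitGr71

set_option autoImplicit false

namespace Fermat.Agent.TW.Cnt.InstSpec90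

open Fermat.Agent.TW.Cnt.UnitFil71 Fermat.Agent.TW.Cnt.UnitGr71

variable (p : ℕ) [Fact p.Prime]

open Classical in
/-- **Abstract N1 (family form).**  `κ^Δ = 𝔽_p` (`hfix`), `e ≤ #I0`.  Then a family of
`ψ`-equivariant additive maps `k → B` landing in level `e` has at most
`|k| ^ ([ψ|I0 = 1] + [ψ = ω])` members. -/
def AbsN1 : Prop :=
  p ≠ 2 →
  ∀ (O : Type) [CommRing O] (π u u' : O) (e : ℕ), UnitSetup O p π u u' e →
  ∀ (Δ : Type) [CommGroup Δ] [Finite Δ] [MulSemiringAction Δ O],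
    ¬ p ∣ Nat.card Δ → (∀ g : Δ, (∀ x : O, g • x = x) → g = 1) →
  ∀ (w : Δ → O), (∀ g : Δ, g • π = π * w g) →
  ∀ (B : Type) [AddCommGroup B] (q : O → B)
    (hq_mul : ∀ a b : O, IsUnit a → IsUnit b → q (a * b) = q a + q b),
    (∀ b : B, p • b = 0) →
  ∀ (act : Δ →* AddMonoid.End B), (∀ (g : Δ) (a : O), IsUnit a → q (g • a) = act g (q a)) →
  ∀ (κ : Type) [Field κ] [Finite κ] [Algebra (ZMod p) κ] [MulSemiringAction Δ κ] (res : O →+* κ),
    Function.Surjective res → (∀ c : O, res c = 0 ↔ π ∣ c) →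
    (∀ (g : Δ) (a : O), res (g • a) = g • res a) →
    (∀ x : O, (∀ g : Δ, π ∣ g • x - x) → π ∣ x ^ p - x) →
    e ≤ Nat.card {g : Δ // ∀ x : O, π ∣ g • x - x} →
  ∀ (ζ v₀ : O) (j₀ : ℕ), ζ ^ p = 1 → 1 ≤ j₀ → IsUnit v₀ → ζ - 1 = π ^ j₀ * v₀ →
  ∀ (ω : Δ →* (ZMod p)ˣ), (∀ g : Δ, g • ζ = ζ ^ ((ω g : (ZMod p)ˣ) : ZMod p).val) →
  ∀ (k : Type) [Field k] [Finite k] [Algebra (ZMod p) k] (ψ : Δ →* kˣ),
  ∀ (F : Type) (ι : F → k → B), Function.Injective ι →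
    (∀ f a a', ι f (a + a') = ι f a + ι f a') →
    (∀ f a, ι f a ∈ lvl π q hq_mul e) →
    (∀ f (g : Δ) a, ι f ((ψ g : k) * a) = act g (ι f a)) →
    Finite F ∧ Nat.card F ≤ Nat.card k ^
      ((if ∀ i : Δ, (∀ x : O, π ∣ i • x - x) → ψ i = 1 then 1 else 0) +
        (if ∀ g : Δ, (ψ g : k) = algebraMap (ZMod p) k ((ω g : (ZMod p)ˣ) : ZMod p) then 1 else 0))

/-- **Abstract N2 (family form).**  `κ^Δ ⊆ 𝔽_{p²}` (`hfix2`), `e ≤ #I0`, `ψ = ω ξ⁻¹` with `ξ` of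
level two on `I0`, nontrivial on `I0`, not the corner (`p = 3`, `ξ|I0 = ω|I0`).  Then a family of
`ψ`-equivariant additive maps `k → B` landing in level `e` has at most `|k|` members. -/
def AbsN2 : Prop :=
  p ≠ 2 →
  ∀ (O : Type) [CommRing O] (π u u' : O) (e : ℕ), UnitSetup O p π u u' e →
  ∀ (Δ : Type) [CommGroup Δ] [Finite Δ] [MulSemiringAction Δ O],
    ¬ p ∣ Nat.card Δ → (∀ g : Δ, (∀ x : O, g • x = x) → g = 1) →
  ∀ (w : Δ → O), (∀ g : Δ, g • π = π * w g) →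
  ∀ (B : Type) [AddCommGroup B] (q : O → B)
    (hq_mul : ∀ a b : O, IsUnit a → IsUnit b → q (a * b) = q a + q b),
    (∀ b : B, p • b = 0) →
  ∀ (act : Δ →* AddMonoid.End B), (∀ (g : Δ) (a : O), IsUnit a → q (g • a) = act g (q a)) →
  ∀ (κ : Type) [Field κ] [Finite κ] [Algebra (ZMod p) κ] [MulSemiringAction Δ κ] (res : O →+* κ),
    Function.Surjective res → (∀ c : O, res c = 0 ↔ π ∣ c) →
    (∀ (g : Δ) (a : O), res (g • a) = g • res a) →
    (∀ x : O, (∀ g : Δ, π ∣ g • x - x) → π ∣ x ^ (p ^ 2) - x) →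
    e ≤ Nat.card {g : Δ // ∀ x : O, π ∣ g • x - x} →
  ∀ (ζ v₀ : O) (j₀ : ℕ), ζ ^ p = 1 → 1 ≤ j₀ → IsUnit v₀ → ζ - 1 = π ^ j₀ * v₀ →
  ∀ (ω : Δ →* (ZMod p)ˣ), (∀ g : Δ, g • ζ = ζ ^ ((ω g : (ZMod p)ˣ) : ZMod p).val) →
  ∀ (k : Type) [Field k] [Finite k] [Algebra (ZMod p) k] (ξ ψ : Δ →* kˣ),
    (∀ g : Δ, (ψ g : k) = ((ξ g : kˣ) : k)⁻¹ * algebraMap (ZMod p) k ((ω g : (ZMod p)ˣ) : ZMod p)) →
    (∀ i : Δ, (∀ x : O, π ∣ i • x - x) → ξ i ^ (p + 1) = 1) →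
    (∃ i : Δ, (∀ x : O, π ∣ i • x - x) ∧ ξ i ≠ 1) →
    ¬ (p = 3 ∧ ∀ i : Δ, (∀ x : O, π ∣ i • x - x) →
        ((ξ i : kˣ) : k) = algebraMap (ZMod p) k ((ω i : (ZMod p)ˣ) : ZMod p)) →
  ∀ (F : Type) (ι : F → k → B), Function.Injective ι →
    (∀ f a a', ι f (a + a') = ι f a + ι f a') →
    (∀ f a, ι f a ∈ lvl π q hq_mul e) →
    (∀ f (g : Δ) a, ι f ((ψ g : k) * a) = act g (ι f a)) →
    Finite F ∧ Nat.card F ≤ Nat.card k

end Fermat.Agent.TW.Cnt.InstSpec90
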