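/-
Program TW (S56), WP7 brick B11 (CNT-P), helper71.  Part (C): the level bound.  Mathlib only.

`κ`, `k` finite fields, a finite group `Δ` acting on `κ` by ring automorphisms, `t : Δ → κ`
(a crossed homomorphism in the applications), `ψ : Δ →* kˣ`.
`twHom t ψ` is the group of additive maps `Φ : k → κ` with `Φ (ψ g a) = t g * g • Φ a`
(= `Hom_Δ(k(ψ), κ(t))`).

* `eq_zero_of_aeval`: if `i` acts trivially on `κ` and some polynomial `P` over `F` kills `ψ i`
  but not `t i`, then every `F`-linear element of `twHom t ψ` vanishes;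
* `card_twHom_le`: if `F` maps isomorphically onto the fixed field `κ^Δ`, `|Δ|` is invertible in
  `κ` and the elements of `twHom t ψ` are `F`-linear, then `#twHom t ψ ≤ #k`  (Galois descent);
* `hlin_zmod`, `hlin_of_adjoin`: how to get the `F`-linearity.
-/
import Mathlib

set_option autoImplicit false
set_option linter.style.haveILetI false
set_option linter.deprecated false

namespace Fermat.Agent.TW.Cnt.LevelBound71

open Polynomial

variable {κ k : Type*} [Field κ] [Field k]
variable {Δ : Type*} [Group Δ] [MulSemiringAction Δ κ]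

/-- Additive maps `Φ : k → κ` with `Φ (ψ g * a) = t g * g • Φ a`. -/
def twHom (t : Δ → κ) (ψ : Δ →* kˣ) : AddSubgroup (k →+ κ) where
  carrier := {Φ | ∀ (g : Δ) (a : k), Φ ((ψ g : k) * a) = t g * g • Φ a}
  zero_mem' := by intro g a; simp
  add_mem' := by
    intro Φ Φ' h h' g a
    simp only [AddMonoidHom.add_apply, h g a, h' g a, smul_add, mul_add]
  neg_mem' := by
    intro Φ h g a
    simp only [AddMonoidHom.neg_apply, h g a, smul_neg, mul_neg]

theorem mem_twHom {t : Δ → κ} {ψ : Δ →* kˣ} {Φ : k →+ κ} :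
    Φ ∈ twHom t ψ ↔ ∀ (g : Δ) (a : k), Φ ((ψ g : k) * a) = t g * g • Φ a := Iff.rfl

section Linear

variable (F : Type*) [Field F] [Algebra F k] [Algebra F κ]

/-- Semi-linearity propagates to polynomials. -/
theorem map_aeval_mul {Φ : k →+ κ}
    (hlin : ∀ (c : F) (a : k), Φ (algebraMap F k c * a) = algebraMap F κ c * Φ a) {s : k} {τ : κ}
    (hs : ∀ a, Φ (s * a) = τ * Φ a) (P : F[X]) (a : k) :
    Φ (aeval s P * a) = aeval τ P * Φ a := by
  induction P using Polynomial.induction_on generalizing a with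
  | C c => simp only [aeval_C]; exact hlin c a
  | add P Q hP hQ => simp only [map_add, add_mul, hP, hQ]
  | monomial n c ih =>
    have h1 : aeval s (C c * X ^ (n + 1)) * a = s * (aeval s (C c * X ^ n) * a) := by
      simp only [map_mul, map_pow, aeval_C, aeval_X]; ring
    have h2 : aeval τ (C c * X ^ (n + 1)) = τ * aeval τ (C c * X ^ n) := by
      simp only [map_mul, map_pow, aeval_C, aeval_X]; ring
    rw [h1, hs, ih, h2, mul_assoc]

/-- **Vanishing.** -/
theorem eq_zero_of_aeval {t : Δ → κ} {ψ : Δ →* kˣ} {Φ : k →+ κ} (hΦ : Φ ∈ twHom t ψ)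
    (hlin : ∀ (c : F) (a : k), Φ (algebraMap F k c * a) = algebraMap F κ c * Φ a)
    (i : Δ) (hi : ∀ x : κ, i • x = x) (P : F[X]) (hP : aeval (ψ i : k) P = 0)
    (hP' : aeval (t i) P ≠ 0) : Φ = 0 := by
  have hs : ∀ a, Φ ((ψ i : k) * a) = t i * Φ a := fun a => by rw [hΦ i a, hi]
  ext a
  have := map_aeval_mul F hlin hs P a
  rw [hP, zero_mul, map_zero] at this
  rcases mul_eq_zero.mp this.symm with h | h
  · exact absurd h hP'
  · simpa using h

/-- Additive maps between `ZMod p`-algebras are `ZMod p`-linear. -/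
theorem hlin_zmod (p : ℕ) [Fact p.Prime] [Algebra (ZMod p) k] [Algebra (ZMod p) κ] (Φ : k →+ κ)
    (c : ZMod p) (a : k) :
    Φ (algebraMap (ZMod p) k c * a) = algebraMap (ZMod p) κ c * Φ a := by
  obtain ⟨n, rfl⟩ := ZMod.natCast_zmod_surjective c
  rw [map_natCast, map_natCast, ← nsmul_eq_mul, ← nsmul_eq_mul, map_nsmul]

/-- If `F` is generated over `ZMod p` by `c₀` and `Φ (s a) = τ Φ a` where `s`, `τ` are the images
of `c₀`, then `Φ` is `F`-linear. -/
theorem hlin_of_adjoin (p : ℕ) [Fact p.Prime] [Algebra (ZMod p) F] [Algebra (ZMod p) k]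
    [Algebra (ZMod p) κ] [IsScalarTower (ZMod p) F k] [IsScalarTower (ZMod p) F κ] (c₀ : F)
    (hc₀ : Algebra.adjoin (ZMod p) {c₀} = ⊤) (Φ : k →+ κ)
    (hs : ∀ a, Φ (algebraMap F k c₀ * a) = algebraMap F κ c₀ * Φ a) (c : F) (a : k) :
    Φ (algebraMap F k c * a) = algebraMap F κ c * Φ a := by
  have hc : c ∈ Algebra.adjoin (ZMod p) {c₀} := by rw [hc₀]; trivial
  rw [Algebra.adjoin_singleton_eq_range_aeval] at hc
  obtain ⟨P, hP⟩ := hc
  have hP' : aeval c₀ P = c := hP
  rw [← hP']
  have h1 : algebraMap F k (aeval c₀ P) = aeval (algebraMap F k c₀) P :=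
    (aeval_algebraMap_apply k c₀ P).symm
  have h2 : algebraMap F κ (aeval c₀ P) = aeval (algebraMap F κ c₀) P :=
    (aeval_algebraMap_apply κ c₀ P).symm
  rw [h1, h2]
  exact map_aeval_mul (ZMod p) (hlin_zmod p Φ) hs P a

end Linear

section Descent

variable (F : Type*) [Field F] [Algebra F k] [Algebra F κ]
variable (t : Δ → κ) (ψ : Δ →* kˣ)

/-- The `F`-linear twisted-equivariant maps, as an `F`-subspace of the functions `k → κ`
(`F` is fixed by `Δ`). -/
def twFun (hfix : ∀ (g : Δ) (c : F), g • algebraMap F κ c = algebraMap F κ c) :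
    Submodule F (k → κ) where
  carrier := {f | (∀ a a' : k, f (a + a') = f a + f a') ∧
    (∀ (c : F) (a : k), f (algebraMap F k c * a) = algebraMap F κ c * f a) ∧
    ∀ (g : Δ) (a : k), f ((ψ g : k) * a) = t g * g • f a}
  zero_mem' := by refine ⟨?_, ?_, ?_⟩ <;> intros <;> simp
  add_mem' := by
    rintro f f' ⟨h1, h2, h3⟩ ⟨h1', h2', h3'⟩
    refine ⟨fun a a' => ?_, fun c a => ?_, fun g a => ?_⟩
    · simp only [Pi.add_apply, h1, h1']; ring
    · simp only [Pi.add_apply, h2, h2']; ring
    · simp only [Pi.add_apply, h3, h3', smul_add]; ring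
  smul_mem' := by
    rintro c f ⟨h1, h2, h3⟩
    refine ⟨fun a a' => ?_, fun c' a => ?_, fun g a => ?_⟩
    · simp only [Pi.smul_apply, h1, smul_add]
    · simp only [Pi.smul_apply, h2, Algebra.smul_def]; ring
    · simp only [Pi.smul_apply, h3, Algebra.smul_def, smul_mul', hfix]; ring

/-- Twisting a `κ`-linear relation between elements of `twFun` by `g ∈ Δ` and a scalar `y`. -/
theorem sum_smul_mul_eq_zero
    (hfix : ∀ (g : Δ) (c : F), g • algebraMap F κ c = algebraMap F κ c)
    {ι : Type*} [Fintype ι] (b : ι → twFun F t ψ hfix) (c : ι → κ)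
    (hc' : ∀ a : k, ∑ i, c i * (b i : k → κ) a = 0) (y : κ) (g : Δ) (a : k) :
    ∑ i, g • (y * c i) * (b i : k → κ) a = 0 := by
  have h := hc' ((ψ g⁻¹ : k) * a)
  have h' := congrArg (fun z : κ => t g * g • (y * z)) h
  simp only [smul_zero, mul_zero, Finset.mul_sum, Finset.smul_sum] at h'
  rw [← h']
  refine Finset.sum_congr rfl fun i _ => ?_
  have hb1 := (b i).2.2.2 g ((ψ g⁻¹ : k) * a)
  have hψ : (ψ g : k) * ((ψ g⁻¹ : k) * a) = a := by
    rw [← mul_assoc, ← Units.val_mul, ← map_mul, mul_inv_cancel, map_one, Units.val_one, one_mul]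
  rw [hψ] at hb1
  rw [hb1, smul_mul', smul_mul', smul_mul']
  ring

/-- The operator `z ↦ ∑ g, g • z` takes values in the fixed field. -/
theorem exists_algebraMap_eq_sum [Fintype Δ]
    (hfix' : ∀ x : κ, (∀ g : Δ, g • x = x) → x ∈ Set.range (algebraMap F κ)) (z : κ) :
    ∃ d : F, algebraMap F κ d = ∑ g : Δ, g • z := by
  have : (∑ g : Δ, g • z) ∈ Set.range (algebraMap F κ) := by
    apply hfix'
    intro g
    simp only [Finset.smul_sum, smul_smul]
    exact Fintype.sum_equiv (Equiv.mulLeft g) _ _ (fun _ => rfl)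
  exact this

variable [Finite Δ]

/-- **Galois descent (easy half).** `F`-independent elements of `twFun` are `κ`-independent. -/
theorem linearIndependent_of_twFun
    (hfix : ∀ (g : Δ) (c : F), g • algebraMap F κ c = algebraMap F κ c)
    (hfix' : ∀ x : κ, (∀ g : Δ, g • x = x) → x ∈ Set.range (algebraMap F κ))
    (hΔ : (Nat.card Δ : κ) ≠ 0) {ι : Type*} [Fintype ι] (b : ι → twFun F t ψ hfix)
    (hb : LinearIndependent F b) :
    LinearIndependent κ (fun i => ((b i : twFun F t ψ hfix) : k → κ)) := by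
  classical
  have : Fintype Δ := Fintype.ofFinite Δ
  rw [Fintype.linearIndependent_iff]
  intro c hc
  -- `∑ i, c i * b i a = 0` for all `a`
  have hc' : ∀ a : k, ∑ i, c i * (b i : k → κ) a = 0 := by
    intro a
    have := congrArg (fun f : k → κ => f a) hc
    simpa [Finset.sum_apply] using this
  have h1 := sum_smul_mul_eq_zero F t ψ hfix b c hc'
  have h2 : ∀ (y : κ) (a : k), ∑ i, (∑ g : Δ, g • (y * c i)) * (b i : k → κ) a = 0 := by
    intro y a
    simp only [Finset.sum_mul]
    rw [Finset.sum_comm]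
    exact Finset.sum_eq_zero fun g _ => h1 y g a
  have h3 : ∀ (y : κ) (i : ι), (∑ g : Δ, g • (y * c i)) = 0 := by
    intro y
    choose d hd using fun i => exists_algebraMap_eq_sum F hfix' (y * c i)
    have hd0 : ∀ i, d i = 0 := by
      refine Fintype.linearIndependent_iff.mp hb d ?_
      apply Subtype.ext
      rw [Submodule.coe_sum, Submodule.coe_zero]
      funext a
      rw [Finset.sum_apply, Pi.zero_apply, ← h2 y a]
      refine Finset.sum_congr rfl fun i _ => ?_
      rw [Submodule.coe_smul, Pi.smul_apply, Algebra.smul_def, hd]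
    intro i
    rw [← hd i, hd0 i, map_zero]
  intro i
  by_contra hci
  have := h3 (c i)⁻¹ i
  rw [inv_mul_cancel₀ hci] at this
  apply hΔ
  simpa [Nat.card_eq_fintype_card] using this

variable [Finite k] [Finite κ] [Finite F]

/-- **The level bound.** -/
theorem card_twHom_le
    (hfix : ∀ (g : Δ) (c : F), g • algebraMap F κ c = algebraMap F κ c)
    (hfix' : ∀ x : κ, (∀ g : Δ, g • x = x) → x ∈ Set.range (algebraMap F κ))
    (hΔ : (Nat.card Δ : κ) ≠ 0)
    (hlin : ∀ Φ ∈ twHom t ψ, ∀ (c : F) (a : k),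
      Φ (algebraMap F k c * a) = algebraMap F κ c * Φ a) :
    Nat.card (twHom t ψ) ≤ Nat.card k := by
  classical
  have : Module.Finite F k := Module.Finite.of_finite
  have : Module.Finite F κ := Module.Finite.of_finite
  -- inject `twHom` into `twFun`
  let j : twHom t ψ → twFun F t ψ hfix := fun Φ =>
    ⟨fun a => Φ.1 a, fun a a' => Φ.1.map_add a a', fun c a => hlin Φ.1 Φ.2 c a,
      fun g a => Φ.2 g a⟩
  have hj : Function.Injective j := by
    intro Φ Φ' h
    apply Subtype.ext
    ext a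
    have := congrArg (fun f : twFun F t ψ hfix => (f : k → κ) a) h
    exact this
  have hcard1 : Nat.card (twHom t ψ) ≤ Nat.card (twFun F t ψ hfix) :=
    Nat.card_le_card_of_injective j hj
  have : Module.Finite F (twFun F t ψ hfix) := Module.Finite.of_finite
  have hcard2 : Nat.card (twFun F t ψ hfix) = Nat.card F ^ Module.finrank F (twFun F t ψ hfix) :=
    Module.natCard_eq_pow_finrank
  have hcard3 : Nat.card k = Nat.card F ^ Module.finrank F k := Module.natCard_eq_pow_finrank
  -- the dimension bound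
  have hdim : Module.finrank F (twFun F t ψ hfix) ≤ Module.finrank F k := by
    let b := Module.finBasis F (twFun F t ψ hfix)
    have hli := linearIndependent_of_twFun F t ψ hfix hfix' hΔ b b.linearIndependent
    -- lift to `k →ₗ[F] κ`
    let l : Fin (Module.finrank F (twFun F t ψ hfix)) → (k →ₗ[F] κ) := fun i =>
      { toFun := (b i : k → κ)
        map_add' := (b i).2.1
        map_smul' := by
          intro c a
          simp only [Algebra.smul_def, RingHom.id_apply]
          exact (b i).2.2.1 c a }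
    have hl : LinearIndependent κ l := by
      apply LinearIndependent.of_comp (LinearMap.ltoFun F k κ κ)
      exact hli
    have h1 := hl.fintype_card_le_finrank
    rw [Fintype.card_fin, Module.finrank_linearMap_self] at h1
    exact h1
  rw [hcard3]
  refine hcard1.trans (hcard2.le.trans ?_)
  exact Nat.pow_le_pow_right Nat.card_pos hdim

/-- **The level bound, packaged.**  If some `i₀` acting trivially on `κ` has `t i₀` fixed by `Δ`,
the minimal polynomial of `t i₀` over `𝔽_p` kills `ψ i₀`, and the fixed field `κ^Δ` is contained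
in `𝔽_p[t i₀]`, then `#twHom t ψ ≤ #k`.  (For `i₀ = 1`, `t 1 = 1` this is the case `κ^Δ = 𝔽_p`.) -/
theorem card_twHom_le_of_adjoin (p : ℕ) [Fact p.Prime] [Algebra (ZMod p) k] [Algebra (ZMod p) κ]
    (hΔ : (Nat.card Δ : κ) ≠ 0) (i₀ : Δ) (hi₀ : ∀ x : κ, i₀ • x = x)
    (hτfix : ∀ g : Δ, g • t i₀ = t i₀)
    (hmin : ∀ P : (ZMod p)[X], aeval (t i₀) P = 0 → aeval (ψ i₀ : k) P = 0)
    (hfix' : ∀ x : κ, (∀ g : Δ, g • x = x) → x ∈ Algebra.adjoin (ZMod p) {t i₀}) :
    Nat.card (twHom t ψ) ≤ Nat.card k := by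
  classical
  have : Module.Finite (ZMod p) κ := Module.Finite.of_finite
  have hτint : IsIntegral (ZMod p) (t i₀) := Algebra.IsIntegral.isIntegral (t i₀)
  have hirr : Fact (Irreducible (minpoly (ZMod p) (t i₀))) := ⟨minpoly.irreducible hτint⟩
  have hne : minpoly (ZMod p) (t i₀) ≠ 0 := minpoly.ne_zero hτint
  let φκ : AdjoinRoot (minpoly (ZMod p) (t i₀)) →ₐ[ZMod p] κ :=
    AdjoinRoot.liftAlgHom _ (Algebra.ofId (ZMod p) κ) (t i₀) (minpoly.aeval (ZMod p) (t i₀))
  let φk : AdjoinRoot (minpoly (ZMod p) (t i₀)) →ₐ[ZMod p] k :=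
    AdjoinRoot.liftAlgHom _ (Algebra.ofId (ZMod p) k) (ψ i₀ : k)
      (hmin _ (minpoly.aeval (ZMod p) (t i₀)))
  letI : Algebra (AdjoinRoot (minpoly (ZMod p) (t i₀))) κ := φκ.toRingHom.toAlgebra
  letI : Algebra (AdjoinRoot (minpoly (ZMod p) (t i₀))) k := φk.toRingHom.toAlgebra
  have hamκ : ∀ c, algebraMap (AdjoinRoot (minpoly (ZMod p) (t i₀))) κ c = φκ c := fun _ => rfl
  have hamk : ∀ c, algebraMap (AdjoinRoot (minpoly (ZMod p) (t i₀))) k c = φk c := fun _ => rfl
  have : IsScalarTower (ZMod p) (AdjoinRoot (minpoly (ZMod p) (t i₀))) κ :=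
    IsScalarTower.of_algebraMap_eq fun x => by rw [hamκ, φκ.commutes]
  have : IsScalarTower (ZMod p) (AdjoinRoot (minpoly (ZMod p) (t i₀))) k :=
    IsScalarTower.of_algebraMap_eq fun x => by rw [hamk, φk.commutes]
  have : Module.Finite (ZMod p) (AdjoinRoot (minpoly (ZMod p) (t i₀))) :=
    (AdjoinRoot.powerBasis hne).finite
  have : Finite (AdjoinRoot (minpoly (ZMod p) (t i₀))) := Module.finite_of_finite (ZMod p)
  -- the image of `F` is `𝔽_p[t i₀]`
  have himg : ∀ c, ∃ P : (ZMod p)[X],
      algebraMap (AdjoinRoot (minpoly (ZMod p) (t i₀))) κ c = aeval (t i₀) P := by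
    intro c
    obtain ⟨P, rfl⟩ := AdjoinRoot.mk_surjective c
    refine ⟨P, ?_⟩
    rw [hamκ]
    simp only [φκ]
    rfl
  -- fixed points of `g` form a subalgebra
  have hfixP : ∀ (g : Δ) (P : (ZMod p)[X]), g • aeval (t i₀) P = aeval (t i₀) P := by
    intro g P
    let Sg : Subalgebra (ZMod p) κ :=
      { carrier := {x | g • x = x}
        mul_mem' := fun {a b} ha hb => by
          simp only [Set.mem_setOf_eq] at ha hb ⊢
          rw [smul_mul', ha, hb]
        add_mem' := fun {a b} ha hb => by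
          simp only [Set.mem_setOf_eq] at ha hb ⊢
          rw [smul_add, ha, hb]
        algebraMap_mem' := fun c => by
          obtain ⟨n, rfl⟩ := ZMod.natCast_zmod_surjective c
          simp only [Set.mem_setOf_eq, map_natCast]
          exact map_natCast (MulSemiringAction.toRingHom Δ κ g) n }
    have hle : Algebra.adjoin (ZMod p) {t i₀} ≤ Sg :=
      Algebra.adjoin_le (by
        intro x hx
        rw [Set.mem_singleton_iff] at hx
        subst hx
        exact hτfix g)
    exact hle (aeval_mem_adjoin_singleton (ZMod p) (t i₀))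
  refine card_twHom_le (AdjoinRoot (minpoly (ZMod p) (t i₀))) t ψ ?_ ?_ hΔ ?_
  · intro g c
    obtain ⟨P, hP⟩ := himg c
    rw [hP, hfixP]
  · intro x hx
    have hx' := hfix' x hx
    rw [Algebra.adjoin_singleton_eq_range_aeval] at hx'
    obtain ⟨P, hP⟩ := hx'
    have hP' : aeval (t i₀) P = x := hP
    refine ⟨AdjoinRoot.mk _ P, ?_⟩
    rw [hamκ, ← hP']
    simp only [φκ]
    rfl
  · intro Φ hΦ c a
    refine hlin_of_adjoin (AdjoinRoot (minpoly (ZMod p) (t i₀))) p
      (AdjoinRoot.root (minpoly (ZMod p) (t i₀))) AdjoinRoot.adjoinRoot_eq_top Φ ?_ c a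
    intro a
    have h1 : φk (AdjoinRoot.root (minpoly (ZMod p) (t i₀))) = (ψ i₀ : k) :=
      AdjoinRoot.liftAlgHom_root _ _ _ _
    have h2 : φκ (AdjoinRoot.root (minpoly (ZMod p) (t i₀))) = t i₀ :=
      AdjoinRoot.liftAlgHom_root _ _ _ _
    rw [hamκ, hamk, h1, h2, hΦ i₀ a, hi₀]

end Descent

end Fermat.Agent.TW.Cnt.LevelBound71
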