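/-
Program TW (S56), WP7 brick B11 numerics (N1/N2 of plan #630).  helper75.

PURE FINITE-FIELD / CYCLIC-GROUP NUMERICS behind the count of `Hom_Δ(k(ψ), (1+pO)K^{×p}/K^{×p})`.

Setting: `κ` a finite field of characteristic `p` (the residue field), `Δ` a finite COMMUTATIVE
group acting on `κ` by field automorphisms, `I0 Δ κ` the subgroup acting trivially (inertia),
`t : Δ → κ` the crossed homomorphism `g ↦ (g π / π mod π)`; `e` the absolute ramification index.
`TameData p t e` records: `t` is a crossed homomorphism, injective on `I0` (tameness +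
faithfulness), `(p - 1) ∣ e` (from `ζ_p ∈ O`), `t i ^ e = 1` on `I0` (from `p = u π^e`) and
`e ≤ |I0|`.

Results:
* `TameData.smul_t` : `t i` is `Δ`-fixed for `i ∈ I0` (commutativity);
* `TameData.card_I0`, `TameData.exists_generator` : `I0` is cyclic of order `e`, generated by `i₀`
  with `t i₀` a primitive `e`-th root of unity;
* `TameData.n1` : if `κ^Δ = 𝔽_p` then `e = p - 1` and `t ^ (p - 1) = 1` on `I0`
  (so the only level of the unit filtration is `l = p - 1`, where the twist is trivial on `I0`);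
* `TameData.e_dvd_of_fix2` : if `κ^Δ ⊆ 𝔽_{p²}` then `e ∣ p² - 1`;
* `level_unique` : the level analysis of N2: for `x` with `x^(p+1) = 1`, `c = ω(i₀) = τ^r`, a level
  `l ∈ [e, p r)` such that `x⁻¹ c` and `τ^l` are conjugate over `𝔽_p` is unique
  (`(p + 1) (e + r - l) = e`) and `τ^l ∉ 𝔽_p`, except in the corner `p = 3`, `x = c`;
* `card_top_le` : `#Hom_Δ(k(ψ), 𝔽_p(ω)) ≤ |k|^[ψ = ω]`.

Mathlib only.
-/
import Mathlib

set_option autoImplicit false

namespace Fermat.Agent.TW.Cnt.Numerics75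

open Polynomial

/-! ### The inertia subgroup -/

section I0

variable (Δ κ : Type*) [Group Δ] [Semiring κ] [MulSemiringAction Δ κ]

/-- The subgroup of `Δ` acting trivially on `κ`. -/
def I0 : Subgroup Δ where
  carrier := {g | ∀ x : κ, g • x = x}
  one_mem' := fun x => one_smul _ x
  mul_mem' := by
    intro a b ha hb x
    have ha' : ∀ x : κ, a • x = x := ha
    have hb' : ∀ x : κ, b • x = x := hb
    rw [mul_smul, hb', ha']
  inv_mem' := by
    intro a ha x
    have ha' : ∀ x : κ, a • x = x := ha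
    rw [inv_smul_eq_iff, ha']

variable {Δ κ}

theorem mem_I0 {g : Δ} : g ∈ I0 Δ κ ↔ ∀ x : κ, g • x = x := Iff.rfl

end I0

/-! ### Tame data -/

section Tame

variable {p : ℕ} {κ : Type*} [Field κ] {Δ : Type*} [CommGroup Δ] [MulSemiringAction Δ κ]

/-- The numerical data of a tame abelian extension, residue-field level. -/
structure TameData (p : ℕ) (t : Δ → κ) (e : ℕ) : Prop where
  t_one : t 1 = 1
  t_mul : ∀ g h : Δ, t (g * h) = t g * g • t h
  inj : ∀ i ∈ I0 Δ κ, t i = 1 → i = 1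
  e_pos : 0 < e
  dvd_e : (p - 1) ∣ e
  pow_e : ∀ i ∈ I0 Δ κ, t i ^ e = 1
  e_le : e ≤ Nat.card (I0 Δ κ)

variable {t : Δ → κ} {e : ℕ} (T : TameData p t e)

include T

theorem TameData.t_ne_zero (g : Δ) : t g ≠ 0 := by
  intro h
  have := T.t_mul g g⁻¹
  rw [mul_inv_cancel, T.t_one, h, zero_mul] at this
  exact one_ne_zero this

/-- `t i` is fixed by `Δ` for `i` in the inertia subgroup (`Δ` is commutative). -/
theorem TameData.smul_t {i : Δ} (hi : i ∈ I0 Δ κ) (g : Δ) : g • t i = t i := by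
  have h1 := T.t_mul g i
  have h2 := T.t_mul i g
  rw [hi (t g)] at h2
  rw [mul_comm g i, h2, mul_comm] at h1
  exact (mul_left_cancel₀ (T.t_ne_zero g) h1).symm

theorem TameData.t_mul_of_mem {i : Δ} (hi : i ∈ I0 Δ κ) (j : Δ) : t (i * j) = t i * t j := by
  rw [T.t_mul, hi]

/-- `t` restricted to the inertia subgroup, as a monoid homomorphism. -/
def TameData.tHom : I0 Δ κ →* κ where
  toFun i := t i
  map_one' := T.t_one
  map_mul' i j := T.t_mul_of_mem i.2 j

theorem TameData.tHom_apply (i : I0 Δ κ) : T.tHom i = t i := rfl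

theorem TameData.tHom_injective : Function.Injective T.tHom := by
  rw [injective_iff_map_eq_one]
  intro i hi
  exact Subtype.ext (T.inj i i.2 hi)

theorem TameData.t_pow_of_mem {i : Δ} (hi : i ∈ I0 Δ κ) (n : ℕ) : t (i ^ n) = t i ^ n := by
  have := map_pow T.tHom ⟨i, hi⟩ n
  simpa [TameData.tHom_apply] using this

variable [Finite Δ]

theorem TameData.isCyclic_I0 : IsCyclic (I0 Δ κ) :=
  isCyclic_of_injective_ringHom T.tHom T.tHom_injective

/-- The inertia subgroup is cyclic of order `e`, generated by an element `i₀` such that `t i₀` is a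
primitive `e`-th root of unity. -/
theorem TameData.exists_generator :
    ∃ i₀ ∈ I0 Δ κ, (∀ i ∈ I0 Δ κ, ∃ n : ℕ, i = i₀ ^ n) ∧ IsPrimitiveRoot (t i₀) e ∧
      Nat.card (I0 Δ κ) = e := by
  have := T.isCyclic_I0
  obtain ⟨g, hg⟩ := IsCyclic.exists_generator (α := I0 Δ κ)
  have hord : orderOf g = Nat.card (I0 Δ κ) := orderOf_eq_card_of_forall_mem_zpowers hg
  have hord' : orderOf (t (g : Δ)) = orderOf g := by
    have := orderOf_injective T.tHom T.tHom_injective g
    simpa [TameData.tHom_apply] using this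
  have hdvd : orderOf (t (g : Δ)) ∣ e := orderOf_dvd_of_pow_eq_one (T.pow_e g g.2)
  have hle : Nat.card (I0 Δ κ) ≤ e := by
    rw [← hord, ← hord']
    exact Nat.le_of_dvd T.e_pos hdvd
  have hcard : Nat.card (I0 Δ κ) = e := le_antisymm hle T.e_le
  refine ⟨g, g.2, ?_, ?_, hcard⟩
  · intro i hi
    obtain ⟨n, hn⟩ := (mem_powers_iff_mem_zpowers.mpr (hg ⟨i, hi⟩))
    refine ⟨n, ?_⟩
    have := congrArg Subtype.val hn
    simpa using this.symm
  · have := IsPrimitiveRoot.orderOf (t (g : Δ))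
    rwa [hord', hord, hcard] at this

theorem TameData.card_I0 : Nat.card (I0 Δ κ) = e := by
  obtain ⟨_, _, _, _, h⟩ := T.exists_generator
  exact h

/-- **N1 numerics.** If the fixed field of `Δ` in `κ` is the prime field, then `e = p - 1` and the
twist `t ^ (p - 1)` is trivial on inertia. -/
theorem TameData.n1 [hp : Fact p.Prime] (hfix : ∀ x : κ, (∀ g : Δ, g • x = x) → x ^ p = x) :
    e = p - 1 ∧ ∀ i ∈ I0 Δ κ, t i ^ (p - 1) = 1 := by
  have hp1 : 1 ≤ p := hp.out.one_lt.le
  have key : ∀ i ∈ I0 Δ κ, t i ^ (p - 1) = 1 := by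
    intro i hi
    have h := hfix (t i) (T.smul_t hi)
    have h' : t i ^ (p - 1) * t i = 1 * t i := by
      rw [← pow_succ, Nat.sub_add_cancel hp1, h, one_mul]
    exact mul_right_cancel₀ (T.t_ne_zero i) h'
  refine ⟨?_, key⟩
  obtain ⟨i₀, hi₀, _, hprim, _⟩ := T.exists_generator
  have h1 : e ∣ p - 1 := (hprim.pow_eq_one_iff_dvd _).mp (key i₀ hi₀)
  exact Nat.dvd_antisymm h1 T.dvd_e

/-- **N2 numerics, part 1.** If the fixed field of `Δ` in `κ` is contained in `𝔽_{p²}`, then
`e ∣ p² - 1`. -/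
theorem TameData.e_dvd_of_fix2 [hp : Fact p.Prime]
    (hfix2 : ∀ x : κ, (∀ g : Δ, g • x = x) → x ^ (p ^ 2) = x) : e ∣ p ^ 2 - 1 := by
  have hp1 : 1 ≤ p ^ 2 := Nat.one_le_pow _ _ hp.out.pos
  obtain ⟨i₀, hi₀, _, hprim, _⟩ := T.exists_generator
  have h := hfix2 (t i₀) (T.smul_t hi₀)
  have h' : t i₀ ^ (p ^ 2 - 1) * t i₀ = 1 * t i₀ := by
    rw [← pow_succ, Nat.sub_add_cancel hp1, h, one_mul]
  exact (hprim.pow_eq_one_iff_dvd _).mp (mul_right_cancel₀ (T.t_ne_zero i₀) h')

end Tame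

/-! ### The level analysis of N2 -/

section Level

variable {p : ℕ} [hp : Fact p.Prime] {κ : Type*} [Field κ] [Algebra (ZMod p) κ]
variable {k : Type*} [Field k] [Algebra (ZMod p) k]

/-- An element all of whose `𝔽_p`-relations hold for `1` is `1`. -/
theorem eq_one_of_conj_one {y : k} (hy : IsIntegral (ZMod p) y)
    (h : ∀ P : (ZMod p)[X], aeval y P = 0 → aeval (1 : κ) P = 0) : y = 1 := by
  have h1 := h (minpoly (ZMod p) y) (minpoly.aeval _ _)
  have h2 : (minpoly (ZMod p) y).eval 1 = 0 := by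
    have : aeval (1 : κ) (minpoly (ZMod p) y)
        = algebraMap (ZMod p) κ ((minpoly (ZMod p) y).eval 1) := by
      conv_lhs => rw [← map_one (algebraMap (ZMod p) κ)]
      rw [aeval_algebraMap_apply, coe_aeval_eq_eval]
    rw [this] at h1
    exact (map_eq_zero _).mp h1
  have h3 : (X - C (1 : ZMod p)) ∣ minpoly (ZMod p) y := dvd_iff_isRoot.mpr h2
  have h4 : minpoly (ZMod p) y ∣ X - C (1 : ZMod p) :=
    (irreducible_X_sub_C (1 : ZMod p)).dvd_symm (minpoly.irreducible hy) h3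
  obtain ⟨q, hq⟩ := h4
  have h5 : aeval y (X - C (1 : ZMod p)) = 0 := by
    rw [hq, map_mul, minpoly.aeval, zero_mul]
  simpa [sub_eq_zero] using h5

omit hp in
theorem pow_eq_one_of_pow_mul_eq {τ : κ} (hτ : τ ≠ 0) {a b n : ℕ} (h : τ ^ a = τ ^ b)
    (hab : a + n = b) : τ ^ n = 1 := by
  rw [← hab, pow_add] at h
  have : τ ^ a * 1 = τ ^ a * τ ^ n := by rw [mul_one]; exact h
  exact (mul_left_cancel₀ (pow_ne_zero _ hτ) this).symm

/-- **N2 numerics, part 2: the level is unique and of degree two.**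
`τ` a primitive `e`-th root of unity in `κ`, `e = (p - 1) r`, `c = τ ^ r ∈ 𝔽_p` (the value of the
cyclotomic character at the generator of inertia), `x ∈ k` with `x ^ (p + 1) = 1`.  If at a level
`l ∈ [e, p r)` the elements `x⁻¹ c ∈ k` and `τ ^ l ∈ κ` are conjugate over `𝔽_p`, then, outside the
corner `p = 3`, `x = c`:  `(p + 1) (e + r - l) = e` and `τ ^ l ∉ 𝔽_p`. -/
theorem level_unique (hp2 : p ≠ 2) {τ : κ} {e r : ℕ} (he : 0 < e) (hτ : IsPrimitiveRoot τ e)
    (hr : (p - 1) * r = e) (c : ZMod p) (hc : algebraMap (ZMod p) κ c = τ ^ r) {x : k}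
    (hx : x ^ (p + 1) = 1) {l : ℕ} (hl : l ∈ Finset.Ico e (p * r))
    (hconj : ∀ P : (ZMod p)[X],
      aeval (x⁻¹ * algebraMap (ZMod p) k c) P = 0 → aeval (τ ^ l) P = 0)
    (hcorner : ¬ (p = 3 ∧ x = algebraMap (ZMod p) k c)) :
    (p + 1) * (e + r - l) = e ∧ (τ ^ l) ^ p ≠ τ ^ l := by
  have hpp := hp.out
  have hp3 : 3 ≤ p := by
    have := hpp.two_le
    omega
  have hτ0 : τ ≠ 0 := hτ.ne_zero he.ne'
  have hx0 : x ≠ 0 := by
    intro h
    rw [h, zero_pow (by omega)] at hx
    exact zero_ne_one hx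
  rw [Finset.mem_Ico] at hl
  obtain ⟨hel, hlt⟩ := hl
  -- `p r = e + r`
  have hpr : p * r = e + r := by
    rw [← hr]
    have : p = (p - 1) + 1 := by omega
    conv_lhs => rw [this]
    ring
  have hr0 : 0 < r := by
    rcases Nat.eq_zero_or_pos r with h | h
    · subst h; omega
    · exact h
  -- `j = e + r - l`
  obtain ⟨j, hj⟩ : ∃ j, l + j = e + r := ⟨e + r - l, by omega⟩
  have hj1 : 1 ≤ j := by omega
  have hjr : j ≤ r := by omega
  have hjeq : e + r - l = j := by omega
  rw [hjeq]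
  -- `c ^ p = c`
  have hcp : c ^ p = c := ZMod.pow_card c
  set y : k := x⁻¹ * algebraMap (ZMod p) k c with hy
  -- `y ^ (p + 1) = c ^ 2`
  have hy1 : y ^ (p + 1) = algebraMap (ZMod p) k (c ^ 2) := by
    rw [hy, mul_pow, inv_pow, hx, inv_one, one_mul, ← map_pow]
    congr 1
    rw [pow_succ, hcp, sq]
  -- the relation transported to `τ ^ l`
  have hrel : (τ ^ l) ^ (p + 1) = τ ^ (2 * r) := by
    have h := hconj (X ^ (p + 1) - C (c ^ 2)) (by
      rw [map_sub, map_pow, aeval_X, aeval_C, hy1, sub_self])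
    rw [map_sub, map_pow, aeval_X, aeval_C, sub_eq_zero, map_pow, hc] at h
    rw [h, ← pow_mul, mul_comm]
  -- `τ ^ (j (p + 1)) = 1`
  have hj2 : τ ^ (j * (p + 1)) = 1 := by
    rw [← pow_mul] at hrel
    have h1 : τ ^ (e * (p + 2)) = 1 := by rw [pow_mul, hτ.pow_eq_one, one_pow]
    have h2 : τ ^ (l * (p + 1)) * τ ^ (j * (p + 1)) = τ ^ (2 * r) * τ ^ (e * (p + 2)) := by
      rw [← pow_add, ← pow_add]
      congr 1
      have : l * (p + 1) + j * (p + 1) = (e + r) * (p + 1) := by rw [← hj]; ring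
      rw [this]
      have : r * (p + 1) = e + 2 * r := by
        rw [← hr]
        have : p + 1 = (p - 1) + 2 := by omega
        rw [this]; ring
      calc (e + r) * (p + 1) = e * (p + 1) + r * (p + 1) := by ring
        _ = e * (p + 1) + (e + 2 * r) := by rw [this]
        _ = 2 * r + e * (p + 2) := by ring
    rw [hrel, h1, mul_one] at h2
    have : τ ^ (2 * r) * τ ^ (j * (p + 1)) = τ ^ (2 * r) * 1 := by rw [mul_one]; exact h2
    exact mul_left_cancel₀ (pow_ne_zero _ hτ0) this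
  have hdvd : e ∣ j * (p + 1) := (hτ.pow_eq_one_iff_dvd _).mp hj2
  -- `j (p + 1) ≤ 2 e`
  have hrp : r * (p + 1) = e + 2 * r := by
    rw [← hr]
    have : p + 1 = (p - 1) + 2 := by omega
    rw [this]; ring
  have h2r : 2 * r ≤ e := by
    rw [← hr]
    exact Nat.mul_le_mul_right r (by omega)
  have hle : j * (p + 1) ≤ 2 * e := by
    calc j * (p + 1) ≤ r * (p + 1) := Nat.mul_le_mul_right _ hjr
      _ = e + 2 * r := hrp
      _ ≤ 2 * e := by omega
  have hpos : 0 < j * (p + 1) := Nat.mul_pos hj1 (by omega)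
  obtain ⟨m, hm⟩ := hdvd
  have hm1 : 1 ≤ m := by
    rcases Nat.eq_zero_or_pos m with h | h
    · subst h; omega
    · exact h
  have hm2 : m ≤ 2 := by
    by_contra hcon
    have : 3 ≤ m := by omega
    have : e * 3 ≤ e * m := Nat.mul_le_mul_left e this
    omega
  have hmcases : m = 1 ∨ m = 2 := by omega
  rcases hmcases with rfl | rfl
  · -- the generic case `j (p + 1) = e`
    rw [mul_one] at hm
    refine ⟨by rw [mul_comm]; exact hm, ?_⟩
    intro hfrob
    -- `τ ^ (j (p - 1)) = 1`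
    have h1 : τ ^ (j * (p - 1)) = 1 := by
      rw [← pow_mul] at hfrob
      have h3 : τ ^ (l * p) * τ ^ (j * (p - 1)) = τ ^ l * τ ^ (e * p) := by
        rw [← pow_add, ← pow_add]
        congr 1
        have e1 : l * p = l * (p - 1) + l := by
          have : p = (p - 1) + 1 := by omega
          conv_lhs => rw [this]
          ring
        have e2 : l * (p - 1) + j * (p - 1) = (e + r) * (p - 1) := by rw [← hj]; ring
        have e3 : (e + r) * (p - 1) = e * (p - 1) + e := by rw [← hr]; ring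
        have e4 : e * p = e * (p - 1) + e := by
          have : p = (p - 1) + 1 := by omega
          conv_lhs => rw [this]
          ring
        omega
      have h4 : τ ^ (e * p) = 1 := by rw [pow_mul, hτ.pow_eq_one, one_pow]
      rw [hfrob, h4, mul_one] at h3
      have : τ ^ l * τ ^ (j * (p - 1)) = τ ^ l * 1 := by rw [mul_one]; exact h3
      exact mul_left_cancel₀ (pow_ne_zero _ hτ0) this
    have hd : e ∣ j * (p - 1) := (hτ.pow_eq_one_iff_dvd _).mp h1
    have hlt' : j * (p - 1) < e := by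
      rw [← hm]
      exact Nat.mul_lt_mul_of_pos_left (by omega) (by omega)
    have hpos' : 0 < j * (p - 1) := Nat.mul_pos hj1 (by omega)
    exact absurd (Nat.le_of_dvd hpos' hd) (by omega)
  · -- the corner `j (p + 1) = 2 e`: forces `p = 3`, `l = e`, `x = c`
    exfalso
    have hjle : j * (p + 1) ≤ r * (p + 1) := Nat.mul_le_mul_right _ hjr
    have h5 : e ≤ 2 * r := by omega
    have h6 : (p - 1) * r ≤ 2 * r := by rw [hr]; exact h5
    have h7 : p - 1 ≤ 2 := Nat.le_of_mul_le_mul_right h6 hr0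
    have hp3' : p = 3 := by omega
    have hjr' : j = r := by
      have e1 : e = 2 * r := by
        rw [← hr, hp3']
      have e2 : j * 4 = e * 2 := by
        rw [← hm, hp3']
      omega
    have hle' : l = e := by omega
    apply hcorner
    refine ⟨hp3', ?_⟩
    have hy_int : IsIntegral (ZMod p) y := by
      refine ⟨X ^ (p + 1) - C (c ^ 2), monic_X_pow_sub_C _ (by omega), ?_⟩
      rw [eval₂_sub, eval₂_pow, eval₂_X, eval₂_C, hy1, sub_self]
    have hy_one : y = 1 := by
      apply eq_one_of_conj_one (κ := κ) hy_int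
      intro P hP
      have := hconj P hP
      rwa [hle', hτ.pow_eq_one] at this
    rw [hy] at hy_one
    have : x * (x⁻¹ * algebraMap (ZMod p) k c) = x * 1 := by rw [hy_one]
    rw [← mul_assoc, mul_inv_cancel₀ hx0, one_mul, mul_one] at this
    exact this.symm

end Level

/-! ### The top piece -/

section Top

variable {p : ℕ} [hp : Fact p.Prime]

theorem card_addMonoidHom_zmod (k : Type*) [AddCommGroup k] [Module (ZMod p) k] [Finite k] :
    Nat.card (k →+ ZMod p) = Nat.card k := by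
  have e1 : (k →+ ZMod p) ≃ (k →ₗ[ZMod p] ZMod p) :=
    (AddMonoidHom.toZModLinearMapEquiv p).toEquiv
  have hfin : Module.Finite (ZMod p) k := Module.Finite.of_finite
  have e2 : k ≃ Module.Dual (ZMod p) k := (Module.finBasis (ZMod p) k).toDualEquiv.toEquiv
  rw [Nat.card_congr e1, Nat.card_congr e2]

variable {k : Type*} [Field k] [Algebra (ZMod p) k] {Δ : Type*} [Group Δ]

/-- `Hom_Δ(k(ψ), 𝔽_p(ω))`: additive maps `f : k → 𝔽_p` with `f (ψ g a) = ω g f a`. -/
def TopHom (ψ : Δ →* kˣ) (ω : Δ →* (ZMod p)ˣ) : Type _ :=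
  {f : k →+ ZMod p // ∀ (g : Δ) (a : k), f ((ψ g : k) * a) = (ω g : ZMod p) * f a}

theorem card_topHom_le [Finite k] (ψ : Δ →* kˣ) (ω : Δ →* (ZMod p)ˣ) :
    Nat.card (TopHom ψ ω) ≤ Nat.card k := by
  rw [← card_addMonoidHom_zmod (p := p) k]
  have : Finite (k →+ ZMod p) := Finite.of_injective (fun f => (f : k → ZMod p))
    DFunLike.coe_injective
  exact Nat.card_le_card_of_injective _ Subtype.val_injective

theorem card_topHom_le_one (ψ : Δ →* kˣ) (ω : Δ →* (ZMod p)ˣ)
    (h : ¬ ∀ g, (ψ g : k) = algebraMap (ZMod p) k (ω g)) : Nat.card (TopHom ψ ω) ≤ 1 := by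
  rw [not_forall] at h
  obtain ⟨g, hg⟩ := h
  have hzero : ∀ f : TopHom ψ ω, f.1 = 0 := by
    intro f
    ext a
    set d : k := (ψ g : k) - algebraMap (ZMod p) k (ω g) with hd
    have hd0 : d ≠ 0 := sub_ne_zero.mpr hg
    have h1 : f.1 (d * (d⁻¹ * a)) = 0 := by
      rw [hd, sub_mul, map_sub, f.2 g, ← Algebra.smul_def, ZMod.map_smul, smul_eq_mul, sub_self]
    rwa [← mul_assoc, mul_inv_cancel₀ hd0, one_mul] at h1
  have hsub : Subsingleton (TopHom ψ ω) :=
    ⟨fun f₁ f₂ => Subtype.ext ((hzero f₁).trans (hzero f₂).symm)⟩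
  exact Finite.card_le_one_iff_subsingleton.mpr hsub

open Classical in
/-- `#Hom_Δ(k(ψ), 𝔽_p(ω)) ≤ |k| ^ [ψ = ω]`. -/
theorem card_top_le [Finite k] (ψ : Δ →* kˣ) (ω : Δ →* (ZMod p)ˣ) :
    Nat.card (TopHom ψ ω) ≤
      Nat.card k ^ (if ∀ g, (ψ g : k) = algebraMap (ZMod p) k (ω g) then 1 else 0) := by
  split_ifs with h
  · rw [pow_one]; exact card_topHom_le ψ ω
  · rw [pow_zero]; exact card_topHom_le_one ψ ω h

end Top

end Fermat.Agent.TW.Cnt.Numerics75
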