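/-
Program TW (S56), WP7 brick B11 numerics (N1/N2 of plan #630).  helper75.

THE LEVEL FACTORS OF THE COUNT, residue-field level.

With `twHom t ψ = Hom_Δ(k(ψ), κ(t))` (`LevelBound71`), `TameData p t e` (`Numerics75`):

* `card_twHom_n1` (N1): if `κ^Δ = 𝔽_p` then `e = p - 1` (`TameData.n1`) and the unique level factor
  satisfies `#twHom (t ^ (p - 1)) ψ ≤ |k| ^ [ψ = 1 on I0]`;
* `prod_card_twHom_n2` (N2): if `κ^Δ ⊆ 𝔽_{p²}`, `ω = t ^ r` on `I0` (`(p - 1) r = e`),
  `ψ = ξ⁻¹ ω` with `ξ ^ (p + 1) = 1` on `I0`, and not (`p = 3` and `ξ = ω` on `I0`), then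
  `∏_{e ≤ l < p r, p ∤ l} #twHom (t ^ l) ψ ≤ |k|`.

Mathlib + `LevelBound71` + `Numerics75`.
-/
import Mathlib
import Fermat.Agent.TW.Cnt.LevelBound71
import Fermat.Agent.TW.Cnt.Numerics75

set_option autoImplicit false

namespace Fermat.Agent.TW.Cnt.LevelNum75

open Polynomial
open Fermat.Agent.TW.Cnt.LevelBound71 Fermat.Agent.TW.Cnt.Numerics75

variable {p : ℕ} [hp : Fact p.Prime]
variable {κ k : Type*} [Field κ] [Field k] [Algebra (ZMod p) κ] [Algebra (ZMod p) k]

/-! ### Prime field and conjugacy lemmas -/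

theorem aeval_one_eq (R : Type*) [CommRing R] [Algebra (ZMod p) R] (P : (ZMod p)[X]) :
    aeval (1 : R) P = algebraMap (ZMod p) R (P.eval 1) := by
  conv_lhs => rw [← map_one (algebraMap (ZMod p) R)]
  rw [aeval_algebraMap_apply, coe_aeval_eq_eval]

/-- A relation over `𝔽_p` satisfied by `1 ∈ κ` is satisfied by `1 ∈ k`. -/
theorem aeval_one_transfer {P : (ZMod p)[X]} (h : aeval (1 : κ) P = 0) : aeval (1 : k) P = 0 := by
  rw [aeval_one_eq] at h ⊢
  rw [(map_eq_zero _).mp h, map_zero]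

/-- An element of a field of characteristic `p` fixed by Frobenius lies in the prime field. -/
theorem mem_range_algebraMap_of_pow_eq {x : κ} (hx : x ^ p = x) :
    x ∈ Set.range (algebraMap (ZMod p) κ) := by
  have hchar : CharP κ p :=
    charP_of_injective_algebraMap (algebraMap (ZMod p) κ).injective p
  have h1 : x ∈ (⊥ : Subfield κ) := (Subfield.mem_bot_iff_pow_eq_self κ p).mpr hx
  rw [← ZMod.fieldRange_castHom_eq_bot p] at h1
  obtain ⟨c, hc⟩ := h1
  refine ⟨c, ?_⟩
  rw [← hc]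
  exact congrArg (fun f : ZMod p →+* κ => f c) (Subsingleton.elim _ _)

theorem algebraMap_pow_card (c : ZMod p) : (algebraMap (ZMod p) κ c) ^ p = algebraMap (ZMod p) κ c := by
  rw [← map_pow, ZMod.pow_card]

/-- If `y ≠ 1` is integral over `𝔽_p`, some relation of `y` fails for `1`. -/
theorem exists_aeval_ne_of_ne_one {y : k} (hy : IsIntegral (ZMod p) y) (hy1 : y ≠ 1) :
    ∃ P : (ZMod p)[X], aeval y P = 0 ∧ aeval (1 : κ) P ≠ 0 := by
  by_contra hcon
  push Not at hcon
  exact hy1 (eq_one_of_conj_one (κ := κ) hy hcon)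

/-- Conjugacy over `𝔽_p` is symmetric. -/
theorem conj_symm {α : k} {β : κ} (hα : IsIntegral (ZMod p) α) (hβ : IsIntegral (ZMod p) β)
    (h : ∀ P : (ZMod p)[X], aeval α P = 0 → aeval β P = 0) (P : (ZMod p)[X])
    (hP : aeval β P = 0) : aeval α P = 0 := by
  have h1 : minpoly (ZMod p) β ∣ minpoly (ZMod p) α :=
    minpoly.dvd _ _ (h _ (minpoly.aeval _ _))
  have h2 : minpoly (ZMod p) α ∣ minpoly (ZMod p) β :=
    (minpoly.irreducible hβ).dvd_symm (minpoly.irreducible hα) h1
  obtain ⟨Q, hQ⟩ := h2.trans (minpoly.dvd _ _ hP)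
  rw [hQ, map_mul, minpoly.aeval, zero_mul]

/-! ### Trivial `twHom` -/

section Triv

variable {Δ : Type*} [Group Δ] [MulSemiringAction Δ κ]

theorem card_twHom_eq_one_of_forall_eq_zero {t : Δ → κ} {ψ : Δ →* kˣ}
    (h : ∀ Φ ∈ twHom t ψ, Φ = 0) : Nat.card (twHom t ψ) = 1 := by
  have : Subsingleton (twHom t ψ) :=
    ⟨fun a b => Subtype.ext ((h a a.2).trans (h b b.2).symm)⟩
  exact Nat.card_of_subsingleton (0 : twHom t ψ)

/-- If `twHom t ψ` is nontrivial then `ψ i` and `t i` are conjugate over `𝔽_p` for every `i`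
acting trivially on `κ`. -/
theorem conj_of_card_twHom_ne_one {t : Δ → κ} {ψ : Δ →* kˣ} (h : Nat.card (twHom t ψ) ≠ 1)
    {i : Δ} (hi : ∀ x : κ, i • x = x) (P : (ZMod p)[X]) (hP : aeval (ψ i : k) P = 0) :
    aeval (t i) P = 0 := by
  by_contra hP'
  exact h (card_twHom_eq_one_of_forall_eq_zero fun Φ hΦ =>
    eq_zero_of_aeval (ZMod p) hΦ (hlin_zmod p Φ) i hi P hP hP')

end Triv

/-! ### N1 -/

section N1

variable [Finite κ] [Finite k] {Δ : Type*} [CommGroup Δ] [Finite Δ] [MulSemiringAction Δ κ]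
variable {t : Δ → κ} {e : ℕ}

omit [Finite κ] in
theorem isIntegral_zmod (y : k) : IsIntegral (ZMod p) y := by
  have : Module.Finite (ZMod p) k := Module.Finite.of_finite
  exact Algebra.IsIntegral.isIntegral y

open Classical in
/-- **N1, the level factor.**  If `κ^Δ = 𝔽_p`, the unique level `l = p - 1 = e` contributes at
most `|k|`, and nothing unless `ψ` is trivial on inertia. -/
theorem card_twHom_n1 (T : TameData p t e) (hΔ : (Nat.card Δ : κ) ≠ 0)
    (hfix : ∀ x : κ, (∀ g : Δ, g • x = x) → x ^ p = x) (ψ : Δ →* kˣ) :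
    Nat.card (twHom (fun g => t g ^ (p - 1)) ψ) ≤
      Nat.card k ^ (if ∀ i ∈ I0 Δ κ, ψ i = 1 then 1 else 0) := by
  split_ifs with h
  · rw [pow_one]
    apply card_twHom_le_of_adjoin (fun g => t g ^ (p - 1)) ψ p hΔ 1 (fun x => one_smul _ x)
    · intro g
      simp only [T.t_one, one_pow, smul_one]
    · intro P hP
      simp only [T.t_one, one_pow] at hP
      rw [map_one, Units.val_one]
      exact aeval_one_transfer hP
    · intro x hx
      obtain ⟨c, rfl⟩ := mem_range_algebraMap_of_pow_eq (hfix x hx)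
      exact Subalgebra.algebraMap_mem _ c
  · rw [pow_zero]
    push Not at h
    obtain ⟨i, hi, hne⟩ := h
    apply le_of_eq
    apply card_twHom_eq_one_of_forall_eq_zero
    intro Φ hΦ
    have hne' : (ψ i : k) ≠ 1 := by
      intro h1
      exact hne (Units.ext h1)
    obtain ⟨P, hP, hP'⟩ := exists_aeval_ne_of_ne_one (p := p) (κ := κ) (isIntegral_zmod (p := p) (ψ i : k)) hne'
    refine eq_zero_of_aeval (ZMod p) hΦ (hlin_zmod p Φ) i hi P hP ?_
    show aeval (t i ^ (p - 1)) P ≠ 0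
    rw [(T.n1 hfix).2 i hi]
    exact hP'

end N1

/-! ### The fixed field is generated by a degree two element -/

section Fixed

variable {Δ : Type*} [Group Δ] [MulSemiringAction Δ κ]

theorem smul_algebraMap_zmod (g : Δ) (c : ZMod p) :
    g • algebraMap (ZMod p) κ c = algebraMap (ZMod p) κ c := by
  have h : (MulSemiringAction.toRingHom Δ κ g).comp (algebraMap (ZMod p) κ)
      = algebraMap (ZMod p) κ := Subsingleton.elim _ _
  exact congrArg (fun f : ZMod p →+* κ => f c) h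

variable (p Δ κ) in
/-- The fixed points, as an `𝔽_p`-subalgebra. -/
def fixedSubalgebra : Subalgebra (ZMod p) κ where
  carrier := {x | ∀ g : Δ, g • x = x}
  mul_mem' := by
    intro a b ha hb g
    have ha' : ∀ g : Δ, g • a = a := ha
    have hb' : ∀ g : Δ, g • b = b := hb
    rw [smul_mul', ha', hb']
  add_mem' := by
    intro a b ha hb g
    have ha' : ∀ g : Δ, g • a = a := ha
    have hb' : ∀ g : Δ, g • b = b := hb
    rw [smul_add, ha', hb']
  algebraMap_mem' := fun c g => smul_algebraMap_zmod g c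

theorem mem_fixedSubalgebra {x : κ} : x ∈ fixedSubalgebra p κ Δ ↔ ∀ g : Δ, g • x = x := Iff.rfl

variable [Finite κ]

/-- If every `Δ`-fixed element satisfies `x ^ (p²) = x` and `β` is a fixed element outside the
prime field, then the fixed field is `𝔽_p[β]`. -/
theorem mem_adjoin_of_fixed {β : κ} (hβfix : ∀ g : Δ, g • β = β) (hβ : β ^ p ≠ β)
    (hfix2 : ∀ x : κ, (∀ g : Δ, g • x = x) → x ^ (p ^ 2) = x) {x : κ}
    (hx : ∀ g : Δ, g • x = x) : x ∈ Algebra.adjoin (ZMod p) {β} := by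
  classical
  have hpp := hp.out
  set A : Subalgebra (ZMod p) κ := Algebra.adjoin (ZMod p) {β} with hA
  have hAle : A ≤ fixedSubalgebra p κ Δ :=
    Algebra.adjoin_le (by
      intro y hy
      rw [Set.mem_singleton_iff] at hy
      subst hy
      exact hβfix)
  -- the fixed set has at most `p²` elements
  have h1lt : 1 < p ^ 2 := Nat.one_lt_pow (by norm_num) hpp.one_lt
  have hsub : ((fixedSubalgebra p κ Δ : Subalgebra (ZMod p) κ) : Set κ) ⊆
      ((X ^ (p ^ 2) - X : κ[X]).roots.toFinset : Set κ) := by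
    intro y hy
    rw [Finset.mem_coe, Multiset.mem_toFinset, mem_roots
      (FiniteField.X_pow_card_sub_X_ne_zero κ h1lt)]
    simp only [IsRoot.def, eval_sub, eval_pow, eval_X]
    rw [hfix2 y hy, sub_self]
  have hcardF : ((fixedSubalgebra p κ Δ : Subalgebra (ZMod p) κ) : Set κ).ncard ≤ p ^ 2 := by
    refine (Set.ncard_le_ncard hsub (Finset.finite_toSet _)).trans ?_
    rw [Set.ncard_coe_finset]
    refine (Multiset.toFinset_card_le _).trans ?_
    refine (card_roots' _).trans ?_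
    rw [FiniteField.X_pow_card_sub_X_natDegree_eq κ h1lt]
  -- `A` has at least `p²` elements
  have hfinA : Module.Finite (ZMod p) A := Module.Finite.of_finite
  have hcardA : Nat.card A = p ^ Module.finrank (ZMod p) A := by
    rw [Module.natCard_eq_pow_finrank (K := ZMod p) (V := A), Nat.card_zmod]
  have hli : LinearIndependent (ZMod p) ![(1 : κ), β] := by
    rw [LinearIndependent.pair_iff]
    intro a b hab
    by_cases hb : b = 0
    · subst hb
      simp only [zero_smul, add_zero] at hab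
      have : a = 0 := by
        rw [Algebra.smul_def, mul_one] at hab
        exact (map_eq_zero _).mp hab
      exact ⟨this, rfl⟩
    · exfalso
      apply hβ
      have hβeq : β = algebraMap (ZMod p) κ (-(b⁻¹ * a)) := by
        have h2 : b • β = -(a • (1 : κ)) := eq_neg_of_add_eq_zero_right hab
        rw [Algebra.smul_def, Algebra.smul_def, mul_one] at h2
        have hb' : algebraMap (ZMod p) κ b ≠ 0 := (_root_.map_ne_zero _).mpr hb
        rw [map_neg, map_mul, map_inv₀]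
        field_simp
        rw [mul_comm]
        exact h2
      rw [hβeq]
      exact algebraMap_pow_card _
  have hfr : 2 ≤ Module.finrank (ZMod p) A := by
    have hmem : ∀ i, ![(1 : κ), β] i ∈ A := by
      intro i
      fin_cases i
      · exact one_mem A
      · exact Algebra.subset_adjoin (Set.mem_singleton β)
    let v : Fin 2 → A := fun i => ⟨![(1 : κ), β] i, hmem i⟩
    have hv : LinearIndependent (ZMod p) v := by
      apply LinearIndependent.of_comp A.val.toLinearMap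
      exact hli
    have := hv.fintype_card_le_finrank
    simpa using this
  have hcardA2 : p ^ 2 ≤ ((A : Subalgebra (ZMod p) κ) : Set κ).ncard := by
    have : ((A : Subalgebra (ZMod p) κ) : Set κ).ncard = Nat.card A := by
      rw [← Nat.card_coe_set_eq]
      rfl
    rw [this, hcardA]
    exact Nat.pow_le_pow_right hpp.pos hfr
  have heq : ((A : Subalgebra (ZMod p) κ) : Set κ) = (fixedSubalgebra p κ Δ : Set κ) :=
    Set.eq_of_subset_of_ncard_le hAle (hcardF.trans hcardA2) (Set.toFinite _)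
  have : x ∈ ((A : Subalgebra (ZMod p) κ) : Set κ) := by rw [heq]; exact hx
  exact this

end Fixed

/-! ### N2 -/

section N2

variable [Finite κ] [Finite k] {Δ : Type*} [CommGroup Δ] [Finite Δ] [MulSemiringAction Δ κ]
variable {t : Δ → κ} {e : ℕ}

/-- The level factor. -/
noncomputable def levelFactor (p : ℕ) (t : Δ → κ) (ψ : Δ →* kˣ) (l : ℕ) : ℕ := by
  classical
  exact if p ∣ l then 1 else Nat.card (twHom (fun g => t g ^ l) ψ)

/-- **N2, the level factors** (version with a function `c : Δ → 𝔽_p` for the cyclotomic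
character).  If `κ^Δ ⊆ 𝔽_{p²}`, `c = t ^ r` on inertia, `ψ = ξ⁻¹ c` on inertia with
`ξ ^ (p + 1) = 1` on inertia, then outside the corner (`p = 3`, `ξ = c` on inertia) the product of
all level factors is at most `|k|`. -/
theorem prod_levelFactor_n2' (hp2 : p ≠ 2) (T : TameData p t e) (hΔ : (Nat.card Δ : κ) ≠ 0)
    (hfix2 : ∀ x : κ, (∀ g : Δ, g • x = x) → x ^ (p ^ 2) = x) {r : ℕ} (hr : (p - 1) * r = e)
    (c : Δ → ZMod p)
    (hω : ∀ i ∈ I0 Δ κ, algebraMap (ZMod p) κ (c i) = t i ^ r)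
    (ξ ψ : Δ →* kˣ)
    (hψ : ∀ i ∈ I0 Δ κ, (ψ i : k) = (ξ i : k)⁻¹ * algebraMap (ZMod p) k (c i))
    (hξ : ∀ i ∈ I0 Δ κ, ξ i ^ (p + 1) = 1)
    (hcorner : ¬ (p = 3 ∧ ∀ i ∈ I0 Δ κ, (ξ i : k) = algebraMap (ZMod p) k (c i))) :
    ∏ l ∈ Finset.Ico e (p * r), levelFactor p t ψ l ≤ Nat.card k := by
  classical
  obtain ⟨i₀, hi₀, hgen, hprim, _⟩ := T.exists_generator
  set τ : κ := t i₀ with hτ
  set x : k := (ξ i₀ : k) with hx
  have hx1 : x ^ (p + 1) = 1 := by
    have := hξ i₀ hi₀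
    rw [hx, ← Units.val_pow_eq_pow_val, this, Units.val_one]
  -- `c` is multiplicative on inertia
  have hcpow : ∀ n : ℕ, c (i₀ ^ n) = c i₀ ^ n := by
    intro n
    apply (algebraMap (ZMod p) κ).injective
    rw [hω _ (pow_mem hi₀ n), map_pow, hω i₀ hi₀, T.t_pow_of_mem hi₀, ← pow_mul, ← pow_mul,
      mul_comm]
  -- the corner hypothesis at the generator
  have hcorner' : ¬ (p = 3 ∧ x = algebraMap (ZMod p) k (c i₀)) := by
    rintro ⟨h3, hxc⟩
    apply hcorner
    refine ⟨h3, ?_⟩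
    intro i hi
    obtain ⟨n, rfl⟩ := hgen i hi
    rw [map_pow, Units.val_pow_eq_pow_val, hcpow, map_pow, ← hx, hxc]
  have hk1 : 1 ≤ Nat.card k := Nat.card_pos
  -- a level with nontrivial factor satisfies the conclusions of `level_unique`
  have key : ∀ l ∈ Finset.Ico e (p * r), levelFactor p t ψ l ≠ 1 →
      ¬ p ∣ l ∧ (p + 1) * (e + r - l) = e ∧ (τ ^ l) ^ p ≠ τ ^ l ∧
        ∀ P : (ZMod p)[X], aeval (ψ i₀ : k) P = 0 → aeval (τ ^ l) P = 0 := by
    intro l hl hne
    unfold levelFactor at hne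
    by_cases hpl : p ∣ l
    · rw [if_pos hpl] at hne
      exact absurd rfl hne
    rw [if_neg hpl] at hne
    have hconj : ∀ P : (ZMod p)[X], aeval (ψ i₀ : k) P = 0 → aeval (τ ^ l) P = 0 :=
      fun P hP => conj_of_card_twHom_ne_one hne hi₀ P hP
    have hconj' : ∀ P : (ZMod p)[X],
        aeval (x⁻¹ * algebraMap (ZMod p) k (c i₀)) P = 0 → aeval (τ ^ l) P = 0 := by
      intro P hP
      apply hconj
      rw [hψ i₀ hi₀]
      exact hP
    obtain ⟨h1, h2⟩ :=
      level_unique hp2 T.e_pos hprim hr (c i₀) (hω i₀ hi₀) hx1 hl hconj' hcorner'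
    exact ⟨hpl, h1, h2, hconj⟩
  by_cases hex : ∃ l ∈ Finset.Ico e (p * r), levelFactor p t ψ l ≠ 1
  · obtain ⟨l₀, hl₀, hne₀⟩ := hex
    obtain ⟨hpl₀, huniq₀, hfrob₀, hconj₀⟩ := key l₀ hl₀ hne₀
    have hprod : ∏ l ∈ Finset.Ico e (p * r), levelFactor p t ψ l = levelFactor p t ψ l₀ := by
      apply Finset.prod_eq_single_of_mem l₀ hl₀
      intro l hl hll₀
      by_contra hne
      obtain ⟨_, huniq, _, _⟩ := key l hl hne
      apply hll₀
      rw [Finset.mem_Ico] at hl hl₀
      have hpr : p * r = e + r := by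
        rw [← hr]
        have : p = (p - 1) + 1 := by have := hp.out.pos; omega
        conv_lhs => rw [this]
        ring
      have h3 : (p + 1) * (e + r - l) = (p + 1) * (e + r - l₀) := by rw [huniq, huniq₀]
      have h4 : e + r - l = e + r - l₀ := Nat.eq_of_mul_eq_mul_left (by omega) h3
      omega
    rw [hprod]
    unfold levelFactor
    rw [if_neg hpl₀]
    -- the level bound at the unique level
    have hτfix : ∀ g : Δ, g • (τ ^ l₀) = τ ^ l₀ := by
      intro g
      rw [smul_pow', T.smul_t hi₀]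
    apply card_twHom_le_of_adjoin (fun g => t g ^ l₀) ψ p hΔ i₀ hi₀ hτfix
    · intro P hP
      exact conj_symm (isIntegral_zmod (p := p) (ψ i₀ : k)) (isIntegral_zmod (p := p) (τ ^ l₀))
        hconj₀ P hP
    · intro y hy
      exact mem_adjoin_of_fixed hτfix hfrob₀ hfix2 hy
  · push Not at hex
    rw [Finset.prod_eq_one hex]
    exact hk1

/-- **N2, the level factors** (version with a character `ω : Δ →* 𝔽_pˣ`). -/
theorem prod_levelFactor_n2 (hp2 : p ≠ 2) (T : TameData p t e) (hΔ : (Nat.card Δ : κ) ≠ 0)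
    (hfix2 : ∀ x : κ, (∀ g : Δ, g • x = x) → x ^ (p ^ 2) = x) {r : ℕ} (hr : (p - 1) * r = e)
    (ω : Δ →* (ZMod p)ˣ)
    (hω : ∀ i ∈ I0 Δ κ, algebraMap (ZMod p) κ ((ω i : (ZMod p)ˣ) : ZMod p) = t i ^ r)
    (ξ ψ : Δ →* kˣ)
    (hψ : ∀ g, (ψ g : k) = (ξ g : k)⁻¹ * algebraMap (ZMod p) k ((ω g : (ZMod p)ˣ) : ZMod p))
    (hξ : ∀ i ∈ I0 Δ κ, ξ i ^ (p + 1) = 1)
    (hcorner : ¬ (p = 3 ∧ ∀ i ∈ I0 Δ κ,
      (ξ i : k) = algebraMap (ZMod p) k ((ω i : (ZMod p)ˣ) : ZMod p))) :
    ∏ l ∈ Finset.Ico e (p * r), levelFactor p t ψ l ≤ Nat.card k :=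
  prod_levelFactor_n2' hp2 T hΔ hfix2 hr (fun g => ((ω g : (ZMod p)ˣ) : ZMod p)) hω ξ ψ
    (fun i _ => hψ i) hξ hcorner

end N2

end Fermat.Agent.TW.Cnt.LevelNum75
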