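/-
Program TW (S56), WP7 brick B11 numerics (N1/N2 of plan #630).  helper75.

TAMENESS: an automorphism of order prime to `p` of a `π`-adically separated ring `O` (with
`π ∣ p`) which acts trivially on `O/π` and on `π/π²` is the identity.

Consequence (in the setting of `UnitGr71`/`UnitCount71`): for a finite group `Δ` of order prime
to `p` acting faithfully on `O` with `g π = π w_g`, the crossed homomorphism `g ↦ w_g mod π` is
injective on the inertia subgroup `{g | g ≡ id mod π}`.  This is the hypothesis `TameData.inj` of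
`Numerics75`.  Also: `w` is a crossed homomorphism, and `w_i ^ e ≡ 1 mod π` on inertia when
`p = u π^e`.

Mathlib only (all hypotheses in elementary divisibility form).
-/
import Mathlib

set_option autoImplicit false

namespace Fermat.Agent.TW.Cnt.TameInj75

variable {O : Type*} [CommRing O] {Δ : Type*} [Group Δ] [MulSemiringAction Δ O]

section Unipotent

variable {π : O} {g : Δ} {wg : O}

/-- `g` maps `π^n O` into itself. -/
theorem dvd_smul_of_dvd (hw : g • π = π * wg) {n : ℕ} {d : O} (hd : π ^ n ∣ d) :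
    π ^ n ∣ g • d := by
  obtain ⟨c, rfl⟩ := hd
  rw [smul_mul', smul_pow', hw, mul_pow]
  exact ⟨wg ^ n * g • c, by ring⟩

theorem dvd_pow_sub_one {a : O} (ha : π ∣ a - 1) (n : ℕ) : π ∣ a ^ n - 1 := by
  have h : a - 1 ∣ a ^ n - 1 := by
    simpa using sub_dvd_pow_sub_pow a 1 n
  exact ha.trans h

/-- Step A: `g` acts trivially on `π^n O / π^(n+1) O`. -/
theorem dvd_smul_sub_of_dvd (hw : g • π = π * wg) (h0 : ∀ x : O, π ∣ g • x - x)
    (h1 : π ∣ wg - 1) {n : ℕ} {d : O} (hd : π ^ n ∣ d) : π ^ (n + 1) ∣ g • d - d := by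
  obtain ⟨c, rfl⟩ := hd
  rw [smul_mul', smul_pow', hw, mul_pow]
  have e1 : π ^ n * wg ^ n * g • c - π ^ n * c
      = π ^ n * ((wg ^ n - 1) * g • c + (g • c - c)) := by ring
  rw [e1, pow_succ]
  exact mul_dvd_mul_left _ (dvd_add (Dvd.dvd.mul_right (dvd_pow_sub_one h1 n) _) (h0 c))

/-- Step B: the same for the powers of `g`. -/
theorem dvd_pow_smul_sub_of_dvd (hw : g • π = π * wg) (h0 : ∀ x : O, π ∣ g • x - x)
    (h1 : π ∣ wg - 1) {n : ℕ} (j : ℕ) {d : O} (hd : π ^ n ∣ d) :
    π ^ (n + 1) ∣ g ^ j • d - d := by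
  induction j with
  | zero => simp
  | succ j ih =>
    have e1 : g ^ (j + 1) • d - d = g • (g ^ j • d - d) + (g • d - d) := by
      rw [pow_succ', mul_smul, smul_sub]; ring
    rw [e1]
    exact dvd_add (dvd_smul_of_dvd hw ih) (dvd_smul_sub_of_dvd hw h0 h1 hd)

/-- Step C: `g^j x - x ≡ j (g x - x) mod π^(n+1)` if `g x ≡ x mod π^n`. -/
theorem dvd_pow_smul_sub_nsmul (hw : g • π = π * wg) (h0 : ∀ x : O, π ∣ g • x - x)
    (h1 : π ∣ wg - 1) {n : ℕ} (j : ℕ) {x : O} (hx : π ^ n ∣ g • x - x) :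
    π ^ (n + 1) ∣ g ^ j • x - x - j * (g • x - x) := by
  induction j with
  | zero => simp
  | succ j ih =>
    have e1 : g ^ (j + 1) • x - x - ((j + 1 : ℕ) : O) * (g • x - x)
        = (g ^ j • x - x - (j : O) * (g • x - x)) + (g ^ j • (g • x - x) - (g • x - x)) := by
      rw [pow_succ, mul_smul, smul_sub]
      push_cast
      ring
    rw [e1]
    exact dvd_add ih (dvd_pow_smul_sub_of_dvd hw h0 h1 j hx)

/-- **Tameness.** An automorphism `g` of finite order prime to `p` which is trivial on `O/π` and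
on `π/π²` is trivial, if `O` is `π`-adically separated and `π ∣ p`. -/
theorem smul_eq_of_unipotent {p : ℕ} (hπp : π ∣ (p : O))
    (hsep : ∀ x : O, (∀ n : ℕ, π ^ n ∣ x) → x = 0)
    (hw : g • π = π * wg) (h0 : ∀ x : O, π ∣ g • x - x) (h1 : π ∣ wg - 1)
    {m : ℕ} (hgm : g ^ m = 1) (hmp : Nat.Coprime m p) (x : O) : g • x = x := by
  have key : ∀ n : ℕ, ∀ x : O, π ^ n ∣ g • x - x := by
    intro n
    induction n with
    | zero => intro x; simp
    | succ n ih =>
      intro x
      have h := dvd_pow_smul_sub_nsmul hw h0 h1 m (ih x)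
      rw [hgm, one_smul, sub_self, zero_sub, dvd_neg] at h
      -- `π^(n+1) ∣ m d` and `π^(n+1) ∣ p d`, `gcd (m, p) = 1`
      have h2 : π ^ (n + 1) ∣ (p : O) * (g • x - x) := by
        rw [pow_succ']
        exact mul_dvd_mul hπp (ih x)
      have hbez : (m : ℤ) * Nat.gcdA m p + (p : ℤ) * Nat.gcdB m p = 1 := by
        have := Nat.gcd_eq_gcd_ab m p
        rw [hmp, Nat.cast_one] at this
        exact this.symm
      have hbez' : ((Nat.gcdA m p : ℤ) : O) * ((m : O) * (g • x - x))
          + ((Nat.gcdB m p : ℤ) : O) * ((p : O) * (g • x - x)) = g • x - x := by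
        have h3 : ((m : ℤ) : O) * ((Nat.gcdA m p : ℤ) : O) + ((p : ℤ) : O) * ((Nat.gcdB m p : ℤ) : O)
            = 1 := by
          rw [← Int.cast_mul, ← Int.cast_mul, ← Int.cast_add, hbez, Int.cast_one]
        simp only [Int.cast_natCast] at h3
        calc _ = ((m : O) * ((Nat.gcdA m p : ℤ) : O) + (p : O) * ((Nat.gcdB m p : ℤ) : O))
              * (g • x - x) := by ring
          _ = g • x - x := by rw [h3, one_mul]
      rw [← hbez']
      exact dvd_add (Dvd.dvd.mul_left h _) (Dvd.dvd.mul_left h2 _)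
  exact sub_eq_zero.mp (hsep _ fun n => key n x)

end Unipotent

/-! ### The crossed homomorphism `w` -/

section Cocycle

variable {π : O} {w : Δ → O}

theorem w_mul (hnzd : ∀ x : O, π * x = 0 → x = 0) (hw : ∀ g : Δ, g • π = π * w g) (g h : Δ) :
    w (g * h) = w g * g • w h := by
  have h1 : π * w (g * h) = π * (w g * g • w h) := by
    rw [← hw, mul_smul, hw h, smul_mul', hw g]; ring
  have h2 : π * (w (g * h) - w g * g • w h) = 0 := by rw [mul_sub, h1, sub_self]
  exact sub_eq_zero.mp (hnzd _ h2)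

theorem w_one (hnzd : ∀ x : O, π * x = 0 → x = 0) (hw : ∀ g : Δ, g • π = π * w g) :
    w (1 : Δ) = 1 := by
  have h1 : π * (w 1 - 1) = 0 := by rw [mul_sub, ← hw, one_smul, mul_one, sub_self]
  exact sub_eq_zero.mp (hnzd _ h1)

/-- On inertia, `w_i ^ e ≡ 1 mod π` when `p = u π^e` with `u` a unit. -/
theorem dvd_w_pow_sub_one (hnzd : ∀ x : O, π * x = 0 → x = 0) (hw : ∀ g : Δ, g • π = π * w g)
    {p e : ℕ} {u u' : O} (hpe : (p : O) = u * π ^ e) (hu : u' * u = 1) {i : Δ}
    (hi : ∀ x : O, π ∣ i • x - x) : π ∣ w i ^ e - 1 := by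
  have hnzd' : ∀ (n : ℕ) (x : O), π ^ n * x = 0 → x = 0 := by
    intro n
    induction n with
    | zero => intro x hx; simpa using hx
    | succ n ih =>
      intro x hx
      rw [pow_succ, mul_assoc] at hx
      exact hnzd _ (ih _ hx)
  have h1 : i • (p : O) = (p : O) := by
    exact map_natCast (MulSemiringAction.toRingHom Δ O i) p
  rw [hpe, smul_mul', smul_pow', hw i, mul_pow] at h1
  have h2 : π ^ e * (i • u * w i ^ e - u) = 0 := by
    have : π ^ e * (i • u * w i ^ e - u) = i • u * (π ^ e * w i ^ e) - u * π ^ e := by ring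
    rw [this, h1, sub_self]
  have h3 : i • u * w i ^ e = u := sub_eq_zero.mp (hnzd' e _ h2)
  -- `w^e - 1 = u' (u - i u) w^e`
  have h4 : w i ^ e - 1 = -(u' * (i • u - u) * w i ^ e) := by
    have : u' * (i • u - u) * w i ^ e = u' * (i • u * w i ^ e) - (u' * u) * w i ^ e := by ring
    rw [this, h3, hu]; ring
  rw [h4, dvd_neg]
  exact Dvd.dvd.mul_right (Dvd.dvd.mul_left (hi u) _) _

end Cocycle

/-! ### Injectivity of the tame character on inertia -/

/-- For a finite group of order prime to `p` acting faithfully, `g ↦ w_g mod π` is injective on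
the inertia subgroup. -/
theorem eq_one_of_inertia_of_w [Finite Δ] {π : O} {w : Δ → O} {p : ℕ}
    (hπp : π ∣ (p : O)) (hsep : ∀ x : O, (∀ n : ℕ, π ^ n ∣ x) → x = 0)
    (hw : ∀ g : Δ, g • π = π * w g) (hcard : Nat.Coprime (Nat.card Δ) p)
    (hfaith : ∀ g : Δ, (∀ x : O, g • x = x) → g = 1)
    {g : Δ} (h0 : ∀ x : O, π ∣ g • x - x) (h1 : π ∣ w g - 1) : g = 1 := by
  apply hfaith
  apply smul_eq_of_unipotent hπp hsep (hw g) h0 h1 (pow_card_eq_one' (G := Δ) (x := g)) hcard

end Fermat.Agent.TW.Cnt.TameInj75
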