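/-
Program TW (S56), WP7 brick B11 numerics (N1/N2 of plan #630).  helper75.

BRIDGE from the `O`-level data of `UnitGr71`/`UnitCount71` (divisibility by `π`) to the
residue-field data `Numerics75.TameData`.

`res : O →+* κ` is a residue-field model: surjective, with kernel `(π)`, equivariant for the
actions of `Δ` on `O` and on `κ`.  Then

* `mem_I0_iff` : `g ∈ I0 Δ κ ↔ ∀ x : O, π ∣ g • x - x`;
* `fixed_pow_of_res` : the `O`-level statement 'a `Δ`-fixed residue class satisfies `x ^ n ≡ x`'
  gives the `κ`-level hypotheses `hfix`, `hfix2` of `LevelNum75`;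
* `tameData_of_res` : `TameData p (fun g => res (w g)) e` for a finite commutative group `Δ` of
  order prime to `p` acting faithfully on `O`, provided `(p - 1) ∣ e` and `e ≤ #I0`;
* `natCard_ne_zero_of_res`, `charP_of_res`.
-/
import Mathlib
import Fermat.Agent.TW.Cnt.UnitGr71
import Fermat.Agent.TW.Cnt.Numerics75
import Fermat.Agent.TW.Cnt.TameInj75

set_option autoImplicit false
set_option linter.unusedSectionVars false

namespace Fermat.Agent.TW.Cnt.ResBridge75

open Fermat.Agent.TW.Cnt.UnitFil71 Fermat.Agent.TW.Cnt.UnitGr71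
open Fermat.Agent.TW.Cnt.Numerics75 Fermat.Agent.TW.Cnt.TameInj75

variable {O κ : Type*} [CommRing O] [Field κ]
variable {Δ : Type*} [Group Δ] [MulSemiringAction Δ O] [MulSemiringAction Δ κ]
variable {π : O} {res : O →+* κ}

section Basic

variable (hsurj : Function.Surjective res) (hker : ∀ x : O, res x = 0 ↔ π ∣ x)
  (hequiv : ∀ (g : Δ) (x : O), res (g • x) = g • res x)

include hker in
theorem res_eq_iff {x y : O} : res x = res y ↔ π ∣ x - y := by
  rw [← hker, map_sub, sub_eq_zero]

include hsurj hker hequiv in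
/-- Inertia, `O`-level versus `κ`-level. -/
theorem mem_I0_iff {g : Δ} : g ∈ I0 Δ κ ↔ ∀ x : O, π ∣ g • x - x := by
  constructor
  · intro hg x
    rw [← res_eq_iff hker, hequiv, hg]
  · intro hg y
    obtain ⟨x, rfl⟩ := hsurj y
    rw [← hequiv, res_eq_iff hker]
    exact hg x

include hsurj hker hequiv in
/-- Fixed residue classes: from `O`-level to `κ`-level. -/
theorem fixed_pow_of_res {n : ℕ}
    (h : ∀ x : O, (∀ g : Δ, π ∣ g • x - x) → π ∣ x ^ n - x) (y : κ)
    (hy : ∀ g : Δ, g • y = y) : y ^ n = y := by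
  obtain ⟨x, rfl⟩ := hsurj y
  rw [← map_pow, res_eq_iff hker]
  apply h
  intro g
  rw [← res_eq_iff hker, hequiv, hy]

end Basic

section Char

variable {p : ℕ} {u u' : O} {e : ℕ} (S : UnitSetup O p π u u' e)
  (hker : ∀ x : O, res x = 0 ↔ π ∣ x)

include S hker

theorem res_p_eq_zero : res (p : O) = 0 := by
  rw [hker, S.hpe]
  exact Dvd.dvd.mul_left (dvd_pow_self π (by have := S.e_pos; omega)) u

theorem charP_of_res : CharP κ p := by
  have h : (p : κ) = 0 := by
    have := res_p_eq_zero S hker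
    rwa [map_natCast] at this
  exact (CharP.charP_iff_prime_eq_zero S.prime).mpr h

theorem natCard_ne_zero_of_res [Finite Δ] (hcop : Nat.Coprime (Nat.card Δ) p) :
    (Nat.card Δ : κ) ≠ 0 := by
  have := charP_of_res S hker
  intro h
  have h1 : p ∣ Nat.card Δ := (CharP.cast_eq_zero_iff κ p _).mp h
  have h2 : p ∣ 1 := by
    have := Nat.dvd_gcd h1 (dvd_refl p)
    rwa [hcop] at this
  exact S.prime.one_lt.ne' (Nat.dvd_one.mp h2)

end Char

section Tame

variable {Δ : Type*} [CommGroup Δ] [Finite Δ] [MulSemiringAction Δ O] [MulSemiringAction Δ κ]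
variable {p : ℕ} {u u' : O} {e : ℕ}

/-- **The tame data of a residue-field model.** -/
theorem tameData_of_res (S : UnitSetup O p π u u' e) {w : Δ → O}
    (hw : ∀ g : Δ, g • π = π * w g)
    (hsurj : Function.Surjective res) (hker : ∀ x : O, res x = 0 ↔ π ∣ x)
    (hequiv : ∀ (g : Δ) (x : O), res (g • x) = g • res x)
    (hcop : Nat.Coprime (Nat.card Δ) p) (hfaith : ∀ g : Δ, (∀ x : O, g • x = x) → g = 1)
    (hdvd : (p - 1) ∣ e) (hcard : e ≤ Nat.card (I0 Δ κ)) :
    TameData p (fun g => res (w g)) e where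
  t_one := by
    show res (w 1) = 1
    rw [w_one S.complete.nzd hw, map_one]
  t_mul := by
    intro g h
    show res (w (g * h)) = res (w g) * g • res (w h)
    rw [w_mul S.complete.nzd hw, map_mul, hequiv]
  inj := by
    intro i hi h1
    have hπp : π ∣ (p : O) := (hker _).mp (res_p_eq_zero S hker)
    refine eq_one_of_inertia_of_w hπp S.complete.sep hw hcop hfaith
      ((mem_I0_iff hsurj hker hequiv).mp hi) ?_
    rw [← hker, map_sub, map_one, sub_eq_zero]
    exact h1
  e_pos := by have := S.e_pos; omega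
  dvd_e := hdvd
  pow_e := by
    intro i hi
    show res (w i) ^ e = 1
    have := dvd_w_pow_sub_one S.complete.nzd hw S.hpe S.hu
      ((mem_I0_iff hsurj hker hequiv).mp hi)
    rw [← hker, map_sub, map_one, map_pow, sub_eq_zero] at this
    exact this
  e_le := hcard

end Tame

/-! ### The cyclotomic character on inertia -/

section Omega

variable {Δ : Type*} [Group Δ] [MulSemiringAction Δ O]

/-- If `ζ - 1 = π^j v` with `v` a unit and `i` in the inertia group acts on `ζ` by `ζ ↦ ζ^n`, then
`n ≡ w_i ^ j mod π`:  the cyclotomic character is the `j`-th power of the tame character. -/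
theorem dvd_natCast_sub_w_pow (hnzd : ∀ x : O, π * x = 0 → x = 0) {w : Δ → O}
    (hw : ∀ g : Δ, g • π = π * w g) {ζ v v' : O} {j : ℕ} (hj : 1 ≤ j) (hζ : ζ - 1 = π ^ j * v)
    (hv : v' * v = 1) {i : Δ} (hi : ∀ x : O, π ∣ i • x - x) {n : ℕ} (hin : i • ζ = ζ ^ n) :
    π ∣ (n : O) - w i ^ j := by
  have hnzd' : ∀ (m : ℕ) (x : O), π ^ m * x = 0 → x = 0 := by
    intro m
    induction m with
    | zero => intro x hx; simpa using hx
    | succ m ih =>
      intro x hx
      rw [pow_succ, mul_assoc] at hx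
      exact hnzd _ (ih _ hx)
  set Sg : O := ∑ m ∈ Finset.range n, ζ ^ m with hSg
  have hπζ : π ∣ ζ - 1 := by
    rw [hζ]
    exact Dvd.dvd.mul_right (dvd_pow_self π (by omega)) v
  -- `i (ζ - 1)` computed in two ways
  have e1 : i • (ζ - 1) = Sg * (π ^ j * v) := by
    rw [smul_sub, smul_one, hin, ← hζ, hSg, geom_sum_mul]
  have e2 : i • (ζ - 1) = π ^ j * (w i ^ j * i • v) := by
    rw [hζ, smul_mul', smul_pow', hw i, mul_pow]; ring
  have h1 : w i ^ j * i • v = Sg * v := by
    have : π ^ j * (w i ^ j * i • v - Sg * v) = 0 := by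
      rw [mul_sub, ← e2, e1]; ring
    exact sub_eq_zero.mp (hnzd' j _ this)
  -- `Sg ≡ n`
  have h2 : π ∣ Sg - n := by
    have : Sg - (n : O) = ∑ m ∈ Finset.range n, (ζ ^ m - 1) := by
      rw [Finset.sum_sub_distrib, hSg]
      simp
    rw [this]
    apply Finset.dvd_sum
    intro m _
    exact hπζ.trans (by simpa using sub_dvd_pow_sub_pow ζ 1 m)
  have h3 : π ∣ i • v - v := hi v
  have e3 : (n : O) - w i ^ j = v' * (-(Sg - n) * v + w i ^ j * (i • v - v)) := by
    have : v' * (-(Sg - n) * v + w i ^ j * (i • v - v))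
        = v' * ((n : O) * v - w i ^ j * v + (w i ^ j * i • v - Sg * v)) := by ring
    rw [this, h1, sub_self, add_zero]
    calc (n : O) - w i ^ j = (v' * v) * ((n : O) - w i ^ j) := by rw [hv, one_mul]
      _ = v' * ((n : O) * v - w i ^ j * v) := by ring
  rw [e3]
  apply Dvd.dvd.mul_left
  exact dvd_add (Dvd.dvd.mul_right ((dvd_neg).mpr h2) _) (Dvd.dvd.mul_left h3 _)

end Omega

end Fermat.Agent.TW.Cnt.ResBridge75
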