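/-
Program TW (S56), WP7 brick B11 (CNT-P), helper71.

Abstract counting lemmas (Mathlib only).

* `card_hom_le_step`: for a projective `R`-module `X`, submodules `F' ≤ F` of `B` and a linear map
  `μ : M → B ⧸ F'` whose range contains the image of `F`:
  `#Hom_R(X, F) ≤ #Hom_R(X, F') * #Hom_R(X, M)`.
* `linearMapOfSingle`: an additive map between modules over a group algebra `(ZMod p)[Δ]` which
  commutes with the group elements is linear.
-/
import Mathlib

set_option autoImplicit false

namespace Fermat.Agent.TW.Cnt.FiltCount71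

open Function

section Step

variable {R : Type*} [Ring R]
variable {X B M : Type*} [AddCommGroup X] [Module R X] [AddCommGroup B] [Module R B]
  [AddCommGroup M] [Module R M]

/-- One step of the filtration count. -/
theorem card_hom_le_step [Module.Projective R X] (F' F : Submodule R B)
    (μ : M →ₗ[R] B ⧸ F') (hμ : F.map F'.mkQ ≤ LinearMap.range μ)
    [Finite (X →ₗ[R] F')] [Finite (X →ₗ[R] M)] :
    Finite (X →ₗ[R] F) ∧
      Nat.card (X →ₗ[R] F) ≤ Nat.card (X →ₗ[R] F') * Nat.card (X →ₗ[R] M) := by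
  classical
  let φ : (X →ₗ[R] F) → (X →ₗ[R] B ⧸ F') := fun f => (F'.mkQ.comp F.subtype).comp f
  have hlift : ∀ f : X →ₗ[R] F, ∃ h : X →ₗ[R] M, μ.comp h = φ f := by
    intro f
    have hmem : ∀ x, φ f x ∈ LinearMap.range μ := by
      intro x
      apply hμ
      exact Submodule.mem_map.mpr ⟨(f x : B), (f x).2, rfl⟩
    let g : X →ₗ[R] LinearMap.range μ := LinearMap.codRestrict _ (φ f) hmem
    obtain ⟨h, hh⟩ := Module.projective_lifting_property μ.rangeRestrict g
      (LinearMap.surjective_rangeRestrict μ)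
    refine ⟨h, ?_⟩
    ext x
    have := congrArg (fun t : X →ₗ[R] LinearMap.range μ => ((t x : LinearMap.range μ) : B ⧸ F')) hh
    simpa [g] using this
  let hsec : (X →ₗ[R] B ⧸ F') → (X →ₗ[R] M) := fun g =>
    if hg : ∃ h : X →ₗ[R] M, μ.comp h = g then hg.choose else 0
  let f₀ : (X →ₗ[R] B ⧸ F') → (X →ₗ[R] F) := fun g =>
    if hg : ∃ f : X →ₗ[R] F, φ f = g then hg.choose else 0
  have hf₀ : ∀ f, φ (f₀ (φ f)) = φ f := by
    intro f
    have hg : ∃ f' : X →ₗ[R] F, φ f' = φ f := ⟨f, rfl⟩
    simp only [f₀, dif_pos hg]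
    exact hg.choose_spec
  have hhsec : ∀ f, μ.comp (hsec (φ f)) = φ f := by
    intro f
    have hg := hlift f
    simp only [hsec, dif_pos hg]
    exact hg.choose_spec
  have hdiff : ∀ (f : X →ₗ[R] F) (x : X), (F.subtype.comp (f - f₀ (φ f))) x ∈ F' := by
    intro f x
    have h1 := congrArg (fun t : X →ₗ[R] B ⧸ F' => t x) (hf₀ f)
    simp only [φ, LinearMap.comp_apply, Submodule.mkQ_apply, Submodule.subtype_apply] at h1
    have h2 := (Submodule.Quotient.eq F').mp h1
    simp only [LinearMap.comp_apply, LinearMap.sub_apply, Submodule.subtype_apply,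
      AddSubgroupClass.coe_sub]
    rw [← neg_sub]
    exact F'.neg_mem h2
  let d : (X →ₗ[R] F) → (X →ₗ[R] F') := fun f =>
    LinearMap.codRestrict F' (F.subtype.comp (f - f₀ (φ f))) (hdiff f)
  have inj : Injective (fun f : X →ₗ[R] F => (d f, hsec (φ f))) := by
    intro f f' hff'
    simp only [Prod.mk.injEq] at hff'
    obtain ⟨h1, h2⟩ := hff'
    have hφ : φ f = φ f' := by rw [← hhsec f, ← hhsec f', h2]
    ext x
    have h3 := congrArg (fun t : X →ₗ[R] F' => ((t x : F') : B)) h1
    simp only [d, LinearMap.codRestrict_apply, LinearMap.comp_apply, LinearMap.sub_apply,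
      Submodule.subtype_apply, AddSubgroupClass.coe_sub, hφ] at h3
    exact sub_left_injective h3
  refine ⟨Finite.of_injective _ inj, ?_⟩
  calc Nat.card (X →ₗ[R] F) ≤ Nat.card ((X →ₗ[R] F') × (X →ₗ[R] M)) :=
        Nat.card_le_card_of_injective _ inj
    _ = Nat.card (X →ₗ[R] F') * Nat.card (X →ₗ[R] M) := Nat.card_prod _ _

/-- Linear maps into the zero submodule. -/
theorem card_hom_bot : Nat.card (X →ₗ[R] (⊥ : Submodule R B)) = 1 := by
  have : Subsingleton (X →ₗ[R] (⊥ : Submodule R B)) :=
    ⟨fun f g => by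
      refine LinearMap.ext fun x => Subtype.ext ?_
      rw [(Submodule.mem_bot R).mp (f x).2, (Submodule.mem_bot R).mp (g x).2]⟩
  have : Unique (X →ₗ[R] (⊥ : Submodule R B)) := ⟨⟨0⟩, fun f => Subsingleton.elim _ _⟩
  exact Nat.card_unique

/-- Linear maps into equal submodules. -/
theorem card_hom_congr {F F' : Submodule R B} (h : F = F') :
    Nat.card (X →ₗ[R] F) = Nat.card (X →ₗ[R] F') := by subst h; rfl

end Step

section GroupAlgebra

variable {p : ℕ} [Fact p.Prime] {Δ : Type*} [Group Δ]
variable {M N : Type*} [AddCommGroup M] [Module (MonoidAlgebra (ZMod p) Δ) M]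
  [AddCommGroup N] [Module (MonoidAlgebra (ZMod p) Δ) N]

/-- A property of elements of `(ZMod p)[Δ]` which holds for the group elements and is stable under
sums holds everywhere, provided it is stable under natural multiples. -/
theorem monoidAlgebra_induction {P : MonoidAlgebra (ZMod p) Δ → Prop}
    (hof : ∀ g : Δ, P (MonoidAlgebra.single g 1)) (hadd : ∀ a b, P a → P b → P (a + b))
    (hzero : P 0) (r : MonoidAlgebra (ZMod p) Δ) : P r := by
  have hnsmul : ∀ (n : ℕ) a, P a → P (n • a) := by
    intro n a ha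
    induction n with
    | zero => simpa using hzero
    | succ n ih => rw [succ_nsmul]; exact hadd _ _ ih ha
  refine MonoidAlgebra.induction_on r (fun g => ?_) hadd (fun c a ha => ?_)
  · simpa [MonoidAlgebra.of_apply] using hof g
  · have hc : c = ((c.val : ℕ) : ZMod p) := (ZMod.natCast_zmod_val c).symm
    rw [hc, Nat.cast_smul_eq_nsmul]
    exact hnsmul _ _ ha

/-- An additive map commuting with the group elements is `(ZMod p)[Δ]`-linear. -/
def linearMapOfSingle (f : M →+ N)
    (hf : ∀ (g : Δ) (m : M), f (MonoidAlgebra.single g (1 : ZMod p) • m)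
      = MonoidAlgebra.single g (1 : ZMod p) • f m) :
    M →ₗ[MonoidAlgebra (ZMod p) Δ] N where
  toFun := f
  map_add' := f.map_add
  map_smul' := by
    intro r m
    simp only [RingHom.id_apply]
    revert m
    refine monoidAlgebra_induction (P := fun r => ∀ m, f (r • m) = r • f m) hf ?_ ?_ r
    · intro a b ha hb m
      rw [add_smul, add_smul, map_add, ha, hb]
    · intro m; simp

@[simp] theorem linearMapOfSingle_apply (f : M →+ N) (hf) (m : M) :
    linearMapOfSingle (p := p) (Δ := Δ) f hf m = f m := rfl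

/-- An additive subgroup stable under the group elements is a `(ZMod p)[Δ]`-submodule. -/
def submoduleOfSingle (S : AddSubgroup M)
    (hS : ∀ (g : Δ) (m : M), m ∈ S → MonoidAlgebra.single g (1 : ZMod p) • m ∈ S) :
    Submodule (MonoidAlgebra (ZMod p) Δ) M where
  carrier := S
  add_mem' := S.add_mem
  zero_mem' := S.zero_mem
  smul_mem' := by
    intro r m hm
    have key : ∀ m, m ∈ S → r • m ∈ S := by
      refine monoidAlgebra_induction (P := fun r => ∀ m, m ∈ S → r • m ∈ S) hS ?_ ?_ r
      · intro a b ha hb m hm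
        rw [add_smul]; exact S.add_mem (ha m hm) (hb m hm)
      · intro m _; simp [S.zero_mem]
    exact key m hm

@[simp] theorem mem_submoduleOfSingle (S : AddSubgroup M) (hS) (m : M) :
    m ∈ submoduleOfSingle (p := p) (Δ := Δ) S hS ↔ m ∈ S := Iff.rfl

/-- Modules over `(ZMod p)[Δ]` are killed by `p`. -/
theorem nsmul_prime_eq_zero (p : ℕ) [Fact p.Prime] (Δ : Type*) [Group Δ] {M : Type*}
    [AddCommGroup M] [Module (MonoidAlgebra (ZMod p) Δ) M] (m : M) : p • m = 0 := by
  have h : ((p : ℕ) : MonoidAlgebra (ZMod p) Δ) = 0 := by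
    have : ((p : ℕ) : MonoidAlgebra (ZMod p) Δ)
        = algebraMap (ZMod p) (MonoidAlgebra (ZMod p) Δ) ((p : ℕ) : ZMod p) := by
      rw [map_natCast]
    rw [this, ZMod.natCast_self, map_zero]
  rw [← Nat.cast_smul_eq_nsmul (MonoidAlgebra (ZMod p) Δ), h, zero_smul]

end GroupAlgebra

end Fermat.Agent.TW.Cnt.FiltCount71
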