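/-
Program TW (S56), WP7 brick B11 (CNT-P), helper71.  Mathlib + FiltCount71.

Bridge between `(ZMod p)[Δ]`-linear maps of `Representation.asModule`s and `Δ`-equivariant
additive maps.  Actions are given as monoid homs `Δ →* AddMonoid.End V`.
-/
import Mathlib
import Fermat.Agent.TW.Cnt.FiltCount71

set_option autoImplicit false

namespace Fermat.Agent.TW.Cnt.RepBridge71

open Fermat.Agent.TW.Cnt.FiltCount71

variable {p : ℕ} [Fact p.Prime] {Δ : Type*} [Group Δ]
variable {V W : Type*} [AddCommGroup V] [Module (ZMod p) V] [AddCommGroup W] [Module (ZMod p) W]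

/-- The representation attached to an action by additive endomorphisms. -/
def repOfEnd (a : Δ →* AddMonoid.End V) : Representation (ZMod p) Δ V where
  toFun g := AddMonoidHom.toZModLinearMap p (a g : V →+ V)
  map_one' := by
    ext v
    simp only [map_one]
    rfl
  map_mul' g h := by
    ext v
    simp only [map_mul]
    rfl

@[simp] theorem repOfEnd_apply (a : Δ →* AddMonoid.End V) (g : Δ) (v : V) :
    repOfEnd (p := p) a g v = a g v := rfl

/-- the module attached to an action -/
abbrev modOfEnd (a : Δ →* AddMonoid.End V) : Type _ := (repOfEnd (p := p) a).asModule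

/-- the identification `modOfEnd a ≃ V` -/
abbrev ofMod (a : Δ →* AddMonoid.End V) : modOfEnd (p := p) a ≃ₗ[ZMod p] V :=
  (repOfEnd (p := p) a).asModuleEquiv

theorem ofMod_single_smul (a : Δ →* AddMonoid.End V) (g : Δ) (x : modOfEnd (p := p) a) :
    ofMod a (MonoidAlgebra.single g (1 : ZMod p) • x) = a g (ofMod a x) := by
  rw [Representation.single_smul, one_smul]
  rfl

theorem single_smul_symm (a : Δ →* AddMonoid.End V) (g : Δ) (v : V) :
    MonoidAlgebra.single g (1 : ZMod p) • (ofMod (p := p) a).symm v = (ofMod a).symm (a g v) := by
  apply (ofMod a).injective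
  rw [ofMod_single_smul, LinearEquiv.apply_symm_apply, LinearEquiv.apply_symm_apply]

variable (a : Δ →* AddMonoid.End V) (b : Δ →* AddMonoid.End W)

/-- Linear maps into a submodule of `modOfEnd b` are the equivariant additive maps with values in
the submodule. -/
noncomputable def homEquivSub (S : Submodule (MonoidAlgebra (ZMod p) Δ) (modOfEnd (p := p) b)) :
    (modOfEnd (p := p) a →ₗ[MonoidAlgebra (ZMod p) Δ] S) ≃
      {f : V →+ W // (∀ v, (ofMod (p := p) b).symm (f v) ∈ S) ∧
        ∀ (g : Δ) (v : V), f (a g v) = b g (f v)} where
  toFun F :=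
    ⟨{ toFun := fun v => ofMod b ((F ((ofMod a).symm v) : S) : modOfEnd (p := p) b)
       map_zero' := by simp
       map_add' := fun v v' => by simp },
      fun v => by
        simp only [AddMonoidHom.coe_mk, ZeroHom.coe_mk, LinearEquiv.symm_apply_apply]
        exact (F ((ofMod a).symm v)).2,
      fun g v => by
        simp only [AddMonoidHom.coe_mk, ZeroHom.coe_mk]
        rw [← single_smul_symm, map_smul, Submodule.coe_smul, ofMod_single_smul]⟩
  invFun f :=
    linearMapOfSingle
      { toFun := fun x => ⟨(ofMod b).symm (f.1 (ofMod a x)), f.2.1 _⟩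
        map_zero' := by
          apply Subtype.ext
          simp
        map_add' := fun x y => by
          apply Subtype.ext
          simp }
      (by
        intro g x
        apply Subtype.ext
        simp only [AddMonoidHom.coe_mk, ZeroHom.coe_mk, Submodule.coe_smul]
        rw [ofMod_single_smul, single_smul_symm, f.2.2 g])
  left_inv F := by
    ext x
    simp
  right_inv f := by
    apply Subtype.ext
    ext v
    simp

/-- Linear maps `modOfEnd a → modOfEnd b` are the equivariant additive maps. -/
noncomputable def homEquiv :
    (modOfEnd (p := p) a →ₗ[MonoidAlgebra (ZMod p) Δ] modOfEnd (p := p) b) ≃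
      {f : V →+ W // ∀ (g : Δ) (v : V), f (a g v) = b g (f v)} where
  toFun F :=
    ⟨{ toFun := fun v => ofMod b (F ((ofMod a).symm v))
       map_zero' := by simp
       map_add' := fun v v' => by simp },
      fun g v => by
        simp only [AddMonoidHom.coe_mk, ZeroHom.coe_mk]
        rw [← single_smul_symm, map_smul, ofMod_single_smul]⟩
  invFun f :=
    linearMapOfSingle
      { toFun := fun x => (ofMod b).symm (f.1 (ofMod a x))
        map_zero' := by simp
        map_add' := fun x y => by simp }
      (by
        intro g x
        simp only [AddMonoidHom.coe_mk, ZeroHom.coe_mk]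
        rw [ofMod_single_smul, single_smul_symm, f.2 g])
  left_inv F := by
    ext x
    simp
  right_inv f := by
    apply Subtype.ext
    ext v
    simp

end Fermat.Agent.TW.Cnt.RepBridge71
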