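/-
Program TW (S56), WP7 brick B11 (CNT-P), helper71.

The count of equivariant homomorphisms into the principal units modulo `p`-th powers.

`O` as in `UnitGr71.UnitSetup`, a group `Δ` acting on `O` by ring automorphisms with
`g π = π w_g`, `B` a `(ZMod p)[Δ]`-module, `q : O → B` additive on units and `Δ`-equivariant.
`fil E i` is the `(ZMod p)[Δ]`-submodule `q (1 + π^i O)`.

For modules `M i` which are models of the residue field with the twisted action
`g ⋆ x = w_g^i g(x)` (`LevelData`), a projective module `X` and `(p-1) j₀ = e`: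

  `#Hom(X, fil e) ≤ (∏_{e ≤ i < p j₀, p ∤ i} #Hom(X, M i)) * #Hom(X, fil (p j₀))`,

and `fil i = 0` for `i > p j₀`.
-/
import Mathlib
import Fermat.Agent.TW.Cnt.UnitGr71
import Fermat.Agent.TW.Cnt.FiltCount71

set_option autoImplicit false
set_option linter.unusedSectionVars false
set_option linter.style.haveILetI false

namespace Fermat.Agent.TW.Cnt.UnitCount71

open Fermat.Agent.TW.Cnt.UnitFil71 Fermat.Agent.TW.Cnt.UnitGr71 Fermat.Agent.TW.Cnt.FiltCount71

variable {O : Type*} [CommRing O] {p : ℕ} [hpF : Fact p.Prime] {π u u' : O} {e : ℕ}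
variable {Δ : Type*} [Group Δ] [MulSemiringAction Δ O]
variable {B : Type*} [AddCommGroup B] [Module (MonoidAlgebra (ZMod p) Δ) B]

/-- The equivariance data: `g π = π w_g`, and `q : O → B` is additive on units and equivariant. -/
structure EquivData (π : O) (w : Δ → O) (q : O → B) : Prop where
  hw : ∀ g : Δ, g • π = π * w g
  hq_mul : ∀ a b : O, IsUnit a → IsUnit b → q (a * b) = q a + q b
  hq_smul : ∀ (g : Δ) (a : O), IsUnit a →
    q (g • a) = MonoidAlgebra.single g (1 : ZMod p) • q a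

section Fil

variable {w : Δ → O} {q : O → B} (E : EquivData (p := p) π w q)

include E

theorem EquivData.hq_pow (a : O) (ha : IsUnit a) : q (a ^ p) = 0 := by
  rw [q_pow q E.hq_mul ha, nsmul_prime_eq_zero p Δ]

theorem EquivData.smul_one_add (g : Δ) (i : ℕ) (c : O) :
    g • (1 + π ^ i * c) = 1 + π ^ i * (w g ^ i * g • c) := by
  rw [smul_add, smul_one, smul_mul', smul_pow', E.hw g, mul_pow]
  ring

theorem EquivData.isUnit_smul (g : Δ) {a : O} (ha : IsUnit a) : IsUnit (g • a) := by
  have := ha.map (MulSemiringAction.toRingHom Δ O g)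
  simpa using this

/-- The filtration by `(ZMod p)[Δ]`-submodules. -/
def fil (i : ℕ) : Submodule (MonoidAlgebra (ZMod p) Δ) B :=
  submoduleOfSingle (lvl π q E.hq_mul i) (by
    rintro g _ ⟨a, ha, ⟨c, hc⟩, rfl⟩
    refine ⟨g • a, E.isUnit_smul g ha, ?_, E.hq_smul g a ha⟩
    have ha' : a = 1 + π ^ i * c := by rw [← hc]; ring
    rw [ha', E.smul_one_add]
    exact ⟨w g ^ i * g • c, by ring⟩)

theorem mem_fil {i : ℕ} {b : B} : b ∈ fil E i ↔ b ∈ lvl π q E.hq_mul i := Iff.rfl

theorem fil_anti {i i' : ℕ} (h : i ≤ i') : fil E i' ≤ fil E i := fun _ hb =>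
  lvl_anti q E.hq_mul h hb

end Fil

/-- A model of the residue field with the `i`-th twisted action. -/
structure LevelData (π : O) (w : Δ → O) (i : ℕ) (Mi : Type*) [AddCommGroup Mi]
    [Module (MonoidAlgebra (ZMod p) Δ) Mi] (r : O →+ Mi) : Prop where
  surj : Function.Surjective r
  ker : ∀ c : O, r c = 0 ↔ π ∣ c
  smul : ∀ (g : Δ) (c : O), MonoidAlgebra.single g (1 : ZMod p) • r c = r (w g ^ i * g • c)

section Level

variable {w : Δ → O} {q : O → B} (E : EquivData (p := p) π w q)
variable (S : UnitSetup O p π u u' e)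
variable {i : ℕ} {Mi : Type*} [AddCommGroup Mi] [Module (MonoidAlgebra (ZMod p) Δ) Mi]
  {r : O →+ Mi} (L : LevelData (p := p) π w i Mi r)

include S L in
theorem mk_q_add (hi : 1 ≤ i) {c c₁ c₂ : O} (h : r c = r c₁ + r c₂) :
    (fil E (i + 1)).mkQ (q (1 + π ^ i * c)) =
      (fil E (i + 1)).mkQ (q (1 + π ^ i * c₁)) + (fil E (i + 1)).mkQ (q (1 + π ^ i * c₂)) := by
  rw [← map_add, Submodule.mkQ_apply, Submodule.mkQ_apply, Submodule.Quotient.eq]
  apply q_add_mem q E.hq_mul S hi
  rw [← L.ker, map_sub, map_add, h, sub_self]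

include S L in
theorem mk_q_congr (hi : 1 ≤ i) {c c₁ : O} (h : r c = r c₁) :
    (fil E (i + 1)).mkQ (q (1 + π ^ i * c)) = (fil E (i + 1)).mkQ (q (1 + π ^ i * c₁)) := by
  rw [Submodule.mkQ_apply, Submodule.mkQ_apply, Submodule.Quotient.eq]
  apply q_congr_mem q E.hq_mul S hi
  rw [← L.ker, map_sub, h, sub_self]

/-- The graded map `M i → B ⧸ fil (i+1)`, `r c ↦ [q (1 + π^i c)]`. -/
noncomputable def gr (hi : 1 ≤ i) : Mi →ₗ[MonoidAlgebra (ZMod p) Δ] B ⧸ fil E (i + 1) :=
  linearMapOfSingle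
    { toFun := fun m => (fil E (i + 1)).mkQ (q (1 + π ^ i * Function.surjInv L.surj m))
      map_zero' := by
        have h0 : r (Function.surjInv L.surj 0) = r 0 := by
          rw [Function.surjInv_eq L.surj, map_zero]
        rw [mk_q_congr E S L hi h0, mul_zero, add_zero, q_one q E.hq_mul, map_zero]
      map_add' := by
        intro m₁ m₂
        apply mk_q_add E S L hi
        simp only [Function.surjInv_eq L.surj] }
    (by
      intro g m
      simp only [AddMonoidHom.coe_mk, ZeroHom.coe_mk]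
      have h1 : r (Function.surjInv L.surj (MonoidAlgebra.single g (1 : ZMod p) • m))
          = r (w g ^ i * g • Function.surjInv L.surj m) := by
        rw [Function.surjInv_eq L.surj, ← L.smul, Function.surjInv_eq L.surj]
      rw [mk_q_congr E S L hi h1, ← E.smul_one_add,
        E.hq_smul g _ (S.isUnit_one_add hi _), map_smul])

theorem gr_apply (hi : 1 ≤ i) (c : O) :
    gr E S L hi (r c) = (fil E (i + 1)).mkQ (q (1 + π ^ i * c)) := by
  show (fil E (i + 1)).mkQ (q (1 + π ^ i * Function.surjInv L.surj (r c))) = _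
  exact mk_q_congr E S L hi (Function.surjInv_eq L.surj (r c))

theorem map_fil_le_range_gr (hi : 1 ≤ i) :
    (fil E i).map (fil E (i + 1)).mkQ ≤ LinearMap.range (gr E S L hi) := by
  rintro _ ⟨b, hb, rfl⟩
  obtain ⟨c, rfl⟩ := exists_of_mem_lvl q E.hq_mul hb
  exact ⟨r c, gr_apply E S L hi c⟩

end Level

section Count

variable {w : Δ → O} {q : O → B} (E : EquivData (p := p) π w q)
variable (S : UnitSetup O p π u u' e)

include S in
theorem fil_eq_bot {i : ℕ} (hi : p * e < (p - 1) * i) : fil E i = ⊥ := by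
  have h := lvl_eq_bot q E.hq_mul S E.hq_pow hi
  rw [eq_bot_iff]
  intro b hb
  have : b ∈ lvl π q E.hq_mul i := hb
  rw [h] at this
  exact this

include S in
theorem fil_eq_succ {j : ℕ} (hj1 : 1 ≤ j) (hj : (p - 1) * j < e) :
    fil E (p * j) = fil E (p * j + 1) :=
  le_antisymm (fun _ hb => lvl_le_succ q E.hq_mul S E.hq_pow hj1 hj hb)
    (fil_anti E (Nat.le_succ _))

variable (M : ℕ → Type*) [∀ i, AddCommGroup (M i)]
  [∀ i, Module (MonoidAlgebra (ZMod p) Δ) (M i)] [∀ i, Finite (M i)]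
  (r : ∀ i, O →+ M i) (hr : ∀ i, LevelData (p := p) π w i (M i) (r i))
variable {X : Type*} [AddCommGroup X] [Module (MonoidAlgebra (ZMod p) Δ) X]
  [Module.Projective (MonoidAlgebra (ZMod p) Δ) X] [Finite X]

theorem finite_hom (N : Type*) [AddCommGroup N] [Module (MonoidAlgebra (ZMod p) Δ) N] [Finite N] :
    Finite (X →ₗ[MonoidAlgebra (ZMod p) Δ] N) :=
  Finite.of_injective (fun f : X →ₗ[MonoidAlgebra (ZMod p) Δ] N => (f : X → N))
    DFunLike.coe_injective

include S hr in
/-- The top level `T = p j₀` is finite (it is a quotient of `M T`). -/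
theorem finite_hom_fil_top {j₀ : ℕ} (hj₀ : (p - 1) * j₀ = e) :
    Finite (X →ₗ[MonoidAlgebra (ZMod p) Δ] fil E (p * j₀)) ∧
      Nat.card (X →ₗ[MonoidAlgebra (ZMod p) Δ] fil E (p * j₀)) ≤
        Nat.card (X →ₗ[MonoidAlgebra (ZMod p) Δ] M (p * j₀)) := by
  have hp := hpF.out
  have hp1 : 1 ≤ p := hp.one_lt.le
  have he := S.e_pos
  have hj1 : 1 ≤ j₀ := by
    rcases Nat.eq_zero_or_pos j₀ with h | h
    · subst h; omega
    · exact h
  have hT1 : 1 ≤ p * j₀ := Nat.one_le_iff_ne_zero.mpr (Nat.mul_ne_zero hp.ne_zero (by omega))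
  have hbot : fil E (p * j₀ + 1) = ⊥ := by
    apply fil_eq_bot E S
    have : (p - 1) * (p * j₀) = p * e := by rw [← hj₀]; ring
    rw [Nat.mul_add, this]
    have : 1 ≤ p - 1 := by have := hp.two_le; omega
    omega
  haveI : Finite (X →ₗ[MonoidAlgebra (ZMod p) Δ] fil E (p * j₀ + 1)) := by
    rw [hbot]
    exact Nat.finite_of_card_ne_zero (by rw [card_hom_bot]; exact one_ne_zero)
  haveI : Finite (X →ₗ[MonoidAlgebra (ZMod p) Δ] M (p * j₀)) := finite_hom _
  obtain ⟨h1, h2⟩ := card_hom_le_step (X := X) (fil E (p * j₀ + 1)) (fil E (p * j₀))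
    (gr E S (hr (p * j₀)) hT1) (map_fil_le_range_gr E S (hr (p * j₀)) hT1)
  refine ⟨h1, h2.trans ?_⟩
  rw [card_hom_congr hbot, card_hom_bot, one_mul]

include S hr in
/-- **The count.** -/
theorem card_hom_fil_le {j₀ : ℕ} (hj₀ : (p - 1) * j₀ = e) :
    Finite (X →ₗ[MonoidAlgebra (ZMod p) Δ] fil E e) ∧
      Nat.card (X →ₗ[MonoidAlgebra (ZMod p) Δ] fil E e) ≤
        (∏ i ∈ Finset.Ico e (p * j₀),
          if p ∣ i then 1 else Nat.card (X →ₗ[MonoidAlgebra (ZMod p) Δ] M i)) *
        Nat.card (X →ₗ[MonoidAlgebra (ZMod p) Δ] fil E (p * j₀)) := by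
  have hp := hpF.out
  have hp1 : 1 ≤ p := hp.one_lt.le
  have he := S.e_pos
  have heT : e ≤ p * j₀ := by
    have : p * j₀ = (p - 1) * j₀ + j₀ := by
      conv_lhs => rw [← Nat.sub_add_cancel hp1]
      ring
    omega
  -- downward induction
  have key : ∀ n i : ℕ, i + n = p * j₀ → e ≤ i →
      Finite (X →ₗ[MonoidAlgebra (ZMod p) Δ] fil E i) ∧
      Nat.card (X →ₗ[MonoidAlgebra (ZMod p) Δ] fil E i) ≤
        (∏ l ∈ Finset.Ico i (p * j₀),
          if p ∣ l then 1 else Nat.card (X →ₗ[MonoidAlgebra (ZMod p) Δ] M l)) *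
        Nat.card (X →ₗ[MonoidAlgebra (ZMod p) Δ] fil E (p * j₀)) := by
    intro n
    induction n with
    | zero =>
      intro i hi _
      rw [add_zero] at hi
      subst hi
      refine ⟨(finite_hom_fil_top E S M r hr hj₀).1, ?_⟩
      simp
    | succ n ih =>
      intro i hi hei
      have hlt : i < p * j₀ := by omega
      obtain ⟨hfin, hcard⟩ := ih (i + 1) (by omega) (by omega)
      have hi1 : 1 ≤ i := by omega
      rw [Finset.prod_eq_prod_Ico_succ_bot hlt]
      by_cases hpi : p ∣ i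
      · obtain ⟨j, rfl⟩ := hpi
        have hjj : j < j₀ := lt_of_mul_lt_mul_left hlt (Nat.zero_le p)
        have hj1 : 1 ≤ j := by
          rcases Nat.eq_zero_or_pos j with h | h
          · subst h; omega
          · exact h
        have hj : (p - 1) * j < e := by
          rw [← hj₀]
          exact Nat.mul_lt_mul_of_pos_left hjj (by have := hp.two_le; omega)
        have heq := fil_eq_succ E S hj1 hj
        rw [if_pos (dvd_mul_right p j), one_mul]
        constructor
        · rw [heq]; exact hfin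
        · rw [card_hom_congr heq]; exact hcard
      · rw [if_neg hpi]
        haveI := hfin
        haveI : Finite (X →ₗ[MonoidAlgebra (ZMod p) Δ] M i) := finite_hom _
        obtain ⟨h1, h2⟩ := card_hom_le_step (X := X) (fil E (i + 1)) (fil E i)
          (gr E S (hr i) hi1) (map_fil_le_range_gr E S (hr i) hi1)
        refine ⟨h1, h2.trans ?_⟩
        calc Nat.card (X →ₗ[MonoidAlgebra (ZMod p) Δ] fil E (i + 1)) *
              Nat.card (X →ₗ[MonoidAlgebra (ZMod p) Δ] M i)
            ≤ ((∏ l ∈ Finset.Ico (i + 1) (p * j₀),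
                if p ∣ l then 1 else Nat.card (X →ₗ[MonoidAlgebra (ZMod p) Δ] M l)) *
              Nat.card (X →ₗ[MonoidAlgebra (ZMod p) Δ] fil E (p * j₀))) *
              Nat.card (X →ₗ[MonoidAlgebra (ZMod p) Δ] M i) := Nat.mul_le_mul_right _ hcard
          _ = _ := by ring
  exact key (p * j₀ - e) e (by omega) le_rfl

end Count

end Fermat.Agent.TW.Cnt.UnitCount71
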