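/-
Program TW (S56), WP7 brick B11 (CNT-P), helper71.

The elementary form of the count of `UnitCount71` (no group algebra in the statement).

`eqHom π q hq_mul act ψ i` is the group of additive maps `Φ : k → B` with values in the level-`i`
subgroup `lvl π q hq_mul i = q (1 + π^i O)` and `Φ (ψ g * a) = act g (Φ a)`.

  `card_eqHom_le :  #eqHom e ≤ (∏_{e ≤ i < p j₀, p ∤ i} #twHom (res (w ·)^i) ψ) * #eqHom (p j₀)`.
-/
import Mathlib
import Fermat.Agent.TW.Cnt.UnitCount71
import Fermat.Agent.TW.Cnt.LevelBound71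
import Fermat.Agent.TW.Cnt.RepBridge71

set_option autoImplicit false
set_option linter.unusedSectionVars false
set_option linter.style.haveILetI false

namespace Fermat.Agent.TW.Cnt.UnitMult71

open Fermat.Agent.TW.Cnt.UnitFil71 Fermat.Agent.TW.Cnt.UnitGr71 Fermat.Agent.TW.Cnt.FiltCount71
  Fermat.Agent.TW.Cnt.UnitCount71 Fermat.Agent.TW.Cnt.LevelBound71
  Fermat.Agent.TW.Cnt.RepBridge71

variable {O : Type*} [CommRing O] {p : ℕ} [Fact p.Prime] {π u u' : O} {e : ℕ}
variable {Δ : Type*} [Group Δ] [Finite Δ] [MulSemiringAction Δ O]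
variable {B : Type*} [AddCommGroup B]
variable {κ : Type*} [Field κ] [Finite κ] [Algebra (ZMod p) κ] [MulSemiringAction Δ κ]
variable {k : Type*} [Field k] [Finite k] [Algebra (ZMod p) k]

variable (π) in
/-- `Δ`-equivariant additive maps `k(ψ) → B` with values in the level-`i` subgroup. -/
def eqHom (q : O → B) (hq_mul : ∀ a b : O, IsUnit a → IsUnit b → q (a * b) = q a + q b)
    (act : Δ →* AddMonoid.End B) (ψ : Δ →* kˣ) (i : ℕ) : AddSubgroup (k →+ B) where
  carrier := {Φ | (∀ a, Φ a ∈ lvl π q hq_mul i) ∧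
    ∀ (g : Δ) (a : k), Φ ((ψ g : k) * a) = act g (Φ a)}
  zero_mem' := ⟨fun _ => (lvl π q hq_mul i).zero_mem, fun g a => by simp⟩
  add_mem' := by
    rintro Φ Φ' ⟨h1, h2⟩ ⟨h1', h2'⟩
    exact ⟨fun a => (lvl π q hq_mul i).add_mem (h1 a) (h1' a), fun g a => by
      simp only [AddMonoidHom.add_apply, h2, h2', map_add]⟩
  neg_mem' := by
    rintro Φ ⟨h1, h2⟩
    exact ⟨fun a => (lvl π q hq_mul i).neg_mem (h1 a), fun g a => by
      simp only [AddMonoidHom.neg_apply, h2, map_neg]⟩

theorem mem_eqHom {q : O → B} {hq_mul : ∀ a b : O, IsUnit a → IsUnit b → q (a * b) = q a + q b}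
    {act : Δ →* AddMonoid.End B} {ψ : Δ →* kˣ} {i : ℕ} {Φ : k →+ B} :
    Φ ∈ eqHom π q hq_mul act ψ i ↔ (∀ a, Φ a ∈ lvl π q hq_mul i) ∧
      ∀ (g : Δ) (a : k), Φ ((ψ g : k) * a) = act g (Φ a) := Iff.rfl

/-! ### The cocycle `w` -/

section Cocycle

variable (S : UnitSetup O p π u u' e) {w : Δ → O} (hw : ∀ g : Δ, g • π = π * w g)

include S hw

theorem w_one : w 1 = 1 := by
  have h := hw 1
  rw [one_smul] at h
  have : π * (w 1 - 1) = 0 := by rw [mul_sub, ← h, mul_one, sub_self]
  exact sub_eq_zero.mp (S.complete.nzd _ this)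

theorem w_mul (g h : Δ) : w (g * h) = w g * g • w h := by
  have h1 := hw (g * h)
  rw [mul_smul, hw h, smul_mul', hw g] at h1
  have : π * (w g * g • w h - w (g * h)) = 0 := by
    rw [mul_sub, ← h1]; ring
  exact (sub_eq_zero.mp (S.complete.nzd _ this)).symm

end Cocycle

/-! ### The actions -/

/-- `Δ` acts on `k` through `ψ`. -/
def actK (ψ : Δ →* kˣ) : Δ →* AddMonoid.End k :=
  ((Module.toAddMonoidEnd k k : k →+* AddMonoid.End k) : k →* AddMonoid.End k).comp
    ((Units.coeHom k).comp ψ)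

@[simp] theorem actK_apply (ψ : Δ →* kˣ) (g : Δ) (a : k) : actK ψ g a = (ψ g : k) * a := rfl

/-- The twisted action `x ↦ t g * g • x` on `κ` for a crossed homomorphism `t`. -/
def actTw (t : Δ → κ) (ht1 : t 1 = 1) (htmul : ∀ g h : Δ, t (g * h) = t g * g • t h) :
    Δ →* AddMonoid.End κ where
  toFun g :=
    { toFun := fun x => t g * g • x
      map_zero' := by rw [smul_zero, mul_zero]
      map_add' := fun x y => by rw [smul_add, mul_add] }
  map_one' := by
    ext x
    show t 1 * (1 : Δ) • x = x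
    rw [ht1, one_smul, one_mul]
  map_mul' g h := by
    ext x
    show t (g * h) * (g * h) • x = t g * g • (t h * h • x)
    rw [htmul, mul_smul, smul_mul']
    ring

@[simp] theorem actTw_apply (t : Δ → κ) (ht1 : t 1 = 1)
    (htmul : ∀ g h : Δ, t (g * h) = t g * g • t h) (g : Δ) (x : κ) :
    actTw t ht1 htmul g x = t g * g • x := rfl

/-! ### The count in elementary form -/

section Main

variable (S : UnitSetup O p π u u' e) {j₀ : ℕ} (hj₀ : (p - 1) * j₀ = e)
  (hΔ : ¬ p ∣ Nat.card Δ) (w : Δ → O) (hw : ∀ g : Δ, g • π = π * w g)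
  (q : O → B) (hq_mul : ∀ a b : O, IsUnit a → IsUnit b → q (a * b) = q a + q b)
  (hpB : ∀ b : B, p • b = 0)
  (act : Δ →* AddMonoid.End B) (hq_act : ∀ (g : Δ) (a : O), IsUnit a → q (g • a) = act g (q a))
  (res : O →+* κ) (hres : Function.Surjective res) (hker : ∀ c : O, res c = 0 ↔ π ∣ c)
  (hres_smul : ∀ (g : Δ) (a : O), res (g • a) = g • res a) (ψ : Δ →* kˣ)

include S hw hres_smul in
theorem resw_one (i : ℕ) : (fun g : Δ => res (w g) ^ i) 1 = 1 := by
  simp only [w_one S hw, map_one, one_pow]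

include S hw hres_smul in
theorem resw_mul (i : ℕ) (g h : Δ) :
    (fun g : Δ => res (w g) ^ i) (g * h)
      = (fun g : Δ => res (w g) ^ i) g * g • (fun g : Δ => res (w g) ^ i) h := by
  simp only [w_mul S hw, map_mul, mul_pow, hres_smul, smul_pow']

include S hj₀ hΔ hw hq_act hres hker hres_smul in
/-- The count, elementary form, with a given `ZMod p`-module structure on `B`. -/
theorem card_eqHom_le_of_module [Module (ZMod p) B] :
    Nat.card (eqHom π q hq_mul act ψ e) ≤
      (∏ i ∈ Finset.Ico e (p * j₀),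
        if p ∣ i then 1 else Nat.card (twHom (fun g : Δ => res (w g) ^ i) ψ)) *
      Nat.card (eqHom π q hq_mul act ψ (p * j₀)) := by
  classical
  haveI : NeZero (Nat.card Δ : ZMod p) :=
    ⟨fun h => hΔ ((ZMod.natCast_eq_zero_iff _ _).mp h)⟩
  -- the modules
  let M : ℕ → Type _ := fun i =>
    modOfEnd (p := p) (actTw (fun g : Δ => res (w g) ^ i) (resw_one S w hw res hres_smul i)
      (resw_mul S w hw res hres_smul i))
  let q' : O → modOfEnd (p := p) act := fun a => (ofMod act).symm (q a)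
  have E : EquivData (p := p) (Δ := Δ) (B := modOfEnd (p := p) act) π w q' :=
    { hw := hw
      hq_mul := fun a b ha hb => by
        show (ofMod act).symm (q (a * b)) = _
        rw [hq_mul a b ha hb, map_add]
      hq_smul := fun g a ha => by
        show (ofMod act).symm (q (g • a)) = _
        rw [hq_act g a ha, ← single_smul_symm] }
  let r : ∀ i, O →+ M i := fun i =>
    ((ofMod (p := p) (actTw (fun g : Δ => res (w g) ^ i) (resw_one S w hw res hres_smul i)
      (resw_mul S w hw res hres_smul i))).symm.toLinearMap.toAddMonoidHom).comp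
      res.toAddMonoidHom
  have hr : ∀ i, LevelData (p := p) π w i (M i) (r i) := fun i =>
    { surj := fun m => by
        obtain ⟨c, hc⟩ := hres (ofMod _ m)
        exact ⟨c, by
          show (ofMod _).symm (res c) = m
          rw [hc, LinearEquiv.symm_apply_apply]⟩
      ker := fun c => by
        show (ofMod _).symm (res c) = 0 ↔ _
        rw [LinearEquiv.map_eq_zero_iff, hker]
      smul := fun g c => by
        show MonoidAlgebra.single g (1 : ZMod p) • (ofMod _).symm (res c)
          = (ofMod _).symm (res (w g ^ i * g • c))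
        have h1 : res (w g ^ i * g • c) = res (w g) ^ i * g • res c := by
          rw [map_mul, map_pow, hres_smul]
        rw [single_smul_symm, actTw_apply, h1] }
  haveI : ∀ i, Finite (M i) := fun i => Finite.of_equiv κ (ofMod _).symm.toEquiv
  haveI : Finite (modOfEnd (p := p) (actK ψ)) := Finite.of_equiv k (ofMod _).symm.toEquiv
  haveI : Module.Projective (MonoidAlgebra (ZMod p) Δ) (modOfEnd (p := p) (actK ψ)) :=
    Module.projective_of_isSemisimpleRing _ _
  obtain ⟨_, hcard⟩ := card_hom_fil_le E S M r hr (X := modOfEnd (p := p) (actK ψ)) hj₀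
  -- translate the `fil` terms
  have hmem : ∀ (i : ℕ) (b : B), (ofMod act).symm b ∈ fil E i ↔ b ∈ lvl π q hq_mul i := by
    intro i b
    constructor
    · rintro ⟨a, ha, ha1, hab⟩
      refine ⟨a, ha, ha1, ?_⟩
      exact (ofMod act).symm.injective hab
    · rintro ⟨a, ha, ha1, hab⟩
      refine ⟨a, ha, ha1, ?_⟩
      show (ofMod act).symm (q a) = _
      rw [hab]
  have hfil : ∀ i, Nat.card (modOfEnd (p := p) (actK ψ) →ₗ[MonoidAlgebra (ZMod p) Δ] fil E i)
      = Nat.card (eqHom π q hq_mul act ψ i) := by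
    intro i
    refine Nat.card_congr ((homEquivSub (actK ψ) act (fil E i)).trans
      (Equiv.subtypeEquivRight fun Φ => ?_))
    rw [mem_eqHom]
    constructor
    · rintro ⟨h1, h2⟩
      exact ⟨fun a => (hmem i _).mp (h1 a), fun g a => h2 g a⟩
    · rintro ⟨h1, h2⟩
      exact ⟨fun a => (hmem i _).mpr (h1 a), fun g a => h2 g a⟩
  have hM : ∀ i, Nat.card (modOfEnd (p := p) (actK ψ) →ₗ[MonoidAlgebra (ZMod p) Δ] M i)
      = Nat.card (twHom (fun g : Δ => res (w g) ^ i) ψ) := by
    intro i
    refine Nat.card_congr ((homEquiv (actK ψ) _).trans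
      (Equiv.subtypeEquivRight fun Φ => ?_))
    rw [mem_twHom]
    exact Iff.rfl
  rw [hfil, hfil] at hcard
  simp_rw [hM] at hcard
  exact hcard

include S hj₀ hΔ hw hpB hq_act hres hker hres_smul in
/-- **The count, elementary form.** -/
theorem card_eqHom_le :
    Nat.card (eqHom π q hq_mul act ψ e) ≤
      (∏ i ∈ Finset.Ico e (p * j₀),
        if p ∣ i then 1 else Nat.card (twHom (fun g : Δ => res (w g) ^ i) ψ)) *
      Nat.card (eqHom π q hq_mul act ψ (p * j₀)) :=
  @card_eqHom_le_of_module O _ p _ π u u' e Δ _ _ _ B _ κ _ _ _ _ k _ _ _ S j₀ hj₀ hΔ w hw q hq_mul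
    act hq_act res hres hker hres_smul ψ (AddCommGroup.zmodModule hpB)

end Main

end Fermat.Agent.TW.Cnt.UnitMult71
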