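/-
Program TW (S56), WP7 brick B11: the ABSTRACT NUMERICS N1 / N2 of plan #630.  helper75.

Setting of `UnitMult71` (helper71): `O` with `UnitSetup O p π u u' e` (complete, `p = u π^e`), a
finite COMMUTATIVE group `Δ` of order prime to `p` acting faithfully on `O`, `g π = π w_g`,
`q : O → B` additive on units, equivariant, `B` killed by `p`; `res : O →+* κ` a residue-field
model.  `eqHom π q hq_mul act ψ i = Hom_Δ(k(ψ), B^(i))`, `B^(e) = q(1 + pO)`.

The top piece enters through the hypothesis `hTop` (= the literal conclusion of helper71's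
`card_eqHom_top_le`): `#eqHom (p j₀) ≤ |k|`, and `= 1` if `ψ ≠ ω`.

* `card_eqHom_n1` (N1): if the `Δ`-fixed residue classes lie in `𝔽_p` and `e ≤ #inertia`, then
  `#Hom_Δ(k(ψ), B^(e)) ≤ |k| ^ ([ψ = 1 on inertia] + [ψ = ω])`.
* `card_eqHom_n2` (N2): if the `Δ`-fixed residue classes lie in `𝔽_{p²}`, `ψ = ξ⁻¹ ω` with
  `ξ^(p+1) = 1` on inertia, `ξ ≠ 1` on inertia and not (`p = 3` and `ξ = ω` on inertia), then
  `#Hom_Δ(k(ψ), B^(e)) ≤ |k|`.

All hypotheses on `O` are in divisibility form (`x ≡ y mod π` is `π ∣ x - y`), as supplied by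
helper90's INST files.
-/
import Mathlib
import Fermat.Agent.TW.Cnt.UnitMult71
import Fermat.Agent.TW.Cnt.LevelNum75
import Fermat.Agent.TW.Cnt.ResBridge75

set_option autoImplicit false
set_option linter.unusedSectionVars false

namespace Fermat.Agent.TW.Cnt.N1N2_75

open Fermat.Agent.TW.Cnt.UnitFil71 Fermat.Agent.TW.Cnt.UnitGr71 Fermat.Agent.TW.Cnt.UnitCount71
  Fermat.Agent.TW.Cnt.LevelBound71 Fermat.Agent.TW.Cnt.UnitMult71
  Fermat.Agent.TW.Cnt.Numerics75 Fermat.Agent.TW.Cnt.LevelNum75 Fermat.Agent.TW.Cnt.ResBridge75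

variable {O : Type*} [CommRing O] {p : ℕ} [hp : Fact p.Prime] {π u u' : O} {e : ℕ}
variable {Δ : Type*} [CommGroup Δ] [Finite Δ] [MulSemiringAction Δ O]
variable {B : Type*} [AddCommGroup B]
variable {κ : Type*} [Field κ] [Finite κ] [Algebra (ZMod p) κ] [MulSemiringAction Δ κ]
variable {k : Type*} [Field k] [Finite k] [Algebra (ZMod p) k]

section Main

variable (S : UnitSetup O p π u u' e) {j₀ : ℕ} (hj₀ : (p - 1) * j₀ = e)
  (hΔ : ¬ p ∣ Nat.card Δ) (hfaith : ∀ g : Δ, (∀ x : O, g • x = x) → g = 1)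
  (w : Δ → O) (hw : ∀ g : Δ, g • π = π * w g)
  (q : O → B) (hq_mul : ∀ a b : O, IsUnit a → IsUnit b → q (a * b) = q a + q b)
  (hpB : ∀ b : B, p • b = 0)
  (act : Δ →* AddMonoid.End B) (hq_act : ∀ (g : Δ) (a : O), IsUnit a → q (g • a) = act g (q a))
  (res : O →+* κ) (hres : Function.Surjective res) (hker : ∀ c : O, res c = 0 ↔ π ∣ c)
  (hres_smul : ∀ (g : Δ) (a : O), res (g • a) = g • res a)
  (hcard : e ≤ Nat.card {g : Δ // ∀ x : O, π ∣ g • x - x})
  (ω : Δ → ℕ) (ψ : Δ →* kˣ)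

include S hj₀ hΔ hfaith hw hres hker hres_smul hcard in
/-- The tame data of the setting. -/
theorem tameData : TameData p (fun g => res (w g)) e := by
  have hcop : Nat.Coprime (Nat.card Δ) p :=
    ((Nat.Prime.coprime_iff_not_dvd hp.out).mpr hΔ).symm
  have hcard' : e ≤ Nat.card (I0 Δ κ) := by
    have : Nat.card (I0 Δ κ) = Nat.card {g : Δ // ∀ x : O, π ∣ g • x - x} :=
      Nat.card_congr (Equiv.subtypeEquivRight fun g => mem_I0_iff hres hker hres_smul)
    rw [this]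
    exact hcard
  exact tameData_of_res S hw hres hker hres_smul hcop hfaith ⟨j₀, hj₀.symm⟩ hcard'

include S hΔ hker in
theorem natCard_ne_zero : (Nat.card Δ : κ) ≠ 0 :=
  natCard_ne_zero_of_res S hker ((Nat.Prime.coprime_iff_not_dvd hp.out).mpr hΔ).symm

/-- The product of level factors in `card_eqHom_le`, in terms of `levelFactor`. -/
theorem prod_eq_levelFactor (a b : ℕ) :
    (∏ i ∈ Finset.Ico a b,
        if p ∣ i then 1 else Nat.card (twHom (fun g : Δ => res (w g) ^ i) ψ))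
      = ∏ i ∈ Finset.Ico a b, levelFactor p (fun g => res (w g)) ψ i := by
  refine Finset.prod_congr rfl fun i _ => ?_
  unfold levelFactor
  by_cases h : p ∣ i
  · simp only [if_pos h]
  · simp only [if_neg h]

open Classical in
include S hj₀ hΔ hfaith hw hpB hq_act hres hker hres_smul hcard in
/-- **N1.** -/
theorem card_eqHom_n1
    (hfix : ∀ x : O, (∀ g : Δ, π ∣ g • x - x) → π ∣ x ^ p - x)
    (hTop : Nat.card (eqHom π q hq_mul act ψ (p * j₀)) ≤ Nat.card k ∧
      ((∃ g : Δ, (ψ g : k) ≠ ((ω g : ℕ) : k)) →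
        Nat.card (eqHom π q hq_mul act ψ (p * j₀)) = 1)) :
    Nat.card (eqHom π q hq_mul act ψ e) ≤
      Nat.card k ^ ((if ∀ i : Δ, (∀ x : O, π ∣ i • x - x) → ψ i = 1 then 1 else 0) +
        (if ∀ g : Δ, (ψ g : k) = ((ω g : ℕ) : k) then 1 else 0)) := by
  have hpp := hp.out
  have T := tameData S hj₀ hΔ hfaith w hw res hres hker hres_smul hcard
  have hΔκ := natCard_ne_zero (κ := κ) S hΔ res hker
  have hfixκ : ∀ y : κ, (∀ g : Δ, g • y = y) → y ^ p = y :=
    fixed_pow_of_res hres hker hres_smul hfix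
  obtain ⟨he, _⟩ := T.n1 hfixκ
  have hj1 : j₀ = 1 := by
    have h1 : (p - 1) * j₀ = (p - 1) * 1 := by rw [hj₀, he, mul_one]
    exact Nat.eq_of_mul_eq_mul_left (by have := hpp.two_le; omega) h1
  have hW := card_eqHom_le S hj₀ hΔ w hw q hq_mul hpB act hq_act res hres hker hres_smul ψ
  -- the product is the single factor at `p - 1`
  have hprod : (∏ i ∈ Finset.Ico e (p * j₀),
        if p ∣ i then 1 else Nat.card (twHom (fun g : Δ => res (w g) ^ i) ψ))
      = Nat.card (twHom (fun g : Δ => res (w g) ^ (p - 1)) ψ) := by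
    have hIco : Finset.Ico e (p * j₀) = {p - 1} := by
      rw [hj1, mul_one, he]
      have : p = (p - 1) + 1 := by have := hpp.two_le; omega
      conv_lhs => rw [this]
      exact Nat.Ico_succ_singleton (p - 1)
    rw [hIco, Finset.prod_singleton]
    have hnd : ¬ p ∣ p - 1 :=
      Nat.not_dvd_of_pos_of_lt (by have := hpp.two_le; omega) (by have := hpp.two_le; omega)
    rw [if_neg hnd]
  rw [hprod] at hW
  -- level factor
  have h1 : Nat.card (twHom (fun g : Δ => res (w g) ^ (p - 1)) ψ) ≤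
      Nat.card k ^ (if ∀ i : Δ, (∀ x : O, π ∣ i • x - x) → ψ i = 1 then 1 else 0) := by
    have := card_twHom_n1 T hΔκ hfixκ ψ
    have hiff : (∀ i ∈ I0 Δ κ, ψ i = 1) ↔ ∀ i : Δ, (∀ x : O, π ∣ i • x - x) → ψ i = 1 :=
      forall_congr' fun i => by rw [mem_I0_iff hres hker hres_smul]
    rw [if_congr hiff rfl rfl] at this
    exact this
  -- top factor
  have h2 : Nat.card (eqHom π q hq_mul act ψ (p * j₀)) ≤
      Nat.card k ^ (if ∀ g : Δ, (ψ g : k) = ((ω g : ℕ) : k) then 1 else 0) := by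
    by_cases h : ∀ g : Δ, (ψ g : k) = ((ω g : ℕ) : k)
    · rw [if_pos h, pow_one]; exact hTop.1
    · rw [if_neg h, pow_zero]
      push Not at h
      exact (hTop.2 h).le
  calc Nat.card (eqHom π q hq_mul act ψ e)
      ≤ _ * _ := hW
    _ ≤ _ * _ := Nat.mul_le_mul h1 h2
    _ = _ := (pow_add _ _ _).symm

include S hj₀ hΔ hfaith hw hpB hq_act hres hker hres_smul hcard in
/-- **N2.** -/
theorem card_eqHom_n2 (hp2 : p ≠ 2)
    (hfix2 : ∀ x : O, (∀ g : Δ, π ∣ g • x - x) → π ∣ x ^ (p ^ 2) - x)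
    (ζ v₀ v₀' : O) (hζp : ζ ^ p = 1) (hj1 : 1 ≤ j₀) (hv₀ : v₀' * v₀ = 1)
    (hζ : ζ - 1 = π ^ j₀ * v₀) (hωζ : ∀ g : Δ, g • ζ = ζ ^ ω g)
    (ξ : Δ →* kˣ) (hψ : ∀ g : Δ, (ψ g : k) = (ξ g : k)⁻¹ * ((ω g : ℕ) : k))
    (hξ : ∀ i : Δ, (∀ x : O, π ∣ i • x - x) → ξ i ^ (p + 1) = 1)
    (hne : ∃ i : Δ, (∀ x : O, π ∣ i • x - x) ∧ ξ i ≠ 1)
    (hcorner : ¬ (p = 3 ∧ ∀ i : Δ, (∀ x : O, π ∣ i • x - x) → (ξ i : k) = ((ω i : ℕ) : k)))
    (hTop : Nat.card (eqHom π q hq_mul act ψ (p * j₀)) ≤ Nat.card k ∧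
      ((∃ g : Δ, (ψ g : k) ≠ ((ω g : ℕ) : k)) →
        Nat.card (eqHom π q hq_mul act ψ (p * j₀)) = 1)) :
    Nat.card (eqHom π q hq_mul act ψ e) ≤ Nat.card k := by
  have hpp := hp.out
  have T := tameData S hj₀ hΔ hfaith w hw res hres hker hres_smul hcard
  have hΔκ := natCard_ne_zero (κ := κ) S hΔ res hker
  have hfixκ : ∀ y : κ, (∀ g : Δ, g • y = y) → y ^ (p ^ 2) = y :=
    fixed_pow_of_res hres hker hres_smul hfix2
  have hW := card_eqHom_le S hj₀ hΔ w hw q hq_mul hpB act hq_act res hres hker hres_smul ψ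
  rw [prod_eq_levelFactor] at hW
  -- `ω i` is prime to `p`
  have hωne : ∀ g : Δ, ((ω g : ℕ) : k) ≠ 0 := by
    intro g h0
    have hchar : CharP k p :=
      charP_of_injective_algebraMap (algebraMap (ZMod p) k).injective p
    obtain ⟨m, hm⟩ := (CharP.cast_eq_zero_iff k p (ω g)).mp h0
    have h1 : g • ζ = 1 := by rw [hωζ, hm, pow_mul, hζp, one_pow]
    have h2 : ζ = 1 := by
      have := congrArg (fun x => g⁻¹ • x) h1
      simpa using this
    have h3 : π ^ j₀ * v₀ = 0 := by rw [← hζ, h2, sub_self]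
    have h4 : v₀ = 0 := S.complete.pow_mul_cancel j₀ (by rw [h3, mul_zero])
    apply S.not_dvd_one
    have h5 : (1 : O) = 0 := by rw [← hv₀, h4, mul_zero]
    exact ⟨0, by rw [mul_zero]; exact h5⟩
  -- the top piece is trivial
  have htop : Nat.card (eqHom π q hq_mul act ψ (p * j₀)) = 1 := by
    apply hTop.2
    obtain ⟨i, hi, hξi⟩ := hne
    refine ⟨i, ?_⟩
    rw [hψ i]
    intro h
    apply hξi
    have h1 : ((ξ i : k)⁻¹ - 1) * ((ω i : ℕ) : k) = 0 := by rw [sub_mul, h, one_mul, sub_self]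
    rcases mul_eq_zero.mp h1 with h2 | h2
    · have h3 : (ξ i : k)⁻¹ = 1 := sub_eq_zero.mp h2
      have h4 : (ξ i : k) = 1 := by rw [← inv_inv (ξ i : k), h3, inv_one]
      exact Units.ext h4
    · exact absurd h2 (hωne i)
  rw [htop, mul_one] at hW
  refine hW.trans ?_
  -- the product of the level factors
  refine prod_levelFactor_n2' hp2 T hΔκ hfixκ hj₀ (fun g => ((ω g : ℕ) : ZMod p)) ?_ ξ ψ ?_ ?_ ?_
  · intro i hi
    have hi' : ∀ x : O, π ∣ i • x - x := (mem_I0_iff hres hker hres_smul).mp hi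
    have := dvd_natCast_sub_w_pow S.complete.nzd hw hj1 hζ hv₀ hi' (hωζ i)
    rw [← hker, map_sub, map_natCast, map_pow, sub_eq_zero] at this
    rw [map_natCast]
    exact this
  · intro i _
    rw [hψ i, map_natCast]
  · intro i hi
    exact hξ i ((mem_I0_iff hres hker hres_smul).mp hi)
  · rintro ⟨h3, hall⟩
    apply hcorner
    refine ⟨h3, fun i hi => ?_⟩
    have := hall i ((mem_I0_iff hres hker hres_smul).mpr hi)
    rwa [map_natCast] at this

end Main

end Fermat.Agent.TW.Cnt.N1N2_75
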