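/-
Program TW (S56), WP7 brick B11: helper90's LITERAL interface Props `InstSpec90.AbsN1 p`,
`InstSpec90.AbsN2 p` ("family form" of the abstract N1/N2) from `N1N2_75`.  helper75.

* `finite_eqHom` : `Hom_Δ(k(ψ), B^(e))` is finite (first component of
  `UnitCount71.card_hom_fil_le`, transported as in `UnitMult71`).
* `TopSpec p` : the top piece (helper71's `eq_of_zeta` + `card_eqHom_top_le`, literal conclusions)
  as a `Prop`;
* `absN1 : TopSpec p → InstSpec90.AbsN1 p`,  `absN2 : TopSpec p → InstSpec90.AbsN2 p`.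
-/
import Mathlib
import Fermat.Agent.TW.Cnt.N1N2_75
import Fermat.Agent.TW.Cnt.InstSpec90

set_option autoImplicit false
set_option linter.unusedSectionVars false
set_option linter.style.haveILetI false

namespace Fermat.Agent.TW.Cnt.AbsN75

open Fermat.Agent.TW.Cnt.UnitFil71 Fermat.Agent.TW.Cnt.UnitGr71 Fermat.Agent.TW.Cnt.FiltCount71
  Fermat.Agent.TW.Cnt.UnitCount71 Fermat.Agent.TW.Cnt.LevelBound71
  Fermat.Agent.TW.Cnt.RepBridge71 Fermat.Agent.TW.Cnt.UnitMult71
  Fermat.Agent.TW.Cnt.N1N2_75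

section Finite

variable {O : Type*} [CommRing O] {p : ℕ} [Fact p.Prime] {π u u' : O} {e : ℕ}
variable {Δ : Type*} [Group Δ] [Finite Δ] [MulSemiringAction Δ O]
variable {B : Type*} [AddCommGroup B]
variable {κ : Type*} [Field κ] [Finite κ] [Algebra (ZMod p) κ] [MulSemiringAction Δ κ]
variable {k : Type*} [Field k] [Finite k] [Algebra (ZMod p) k]

variable (S : UnitSetup O p π u u' e) {j₀ : ℕ} (hj₀ : (p - 1) * j₀ = e)
  (hΔ : ¬ p ∣ Nat.card Δ) (w : Δ → O) (hw : ∀ g : Δ, g • π = π * w g)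
  (q : O → B) (hq_mul : ∀ a b : O, IsUnit a → IsUnit b → q (a * b) = q a + q b)
  (hpB : ∀ b : B, p • b = 0)
  (act : Δ →* AddMonoid.End B) (hq_act : ∀ (g : Δ) (a : O), IsUnit a → q (g • a) = act g (q a))
  (res : O →+* κ) (hres : Function.Surjective res) (hker : ∀ c : O, res c = 0 ↔ π ∣ c)
  (hres_smul : ∀ (g : Δ) (a : O), res (g • a) = g • res a) (ψ : Δ →* kˣ)

include S hj₀ hΔ hw hq_act hres hker hres_smul in
theorem finite_eqHom_of_module [Module (ZMod p) B] :
    Finite (eqHom π q hq_mul act ψ e) := by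
  classical
  haveI : NeZero (Nat.card Δ : ZMod p) :=
    ⟨fun h => hΔ ((ZMod.natCast_eq_zero_iff _ _).mp h)⟩
  let M : ℕ → Type _ := fun i =>
    modOfEnd (p := p) (actTw (fun g : Δ => res (w g) ^ i) (resw_one S w hw res hres_smul i)
      (resw_mul S w hw res hres_smul i))
  let q' : O → modOfEnd (p := p) act := fun a => (ofMod act).symm (q a)
  have E : EquivData (p := p) (Δ := Δ) (B := modOfEnd (p := p) act) π w q' :=
    { hw := hw
      hq_mul := fun a b ha hb => by
        show (ofMod act).symm (q (a * b)) = _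
        rw [hq_mul a b ha hb, map_add]
      hq_smul := fun g a ha => by
        show (ofMod act).symm (q (g • a)) = _
        rw [hq_act g a ha, ← single_smul_symm] }
  let r : ∀ i, O →+ M i := fun i =>
    ((ofMod (p := p) (actTw (fun g : Δ => res (w g) ^ i) (resw_one S w hw res hres_smul i)
      (resw_mul S w hw res hres_smul i))).symm.toLinearMap.toAddMonoidHom).comp
      res.toAddMonoidHom
  have hr : ∀ i, LevelData (p := p) π w i (M i) (r i) := fun i =>
    { surj := fun m => by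
        obtain ⟨c, hc⟩ := hres (ofMod _ m)
        exact ⟨c, by
          show (ofMod _).symm (res c) = m
          rw [hc, LinearEquiv.symm_apply_apply]⟩
      ker := fun c => by
        show (ofMod _).symm (res c) = 0 ↔ _
        rw [LinearEquiv.map_eq_zero_iff, hker]
      smul := fun g c => by
        show MonoidAlgebra.single g (1 : ZMod p) • (ofMod _).symm (res c)
          = (ofMod _).symm (res (w g ^ i * g • c))
        have h1 : res (w g ^ i * g • c) = res (w g) ^ i * g • res c := by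
          rw [map_mul, map_pow, hres_smul]
        rw [single_smul_symm, actTw_apply, h1] }
  haveI : ∀ i, Finite (M i) := fun i => Finite.of_equiv κ (ofMod _).symm.toEquiv
  haveI : Finite (modOfEnd (p := p) (actK ψ)) := Finite.of_equiv k (ofMod _).symm.toEquiv
  haveI : Module.Projective (MonoidAlgebra (ZMod p) Δ) (modOfEnd (p := p) (actK ψ)) :=
    Module.projective_of_isSemisimpleRing _ _
  obtain ⟨hfin, _⟩ := card_hom_fil_le E S M r hr (X := modOfEnd (p := p) (actK ψ)) hj₀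
  have hmem : ∀ (i : ℕ) (b : B), (ofMod act).symm b ∈ fil E i ↔ b ∈ lvl π q hq_mul i := by
    intro i b
    constructor
    · rintro ⟨a, ha, ha1, hab⟩
      refine ⟨a, ha, ha1, ?_⟩
      exact (ofMod act).symm.injective hab
    · rintro ⟨a, ha, ha1, hab⟩
      refine ⟨a, ha, ha1, ?_⟩
      show (ofMod act).symm (q a) = _
      rw [hab]
  refine @Finite.of_equiv _ _ hfin ((homEquivSub (actK ψ) act (fil E e)).trans
    (Equiv.subtypeEquivRight fun Φ => ?_))
  rw [mem_eqHom]
  constructor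
  · rintro ⟨h1, h2⟩
    exact ⟨fun a => (hmem e _).mp (h1 a), fun g a => h2 g a⟩
  · rintro ⟨h1, h2⟩
    exact ⟨fun a => (hmem e _).mpr (h1 a), fun g a => h2 g a⟩

include S hj₀ hΔ hw hpB hq_act hres hker hres_smul in
/-- `Hom_Δ(k(ψ), B^(e))` is finite. -/
theorem finite_eqHom : Finite (eqHom π q hq_mul act ψ e) :=
  @finite_eqHom_of_module O _ p _ π u u' e Δ _ _ _ B _ κ _ _ _ _ k _ _ _ S j₀ hj₀ hΔ w hw q hq_mul
    act hq_act res hres hker hres_smul ψ (AddCommGroup.zmodModule hpB)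

end Finite

/-! ### The top piece as a `Prop` -/

/-- The top piece: helper71's `eq_of_zeta` and `card_eqHom_top_le` (literal conclusions), with all
the hypotheses available in `AbsN1` / `AbsN2`. -/
def TopSpec (p : ℕ) [Fact p.Prime] : Prop :=
  ∀ (O : Type) [CommRing O] (π u u' : O) (e : ℕ), UnitSetup O p π u u' e →
  ∀ (Δ : Type) [Group Δ] [Finite Δ] [MulSemiringAction Δ O], ¬ p ∣ Nat.card Δ →
  ∀ (w : Δ → O), (∀ g : Δ, g • π = π * w g) →
  ∀ (B : Type) [AddCommGroup B] (q : O → B)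
    (hq_mul : ∀ a b : O, IsUnit a → IsUnit b → q (a * b) = q a + q b),
    (∀ b : B, p • b = 0) →
  ∀ (act : Δ →* AddMonoid.End B), (∀ (g : Δ) (a : O), IsUnit a → q (g • a) = act g (q a)) →
  ∀ (κ : Type) [Field κ] [Finite κ] [Algebra (ZMod p) κ] [MulSemiringAction Δ κ] (res : O →+* κ),
    Function.Surjective res → (∀ c : O, res c = 0 ↔ π ∣ c) →
    (∀ (g : Δ) (a : O), res (g • a) = g • res a) →
  ∀ (ζ v₀ : O) (j₀ : ℕ), ζ ^ p = 1 → 1 ≤ j₀ → IsUnit v₀ → ζ - 1 = π ^ j₀ * v₀ →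
    (p - 1) * j₀ = e ∧
    ∀ (ω : Δ → ℕ), (∀ g : Δ, g • ζ = ζ ^ ω g) →
    ∀ (k : Type) [Field k] [Finite k] [Algebra (ZMod p) k] (ψ : Δ →* kˣ),
      Nat.card (eqHom π q hq_mul act ψ (p * j₀)) ≤ Nat.card k ∧
      ((∃ g : Δ, (ψ g : k) ≠ ((ω g : ℕ) : k)) →
        Nat.card (eqHom π q hq_mul act ψ (p * j₀)) = 1)

/-! ### Family form -/

section Family

variable {O : Type*} [CommRing O] {π : O}
variable {Δ : Type*} [Group Δ]
variable {B : Type*} [AddCommGroup B]
variable {k : Type*} [Field k]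

/-- A family of equivariant additive maps injects into `eqHom`. -/
theorem card_family_le {q : O → B}
    {hq_mul : ∀ a b : O, IsUnit a → IsUnit b → q (a * b) = q a + q b}
    {act : Δ →* AddMonoid.End B} {ψ : Δ →* kˣ} {i : ℕ}
    [hfin : Finite (eqHom π q hq_mul act ψ i)]
    {F : Type*} (ι : F → k → B) (hinj : Function.Injective ι)
    (hadd : ∀ f a a', ι f (a + a') = ι f a + ι f a')
    (hlvl : ∀ f a, ι f a ∈ lvl π q hq_mul i)
    (heq : ∀ f (g : Δ) a, ι f ((ψ g : k) * a) = act g (ι f a)) :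
    Finite F ∧ Nat.card F ≤ Nat.card (eqHom π q hq_mul act ψ i) := by
  let j : F → eqHom π q hq_mul act ψ i := fun f =>
    ⟨AddMonoidHom.mk' (ι f) (hadd f), ⟨fun a => hlvl f a, fun g a => heq f g a⟩⟩
  have hj : Function.Injective j := by
    intro f f' h
    apply hinj
    funext a
    have := congrArg (fun Φ : eqHom π q hq_mul act ψ i => (Φ : k →+ B) a) h
    exact this
  exact ⟨Finite.of_injective j hj, Nat.card_le_card_of_injective j hj⟩

end Family

/-! ### The literal interface Props -/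

section Abs

variable {p : ℕ} [hp : Fact p.Prime]

theorem natCast_val_eq_algebraMap {k : Type*} [Field k] [Algebra (ZMod p) k] (x : ZMod p) :
    ((x.val : ℕ) : k) = algebraMap (ZMod p) k x := by
  conv_rhs => rw [← ZMod.natCast_zmod_val x]
  rw [map_natCast]

/-- **helper90's `AbsN1`**, from the top piece. -/
theorem absN1 (hTop : TopSpec p) : InstSpec90.AbsN1 p := by
  classical
  intro _hp2 O _ π u u' e S Δ _ _ _ hΔ hfaith w hw B _ q hq_mul hpB act hq_act κ _ _ _ _ res hres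
    hker hres_smul hfix hcard ζ v₀ j₀ hζp hj1 hv₀ hζ ω hω k _ _ _ ψ F ι hinj hadd hlvl heq
  obtain ⟨hj₀, hT⟩ := hTop O π u u' e S Δ hΔ w hw B q hq_mul hpB act hq_act κ res hres hker
    hres_smul ζ v₀ j₀ hζp hj1 hv₀ hζ
  have hT' := hT (fun g => ((ω g : (ZMod p)ˣ) : ZMod p).val) hω k ψ
  haveI := finite_eqHom S hj₀ hΔ w hw q hq_mul hpB act hq_act res hres hker hres_smul ψ
  obtain ⟨hfinF, hcardF⟩ := card_family_le ι hinj hadd hlvl heq
  refine ⟨hfinF, hcardF.trans ?_⟩
  have hmain := card_eqHom_n1 S hj₀ hΔ hfaith w hw q hq_mul hpB act hq_act res hres hker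
    hres_smul hcard (fun g => ((ω g : (ZMod p)ˣ) : ZMod p).val) ψ hfix hT'
  have hiff : (∀ g : Δ, (ψ g : k) = ((((ω g : (ZMod p)ˣ) : ZMod p).val : ℕ) : k)) ↔
      ∀ g : Δ, (ψ g : k) = algebraMap (ZMod p) k ((ω g : (ZMod p)ˣ) : ZMod p) :=
    forall_congr' fun g => by rw [natCast_val_eq_algebraMap]
  rw [if_congr hiff rfl rfl] at hmain
  convert hmain using 3

/-- **helper90's `AbsN2`**, from the top piece. -/
theorem absN2 (hTop : TopSpec p) : InstSpec90.AbsN2 p := by
  classical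
  intro hp2 O _ π u u' e S Δ _ _ _ hΔ hfaith w hw B _ q hq_mul hpB act hq_act κ _ _ _ _ res hres
    hker hres_smul hfix2 hcard ζ v₀ j₀ hζp hj1 hv₀ hζ ω hω k _ _ _ ξ ψ hψ hξ hne hcorner
    F ι hinj hadd hlvl heq
  obtain ⟨hj₀, hT⟩ := hTop O π u u' e S Δ hΔ w hw B q hq_mul hpB act hq_act κ res hres hker
    hres_smul ζ v₀ j₀ hζp hj1 hv₀ hζ
  have hT' := hT (fun g => ((ω g : (ZMod p)ˣ) : ZMod p).val) hω k ψ
  haveI := finite_eqHom S hj₀ hΔ w hw q hq_mul hpB act hq_act res hres hker hres_smul ψ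
  obtain ⟨hfinF, hcardF⟩ := card_family_le ι hinj hadd hlvl heq
  refine ⟨hfinF, hcardF.trans ?_⟩
  obtain ⟨v₀', hv₀'⟩ := hv₀.exists_left_inv
  refine card_eqHom_n2 S hj₀ hΔ hfaith w hw q hq_mul hpB act hq_act res hres hker
    hres_smul hcard (fun g => ((ω g : (ZMod p)ˣ) : ZMod p).val) ψ hp2 hfix2 ζ v₀ v₀' hζp hj1 hv₀'
    hζ hω ξ ?_ hξ hne ?_ hT'
  · intro g
    rw [hψ g, natCast_val_eq_algebraMap]
  · rintro ⟨h3, hall⟩
    apply hcorner
    refine ⟨h3, fun i hi => ?_⟩
    rw [hall i hi, natCast_val_eq_algebraMap]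

end Abs

end Fermat.Agent.TW.Cnt.AbsN75
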