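/-
helper90 — TW / WP7 / brick INST (part 1): the ring of integers of a finite extension `E` of
`ℚ_q` (PT/LOC model, so in particular `E = ↥K0` for `K0 : IntermediateField ℚ_[q] (PadicAlgCl q)`)
satisfies helper71's abstract hypotheses `UnitFil71.IsPiComplete`, `UnitGr71.UnitSetup`.

* `span_uniformizer`     : `𝔪 = (π)`;
* `dvd_iff_snorm_le`     : `π ^ n ∣ x ↔ ‖x‖ ≤ ‖π‖ ^ n`;
* `isPiComplete`         : `IsPiComplete π`;
* `exists_unitSetup`     : `UnitSetup (intRing q E) q π u u' e` with `e = ramIdx q ℚ_[q] E`;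
* `finite_quot`          : the residue ring `𝒪 ⧸ (π)` is finite;
* `dvd_pow_sub_of_fixed` : for `E/ℚ_q` Galois, a residue class fixed by the Galois group lies in
                           the prime field (`x ^ q ≡ x`);
* `card_inertia_eq`      : the number of `g` acting trivially on `𝒪 ⧸ (π)` is `e`.
-/
import Mathlib
import Fermat.Agent.PT.LOC.Interface12
import Fermat.Agent.PT.LOC.Structure14
import Fermat.Agent.PT.LOC.StructureNorm14
import Fermat.Agent.PT.LOC.StructureTower27
import Fermat.Agent.PT.LOC.StructureTowerEF27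
import Fermat.Agent.PT.LOC.Frob27
import Fermat.Agent.TW.Cnt.UnitGr71

set_option autoImplicit false
set_option linter.unusedSectionVars false

open scoped Fermat.Agent.PT.LOC.Interface12
open Fermat.Agent.PT.LOC.Interface12 Fermat.Agent.PT.LOC.Structure14
  Fermat.Agent.PT.LOC.StructureNorm14 Fermat.Agent.PT.LOC.StructureTower27
  Fermat.Agent.PT.LOC.StructureTowerEF27 Fermat.Agent.PT.LOC.Frob27
open Fermat.Agent.TW.Cnt.UnitFil71 Fermat.Agent.TW.Cnt.UnitGr71

namespace Fermat.Agent.TW.Cnt.InstSetup90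

noncomputable section

variable (q : ℕ) [Fact q.Prime] (E : Type) [Field E] [Algebra ℚ_[q] E] [FiniteDimensional ℚ_[q] E]

variable {q E}

theorem irreducible_of_isUniformizer {π : intRing q E} (hπ : IsUniformizer q E (π : E)) :
    Irreducible π := (isUniformizer_iff_irreducible q E π).1 hπ

/-- The maximal ideal is generated by a uniformizer. -/
theorem span_uniformizer {π : intRing q E} (hπ : IsUniformizer q E (π : E)) :
    IsLocalRing.maximalIdeal (intRing q E) = Ideal.span {π} :=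
  (irreducible_of_isUniformizer hπ).maximalIdeal_eq

theorem mem_maximalIdeal_pow_iff_dvd {π : intRing q E} (hπ : IsUniformizer q E (π : E)) (n : ℕ)
    (x : intRing q E) : x ∈ IsLocalRing.maximalIdeal (intRing q E) ^ n ↔ π ^ n ∣ x := by
  rw [span_uniformizer hπ, Ideal.span_singleton_pow, Ideal.mem_span_singleton]

theorem uniformizer_ne_zero {π : intRing q E} (hπ : IsUniformizer q E (π : E)) : π ≠ 0 :=
  (irreducible_of_isUniformizer hπ).ne_zero

/-- `IsPiComplete π` for a uniformizer `π` of `𝒪_E`. -/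
theorem isPiComplete {π : intRing q E} (hπ : IsUniformizer q E (π : E)) : IsPiComplete π where
  nzd x hx := by
    rcases mul_eq_zero.1 hx with h | h
    · exact absurd h (uniformizer_ne_zero hπ)
    · exact h
  sep x hx := by
    apply eq_zero_of_forall_mem_pow q E x
    intro n
    rw [maxId_eq_maximalIdeal, mem_maximalIdeal_pow_iff_dvd hπ]
    exact hx n
  complete f hf := by
    obtain ⟨s, hs⟩ := exists_sum_of_mem_pow q E (fun i => f (i + 1) - f i) (by
      intro i
      rw [maxId_eq_maximalIdeal, mem_maximalIdeal_pow_iff_dvd hπ]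
      exact hf i)
    refine ⟨s + f 0, fun k => ?_⟩
    have h1 := hs k
    rw [maxId_eq_maximalIdeal, mem_maximalIdeal_pow_iff_dvd hπ, Finset.sum_range_sub] at h1
    have h2 : s + f 0 - f k = s - (f k - f 0) := by ring
    rw [h2]
    exact h1

/-! ### `q` is a uniformizer of `ℚ_q`, and `q = u π ^ e` with `e` the ramification index -/

theorem snorm_padic (a : ℚ_[q]) : snorm q ℚ_[q] a = ‖a‖ := by
  have := snorm_algebraMap q ℚ_[q] a
  simpa using this

theorem mem_intRing_padic_iff (a : ℚ_[q]) : a ∈ intRing q ℚ_[q] ↔ ‖a‖ ≤ 1 := by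
  rw [mem_intRing_iff, ← snorm_padic]

theorem isUniformizer_padic : IsUniformizer q ℚ_[q] (q : ℚ_[q]) := by
  have hq : (1 : ℝ) < q := by exact_mod_cast (Fact.out : q.Prime).one_lt
  have hq0 : (q : ℚ_[q]) ≠ 0 := by exact_mod_cast (Fact.out : q.Prime).ne_zero
  have hnorm : ‖(q : ℚ_[q])‖ = (q : ℝ)⁻¹ := Padic.norm_p
  refine ⟨?_, hq0, ?_, ?_⟩
  · rw [mem_intRing_padic_iff, hnorm]
    exact inv_le_one_of_one_le₀ hq.le
  · rw [mem_intRing_padic_iff, norm_inv, hnorm, inv_inv]
    exact not_le.2 hq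
  · intro x hx hx'
    rw [mem_intRing_padic_iff] at hx hx' ⊢
    rw [norm_inv] at hx'
    have hx0 : x ≠ 0 := by
      rintro rfl; simp at hx'
    have hlt : ‖x‖ < 1 := by
      rcases hx.lt_or_eq with h | h
      · exact h
      · exact absurd (by rw [h, inv_one]) hx'
    have h1 : ‖x‖ ≤ (q : ℝ)⁻¹ := by
      have h2 := (Padic.norm_le_pow_iff_norm_lt_pow_add_one x (-1)).2 (by simpa using hlt)
      simpa using h2
    rw [norm_mul, norm_inv, hnorm, inv_inv]
    calc ‖x‖ * q ≤ (q : ℝ)⁻¹ * q := mul_le_mul_of_nonneg_right h1 (by positivity)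
      _ = 1 := inv_mul_cancel₀ (by positivity)

variable (q E) in
/-- `q`, as an element of the ring of integers of `E`. -/
def qInt : intRing q E := (q : intRing q E)

theorem natCast_q_ne_zero : (q : E) ≠ 0 := by
  intro h
  have := snorm_natCast_q q E
  rw [h, snorm_zero] at this
  have hq : (0 : ℝ) < q := by exact_mod_cast (Fact.out : q.Prime).pos
  exact (inv_pos.2 hq).ne this

theorem ord_q_eq_ramIdx :
    ord q E (Units.mk0 (q : E) natCast_q_ne_zero) = ramIdx q ℚ_[q] E := by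
  have hq0 : (q : ℚ_[q]) ≠ 0 := by exact_mod_cast (Fact.out : q.Prime).ne_zero
  have h1 := ord_algebraMap q ℚ_[q] E (Units.mk0 (q : ℚ_[q]) hq0)
  have h2 : ord q ℚ_[q] (Units.mk0 (q : ℚ_[q]) hq0) = 1 :=
    (isUniformizer_iff_ord q ℚ_[q] _).1 isUniformizer_padic
  rw [h2, mul_one] at h1
  rw [← h1]
  congr 1
  ext
  simp

/-! ### The residue field is perfect -/

theorem dvd_iff_mem_maximalIdeal {π : intRing q E} (hπ : IsUniformizer q E (π : E))
    (x : intRing q E) : π ∣ x ↔ x ∈ IsLocalRing.maximalIdeal (intRing q E) := by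
  rw [span_uniformizer hπ, Ideal.mem_span_singleton]

theorem exists_pow_sub_mem (x : intRing q E) :
    ∃ y : intRing q E, y ^ q - x ∈ IsLocalRing.maximalIdeal (intRing q E) := by
  obtain ⟨f, hf, hcard⟩ := exists_resCard_eq_pow q E
  rw [resCard_eq_card] at hcard
  set 𝔪 := IsLocalRing.maximalIdeal (intRing q E) with h𝔪
  let _ : Field (intRing q E ⧸ 𝔪) := Ideal.Quotient.field 𝔪
  let _ : Fintype (intRing q E ⧸ 𝔪) := Fintype.ofFinite _
  refine ⟨x ^ q ^ (f - 1), ?_⟩
  rw [← Ideal.Quotient.eq_zero_iff_mem, map_sub, map_pow, map_pow, ← pow_mul, ← pow_succ,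
    Nat.sub_add_cancel hf, ← hcard, Nat.card_eq_fintype_card, FiniteField.pow_card, sub_self]

/-! ### `UnitSetup` -/

/-- The ring of integers of a finite extension of `ℚ_q`, with a uniformizer `π`, is a
`UnitSetup` in the sense of `UnitGr71`, with `e` the absolute ramification index. -/
theorem exists_unitSetup {π : intRing q E} (hπ : IsUniformizer q E (π : E)) :
    ∃ u u' : intRing q E, UnitSetup (intRing q E) q π u u' (ramIdx q ℚ_[q] E) := by
  have hπ0 : (π : E) ≠ 0 := hπ.2.1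
  have hmem := mul_zpow_neg_ord_mem_unitGroup q E (Units.mk0 (π : E) hπ0) hπ
    (Units.mk0 (q : E) natCast_q_ne_zero)
  rw [ord_q_eq_ramIdx] at hmem
  obtain ⟨h1, h2⟩ := hmem
  refine ⟨⟨_, h1⟩, ⟨_, h2⟩, ?_⟩
  refine
    { prime := Fact.out
      complete := isPiComplete hπ
      isUnit_or := ?_
      not_dvd_one := ?_
      hpe := ?_
      hu := ?_
      e_pos := ramIdx_pos q ℚ_[q] E
      perfect := ?_ }
  · intro x
    by_cases hx : x ∈ IsLocalRing.maximalIdeal (intRing q E)
    · exact Or.inl ((dvd_iff_mem_maximalIdeal hπ x).2 hx)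
    · rw [IsLocalRing.mem_maximalIdeal, mem_nonunits_iff, not_not] at hx
      exact Or.inr hx
  · intro h
    exact (irreducible_of_isUniformizer hπ).not_isUnit (isUnit_of_dvd_one h)
  · apply Subtype.ext
    have e1 : ((q : intRing q E) : E) = (q : E) := by push_cast; rfl
    rw [e1, MulMemClass.coe_mul, SubmonoidClass.coe_pow]
    show (q : E) = ((Units.mk0 (q : E) natCast_q_ne_zero *
      Units.mk0 (π : E) hπ0 ^ (-(ramIdx q ℚ_[q] E : ℤ)) : Eˣ) : E) * (π : E) ^ ramIdx q ℚ_[q] E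
    rw [Units.val_mul, Units.val_zpow_eq_zpow_val, Units.val_mk0, Units.val_mk0, zpow_neg,
      zpow_natCast, mul_assoc, inv_mul_cancel₀ (pow_ne_zero _ hπ0), mul_one]
  · apply Subtype.ext
    simp only [MulMemClass.coe_mul, OneMemClass.coe_one]
    rw [← Units.val_mul, inv_mul_cancel, Units.val_one]
  · intro x
    obtain ⟨y, hy⟩ := exists_pow_sub_mem x
    exact ⟨y, (dvd_iff_mem_maximalIdeal hπ _).2 hy⟩

/-! ### The residue field of `ℚ_q` has `q` elements -/

theorem resCard_padic : resCard q ℚ_[q] = q := by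
  have hq := (Fact.out : q.Prime)
  obtain ⟨k, hk, hcard⟩ := exists_resCard_eq_pow q ℚ_[q]
  have hle : resCard q ℚ_[q] ≤ q := by
    rw [resCard_eq_card]
    have hsurj : Function.Surjective (fun n : Fin q =>
        Ideal.Quotient.mk (IsLocalRing.maximalIdeal (intRing q ℚ_[q]))
          (((n : ℕ) : intRing q ℚ_[q]))) := by
      intro y
      obtain ⟨x, rfl⟩ := Ideal.Quotient.mk_surjective y
      have hx : ‖(x : ℚ_[q])‖ ≤ 1 := (mem_intRing_padic_iff _).1 x.2
      obtain ⟨n, hn, hmem⟩ := PadicInt.exists_mem_range (p := q) (x := ⟨(x : ℚ_[q]), hx⟩)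
      refine ⟨⟨n, hn⟩, ?_⟩
      rw [PadicInt.maximalIdeal_eq_span_p, Ideal.mem_span_singleton,
        ← PadicInt.norm_lt_one_iff_dvd] at hmem
      symm
      rw [Ideal.Quotient.eq, mem_maximalIdeal_iff_snorm, snorm_padic]
      have e1 : ((x - ((n : ℕ) : intRing q ℚ_[q]) : intRing q ℚ_[q]) : ℚ_[q])
          = (((⟨(x : ℚ_[q]), hx⟩ - (n : ℤ_[q]) : ℤ_[q])) : ℚ_[q]) := by
        push_cast
        rfl
      rw [e1]
      exact hmem
    have := Nat.card_le_card_of_surjective _ hsurj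
    simpa using this
  rw [hcard] at hle ⊢
  have hk1 : k = 1 := by
    by_contra hne
    have h2 : 2 ≤ k := by omega
    have : q ^ 2 ≤ q ^ k := Nat.pow_le_pow_right hq.pos h2
    have h3 : q ^ 2 ≤ q := this.trans hle
    have h4 := hq.two_le
    nlinarith
  rw [hk1, pow_one]

/-! ### Divisibility and the norm -/

theorem natCast_q_dvd_iff (y : intRing q E) :
    (q : intRing q E) ∣ y ↔ snorm q E (y : E) ≤ (q : ℝ)⁻¹ := by
  have hq : (0 : ℝ) < q := by exact_mod_cast (Fact.out : q.Prime).pos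
  have e1 : ((q : intRing q E) : E) = (q : E) := by push_cast; rfl
  constructor
  · rintro ⟨z, rfl⟩
    rw [MulMemClass.coe_mul, snorm_mul, e1, snorm_natCast_q]
    have hz : snorm q E (z : E) ≤ 1 := (mem_intRing_iff q E _).1 z.2
    calc (q : ℝ)⁻¹ * snorm q E (z : E) ≤ (q : ℝ)⁻¹ * 1 :=
          mul_le_mul_of_nonneg_left hz (inv_pos.2 hq).le
      _ = (q : ℝ)⁻¹ := mul_one _
  · intro h
    have hz : (y : E) * (q : E)⁻¹ ∈ intRing q E := by
      rw [mem_intRing_iff, ← snorm, snorm_mul, snorm_inv, snorm_natCast_q, inv_inv]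
      calc snorm q E (y : E) * q ≤ (q : ℝ)⁻¹ * q := mul_le_mul_of_nonneg_right h hq.le
        _ = 1 := inv_mul_cancel₀ hq.ne'
    refine ⟨⟨_, hz⟩, Subtype.ext ?_⟩
    rw [MulMemClass.coe_mul, e1]
    show (y : E) = (q : E) * ((y : E) * (q : E)⁻¹)
    rw [mul_comm (y : E), ← mul_assoc, mul_inv_cancel₀ natCast_q_ne_zero, one_mul]

/-- `π ^ e ∣ y ↔ q ∣ y` (`e` the absolute ramification index). -/
theorem pow_ramIdx_dvd_iff {π u u' : intRing q E}
    (S : UnitSetup (intRing q E) q π u u' (ramIdx q ℚ_[q] E)) (y : intRing q E) :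
    π ^ ramIdx q ℚ_[q] E ∣ y ↔ (q : intRing q E) ∣ y := by
  constructor
  · rintro ⟨z, rfl⟩
    refine ⟨u' * z, ?_⟩
    rw [S.hpe]
    have := S.hu
    calc π ^ ramIdx q ℚ_[q] E * z = (u' * u) * (π ^ ramIdx q ℚ_[q] E * z) := by
          rw [S.hu, one_mul]
      _ = u * π ^ ramIdx q ℚ_[q] E * (u' * z) := by ring
  · rintro ⟨z, rfl⟩
    rw [S.hpe]
    exact ⟨u * z, by ring⟩

/-! ### The Galois action: fixed residue classes, inertia, the cocycle `w` -/

section Galois

/-- For `E/ℚ_q` Galois, a residue class fixed by the whole Galois group lies in the prime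
field. -/
theorem dvd_pow_sub_of_fixed [IsGalois ℚ_[q] E] {π : intRing q E}
    (hπ : IsUniformizer q E (π : E)) (x : intRing q E)
    (hx : ∀ g : E ≃ₐ[ℚ_[q]] E, π ∣ g • x - x) : π ∣ x ^ q - x := by
  obtain ⟨φ, hφ⟩ := exists_isFrob q ℚ_[q] E
  have h1 := isFrob_pow_apply q ℚ_[q] E hφ 1 x
  rw [pow_one, pow_one, resCard_padic] at h1
  have h2 := (dvd_iff_mem_maximalIdeal hπ _).1 (hx φ)
  have h3 : x ^ q - x = (φ • x - x) - (φ • x - x ^ q) := by ring
  rw [h3, dvd_iff_mem_maximalIdeal hπ]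
  exact sub_mem h2 h1

theorem mem_inertia_iff_dvd {π : intRing q E} (hπ : IsUniformizer q E (π : E))
    (g : E ≃ₐ[ℚ_[q]] E) :
    g ∈ (IsLocalRing.maximalIdeal (intRing q E)).inertia (E ≃ₐ[ℚ_[q]] E)
      ↔ ∀ x : intRing q E, π ∣ g • x - x := by
  rw [AddSubgroup.mem_inertia]
  exact forall_congr' fun x => (dvd_iff_mem_maximalIdeal hπ _).symm

/-- The number of automorphisms acting trivially on the residue field is the ramification
index. -/
theorem card_inertia_eq [IsGalois ℚ_[q] E] :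
    Nat.card ((IsLocalRing.maximalIdeal (intRing q E)).inertia (E ≃ₐ[ℚ_[q]] E))
      = ramIdx q ℚ_[q] E := card_inertia q ℚ_[q] E

theorem coe_smul (g : E ≃ₐ[ℚ_[q]] E) (x : intRing q E) : ((g • x : intRing q E) : E) = g x := rfl

theorem snorm_smul (g : E ≃ₐ[ℚ_[q]] E) (x : intRing q E) :
    snorm q E ((g • x : intRing q E) : E) = snorm q E (x : E) := by
  rw [coe_smul]
  exact snorm_galois q ℚ_[q] E g x

/-- `g π = π w_g`. -/
theorem exists_smul_eq_mul {π : intRing q E} (hπ : IsUniformizer q E (π : E))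
    (g : E ≃ₐ[ℚ_[q]] E) : ∃ w : intRing q E, g • π = π * w := by
  have h : g • π ∈ IsLocalRing.maximalIdeal (intRing q E) := by
    rw [mem_maximalIdeal_iff_snorm, snorm_smul]
    exact snorm_uniformizer_lt_one q E _ hπ
  exact (dvd_iff_mem_maximalIdeal hπ _).2 h

/-- The cocycle `w_g = g π / π`. -/
def wOf {π : intRing q E} (hπ : IsUniformizer q E (π : E)) (g : E ≃ₐ[ℚ_[q]] E) : intRing q E :=
  Classical.choose (exists_smul_eq_mul hπ g)

theorem smul_eq_mul_wOf {π : intRing q E} (hπ : IsUniformizer q E (π : E))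
    (g : E ≃ₐ[ℚ_[q]] E) : g • π = π * wOf hπ g :=
  Classical.choose_spec (exists_smul_eq_mul hπ g)

end Galois

end

end Fermat.Agent.TW.Cnt.InstSetup90
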