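/-
helper90 — TW / WP7 / brick INST (part 2, abstract, Mathlib + UnitFil71 only):
tame faithfulness.  `O` a `π`-adically separated ring, `i` an automorphism of finite order `n`
with `n` invertible modulo `π`, acting trivially on `O/π` and on `π/π²`.  Then `i` acts trivially.
(The wild inertia group is a `p`-group; so an element of order prime to `p` which is trivial on the
residue field and on the cotangent space is trivial.)

Also: the cocycle identities for `w_g = g π / π`.
-/
import Mathlib
import Fermat.Agent.TW.Cnt.UnitFil71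

set_option autoImplicit false
set_option linter.unusedSectionVars false

namespace Fermat.Agent.TW.Cnt.TameFaithful90

open Fermat.Agent.TW.Cnt.UnitFil71

variable {O : Type*} [CommRing O] {π : O} {Δ : Type*} [Group Δ] [MulSemiringAction Δ O]

section Wild

variable (i : Δ) (h0 : ∀ z : O, π ∣ i • z - z) (h1 : π ^ 2 ∣ i • π - π)

include h1 in
theorem dvd_smul_pi : π ∣ i • π := by
  obtain ⟨c, hc⟩ := h1
  refine ⟨1 + π * c, ?_⟩
  have : i • π = π + π ^ 2 * c := by rw [← hc]; ring
  rw [this]; ring

include h1 in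
theorem sq_dvd_pow_smul_pi (j : ℕ) : π ^ 2 ∣ (i ^ j) • π - π := by
  induction j with
  | zero => simp
  | succ j ih =>
    obtain ⟨c, hc⟩ := ih
    obtain ⟨d, hd⟩ := dvd_smul_pi i h1
    have e1 : (i ^ (j + 1)) • π - π = i • ((i ^ j) • π - π) + (i • π - π) := by
      rw [pow_succ', mul_smul, smul_sub]; ring
    have e2 : i • (π ^ 2 * c) = π ^ 2 * (d ^ 2 * i • c) := by
      rw [smul_mul', smul_pow', hd]; ring
    rw [e1, hc, e2]
    exact dvd_add ⟨_, rfl⟩ h1

include h0 h1 in
theorem dvd_pow_smul_sub (j : ℕ) (z : O) : π ∣ (i ^ j) • z - z := by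
  induction j with
  | zero => simp
  | succ j ih =>
    obtain ⟨c, hc⟩ := ih
    obtain ⟨d, hd⟩ := dvd_smul_pi i h1
    have e1 : (i ^ (j + 1)) • z - z = i • ((i ^ j) • z - z) + (i • z - z) := by
      rw [pow_succ', mul_smul, smul_sub]; ring
    have e2 : i • (π * c) = π * (d * i • c) := by
      rw [smul_mul', hd]; ring
    rw [e1, hc, e2]
    exact dvd_add ⟨_, rfl⟩ (h0 z)

include h0 h1 in
/-- `i ^ j` moves an element of `π ^ m O` by an element of `π ^ (m+1) O`. -/
theorem pow_succ_dvd_pow_smul_sub (j m : ℕ) {y : O} (hy : π ^ m ∣ y) :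
    π ^ (m + 1) ∣ (i ^ j) • y - y := by
  obtain ⟨a, rfl⟩ := hy
  obtain ⟨c, hc⟩ := sq_dvd_pow_smul_pi i h1 j
  obtain ⟨b, hb⟩ := dvd_pow_smul_sub i h0 h1 j a
  have e1 : (i ^ j) • π = π * (1 + π * c) := by
    have : (i ^ j) • π = π + π ^ 2 * c := by rw [← hc]; ring
    rw [this]; ring
  have e2 : (i ^ j) • a = a + π * b := by rw [← hb]; ring
  -- `(1 + π c) ^ m = 1 + π d`
  obtain ⟨d, hd⟩ : ∃ d, (1 + π * c) ^ m = 1 + π * d := by
    induction m with
    | zero => exact ⟨0, by simp⟩
    | succ m ih =>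
      obtain ⟨d, hd⟩ := ih
      exact ⟨d + c + π * d * c, by rw [pow_succ, hd]; ring⟩
  rw [smul_mul', smul_pow', e1, e2, mul_pow, hd]
  exact ⟨a * d + b + π * d * b, by ring⟩

include h0 h1 in
/-- **Tame faithfulness.** -/
theorem smul_eq_of_wild (hπ : IsPiComplete π) (n : ℕ) (hn : i ^ n = 1)
    (hunit : ∃ m : O, π ∣ (n : O) * m - 1) (z : O) : i • z = z := by
  have key : ∀ m : ℕ, ∀ z : O, π ^ (m + 1) ∣ i • z - z := by
    intro m
    induction m with
    | zero => intro z; simpa using h0 z
    | succ m ih =>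
      intro z
      set y := i • z - z with hy
      have hym : π ^ (m + 1) ∣ y := ih z
      -- telescoping sum
      have htel : ∀ k : ℕ, (i ^ k) • z - z = ∑ j ∈ Finset.range k, (i ^ j) • y := by
        intro k
        induction k with
        | zero => simp
        | succ k ihk =>
          rw [Finset.sum_range_succ, ← ihk, hy, smul_sub, ← mul_smul, ← pow_succ]
          ring
      have h2 : ∑ j ∈ Finset.range n, (i ^ j) • y = 0 := by
        rw [← htel, hn, one_smul, sub_self]
      have h3 : π ^ (m + 1 + 1) ∣ ∑ j ∈ Finset.range n, ((i ^ j) • y - y) :=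
        Finset.dvd_sum fun j _ => pow_succ_dvd_pow_smul_sub i h0 h1 j (m + 1) hym
      have h4 : ∑ j ∈ Finset.range n, ((i ^ j) • y - y) = -((n : O) * y) := by
        rw [Finset.sum_sub_distrib, h2, Finset.sum_const, Finset.card_range, nsmul_eq_mul]
        ring
      rw [h4, dvd_neg] at h3
      obtain ⟨m', c, hc⟩ := hunit
      obtain ⟨a, ha⟩ := hym
      have e1 : y = m' * ((n : O) * y) - π * c * y := by
        have : (n : O) * m' = 1 + π * c := by rw [← hc]; ring
        calc y = (1 + π * c) * y - π * c * y := by ring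
          _ = m' * ((n : O) * y) - π * c * y := by rw [← this]; ring
      rw [e1]
      refine dvd_sub (Dvd.dvd.mul_left h3 _) ?_
      rw [ha]
      exact ⟨c * a, by ring⟩
  have h5 : i • z - z = 0 := by
    apply hπ.sep
    intro k
    rcases k with _ | k
    · simp
    · exact key k z
  exact sub_eq_zero.1 h5

end Wild

/-! ### The cocycle `w_g = g π / π` -/

section Cocycle

variable (w : Δ → O) (hw : ∀ g : Δ, g • π = π * w g) (hπ : IsPiComplete π)

include hw hπ in
theorem w_one : w 1 = 1 := by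
  have h := hw 1
  rw [one_smul] at h
  have h2 : π ^ 1 * 1 = π ^ 1 * w 1 := by rw [pow_one, mul_one]; exact h
  exact (hπ.pow_mul_cancel 1 h2).symm

include hw hπ in
theorem w_mul (g h : Δ) : w (g * h) = w g * g • w h := by
  have h1 : (g * h) • π = π * (w g * g • w h) := by
    rw [mul_smul, hw h, smul_mul', hw g]; ring
  rw [hw (g * h)] at h1
  exact hπ.pow_mul_cancel 1 (by rw [pow_one]; exact h1)

include hw hπ in
/-- For `i` acting trivially on the residue ring, `w_i ^ e ≡ 1 mod π` (`p = u π ^ e`). -/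
theorem dvd_w_pow_sub_one {p e : ℕ} {u u' : O} (hpe : (p : O) = u * π ^ e) (hu : u' * u = 1)
    (i : Δ) (hi : π ∣ i • u - u) : π ∣ w i ^ e - 1 := by
  have h1 : i • (p : O) = (p : O) := by
    exact map_natCast (MulSemiringAction.toRingHom Δ O i) p
  have h2 : π ^ e * u = π ^ e * (i • u * w i ^ e) := by
    have h3 : i • (u * π ^ e) = u * π ^ e := by rw [← hpe]; exact h1
    rw [smul_mul', smul_pow', hw i, mul_pow] at h3
    rw [mul_comm (π ^ e) u, ← h3]; ring
  have h4 : u = i • u * w i ^ e := hπ.pow_mul_cancel e h2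
  obtain ⟨c, hc⟩ := hi
  refine ⟨-(u' * c * w i ^ e), ?_⟩
  have h5 : i • u = u + π * c := by rw [← hc]; ring
  rw [h5] at h4
  have h6 : w i ^ e - 1 = u' * u * (w i ^ e - 1) := by rw [hu, one_mul]
  rw [h6]
  have h7 : u * (w i ^ e - 1) = -(π * c * w i ^ e) := by
    have : u * w i ^ e = u - π * c * w i ^ e := by
      calc u * w i ^ e = (u + π * c) * w i ^ e - π * c * w i ^ e := by ring
        _ = u - π * c * w i ^ e := by rw [← h4]
    calc u * (w i ^ e - 1) = u * w i ^ e - u := by ring
      _ = -(π * c * w i ^ e) := by rw [this]; ring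
  calc u' * u * (w i ^ e - 1) = u' * (u * (w i ^ e - 1)) := by ring
    _ = π * -(u' * c * w i ^ e) := by rw [h7]; ring

end Cocycle

end Fermat.Agent.TW.Cnt.TameFaithful90
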