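/-
helper90 — TW / WP7 / brick INST (part 3): the tame/inertia facts for the ring of integers of a
finite Galois extension `E/ℚ_q` (PT/LOC model) consumed by the numerics of B11
(helper75's variable block #686):

* `exists_mul_sub_one`     : integers prime to `q` are units modulo `π`;
* `eq_one_of_tame`         : (hinj) an automorphism of order prime to `q`, trivial on the residue
                             field and with `w_i ≡ 1 mod π`, is trivial;
* `dvd_wOf_pow_sub_one`    : (hte)  `w_i ^ e ≡ 1 mod π` for `i` in the inertia group;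
* `wOf_one`, `wOf_mul`     : the crossed homomorphism property of `w`;
* `sub_one_dvd_ramIdx`     : `(q - 1) ∣ e` when `E` contains a primitive `q`-th root of unity;
* `not_dvd_orderOf`        : `q ∤ [E : ℚ_q]` ⟹ `q ∤ orderOf i`.
-/
import Mathlib
import Fermat.Agent.TW.Cnt.InstSetup90
import Fermat.Agent.TW.Cnt.TameFaithful90

set_option autoImplicit false
set_option linter.unusedSectionVars false

open scoped Fermat.Agent.PT.LOC.Interface12
open Fermat.Agent.PT.LOC.Interface12 Fermat.Agent.PT.LOC.Structure14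
  Fermat.Agent.PT.LOC.StructureNorm14 Fermat.Agent.PT.LOC.StructureTower27
  Fermat.Agent.PT.LOC.StructureTowerEF27 Fermat.Agent.PT.LOC.Frob27
open Fermat.Agent.TW.Cnt.UnitFil71 Fermat.Agent.TW.Cnt.UnitGr71
open Fermat.Agent.TW.Cnt.InstSetup90 Fermat.Agent.TW.Cnt.TameFaithful90

namespace Fermat.Agent.TW.Cnt.InstTame90

noncomputable section

variable {q : ℕ} [Fact q.Prime] {E : Type} [Field E] [Algebra ℚ_[q] E]
  [FiniteDimensional ℚ_[q] E]

theorem dvd_natCast_q {π : intRing q E} (hπ : IsUniformizer q E (π : E)) :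
    π ∣ (q : intRing q E) := by
  rw [dvd_iff_mem_maximalIdeal hπ, ← maxId_eq_maximalIdeal]
  exact natCast_mem_maxId q E

/-- Integers prime to `q` are units modulo `π`. -/
theorem exists_mul_sub_one {π : intRing q E} (hπ : IsUniformizer q E (π : E)) (n : ℕ)
    (hn : ¬ q ∣ n) : ∃ m : intRing q E, π ∣ (n : intRing q E) * m - 1 := by
  have hcop : Nat.Coprime n q :=
    ((Fact.out : q.Prime).coprime_iff_not_dvd.2 hn).symm
  have hb := Int.gcd_eq_gcd_ab (n : ℤ) (q : ℤ)
  rw [Int.gcd_natCast_natCast, hcop.gcd_eq_one] at hb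
  refine ⟨((Int.gcdA n q : ℤ) : intRing q E), ?_⟩
  have h1 : (n : intRing q E) * ((Int.gcdA n q : ℤ) : intRing q E) - 1
      = -((q : intRing q E) * ((Int.gcdB n q : ℤ) : intRing q E)) := by
    have h2 : ((1 : ℕ) : ℤ) = (n : ℤ) * Int.gcdA n q + (q : ℤ) * Int.gcdB n q := hb
    have h3 := congrArg (fun z : ℤ => (z : intRing q E)) h2
    simp only [Int.cast_add, Int.cast_mul, Int.cast_natCast, Nat.cast_one, Int.cast_one] at h3
    linear_combination -h3
  rw [h1, dvd_neg]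
  exact Dvd.dvd.mul_right (dvd_natCast_q hπ) _

/-- (hinj) Tame faithfulness for `Gal(E/ℚ_q)`. -/
theorem eq_one_of_tame {π : intRing q E} (hπ : IsUniformizer q E (π : E))
    (i : E ≃ₐ[ℚ_[q]] E) (hord : ¬ q ∣ orderOf i)
    (h0 : ∀ z : intRing q E, π ∣ i • z - z) (h1 : π ∣ wOf hπ i - 1) : i = 1 := by
  have h1' : π ^ 2 ∣ i • π - π := by
    obtain ⟨c, hc⟩ := h1
    refine ⟨c, ?_⟩
    rw [smul_eq_mul_wOf hπ i]
    have : wOf hπ i = 1 + π * c := by rw [← hc]; ring
    rw [this]; ring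
  have hfix : ∀ z : intRing q E, i • z = z :=
    smul_eq_of_wild i h0 h1' (isPiComplete hπ) (orderOf i) (pow_orderOf_eq_one i)
      (exists_mul_sub_one hπ _ hord)
  ext t
  rcases mem_or_inv_mem q E t with ht | ht
  · exact congrArg (fun z : intRing q E => (z : E)) (hfix ⟨t, ht⟩)
  · have h2 : i t⁻¹ = t⁻¹ := congrArg (fun z : intRing q E => (z : E)) (hfix ⟨t⁻¹, ht⟩)
    rw [map_inv₀] at h2
    exact inv_injective h2

theorem wOf_one {π : intRing q E} (hπ : IsUniformizer q E (π : E)) : wOf hπ 1 = 1 :=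
  w_one (wOf hπ) (smul_eq_mul_wOf hπ) (isPiComplete hπ)

theorem wOf_mul {π : intRing q E} (hπ : IsUniformizer q E (π : E)) (g h : E ≃ₐ[ℚ_[q]] E) :
    wOf hπ (g * h) = wOf hπ g * g • wOf hπ h :=
  w_mul (wOf hπ) (smul_eq_mul_wOf hπ) (isPiComplete hπ) g h

/-- (hte) `w_i ^ e ≡ 1 mod π` on the inertia group. -/
theorem dvd_wOf_pow_sub_one {π u u' : intRing q E} (hπ : IsUniformizer q E (π : E))
    (S : UnitSetup (intRing q E) q π u u' (ramIdx q ℚ_[q] E)) (i : E ≃ₐ[ℚ_[q]] E)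
    (h0 : ∀ z : intRing q E, π ∣ i • z - z) : π ∣ wOf hπ i ^ ramIdx q ℚ_[q] E - 1 :=
  dvd_w_pow_sub_one (wOf hπ) (smul_eq_mul_wOf hπ) (isPiComplete hπ) S.hpe S.hu i (h0 u)

/-- `q ∤ [E : ℚ_q]` implies that every automorphism has order prime to `q`. -/
theorem not_dvd_orderOf [IsGalois ℚ_[q] E] (hdeg : ¬ q ∣ Module.finrank ℚ_[q] E)
    (i : E ≃ₐ[ℚ_[q]] E) : ¬ q ∣ orderOf i := by
  intro h
  apply hdeg
  have h1 : orderOf i ∣ Nat.card (E ≃ₐ[ℚ_[q]] E) := orderOf_dvd_natCard i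
  rw [IsGalois.card_aut_eq_finrank] at h1
  exact h.trans h1

/-! ### `(q - 1) ∣ e` when `E` contains the `q`-th roots of unity -/

/-- `(ζ - 1) ^ (p - 1)` is associated to `p` (in any domain). -/
theorem associated_sub_one_pow_prime {OK : Type*} [CommRing OK] [IsDomain OK] {p : ℕ}
    (hp : p.Prime) {ζ : OK} (hζ : IsPrimitiveRoot ζ p) :
    Associated ((ζ - 1) ^ (p - 1)) (p : OK) := by
  have hp1 : p - 1 + 1 = p := Nat.sub_add_cancel hp.one_le
  have hζ' : IsPrimitiveRoot ζ (p - 1 + 1) := by rwa [hp1]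
  have h1 := hζ'.prod_pow_sub_one_eq_order
  have h2 : ∀ k ∈ Finset.range (p - 1), Associated (ζ - 1) (ζ ^ (k + 1) - 1) := by
    intro k hk
    apply hζ.associated_sub_one_pow_sub_one_of_coprime
    rw [Finset.mem_range] at hk
    apply Nat.Coprime.symm
    rw [hp.coprime_iff_not_dvd]
    intro h
    have := Nat.le_of_dvd (Nat.succ_pos k) h
    omega
  have h3 : Associated (∏ _k ∈ Finset.range (p - 1), (ζ - 1))
      (∏ k ∈ Finset.range (p - 1), (ζ ^ (k + 1) - 1)) :=
    Associated.prod _ _ _ h2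
  rw [Finset.prod_const, Finset.card_range] at h3
  refine h3.trans ?_
  have h4 : ((p - 1 : ℕ) : OK) + 1 = (p : OK) := by
    rw [← Nat.cast_succ, Nat.succ_eq_add_one, hp1]
  rw [h4] at h1
  rw [← h1]
  have hu : IsUnit ((-1 : OK) ^ (p - 1)) := (isUnit_one.neg).pow _
  exact (associated_isUnit_mul_left_iff hu).2 (Associated.refl _) |>.symm

theorem snorm_pow' (x : E) (n : ℕ) : snorm q E (x ^ n) = snorm q E x ^ n := by
  induction n with
  | zero => rw [pow_zero, pow_zero, snorm_one]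
  | succ n ih => rw [pow_succ, snorm_mul, ih, pow_succ]

theorem snorm_eq_one_of_isUnit {w : intRing q E} (hw : IsUnit w) : snorm q E (w : E) = 1 := by
  obtain ⟨w', hw'⟩ := hw.exists_right_inv
  have h1 : snorm q E (w : E) ≤ 1 := (mem_intRing_iff q E _).1 w.2
  have h2 : snorm q E (w' : E) ≤ 1 := (mem_intRing_iff q E _).1 w'.2
  have h3 : snorm q E (w : E) * snorm q E (w' : E) = 1 := by
    rw [← snorm_mul, ← MulMemClass.coe_mul, hw', OneMemClass.coe_one, snorm_one]
  have h0 : 0 ≤ snorm q E (w : E) := snorm_nonneg q E _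
  nlinarith [snorm_nonneg q E (w' : E)]

theorem sub_one_dvd_ramIdx (ζ : E) (hζ : IsPrimitiveRoot ζ q) :
    (q - 1) ∣ ramIdx q ℚ_[q] E := by
  have hq := (Fact.out : q.Prime)
  -- `ζ` is integral
  have hζ1 : snorm q E ζ = 1 := by
    have h1 : snorm q E ζ ^ q = 1 := by
      rw [← snorm_pow', hζ.pow_eq_one, snorm_one]
    exact (pow_eq_one_iff_of_nonneg (snorm_nonneg q E ζ) hq.ne_zero).1 h1
  have hζint : ζ ∈ intRing q E := by rw [mem_intRing_iff, ← snorm, hζ1]
  have hζ' : IsPrimitiveRoot (⟨ζ, hζint⟩ : intRing q E) q :=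
    IsPrimitiveRoot.of_map_of_injective (f := (intRing q E).val) hζ Subtype.val_injective
  obtain ⟨w, hw⟩ := associated_sub_one_pow_prime hq hζ'
  have h1 : snorm q E (ζ - 1) ^ (q - 1) = (q : ℝ)⁻¹ := by
    have h2 := congrArg (fun z : intRing q E => snorm q E (z : E)) hw
    simp only [MulMemClass.coe_mul, SubmonoidClass.coe_pow, snorm_mul] at h2
    rw [snorm_eq_one_of_isUnit w.isUnit, mul_one] at h2
    have e1 : ((q : intRing q E) : E) = (q : E) := by push_cast; rfl
    rw [e1, snorm_natCast_q] at h2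
    rw [← h2, snorm_pow']
    rfl
  obtain ⟨π, hπ⟩ := exists_isUniformizer q E
  have hζne : ζ - 1 ≠ 0 := sub_ne_zero.2 (hζ.ne_one hq.one_lt)
  have h3 := snorm_eq_zpow q E π hπ (Units.mk0 (ζ - 1) hζne)
  have h4 := snorm_eq_zpow q E π hπ (Units.mk0 (q : E) natCast_q_ne_zero)
  rw [ord_q_eq_ramIdx, Units.val_mk0, snorm_natCast_q] at h4
  rw [Units.val_mk0] at h3
  rw [h3, h4, ← zpow_natCast, ← zpow_mul] at h1
  have hπpos : 0 < snorm q E (π : E) := snorm_pos q E π.ne_zero
  have hπlt : snorm q E (π : E) < 1 := snorm_uniformizer_lt_one q E _ hπ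
  have h5 := zpow_right_injective₀ hπpos hπlt.ne h1
  have h6 : ((q - 1 : ℕ) : ℤ) ∣ (ramIdx q ℚ_[q] E : ℤ) := ⟨_, by rw [← h5]; ring⟩
  exact Int.natCast_dvd_natCast.1 h6

end

end Fermat.Agent.TW.Cnt.InstTame90
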