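/-
helper90 — TW / WP7 / brick INST (part 4, Mathlib only): the Kummer group `Kˣ / Kˣⁿ` of a field
as an ADDITIVE group killed by `n`, with the action of a group `Δ` acting on `K` by field
automorphisms, in the shape consumed by helper71's `UnitMult71.card_eqHom_le`
(`B`, `act : Δ →* AddMonoid.End B`, `q : O → B`).

* `KumGrp n K`            : `Additive (Kˣ ⧸ (powMonoidHom n).range)`;
* `kumClass n K : Kˣ → KumGrp n K`, `kumClass_mul`, `kumClass_pow_self`, `kumClass_eq_zero_iff`,
  `kumClass_eq_iff`;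
* `nsmul_kumGrp`          : `n • b = 0`;
* `kumAct n K : Δ →* AddMonoid.End (KumGrp n K)`, `kumAct_kumClass`;
* `kumOf n K : K → KumGrp n K` (class of a non-zero element, `0` at `0`), `kumOf_mul`,
  `kumOf_smul`.
-/
import Mathlib

set_option autoImplicit false
set_option linter.unusedSectionVars false

namespace Fermat.Agent.TW.Cnt.KumGrp90

variable (n : ℕ) (K : Type*) [Field K]

/-- The subgroup of `n`-th powers. -/
def nthPowers : Subgroup Kˣ := (powMonoidHom n : Kˣ →* Kˣ).range

theorem mem_nthPowers {x : Kˣ} : x ∈ nthPowers n K ↔ ∃ y : Kˣ, y ^ n = x := Iff.rfl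

/-- The Kummer group `Kˣ / Kˣⁿ`, written additively. -/
abbrev KumGrp : Type _ := Additive (Kˣ ⧸ nthPowers n K)

/-- The class of a unit in the Kummer group. -/
def kumClass (x : Kˣ) : KumGrp n K := Additive.ofMul (QuotientGroup.mk x)

variable {n K}

theorem kumClass_mul (x y : Kˣ) : kumClass n K (x * y) = kumClass n K x + kumClass n K y := rfl

theorem kumClass_one : kumClass n K 1 = 0 := rfl

theorem kumClass_inv (x : Kˣ) : kumClass n K x⁻¹ = -kumClass n K x := rfl

theorem kumClass_eq_zero_iff (x : Kˣ) : kumClass n K x = 0 ↔ ∃ y : Kˣ, y ^ n = x := by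
  show Additive.ofMul (QuotientGroup.mk x : Kˣ ⧸ nthPowers n K) = Additive.ofMul 1 ↔ _
  rw [Additive.ofMul.injective.eq_iff, QuotientGroup.eq_one_iff]
  rfl

theorem kumClass_pow_self (y : Kˣ) : kumClass n K (y ^ n) = 0 :=
  (kumClass_eq_zero_iff _).2 ⟨y, rfl⟩

theorem kumClass_eq_iff (x y : Kˣ) :
    kumClass n K x = kumClass n K y ↔ ∃ z : Kˣ, x = y * z ^ n := by
  show Additive.ofMul (QuotientGroup.mk x : Kˣ ⧸ nthPowers n K)
    = Additive.ofMul (QuotientGroup.mk y) ↔ _
  rw [Additive.ofMul.injective.eq_iff, QuotientGroup.eq]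
  constructor
  · rintro ⟨z, hz⟩
    refine ⟨z⁻¹, ?_⟩
    have h1 : z ^ n = x⁻¹ * y := hz
    rw [inv_pow, h1, mul_inv_rev, inv_inv, mul_inv_cancel_left]
  · rintro ⟨z, rfl⟩
    refine ⟨z⁻¹, ?_⟩
    show z⁻¹ ^ n = (y * z ^ n)⁻¹ * y
    rw [mul_inv_rev, inv_pow, mul_assoc, inv_mul_cancel, mul_one]

theorem kumClass_surjective : Function.Surjective (kumClass n K) := by
  intro b
  obtain ⟨x, hx⟩ := QuotientGroup.mk_surjective (Additive.toMul b)
  exact ⟨x, by rw [kumClass, hx]; rfl⟩

theorem nsmul_kumGrp (b : KumGrp n K) : n • b = 0 := by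
  obtain ⟨x, rfl⟩ := kumClass_surjective b
  have : n • kumClass n K x = kumClass n K (x ^ n) := rfl
  rw [this, kumClass_pow_self]

/-! ### The action of a group of automorphisms -/

variable {Δ : Type*} [Group Δ] [MulSemiringAction Δ K]

variable (n K) in
/-- The map induced on the Kummer group by `g : Δ`. -/
def kumActFun (g : Δ) : KumGrp n K →+ KumGrp n K :=
  MonoidHom.toAdditive (QuotientGroup.map (nthPowers n K) (nthPowers n K)
    (Units.map (MulSemiringAction.toRingHom Δ K g : K →* K)) (by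
      rintro _ ⟨y, rfl⟩
      exact ⟨Units.map (MulSemiringAction.toRingHom Δ K g : K →* K) y, by
        simp only [powMonoidHom_apply, map_pow]⟩))

theorem kumActFun_kumClass (g : Δ) (x : Kˣ) :
    kumActFun n K g (kumClass n K x)
      = kumClass n K (Units.map (MulSemiringAction.toRingHom Δ K g : K →* K) x) := rfl

variable (n K Δ) in
/-- The action of `Δ` on the Kummer group, as a monoid homomorphism into the additive
endomorphisms. -/
def kumAct : Δ →* AddMonoid.End (KumGrp n K) where
  toFun g := kumActFun n K g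
  map_one' := by
    refine AddMonoidHom.ext fun b => ?_
    obtain ⟨x, rfl⟩ := kumClass_surjective b
    show kumActFun n K (1 : Δ) (kumClass n K x) = kumClass n K x
    rw [kumActFun_kumClass]
    congr 1
    ext
    simp
  map_mul' g h := by
    refine AddMonoidHom.ext fun b => ?_
    obtain ⟨x, rfl⟩ := kumClass_surjective b
    show kumActFun n K (g * h) (kumClass n K x)
      = kumActFun n K g (kumActFun n K h (kumClass n K x))
    rw [kumActFun_kumClass, kumActFun_kumClass, kumActFun_kumClass]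
    congr 1
    ext
    simp [mul_smul]

theorem kumAct_kumClass (g : Δ) (x : Kˣ) :
    kumAct n K Δ g (kumClass n K x)
      = kumClass n K (Units.map (MulSemiringAction.toRingHom Δ K g : K →* K) x) := rfl

/-! ### The class of a non-zero element of `K` -/

variable (n K) in
/-- The class of `a : K` in the Kummer group (`0` if `a = 0`). -/
noncomputable def kumOf (a : K) : KumGrp n K :=
  haveI := Classical.propDecidable (a = 0)
  if h : a = 0 then 0 else kumClass n K (Units.mk0 a h)

theorem kumOf_of_ne_zero {a : K} (h : a ≠ 0) : kumOf n K a = kumClass n K (Units.mk0 a h) := by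
  unfold kumOf
  exact dif_neg h

theorem kumOf_mul {a b : K} (ha : a ≠ 0) (hb : b ≠ 0) :
    kumOf n K (a * b) = kumOf n K a + kumOf n K b := by
  rw [kumOf_of_ne_zero ha, kumOf_of_ne_zero hb, kumOf_of_ne_zero (mul_ne_zero ha hb),
    ← kumClass_mul]
  congr 1
  ext
  rfl

theorem kumOf_smul (g : Δ) {a : K} (ha : a ≠ 0) :
    kumOf n K (g • a) = kumAct n K Δ g (kumOf n K a) := by
  have hga : g • a ≠ 0 := by
    intro h
    apply ha
    have := congrArg (fun z => g⁻¹ • z) h
    simpa using this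
  rw [kumOf_of_ne_zero ha, kumOf_of_ne_zero hga, kumAct_kumClass]
  congr 1
  ext
  rfl

theorem kumOf_pow_self {y : K} (hy : y ≠ 0) : kumOf n K (y ^ n) = 0 := by
  rw [kumOf_of_ne_zero (pow_ne_zero n hy)]
  have : Units.mk0 (y ^ n) (pow_ne_zero n hy) = (Units.mk0 y hy) ^ n := by
    ext; rfl
  rw [this, kumClass_pow_self]

theorem kumOf_eq_iff {a b : K} (ha : a ≠ 0) (hb : b ≠ 0) :
    kumOf n K a = kumOf n K b ↔ ∃ z : K, z ≠ 0 ∧ a = b * z ^ n := by
  rw [kumOf_of_ne_zero ha, kumOf_of_ne_zero hb, kumClass_eq_iff]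
  constructor
  · rintro ⟨z, hz⟩
    refine ⟨(z : K), z.ne_zero, ?_⟩
    have := congrArg (fun u : Kˣ => (u : K)) hz
    simpa using this
  · rintro ⟨z, hz, h⟩
    refine ⟨Units.mk0 z hz, ?_⟩
    ext
    simpa using h

end Fermat.Agent.TW.Cnt.KumGrp90
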