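/-
helper90 — TW / WP7 / brick INST (part 5): the concrete data fed to helper71's
`UnitMult71.card_eqHom_le` / `card_eqHom_top_le` for the ring of integers `O = intRing q E` of a
finite extension `E/ℚ_q` (PT/LOC model), `Δ = E ≃ₐ[ℚ_[q]] E`:

* `qO : O → KumGrp q E`, `qO_mul`, `qO_act`, `nsmul_kumGrp` : the class map to `Eˣ/Eˣ^q`;
* `mem_lvl_ramIdx_iff` : the level `e` of the filtration is the image of `1 + q O`;
* `res`, `res_surjective`, `res_eq_zero_iff`, `res_smul`, `finite_resField`, `algebraZMod` :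
  the residue field with its Galois action;
* `exists_zeta_data`, `exists_zeta_pow` : `ζ - 1 = π ^ j₀ v₀` and `g ζ = ζ ^ ω(g)`.
-/
import Mathlib
import Fermat.Agent.TW.Cnt.InstTame90
import Fermat.Agent.TW.Cnt.KumGrp90

set_option autoImplicit false
set_option linter.unusedSectionVars false

open scoped Fermat.Agent.PT.LOC.Interface12
open Fermat.Agent.PT.LOC.Interface12 Fermat.Agent.PT.LOC.Structure14
  Fermat.Agent.PT.LOC.StructureNorm14 Fermat.Agent.PT.LOC.StructureTower27
  Fermat.Agent.PT.LOC.StructureTowerEF27 Fermat.Agent.PT.LOC.Frob27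
open Fermat.Agent.TW.Cnt.UnitFil71 Fermat.Agent.TW.Cnt.UnitGr71
open Fermat.Agent.TW.Cnt.InstSetup90 Fermat.Agent.TW.Cnt.InstTame90
open Fermat.Agent.TW.Cnt.KumGrp90

namespace Fermat.Agent.TW.Cnt.InstKum90

noncomputable section

variable {q : ℕ} [Fact q.Prime] {E : Type} [Field E] [Algebra ℚ_[q] E]
  [FiniteDimensional ℚ_[q] E]

/-! ### The class map `O → Eˣ / Eˣ^q` -/

variable (q E) in
/-- The class of an integer in the Kummer group `Eˣ / Eˣ^q` (written additively). -/
def qO (a : intRing q E) : KumGrp q E := kumOf q E (a : E)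

theorem coe_ne_zero_of_isUnit {a : intRing q E} (ha : IsUnit a) : (a : E) ≠ 0 := by
  intro h
  have h0 : a = 0 := Subtype.ext h
  rw [h0] at ha
  exact not_isUnit_zero ha

theorem qO_mul (a b : intRing q E) (ha : IsUnit a) (hb : IsUnit b) :
    qO q E (a * b) = qO q E a + qO q E b := by
  unfold qO
  rw [MulMemClass.coe_mul]
  exact kumOf_mul (coe_ne_zero_of_isUnit ha) (coe_ne_zero_of_isUnit hb)

theorem qO_act (g : E ≃ₐ[ℚ_[q]] E) (a : intRing q E) (ha : IsUnit a) :
    qO q E (g • a) = kumAct q E (E ≃ₐ[ℚ_[q]] E) g (qO q E a) := by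
  unfold qO
  rw [coe_smul]
  exact kumOf_smul g (coe_ne_zero_of_isUnit ha)

/-- The level `e` (absolute ramification index) of the unit filtration is the image of
`1 + q O`. -/
theorem mem_lvl_ramIdx_iff {π u u' : intRing q E}
    (S : UnitSetup (intRing q E) q π u u' (ramIdx q ℚ_[q] E)) (b : KumGrp q E) :
    b ∈ lvl π (qO q E) qO_mul (ramIdx q ℚ_[q] E)
      ↔ ∃ a : E, snorm q E a ≤ 1 ∧ b = kumOf q E (1 + (q : E) * a) := by
  have e1 : ((q : intRing q E) : E) = (q : E) := by push_cast; rfl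
  constructor
  · rintro ⟨x, hx, hdvd, rfl⟩
    rw [pow_ramIdx_dvd_iff S] at hdvd
    obtain ⟨c, hc⟩ := hdvd
    refine ⟨(c : E), (mem_intRing_iff q E _).1 c.2, ?_⟩
    unfold qO
    congr 1
    have := congrArg (fun z : intRing q E => (z : E)) hc
    simp only [Subalgebra.coe_sub, OneMemClass.coe_one, MulMemClass.coe_mul, e1] at this
    rw [← this]; ring
  · rintro ⟨a, ha, rfl⟩
    have ha' : a ∈ intRing q E := (mem_intRing_iff q E _).2 ha
    set x : intRing q E := 1 + (q : intRing q E) * ⟨a, ha'⟩ with hx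
    have hxdvd : π ^ ramIdx q ℚ_[q] E ∣ x - 1 := by
      rw [pow_ramIdx_dvd_iff S]
      exact ⟨⟨a, ha'⟩, by rw [hx]; ring⟩
    refine ⟨x, S.isUnit_of_dvd_sub_one S.e_pos hxdvd, hxdvd, ?_⟩
    unfold qO
    congr 1

/-! ### The residue field -/

variable (q E) in
/-- The residue map. -/
abbrev res : intRing q E →+* IsLocalRing.ResidueField (intRing q E) :=
  IsLocalRing.residue (intRing q E)

theorem res_surjective : Function.Surjective (res q E) := IsLocalRing.residue_surjective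

theorem res_eq_zero_iff {π : intRing q E} (hπ : IsUniformizer q E (π : E)) (c : intRing q E) :
    res q E c = 0 ↔ π ∣ c := by
  rw [IsLocalRing.residue_eq_zero_iff, dvd_iff_mem_maximalIdeal hπ]

theorem res_smul (g : E ≃ₐ[ℚ_[q]] E) (a : intRing q E) : res q E (g • a) = g • res q E a := rfl

instance finite_resField : Finite (IsLocalRing.ResidueField (intRing q E)) :=
  inferInstanceAs (Finite (intRing q E ⧸ IsLocalRing.maximalIdeal (intRing q E)))

instance charP_resField : CharP (IsLocalRing.ResidueField (intRing q E)) q := by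
  rw [CharP.charP_iff_prime_eq_zero (Fact.out : q.Prime)]
  have h1 : (q : intRing q E) ∈ IsLocalRing.maximalIdeal (intRing q E) := by
    rw [← maxId_eq_maximalIdeal]; exact natCast_mem_maxId q E
  have h2 := (IsLocalRing.residue_eq_zero_iff (q : intRing q E)).2 h1
  rwa [map_natCast] at h2

variable (q E) in
/-- The `ZMod q`-algebra structure of the residue field. -/
@[reducible]
def algebraZMod : Algebra (ZMod q) (IsLocalRing.ResidueField (intRing q E)) :=
  ZMod.algebra _ q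

/-! ### The `q`-th roots of unity -/

/-- `‖ζ - 1‖ ^ (q - 1) = q⁻¹` for a primitive `q`-th root of unity. -/
theorem snorm_zeta_sub_one_pow (ζ : E) (hζ : IsPrimitiveRoot ζ q) :
    ζ ∈ intRing q E ∧ snorm q E (ζ - 1) ^ (q - 1) = (q : ℝ)⁻¹ := by
  have hq := (Fact.out : q.Prime)
  have hζ1 : snorm q E ζ = 1 := by
    have h1 : snorm q E ζ ^ q = 1 := by
      rw [← snorm_pow', hζ.pow_eq_one, snorm_one]
    exact (pow_eq_one_iff_of_nonneg (snorm_nonneg q E ζ) hq.ne_zero).1 h1
  have hζint : ζ ∈ intRing q E := by rw [mem_intRing_iff, ← snorm, hζ1]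
  refine ⟨hζint, ?_⟩
  have hζ' : IsPrimitiveRoot (⟨ζ, hζint⟩ : intRing q E) q :=
    IsPrimitiveRoot.of_map_of_injective (f := (intRing q E).val) hζ Subtype.val_injective
  obtain ⟨w, hw⟩ := associated_sub_one_pow_prime hq hζ'
  have h2 := congrArg (fun z : intRing q E => snorm q E (z : E)) hw
  simp only [MulMemClass.coe_mul, SubmonoidClass.coe_pow, snorm_mul] at h2
  rw [snorm_eq_one_of_isUnit w.isUnit, mul_one] at h2
  have e1 : ((q : intRing q E) : E) = (q : E) := by push_cast; rfl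
  rw [e1, snorm_natCast_q] at h2
  rw [← h2, snorm_pow']
  rfl

/-- `ζ - 1 = π ^ j₀ v₀` with `v₀` a unit and `j₀ ≥ 1`. -/
theorem exists_zeta_data {π : intRing q E} (hπ : IsUniformizer q E (π : E)) (ζ : E)
    (hζ : IsPrimitiveRoot ζ q) :
    ∃ (ζ' v₀ : intRing q E) (j₀ : ℕ), (ζ' : E) = ζ ∧ ζ' ^ q = 1 ∧ 1 ≤ j₀ ∧ IsUnit v₀ ∧
      ζ' - 1 = π ^ j₀ * v₀ := by
  have hq := (Fact.out : q.Prime)
  obtain ⟨hζint, hnorm⟩ := snorm_zeta_sub_one_pow ζ hζ
  set ζ' : intRing q E := ⟨ζ, hζint⟩ with hζ'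
  have hne : ζ' - 1 ≠ 0 := by
    intro h
    have h1 : ζ - 1 = 0 := by
      have := congrArg (fun z : intRing q E => (z : E)) h
      simpa [hζ'] using this
    exact hζ.ne_one hq.one_lt (sub_eq_zero.1 h1)
  obtain ⟨j₀, v, hv⟩ := IsDiscreteValuationRing.eq_unit_mul_pow_irreducible hne
    (irreducible_of_isUniformizer hπ)
  refine ⟨ζ', (v : intRing q E), j₀, rfl, ?_, ?_, v.isUnit, by rw [hv]; ring⟩
  · apply Subtype.ext
    simp only [SubmonoidClass.coe_pow, OneMemClass.coe_one, hζ']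
    exact hζ.pow_eq_one
  · -- `j₀ ≥ 1` since `‖ζ - 1‖ < 1`
    by_contra hj
    have hj0 : j₀ = 0 := by omega
    rw [hj0, pow_zero, mul_one] at hv
    have h1 : snorm q E (ζ - 1) = 1 := by
      have := snorm_eq_one_of_isUnit (E := E) (q := q) v.isUnit
      rw [← hv] at this
      simpa [hζ'] using this
    rw [h1, one_pow] at hnorm
    have hq1 : (1 : ℝ) < q := by exact_mod_cast hq.one_lt
    have : (q : ℝ)⁻¹ < 1 := inv_lt_one_of_one_lt₀ hq1
    linarith

/-- Every automorphism raises `ζ` to a power. -/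
theorem exists_zeta_pow (ζ' : intRing q E) (hζ : IsPrimitiveRoot ζ' q) (g : E ≃ₐ[ℚ_[q]] E) :
    ∃ m : ℕ, g • ζ' = ζ' ^ m := by
  have : NeZero q := ⟨(Fact.out : q.Prime).ne_zero⟩
  have h1 : (g • ζ') ^ q = 1 := by
    rw [← smul_pow', hζ.pow_eq_one, smul_one]
  obtain ⟨m, -, hm⟩ := hζ.eq_pow_of_pow_eq_one h1
  exact ⟨m, hm.symm⟩

end

end Fermat.Agent.TW.Cnt.InstKum90
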