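/-
TW / WP7-CNT (helper72, WP7 architect): the LITERAL interfaces between the Kummer dictionary (B10), the
instantiated unit count (INST = B11 at `𝒪_{K0}` + numerics N1/N2) and the counting theorems T1/T2
(`Table72.CharCount`, `Table72.IndCount`).

Everything is elementwise in `K0ˣ` (no quotient group `K0ˣ/p` appears in an interface):

* `ModPth p K0 a b`      : `a ≡ b` modulo `p`-th powers of `K0ˣ`;
* `IsFlatUnit p K0 u`    : `u ∈ (1 + p 𝒪_{K0}) · K0^{×p}` (the conclusion of `Spec72.KummerFontaine`);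
* `trPair p k c x`       : the trace form `Tr_{k/𝔽_p}(c x)`;
* `omegaU p k`           : the mod `p` cyclotomic character `G_p →* kˣ` (`KummerQp71.chiLoc` pushed to `k`);
* `EqHoms p K0 G' k χ`   : `G'`-equivariant additive level functions `Gal(Ω/K0) → k(χ)`;
* `KummerDict p`  (B10)  : the Kummer dictionary `f ↦ (c ↦ u_{f,c})`;
* `ConcreteN1 p`, `ConcreteN2 p` (INST) : a family of Kummer data indexed by `F` which is flat, additive,
  equivariant and separating has at most `|k|^m` members.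
-/
import Mathlib
import Fermat.Agent.TW.FF.Spec72
import Fermat.Agent.TW.OrdLocal.KummerQp71

set_option autoImplicit false

noncomputable section

namespace Fermat.Agent.TW.Cnt.KumSpec72

open Fermat.Agent.TW.FF.FlatModel68 (GQp)
open Fermat.Agent.TW.FF.Spec72
open Fermat.Agent.TW.OrdLocal

variable (p : ℕ) [Fact p.Prime]

/-- `a ≡ b` modulo `p`-th powers of `K0ˣ`. -/
def ModPth (K0 : IntermediateField ℚ_[p] (PadicAlgCl p)) (a b : K0ˣ) : Prop :=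
  ∃ y : K0ˣ, a = b * y ^ p

/-- `u ∈ (1 + p 𝒪_{K0}) · K0^{×p}`: literally the conclusion of `Spec72.KummerFontaine`. -/
def IsFlatUnit (K0 : IntermediateField ℚ_[p] (PadicAlgCl p)) (u : K0) : Prop :=
  ∃ a y : K0, ‖(a : PadicAlgCl p)‖ ≤ 1 ∧ y ≠ 0 ∧ u = (1 + (p : K0) * a) * y ^ p

/-- The trace form `(c, x) ↦ Tr_{k/𝔽_p}(c x)`. -/
def trPair (k : Type) [Field k] [Algebra (ZMod p) k] (c x : k) : ZMod p :=
  Algebra.trace (ZMod p) k (c * x)

/-- The mod `p` cyclotomic character of `G_p` with values in `kˣ`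
(`(omegaU p k g : k) = algebraMap (ZMod p) k (KummerQp71.chiLoc p g)`). -/
def omegaU (k : Type) [Field k] [Algebra (ZMod p) k] : GQp p →* kˣ :=
  (Units.map ((algebraMap (ZMod p) k : ZMod p →+* k) : ZMod p →* k)).comp
    ((ExtCitation.cycloChar p).comp (localGaloisToGlobal p))

theorem coe_omegaU (k : Type) [Field k] [Algebra (ZMod p) k] (g : GQp p) :
    ((omegaU p k g : kˣ) : k) = algebraMap (ZMod p) k (KummerQp71.chiLoc p g) := rfl

/-- `G'`-equivariant additive functions `Gal(Ω/K0) → k(χ)` which vanish on an open subgroup. -/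
def EqHoms (K0 : IntermediateField ℚ_[p] (PadicAlgCl p)) (G' : Subgroup (GQp p))
    (k : Type) [Field k] (χ : ↥G' →* kˣ) : Set (↥K0.fixingSubgroup → k) :=
  {f | (∀ s s' : ↥K0.fixingSubgroup, f (s * s') = f s + f s') ∧
    (∀ (g : ↥G') (s s' : ↥K0.fixingSubgroup), (s' : GQp p) = g * s * (g : GQp p)⁻¹ →
      f s' = (χ g : k) * f s) ∧
    ∃ E : IntermediateField ℚ_[p] (PadicAlgCl p), FiniteDimensional ℚ_[p] E ∧
      ∀ s : ↥K0.fixingSubgroup, (s : GQp p) ∈ E.fixingSubgroup → f s = 0}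

/-- **B10 (Kummer dictionary).**  `K0/ℚ_p` finite Galois containing a primitive `p`-th root of unity `ζ`,
`S = Gal(Ω/K0) ≤ G' ≤ G_p`, `χ : G' →* kˣ` trivial on `S`.  To every `f ∈ EqHoms` and `c ∈ k` one can
attach `u_{f,c} ∈ K0ˣ` with a `p`-th root `z` such that `s z = ζ^{Tr(c f(s))} z` on `S`; the assignment
is additive in `c` modulo `p`-th powers, equivariant (`g u_{f,c} ≡ u_{f, ω(g) χ(g)⁻¹ c}` for `g ∈ G'`) and
separates the `f`'s. -/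
def KummerDict : Prop :=
  ∀ (K0 : IntermediateField ℚ_[p] (PadicAlgCl p)) [FiniteDimensional ℚ_[p] K0] [IsGalois ℚ_[p] K0]
    (ζ : K0), IsPrimitiveRoot ζ p →
  ∀ (G' : Subgroup (GQp p)), K0.fixingSubgroup ≤ G' →
  ∀ (k : Type) [Field k] [Finite k] [Algebra (ZMod p) k] (χ : ↥G' →* kˣ),
    (∀ g : ↥G', (g : GQp p) ∈ K0.fixingSubgroup → χ g = 1) →
  ∃ Φ : ↥(EqHoms p K0 G' k χ) → k → K0ˣ,
    (∀ f c, ∃ z : PadicAlgCl p, z ^ p = (((Φ f c : K0ˣ) : K0) : PadicAlgCl p) ∧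
      ∀ s : ↥K0.fixingSubgroup,
        (s : GQp p) z = ((ζ : K0) : PadicAlgCl p) ^ (trPair p k c (f.1 s)).val * z) ∧
    (∀ f c c', ModPth p K0 (Φ f (c + c')) (Φ f c * Φ f c')) ∧
    (∀ f (g : ↥G') c, ∃ y : K0ˣ,
      (g : GQp p) (((Φ f c : K0ˣ) : K0) : PadicAlgCl p) =
        (((Φ f ((omegaU p k g : k) * ((χ g)⁻¹ : kˣ) * c) : K0ˣ) : K0) : PadicAlgCl p) *
          (((y : K0ˣ) : K0) : PadicAlgCl p) ^ p) ∧
    (∀ f f', (∀ c, ModPth p K0 (Φ f c) (Φ f' c)) → f = f')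

open Classical in
/-- **INST-N1 (abelian over `ℚ_p`).**  `K0/ℚ_p` finite abelian of degree prime to `p`, `ζ_p ∈ K0`;
`ψ : G_p →* kˣ` trivial on `Gal(Ω/K0)`.  A family `Φ : F → k → K0ˣ` of flat Kummer data which is additive,
`ψ`-equivariant and separating has at most `|k|^([ψ|I = 1] + [ψ = ω])` members. -/
def ConcreteN1 : Prop :=
  p ≠ 2 →
  ∀ (K0 : IntermediateField ℚ_[p] (PadicAlgCl p)) [FiniteDimensional ℚ_[p] K0] [IsGalois ℚ_[p] K0],
    ¬ p ∣ Module.finrank ℚ_[p] K0 → (∃ ζ : K0, IsPrimitiveRoot ζ p) →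
    (∀ σ τ : K0 ≃ₐ[ℚ_[p]] K0, σ * τ = τ * σ) →
  ∀ (k : Type) [Field k] [Finite k] [Algebra (ZMod p) k] (ψ : GQp p →* kˣ),
    (∀ s ∈ K0.fixingSubgroup, ψ s = 1) →
  ∀ (F : Type) (Φ : F → k → K0ˣ),
    (∀ f c, IsFlatUnit p K0 ((Φ f c : K0ˣ) : K0)) →
    (∀ f c c', ModPth p K0 (Φ f (c + c')) (Φ f c * Φ f c')) →
    (∀ f (g : GQp p) c, ∃ y : K0ˣ,
      g (((Φ f c : K0ˣ) : K0) : PadicAlgCl p) =
        (((Φ f ((ψ g : k) * c) : K0ˣ) : K0) : PadicAlgCl p) *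
          (((y : K0ˣ) : K0) : PadicAlgCl p) ^ p) →
    (∀ f f', (∀ c, ModPth p K0 (Φ f c) (Φ f' c)) → f = f') →
    Finite F ∧ Nat.card F ≤ Nat.card k ^
      ((if ∀ τ ∈ inertiaSet p, ψ τ = 1 then 1 else 0) + (if ψ = omegaU p k then 1 else 0))

/-- **INST-N2 (abelian over `ℚ_{p²}`).**  `H ≤ G_p` of index two containing inertia and `Gal(Ω/K0)`, with
`H/Gal(Ω/K0)` abelian; `ξ : H →* kˣ` trivial on `Gal(Ω/K0)`, of level two on inertia, nontrivial on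
inertia, not the corner `p = 3`, `ξ|I = ω|I`; `ψ = ω ξ⁻¹`.  Then a flat, additive, `ψ`-equivariant (for
`H`), separating family has at most `|k|` members. -/
def ConcreteN2 : Prop :=
  p ≠ 2 →
  ∀ (K0 : IntermediateField ℚ_[p] (PadicAlgCl p)) [FiniteDimensional ℚ_[p] K0] [IsGalois ℚ_[p] K0],
    ¬ p ∣ Module.finrank ℚ_[p] K0 → (∃ ζ : K0, IsPrimitiveRoot ζ p) →
  ∀ (H : Subgroup (GQp p)), H.index = 2 → inertiaSet p ⊆ (H : Set (GQp p)) →
    K0.fixingSubgroup ≤ H →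
    (∀ σ ∈ H, ∀ τ ∈ H, ∀ x : K0, σ (τ (x : PadicAlgCl p)) = τ (σ (x : PadicAlgCl p))) →
  ∀ (k : Type) [Field k] [Finite k] [Algebra (ZMod p) k] (ξ : ↥H →* kˣ),
    (∀ h : ↥H, (h : GQp p) ∈ K0.fixingSubgroup → ξ h = 1) →
    (∀ τ : ↥H, (τ : GQp p) ∈ inertiaSet p → ξ τ ^ (p + 1) = 1) →
    (∃ τ : ↥H, (τ : GQp p) ∈ inertiaSet p ∧ ξ τ ≠ 1) →
    ¬ (p = 3 ∧ ∀ τ : ↥H, (τ : GQp p) ∈ inertiaSet p → ξ τ = omegaU p k τ) →
  ∀ (F : Type) (Φ : F → k → K0ˣ),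
    (∀ f c, IsFlatUnit p K0 ((Φ f c : K0ˣ) : K0)) →
    (∀ f c c', ModPth p K0 (Φ f (c + c')) (Φ f c * Φ f c')) →
    (∀ f (g : ↥H) c, ∃ y : K0ˣ,
      (g : GQp p) (((Φ f c : K0ˣ) : K0) : PadicAlgCl p) =
        (((Φ f ((omegaU p k g : k) * ((ξ g)⁻¹ : kˣ) * c) : K0ˣ) : K0) : PadicAlgCl p) *
          (((y : K0ˣ) : K0) : PadicAlgCl p) ^ p) →
    (∀ f f', (∀ c, ModPth p K0 (Φ f c) (Φ f' c)) → f = f') →
    Finite F ∧ Nat.card F ≤ Nat.card k

end Fermat.Agent.TW.Cnt.KumSpec72
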