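/-
helper90 — TW / WP7 / brick INST (transport): from `Γ = G_p = Gal(ℚ̄_p/ℚ_p)` acting on
`Ω = PadicAlgCl p` to `Δ = Gal(K0/ℚ_p)` acting on the ring of integers of `K0` and on the Kummer
group `K0ˣ / K0ˣ^p`, for a finite Galois `K0 : IntermediateField ℚ_[p] (PadicAlgCl p)`.

* `snorm_coe`                      : the spectral norm of `K0` is the norm of `Ω`;
* `rHom`, `rHom_apply`, `rHom_surjective`, `rHom_ker` : restriction `Γ → Δ`;
* `kumClass_mem_lvl_of_isFlatUnit` : `IsFlatUnit` ⇒ level `e` of the unit filtration;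
* `modPth_iff`                     : `ModPth` is equality in the Kummer group;
* `kumAct_rHom_kumClass`           : the elementwise equivariance of `KumSpec72` is equivariance for
                                     `kumAct`;
* `dvd_smul_sub_of_mem_inertiaSet` : the image of inertia acts trivially on the residue field;
* `exists_inertia_of_dvd`          : (LS1) and conversely;
* `apply_rootOfUnity`, `smul_zeta` : `g ζ = ζ ^ χ(g)` for the mod `p` cyclotomic character;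
* `omegaD`, `descend`              : characters of `Γ` trivial on `Gal(Ω/K0)` descend to `Δ`.
-/
import Mathlib
import Fermat.Agent.TW.Cnt.KumSpec72
import Fermat.Agent.TW.Cnt.InstKum90
import Fermat.Agent.TW.Cnt.LocalStruct97

set_option autoImplicit false
set_option linter.unusedSectionVars false

open scoped Fermat.Agent.PT.LOC.Interface12
open Fermat.Agent.PT.LOC.Interface12 Fermat.Agent.PT.LOC.Structure14
  Fermat.Agent.PT.LOC.StructureNorm14 Fermat.Agent.PT.LOC.StructureTower27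
  Fermat.Agent.PT.LOC.StructureTowerEF27 Fermat.Agent.PT.LOC.Frob27
open Fermat.Agent.TW.Cnt.UnitFil71 Fermat.Agent.TW.Cnt.UnitGr71
open Fermat.Agent.TW.Cnt.InstSetup90 Fermat.Agent.TW.Cnt.InstTame90
open Fermat.Agent.TW.Cnt.KumGrp90 Fermat.Agent.TW.Cnt.InstKum90
open Fermat.Agent.TW.FF.FlatModel68 (GQp)
open Fermat.Agent.TW.FF.Spec72
open Fermat.Agent.TW.Cnt.KumSpec72
open Fermat.Agent.TW.OrdLocal

namespace Fermat.Agent.TW.Cnt.InstTransport90

noncomputable section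

variable {p : ℕ} [Fact p.Prime] (K0 : IntermediateField ℚ_[p] (PadicAlgCl p))
  [FiniteDimensional ℚ_[p] K0]

/-! ### The norm bridge -/

/-- The spectral norm of `K0` is the restriction of the norm of `PadicAlgCl p`. -/
theorem snorm_coe (x : K0) : snorm p K0 x = ‖(x : PadicAlgCl p)‖ := by
  show spectralNorm ℚ_[p] K0 x = ‖(K0.val x : PadicAlgCl p)‖
  rw [← PadicAlgCl.spectralNorm_eq, spectralNorm, spectralNorm,
    minpoly.algHom_eq K0.val K0.val.injective]

theorem mem_intRing_iff_norm (x : K0) : x ∈ intRing p K0 ↔ ‖(x : PadicAlgCl p)‖ ≤ 1 := by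
  rw [mem_intRing_iff, ← snorm_coe]

theorem norm_coe_le_one (x : intRing p K0) : ‖((x : K0) : PadicAlgCl p)‖ ≤ 1 :=
  (mem_intRing_iff_norm K0 _).1 x.2

theorem dvd_iff_norm_lt_one {π : intRing p K0} (hπ : IsUniformizer p K0 (π : K0))
    (x : intRing p K0) : π ∣ x ↔ ‖((x : K0) : PadicAlgCl p)‖ < 1 := by
  rw [dvd_iff_mem_maximalIdeal hπ, mem_maximalIdeal_iff_snorm, snorm_coe]

/-! ### Flat units and `p`-th powers -/

theorem kumClass_mem_lvl_of_isFlatUnit {π u u' : intRing p K0}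
    (S : UnitSetup (intRing p K0) p π u u' (ramIdx p ℚ_[p] K0)) (x : K0ˣ)
    (hx : IsFlatUnit p K0 (x : K0)) :
    kumClass p K0 x ∈ lvl π (qO p K0) qO_mul (ramIdx p ℚ_[p] K0) := by
  obtain ⟨a, y, ha, hy, hxy⟩ := hx
  rw [mem_lvl_ramIdx_iff S]
  refine ⟨a, by rw [snorm_coe]; exact ha, ?_⟩
  have h1 : (1 + (p : K0) * a) ≠ 0 := by
    intro h
    rw [h, zero_mul] at hxy
    exact x.ne_zero hxy
  rw [kumOf_of_ne_zero h1, kumClass_eq_iff]
  refine ⟨Units.mk0 y hy, Units.ext ?_⟩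
  simpa using hxy

theorem modPth_iff (a b : K0ˣ) : ModPth p K0 a b ↔ kumClass p K0 a = kumClass p K0 b :=
  (kumClass_eq_iff a b).symm

/-! ### Restriction to `K0` -/

section Galois

variable [IsGalois ℚ_[p] K0]

/-- Restriction `Gal(Ω/ℚ_p) → Gal(K0/ℚ_p)`. -/
def rHom : GQp p →* (K0 ≃ₐ[ℚ_[p]] K0) := AlgEquiv.restrictNormalHom K0

theorem rHom_apply (g : GQp p) (x : K0) :
    ((rHom K0 g x : K0) : PadicAlgCl p) = g (x : PadicAlgCl p) :=
  AlgEquiv.restrictNormalHom_apply K0 g x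

theorem rHom_surjective : Function.Surjective (rHom K0) :=
  AlgEquiv.restrictNormalHom_surjective _

theorem rHom_ker : (rHom K0).ker = K0.fixingSubgroup :=
  IntermediateField.restrictNormalHom_ker K0

theorem rHom_eq_of_eq_on {g g' : GQp p}
    (h : ∀ x : K0, g (x : PadicAlgCl p) = g' (x : PadicAlgCl p)) : rHom K0 g = rHom K0 g' := by
  ext x
  rw [rHom_apply, rHom_apply, h]

theorem coe_rHom_smul (g : GQp p) (x : intRing p K0) :
    (((rHom K0 g • x : intRing p K0) : K0) : PadicAlgCl p) = g ((x : K0) : PadicAlgCl p) := by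
  rw [coe_smul, rHom_apply]

/-- The elementwise equivariance of `KumSpec72` is equivariance for the action on the Kummer
group. -/
theorem kumAct_rHom_kumClass (g : GQp p) (x x' : K0ˣ)
    (h : ∃ y : K0ˣ, g (((x : K0ˣ) : K0) : PadicAlgCl p) =
      (((x' : K0ˣ) : K0) : PadicAlgCl p) * (((y : K0ˣ) : K0) : PadicAlgCl p) ^ p) :
    kumAct p K0 (K0 ≃ₐ[ℚ_[p]] K0) (rHom K0 g) (kumClass p K0 x) = kumClass p K0 x' := by
  obtain ⟨y, hy⟩ := h
  rw [kumAct_kumClass, kumClass_eq_iff]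
  refine ⟨y, Units.ext (Subtype.ext ?_)⟩
  rw [Units.coe_map]
  show ((rHom K0 g (x : K0) : K0) : PadicAlgCl p) = _
  rw [rHom_apply, hy]
  simp

/-! ### Inertia -/

/-- The image of an inertia element acts trivially on the residue field. -/
theorem dvd_smul_sub_of_mem_inertiaSet {π : intRing p K0} (hπ : IsUniformizer p K0 (π : K0))
    {τ : GQp p} (hτ : τ ∈ inertiaSet p) (x : intRing p K0) : π ∣ rHom K0 τ • x - x := by
  rw [dvd_iff_norm_lt_one K0 hπ]
  have h1 : (((rHom K0 τ • x - x : intRing p K0) : K0) : PadicAlgCl p)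
      = τ ((x : K0) : PadicAlgCl p) - ((x : K0) : PadicAlgCl p) := by
    rw [← coe_rHom_smul]
    simp
  rw [h1]
  exact hτ _ (norm_coe_le_one K0 x)

/-- **LS1**: an element of `Gal(K0/ℚ_p)` acting trivially on the residue field is the
restriction of an inertia element. -/
theorem exists_inertia_of_dvd {π : intRing p K0} (hπ : IsUniformizer p K0 (π : K0))
    (σ : K0 ≃ₐ[ℚ_[p]] K0) (hσ : ∀ x : intRing p K0, π ∣ σ • x - x) :
    ∃ τ ∈ inertiaSet p, rHom K0 τ = σ := by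
  obtain ⟨g, rfl⟩ := rHom_surjective K0 σ
  obtain ⟨τ, hτ, hτg⟩ := LocalStruct97.exists_inertia_eq_on K0 g (by
    intro x hx
    have hx' : x ∈ intRing p K0 := (mem_intRing_iff_norm K0 x).2 hx
    have h1 := (dvd_iff_norm_lt_one K0 hπ _).1 (hσ ⟨x, hx'⟩)
    have h2 : (((rHom K0 g • (⟨x, hx'⟩ : intRing p K0) - ⟨x, hx'⟩ : intRing p K0) : K0) :
        PadicAlgCl p) = g (x : PadicAlgCl p) - (x : PadicAlgCl p) := by
      rw [← rHom_apply]
      simp
    rw [h2] at h1
    exact h1)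
  exact ⟨τ, hτ, rHom_eq_of_eq_on K0 hτg⟩

end Galois

/-! ### The cyclotomic character -/

/-- `g ζ = ζ ^ χ(g)` for every `p`-th root of unity `ζ` of `Ω`. -/
theorem apply_rootOfUnity (g : GQp p) (ζ : PadicAlgCl p) (hζ : ζ ^ p = 1) :
    g ζ = ζ ^ (KummerQp71.chiLoc p g).val := by
  have hp : p.Prime := Fact.out
  have : NeZero p := ⟨hp.ne_zero⟩
  have hz : IsPrimitiveRoot ((KummerQp71.zetaLoc p : (PadicAlgCl p)ˣ) : PadicAlgCl p) p :=
    IsPrimitiveRoot.coe_units_iff.2 (KummerQp71.zetaLoc_spec p)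
  obtain ⟨m, -, rfl⟩ := hz.eq_pow_of_pow_eq_one hζ
  have h1 := congrArg (fun u : (PadicAlgCl p)ˣ => (u : PadicAlgCl p)) (KummerQp71.smul_zetaLoc p g)
  simp only [AlgEquiv.smul_units_def, Units.coe_map, MonoidHom.coe_coe,
    Units.val_pow_eq_pow_val] at h1
  rw [map_pow, h1, ← pow_mul, ← pow_mul, mul_comm]

/-- An element of `Γ` fixing a primitive `p`-th root of unity has trivial cyclotomic character. -/
theorem chiLoc_eq_one_of_fixes (g : GQp p) (ζ : PadicAlgCl p) (hζ : IsPrimitiveRoot ζ p)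
    (hg : g ζ = ζ) : KummerQp71.chiLoc p g = 1 := by
  have hp : p.Prime := Fact.out
  have h1 := apply_rootOfUnity g ζ hζ.pow_eq_one
  rw [hg] at h1
  have h2 : ζ ^ (KummerQp71.chiLoc p g).val = ζ ^ 1 := by rw [← h1, pow_one]
  have h3 := hζ.pow_inj (ZMod.val_lt _) hp.one_lt h2
  rw [← ZMod.natCast_zmod_val (KummerQp71.chiLoc p g), h3, Nat.cast_one]

/-- The mod `p` cyclotomic character `Γ →* (ZMod p)ˣ`. -/
def chiU (p : ℕ) [Fact p.Prime] : GQp p →* (ZMod p)ˣ :=
  (ExtCitation.cycloChar p).comp (localGaloisToGlobal p)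

theorem coe_chiU (g : GQp p) : ((chiU p g : (ZMod p)ˣ) : ZMod p) = KummerQp71.chiLoc p g := rfl

theorem omegaU_eq (k : Type) [Field k] [Algebra (ZMod p) k] (g : GQp p) :
    ((omegaU p k g : kˣ) : k) = algebraMap (ZMod p) k ((chiU p g : (ZMod p)ˣ) : ZMod p) := rfl

section Galois

variable [IsGalois ℚ_[p] K0]

/-- Descent of a character of `Γ` which is trivial on `Gal(Ω/K0)` to `Gal(K0/ℚ_p)`. -/
def descend {M : Type*} [Group M] (ψ : GQp p →* M) (hψ : ∀ s ∈ K0.fixingSubgroup, ψ s = 1) :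
    (K0 ≃ₐ[ℚ_[p]] K0) →* M :=
  (rHom K0).liftOfSurjective (rHom_surjective K0) ⟨ψ, by
    rw [rHom_ker]
    intro s hs
    exact hψ s hs⟩

theorem descend_rHom {M : Type*} [Group M] (ψ : GQp p →* M)
    (hψ : ∀ s ∈ K0.fixingSubgroup, ψ s = 1) (g : GQp p) :
    descend K0 ψ hψ (rHom K0 g) = ψ g :=
  MonoidHom.liftOfRightInverse_comp_apply _ _ _ _ g

theorem chiU_eq_one_of_mem (ζ : K0) (hζ : IsPrimitiveRoot ζ p) (s : GQp p)
    (hs : s ∈ K0.fixingSubgroup) : chiU p s = 1 := by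
  apply Units.ext
  rw [coe_chiU, Units.val_one]
  refine chiLoc_eq_one_of_fixes s (ζ : PadicAlgCl p) ?_ ?_
  · exact hζ.map_of_injective (f := K0.val) K0.val.injective
  · exact (IntermediateField.mem_fixingSubgroup_iff _ _).1 hs _ ζ.2

/-- The mod `p` cyclotomic character of `Gal(K0/ℚ_p)` (`ζ_p ∈ K0`). -/
def omegaD (ζ : K0) (hζ : IsPrimitiveRoot ζ p) : (K0 ≃ₐ[ℚ_[p]] K0) →* (ZMod p)ˣ :=
  descend K0 (chiU p) (chiU_eq_one_of_mem K0 ζ hζ)

theorem omegaD_rHom (ζ : K0) (hζ : IsPrimitiveRoot ζ p) (g : GQp p) :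
    omegaD K0 ζ hζ (rHom K0 g) = chiU p g :=
  descend_rHom K0 _ _ g

/-- `σ ζ' = ζ' ^ ω(σ)` for `p`-th roots of unity of the ring of integers. -/
theorem smul_zeta (ζ : K0) (hζ : IsPrimitiveRoot ζ p) (ζ' : intRing p K0) (hζ' : ζ' ^ p = 1)
    (σ : K0 ≃ₐ[ℚ_[p]] K0) :
    σ • ζ' = ζ' ^ ((omegaD K0 ζ hζ σ : (ZMod p)ˣ) : ZMod p).val := by
  obtain ⟨g, rfl⟩ := rHom_surjective K0 σ
  rw [omegaD_rHom, coe_chiU]
  apply Subtype.ext
  apply Subtype.ext
  rw [coe_rHom_smul]
  have h1 : (((ζ' : intRing p K0) : K0) : PadicAlgCl p) ^ p = 1 := by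
    have := congrArg (fun z : intRing p K0 => ((z : K0) : PadicAlgCl p)) hζ'
    simpa using this
  rw [apply_rootOfUnity g _ h1]
  simp

end Galois

end

end Fermat.Agent.TW.Cnt.InstTransport90
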