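/-
helper90 — TW / WP7 / brick INST (final): `InstSpec90.AbsN1 p → KumSpec72.ConcreteN1 p` and
`InstSpec90.AbsN2 p → KumSpec72.ConcreteN2 p`.
-/
import Mathlib
import Fermat.Agent.TW.Cnt.InstSpec90
import Fermat.Agent.TW.Cnt.InstTransport90

set_option autoImplicit false
set_option linter.unusedSectionVars false
set_option linter.style.haveILetI false

open scoped Fermat.Agent.PT.LOC.Interface12
open Fermat.Agent.PT.LOC.Interface12 Fermat.Agent.PT.LOC.Structure14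
  Fermat.Agent.PT.LOC.StructureNorm14 Fermat.Agent.PT.LOC.StructureTower27
  Fermat.Agent.PT.LOC.StructureTowerEF27 Fermat.Agent.PT.LOC.Frob27
open Fermat.Agent.TW.Cnt.UnitFil71 Fermat.Agent.TW.Cnt.UnitGr71
open Fermat.Agent.TW.Cnt.InstSetup90 Fermat.Agent.TW.Cnt.InstTame90
open Fermat.Agent.TW.Cnt.KumGrp90 Fermat.Agent.TW.Cnt.InstKum90
open Fermat.Agent.TW.Cnt.InstSpec90 Fermat.Agent.TW.Cnt.InstTransport90
open Fermat.Agent.TW.FF.FlatModel68 (GQp)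
open Fermat.Agent.TW.FF.Spec72
open Fermat.Agent.TW.Cnt.KumSpec72
open Fermat.Agent.TW.OrdLocal

namespace Fermat.Agent.TW.Cnt.InstConcrete90

noncomputable section

theorem ite_le_ite_of_imp {A A' : Prop} {dA : Decidable A} {dA' : Decidable A'} (h : A → A') :
    (@ite ℕ A dA 1 0) ≤ (@ite ℕ A' dA' 1 0) := by
  split_ifs with h1 h2
  · exact le_rfl
  · exact absurd (h h1) h2
  · exact Nat.zero_le _
  · exact le_rfl

section General

variable {q : ℕ} [Fact q.Prime] {E : Type} [Field E] [Algebra ℚ_[q] E]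
  [FiniteDimensional ℚ_[q] E]

/-- The Galois group acts faithfully on the ring of integers. -/
theorem eq_one_of_smul_eq (g : E ≃ₐ[ℚ_[q]] E) (hfix : ∀ z : intRing q E, g • z = z) : g = 1 := by
  ext t
  rcases mem_or_inv_mem q E t with ht | ht
  · exact congrArg (fun z : intRing q E => (z : E)) (hfix ⟨t, ht⟩)
  · have h2 : g t⁻¹ = t⁻¹ := congrArg (fun z : intRing q E => (z : E)) (hfix ⟨t⁻¹, ht⟩)
    rw [map_inv₀] at h2
    exact inv_injective h2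

theorem ramIdx_le_card_inertia [IsGalois ℚ_[q] E] {π : intRing q E}
    (hπ : IsUniformizer q E (π : E)) :
    ramIdx q ℚ_[q] E ≤ Nat.card {g : E ≃ₐ[ℚ_[q]] E // ∀ x : intRing q E, π ∣ g • x - x} := by
  rw [← card_inertia_eq (q := q) (E := E)]
  exact le_of_eq (Nat.card_congr
    (Equiv.subtypeEquivRight (fun g => mem_inertia_iff_dvd hπ g)))

end General

variable {p : ℕ} [Fact p.Prime]

theorem concreteN1 (habs : AbsN1 p) : ConcreteN1 p := by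
  intro hp2 K0 _ _ hdeg hζex hcomm k _ _ _ ψ hψS F Φ hflat hadd hequi hsep
  obtain ⟨ζ, hζ⟩ := hζex
  obtain ⟨π₀, hπ₀⟩ := exists_isUniformizer p K0
  have hπ : IsUniformizer p K0 (((⟨(π₀ : K0), hπ₀.1⟩ : intRing p K0)) : K0) := hπ₀
  generalize (⟨(π₀ : K0), hπ₀.1⟩ : intRing p K0) = π at hπ
  obtain ⟨u, u', S⟩ := exists_unitSetup hπ
  obtain ⟨ζ', v₀, j₀, -, hζ'p, hj₀, hv₀, hζ'eq⟩ := exists_zeta_data hπ ζ hζ
  letI : CommGroup (K0 ≃ₐ[ℚ_[p]] K0) :=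
    { (inferInstance : Group (K0 ≃ₐ[ℚ_[p]] K0)) with mul_comm := hcomm }
  letI : Algebra (ZMod p) (IsLocalRing.ResidueField (intRing p K0)) := algebraZMod p K0
  have hΔ : ¬ p ∣ Nat.card (K0 ≃ₐ[ℚ_[p]] K0) := by
    rw [IsGalois.card_aut_eq_finrank]
    exact hdeg
  have key := habs hp2 (intRing p K0) π u u' (ramIdx p ℚ_[p] K0) S (K0 ≃ₐ[ℚ_[p]] K0) hΔ
    eq_one_of_smul_eq (wOf hπ) (smul_eq_mul_wOf hπ) (KumGrp p K0) (qO p K0) qO_mul nsmul_kumGrp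
    (kumAct p K0 (K0 ≃ₐ[ℚ_[p]] K0)) qO_act (IsLocalRing.ResidueField (intRing p K0)) (res p K0)
    res_surjective (res_eq_zero_iff hπ) res_smul (dvd_pow_sub_of_fixed hπ)
    (ramIdx_le_card_inertia hπ) ζ' v₀ j₀ hζ'p hj₀ hv₀ hζ'eq (omegaD K0 ζ hζ)
    (smul_zeta K0 ζ hζ ζ' hζ'p) k (descend K0 ψ hψS) F (fun f c => kumClass p K0 (Φ f c))
    (by
      intro f f' h
      exact hsep f f' (fun c => (modPth_iff K0 _ _).2 (congrFun h c)))
    (by
      intro f a a'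
      show kumClass p K0 (Φ f (a + a')) = kumClass p K0 (Φ f a) + kumClass p K0 (Φ f a')
      rw [← kumClass_mul]
      exact (modPth_iff K0 _ _).1 (hadd f a a'))
    (fun f a => kumClass_mem_lvl_of_isFlatUnit K0 S _ (hflat f a))
    (by
      intro f g a
      obtain ⟨g₀, rfl⟩ := rHom_surjective K0 g
      show kumClass p K0 (Φ f ((descend K0 ψ hψS (rHom K0 g₀) : k) * a)) = _
      rw [descend_rHom]
      exact (kumAct_rHom_kumClass K0 g₀ _ _ (hequi f g₀ a)).symm)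
  obtain ⟨hfin, hcard⟩ := key
  refine ⟨hfin, hcard.trans ?_⟩
  apply Nat.pow_le_pow_right Nat.card_pos
  apply add_le_add
  · apply ite_le_ite_of_imp
    intro hA τ hτ
    rw [← descend_rHom K0 ψ hψS τ]
    exact hA _ (dvd_smul_sub_of_mem_inertiaSet K0 hπ hτ)
  · apply ite_le_ite_of_imp
    intro hB
    refine MonoidHom.ext fun g => Units.ext ?_
    rw [omegaU_eq, ← omegaD_rHom K0 ζ hζ g, ← hB (rHom K0 g), descend_rHom]

/-! ### Subgroups `H ⊇ Gal(Ω/K0)` -/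

section Sub

variable (K0 : IntermediateField ℚ_[p] (PadicAlgCl p)) [FiniteDimensional ℚ_[p] K0]
  [IsGalois ℚ_[p] K0] (H : Subgroup (GQp p))

/-- Descent of a character of `H` which is trivial on `Gal(Ω/K0)` to the image of `H` in
`Gal(K0/ℚ_p)`. -/
def descendH {M : Type*} [Group M] (ξ : ↥H →* M)
    (hξ : ∀ h : ↥H, (h : GQp p) ∈ K0.fixingSubgroup → ξ h = 1) :
    ↥(H.map (rHom K0)) →* M :=
  ((rHom K0).subgroupMap H).liftOfSurjective ((rHom K0).subgroupMap_surjective H) ⟨ξ, by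
    intro h hh
    rw [MonoidHom.mem_ker] at hh ⊢
    apply hξ
    rw [← rHom_ker, MonoidHom.mem_ker]
    exact congrArg Subtype.val hh⟩

theorem descendH_apply {M : Type*} [Group M] (ξ : ↥H →* M)
    (hξ : ∀ h : ↥H, (h : GQp p) ∈ K0.fixingSubgroup → ξ h = 1) (h : GQp p) (hh : h ∈ H) :
    descendH K0 H ξ hξ ⟨rHom K0 h, Subgroup.mem_map_of_mem _ hh⟩ = ξ ⟨h, hh⟩ :=
  MonoidHom.liftOfRightInverse_comp_apply _ _ _ _ (⟨h, hh⟩ : ↥H)

end Sub

theorem concreteN2 (habs : AbsN2 p) : ConcreteN2 p := by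
  intro hp2 K0 _ _ hdeg hζex H hH2 hIH hSH hcommH k _ _ _ ξ hξS hξlvl hξne hcorner F Φ hflat hadd
    hequi hsep
  obtain ⟨ζ, hζ⟩ := hζex
  obtain ⟨π₀, hπ₀⟩ := exists_isUniformizer p K0
  have hπ : IsUniformizer p K0 (((⟨(π₀ : K0), hπ₀.1⟩ : intRing p K0)) : K0) := hπ₀
  generalize (⟨(π₀ : K0), hπ₀.1⟩ : intRing p K0) = π at hπ
  obtain ⟨u, u', S⟩ := exists_unitSetup hπ
  obtain ⟨ζ', v₀, j₀, -, hζ'p, hj₀, hv₀, hζ'eq⟩ := exists_zeta_data hπ ζ hζ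
  -- the image of `H`
  have hDmem : ∀ h ∈ H, rHom K0 h ∈ H.map (rHom K0) := fun h hh => Subgroup.mem_map_of_mem _ hh
  have hDex : ∀ σ ∈ H.map (rHom K0), ∃ h ∈ H, rHom K0 h = σ := fun σ hσ => Subgroup.mem_map.1 hσ
  have hDidx : (H.map (rHom K0)).index = 2 := by
    rw [Subgroup.index_map_eq H (rHom_surjective K0) (by rw [rHom_ker]; exact hSH)]
    exact hH2
  have hmemD : ∀ σ : K0 ≃ₐ[ℚ_[p]] K0, (∀ x : intRing p K0, π ∣ σ • x - x) →
      σ ∈ H.map (rHom K0) := by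
    intro σ hσ
    obtain ⟨τ, hτ, rfl⟩ := exists_inertia_of_dvd K0 hπ σ hσ
    exact hDmem τ (hIH hτ)
  letI : CommGroup ↥(H.map (rHom K0)) :=
    { (inferInstance : Group ↥(H.map (rHom K0))) with
      mul_comm := by
        rintro ⟨σ, hσ⟩ ⟨τ, hτ⟩
        obtain ⟨g, hg, rfl⟩ := hDex σ hσ
        obtain ⟨h, hh, rfl⟩ := hDex τ hτ
        apply Subtype.ext
        show rHom K0 g * rHom K0 h = rHom K0 h * rHom K0 g
        ext x
        rw [AlgEquiv.mul_apply, AlgEquiv.mul_apply, rHom_apply, rHom_apply, rHom_apply,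
          rHom_apply]
        exact hcommH g hg h hh x }
  letI : Algebra (ZMod p) (IsLocalRing.ResidueField (intRing p K0)) := algebraZMod p K0
  have hΔ : ¬ p ∣ Nat.card ↥(H.map (rHom K0)) := by
    intro h
    apply hdeg
    rw [← IsGalois.card_aut_eq_finrank]
    exact h.trans (Subgroup.card_subgroup_dvd_card _)
  have hfaith : ∀ g : ↥(H.map (rHom K0)), (∀ x : intRing p K0, g • x = x) → g = 1 := by
    intro g hg
    exact Subtype.ext (eq_one_of_smul_eq (g : K0 ≃ₐ[ℚ_[p]] K0) hg)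
  have hfix2 : ∀ x : intRing p K0, (∀ g : ↥(H.map (rHom K0)), π ∣ g • x - x) →
      π ∣ x ^ (p ^ 2) - x := by
    intro x hx
    obtain ⟨φ, hφ⟩ := exists_isFrob p ℚ_[p] K0
    have h1 := isFrob_pow_apply p ℚ_[p] K0 hφ 2 x
    rw [resCard_padic] at h1
    have hφ2 : φ ^ 2 ∈ H.map (rHom K0) := Subgroup.sq_mem_of_index_two hDidx φ
    have h2 := (dvd_iff_mem_maximalIdeal hπ _).1 (hx ⟨φ ^ 2, hφ2⟩)
    have h3 : x ^ (p ^ 2) - x = ((φ ^ 2) • x - x) - ((φ ^ 2) • x - x ^ (p ^ 2)) := by ring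
    rw [h3, dvd_iff_mem_maximalIdeal hπ]
    exact sub_mem h2 h1
  have hcardI : ramIdx p ℚ_[p] K0 ≤
      Nat.card {g : ↥(H.map (rHom K0)) // ∀ x : intRing p K0, π ∣ g • x - x} := by
    refine (ramIdx_le_card_inertia hπ).trans ?_
    refine Nat.card_le_card_of_injective
      (fun g : {g : K0 ≃ₐ[ℚ_[p]] K0 // ∀ x : intRing p K0, π ∣ g • x - x} =>
        (⟨⟨g.1, hmemD g.1 g.2⟩, g.2⟩ :
          {g : ↥(H.map (rHom K0)) // ∀ x : intRing p K0, π ∣ g • x - x})) ?_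
    intro g g' h
    exact Subtype.ext (congrArg (fun z => ((z.1 : ↥(H.map (rHom K0))) : K0 ≃ₐ[ℚ_[p]] K0)) h)
  -- the characters
  set ω' : ↥(H.map (rHom K0)) →* (ZMod p)ˣ :=
    (omegaD K0 ζ hζ).comp (H.map (rHom K0)).subtype with hω'
  set ξ' : ↥(H.map (rHom K0)) →* kˣ := descendH K0 H ξ hξS with hξ'
  set ψ' : ↥(H.map (rHom K0)) →* kˣ :=
    ((Units.map ((algebraMap (ZMod p) k : ZMod p →+* k) : ZMod p →* k)).comp ω') * ξ'⁻¹ with hψ'
  have hψ'apply : ∀ g : ↥(H.map (rHom K0)), ((ψ' g : kˣ) : k) =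
      ((ξ' g : kˣ) : k)⁻¹ * algebraMap (ZMod p) k ((ω' g : (ZMod p)ˣ) : ZMod p) := by
    intro g
    rw [hψ', MonoidHom.mul_apply, MonoidHom.inv_apply, Units.val_mul, Units.val_inv_eq_inv_val,
      mul_comm]
    rfl
  have hω'r : ∀ (h : GQp p) (hh : h ∈ H),
      ω' ⟨rHom K0 h, hDmem h hh⟩ = chiU p h := fun h hh => omegaD_rHom K0 ζ hζ h
  have hξ'r : ∀ (h : GQp p) (hh : h ∈ H), ξ' ⟨rHom K0 h, hDmem h hh⟩ = ξ ⟨h, hh⟩ :=
    fun h hh => descendH_apply K0 H ξ hξS h hh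
  have key := habs hp2 (intRing p K0) π u u' (ramIdx p ℚ_[p] K0) S ↥(H.map (rHom K0)) hΔ
    hfaith (fun g => wOf hπ (g : K0 ≃ₐ[ℚ_[p]] K0))
    (fun g => smul_eq_mul_wOf hπ (g : K0 ≃ₐ[ℚ_[p]] K0)) (KumGrp p K0) (qO p K0) qO_mul
    nsmul_kumGrp ((kumAct p K0 (K0 ≃ₐ[ℚ_[p]] K0)).comp (H.map (rHom K0)).subtype)
    (fun g a ha => qO_act (g : K0 ≃ₐ[ℚ_[p]] K0) a ha)
    (IsLocalRing.ResidueField (intRing p K0)) (res p K0)
    res_surjective (res_eq_zero_iff hπ) (fun g a => res_smul (g : K0 ≃ₐ[ℚ_[p]] K0) a) hfix2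
    hcardI ζ' v₀ j₀ hζ'p hj₀ hv₀ hζ'eq ω'
    (fun g => smul_zeta K0 ζ hζ ζ' hζ'p (g : K0 ≃ₐ[ℚ_[p]] K0)) k ξ' ψ' hψ'apply
    (by
      intro i hi
      obtain ⟨τ, hτ, hτi⟩ := exists_inertia_of_dvd K0 hπ (i : K0 ≃ₐ[ℚ_[p]] K0) hi
      have hi' : i = ⟨rHom K0 τ, hDmem τ (hIH hτ)⟩ := Subtype.ext hτi.symm
      rw [hi', hξ'r τ (hIH hτ)]
      exact hξlvl ⟨τ, hIH hτ⟩ hτ)
    (by
      obtain ⟨τ, hτI, hτne⟩ := hξne
      refine ⟨⟨rHom K0 τ, hDmem τ τ.2⟩,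
        fun x => dvd_smul_sub_of_mem_inertiaSet K0 hπ hτI x, ?_⟩
      rw [hξ'r (τ : GQp p) τ.2]
      exact hτne)
    (by
      rintro ⟨h3, hall⟩
      apply hcorner
      refine ⟨h3, fun τ hτI => Units.ext ?_⟩
      have h1 := hall ⟨rHom K0 τ, hDmem τ τ.2⟩
        (fun x => dvd_smul_sub_of_mem_inertiaSet K0 hπ hτI x)
      rw [hξ'r (τ : GQp p) τ.2, hω'r (τ : GQp p) τ.2] at h1
      rw [omegaU_eq]
      exact h1)
    F (fun f c => kumClass p K0 (Φ f c))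
    (by
      intro f f' h
      exact hsep f f' (fun c => (modPth_iff K0 _ _).2 (congrFun h c)))
    (by
      intro f a a'
      show kumClass p K0 (Φ f (a + a')) = kumClass p K0 (Φ f a) + kumClass p K0 (Φ f a')
      rw [← kumClass_mul]
      exact (modPth_iff K0 _ _).1 (hadd f a a'))
    (fun f a => kumClass_mem_lvl_of_isFlatUnit K0 S _ (hflat f a))
    (by
      intro f g a
      obtain ⟨h, hh, hg⟩ := hDex g.1 g.2
      have hg' : g = ⟨rHom K0 h, hDmem h hh⟩ := Subtype.ext hg.symm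
      have h1 : ((ψ' g : kˣ) : k) = (omegaU p k h : k) * (((ξ ⟨h, hh⟩)⁻¹ : kˣ) : k) := by
        rw [hψ'apply, hg', hξ'r h hh, hω'r h hh, omegaU_eq, Units.val_inv_eq_inv_val, mul_comm]
      show kumClass p K0 (Φ f ((ψ' g : k) * a)) =
        kumAct p K0 (K0 ≃ₐ[ℚ_[p]] K0) (g : K0 ≃ₐ[ℚ_[p]] K0) (kumClass p K0 (Φ f a))
      rw [h1, hg']
      exact (kumAct_rHom_kumClass K0 h _ _ (hequi f ⟨h, hh⟩ a)).symm)
  exact key

end

end Fermat.Agent.TW.Cnt.InstConcrete90
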