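/-
helper90 — TW / WP7 / brick INST (closing file): the unconditional theorems
`concreteN1 : KumSpec72.ConcreteN1 p` and `concreteN2 : KumSpec72.ConcreteN2 p`.

Assembly: helper71's top piece (`TopPiece71.eq_of_zeta`, `TopCount71.card_eqHom_top_le`) gives
`AbsN75.TopSpec p`; helper75's `AbsN75.absN1 / absN2` give `InstSpec90.AbsN1 p / AbsN2 p`;
`InstConcrete90.concreteN1 / concreteN2` transport them to `K0 ⊆ PadicAlgCl p`.
-/
import Mathlib
import Fermat.Agent.TW.Cnt.AbsN75
import Fermat.Agent.TW.Cnt.TopCount71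
import Fermat.Agent.TW.Cnt.InstConcrete90

set_option autoImplicit false

namespace Fermat.Agent.TW.Cnt.InstFinal90

open Fermat.Agent.TW.Cnt

/-- helper71's top piece in the packaged form of `AbsN75`. -/
theorem topSpec (p : ℕ) [Fact p.Prime] : AbsN75.TopSpec p :=
  fun O _ π u u' e S Δ _ _ _ hΔ w hw B _ q hq_mul hpB act hq_act κ _ _ _ _ res hres hker hres_smul
    ζ v₀ j₀ hζp hj1 hv₀ hζ =>
    ⟨TopPiece71.eq_of_zeta S hζp hj1 hv₀ hζ, fun ω hω k _ _ _ ψ =>
      TopCount71.card_eqHom_top_le S ζ v₀ hζp hj1 hv₀ hζ ω hω q hq_mul hpB act hq_act res hres hker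
        hres_smul ψ⟩

/-- **Abstract N1**, unconditional. -/
theorem absN1 (p : ℕ) [Fact p.Prime] : InstSpec90.AbsN1 p := AbsN75.absN1 (topSpec p)

/-- **Abstract N2**, unconditional. -/
theorem absN2 (p : ℕ) [Fact p.Prime] : InstSpec90.AbsN2 p := AbsN75.absN2 (topSpec p)

/-- **INST-N1**, unconditional. -/
theorem concreteN1 (p : ℕ) [Fact p.Prime] : KumSpec72.ConcreteN1 p :=
  InstConcrete90.concreteN1 (absN1 p)

/-- **INST-N2**, unconditional. -/
theorem concreteN2 (p : ℕ) [Fact p.Prime] : KumSpec72.ConcreteN2 p :=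
  InstConcrete90.concreteN2 (absN2 p)

end Fermat.Agent.TW.Cnt.InstFinal90
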