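/-
Program TW (S56), work package WP7-CNT, brick B10 (helper55): **the Kummer dictionary**
`KumSpec72.KummerDict p`.

`K0/ℚ_p` finite Galois inside `Ω = PadicAlgCl p`, `ζ ∈ K0` a primitive `p`-th root of unity,
`S = Gal(Ω/K0)`.  To an additive level function `e : S → ZMod p` Hilbert 90 attaches a Kummer generator
`β ∈ Ωˣ` with `s β = ζ ^ e(s) β`; `β ^ p ∈ K0ˣ`.  The assignment `e ↦ β ^ p` is additive modulo `p`-th
powers, compatible with conjugation by `G_p`, and separating.  Applied to `e = Tr_{k/𝔽_p}(c · f)`.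
-/
import Mathlib
import Fermat.Agent.TW.Cnt.KumSpec72
import Fermat.Agent.PT.BR.InfGalois13

set_option autoImplicit false

noncomputable section

namespace Fermat.Agent.TW.Cnt.KumDict55

open Fermat.Agent.TW.FF.FlatModel68 (GQp)
open Fermat.Agent.TW.FF.Spec72
open Fermat.Agent.TW.OrdLocal
open Fermat.Agent.TW.Cnt.KumSpec72
open IntermediateField

variable (p : ℕ) [hp : Fact p.Prime]

local notation "Ω" => PadicAlgCl p

/-- The Galois group acts on `p`-th roots of unity through `chiLoc`. -/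
theorem apply_root (g : GQp p) {z : Ω} (hz : z ^ p = 1) :
    g z = z ^ (KummerQp71.chiLoc p g).val := by
  have : NeZero p := ⟨hp.out.ne_zero⟩
  have hprim : IsPrimitiveRoot ((KummerQp71.zetaLoc p : Ωˣ) : Ω) p :=
    IsPrimitiveRoot.coe_units_iff.2 (KummerQp71.zetaLoc_spec p)
  obtain ⟨i, -, rfl⟩ := hprim.eq_pow_of_pow_eq_one hz
  have h := congrArg (fun u : Ωˣ => (u : Ω)) (KummerQp71.smul_zetaLoc p g)
  simp only [AlgEquiv.smul_units_def, Units.coe_map, MonoidHom.coe_coe,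
    Units.val_pow_eq_pow_val] at h
  rw [map_pow, h, ← pow_mul, ← pow_mul, mul_comm]

variable (K0 : IntermediateField ℚ_[p] (PadicAlgCl p))

/-- `β` is a Kummer generator for the exponent function `e` on `S = Gal(Ω/K0)`. -/
def IsKum (ζ : Ω) (e : ↥K0.fixingSubgroup → ZMod p) (β : Ω) : Prop :=
  ∀ s : ↥K0.fixingSubgroup, (s : GQp p) β = ζ ^ (e s).val * β

/-- An element fixed by `Gal(Ω/K0)` lies in `K0`. -/
theorem mem_of_fixed {u : Ω} (hu : ∀ s : ↥K0.fixingSubgroup, (s : GQp p) u = u) : u ∈ K0 := by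
  rw [← InfiniteGalois.fixedField_fixingSubgroup K0, IntermediateField.mem_fixedField_iff]
  intro s hs
  exact hu ⟨s, hs⟩

theorem exists_unit_of_fixed {u : Ω} (hu0 : u ≠ 0)
    (hu : ∀ s : ↥K0.fixingSubgroup, (s : GQp p) u = u) : ∃ y : K0ˣ, (((y : K0ˣ) : K0) : Ω) = u := by
  have hmem := mem_of_fixed p K0 hu
  have h0 : (⟨u, hmem⟩ : K0) ≠ 0 := fun h => hu0 (congrArg Subtype.val h)
  exact ⟨Units.mk0 ⟨u, hmem⟩ h0, rfl⟩

/-- **Hilbert 90**: an additive level function `e : Gal(Ω/K0) → ZMod p` has a Kummer generator. -/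
theorem exists_kum {ζ : Ω} (hζK : ζ ∈ K0) (hζp : ζ ^ p = 1)
    (e : ↥K0.fixingSubgroup → ZMod p) (hadd : ∀ s s', e (s * s') = e s + e s')
    (hlev : ∃ E : IntermediateField ℚ_[p] Ω, FiniteDimensional ℚ_[p] E ∧
      ∀ s : ↥K0.fixingSubgroup, (s : GQp p) ∈ E.fixingSubgroup → e s = 0)
    [FiniteDimensional ℚ_[p] K0] :
    ∃ β : Ω, β ≠ 0 ∧ IsKum p K0 ζ e β := by
  obtain ⟨E, hE, hE0⟩ := hlev
  have hζ0 : ζ ≠ 0 := by
    rintro rfl
    rw [zero_pow hp.out.ne_zero] at hζp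
    exact zero_ne_one hζp
  let ζu : Ωˣ := Units.mk0 ζ hζ0
  have hζup : ζu ^ p = 1 := by
    apply Units.ext
    rw [Units.val_pow_eq_pow_val]
    exact hζp
  let E' : IntermediateField ℚ_[p] Ω := E ⊔ K0
  have hE' : FiniteDimensional ℚ_[p] E' := IntermediateField.finiteDimensional_sup E K0
  have hE'S : E'.fixingSubgroup ≤ K0.fixingSubgroup :=
    IntermediateField.fixingSubgroup_antitone le_sup_right
  have hE'E : E'.fixingSubgroup ≤ E.fixingSubgroup :=
    IntermediateField.fixingSubgroup_antitone le_sup_left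
  classical
  let cm : GQp p → Ωˣ := fun g =>
    if h : g ∈ K0.fixingSubgroup then ζu ^ (e ⟨g, h⟩).val else 1
  have hcm : ∀ (g : GQp p) (h : g ∈ K0.fixingSubgroup), cm g = ζu ^ (e ⟨g, h⟩).val := by
    intro g h
    simp only [cm, dif_pos h]
  have hfixζ : ∀ n ∈ K0.fixingSubgroup, ∀ a : ℕ, n • ζu ^ a = ζu ^ a := by
    intro n hn a
    apply Units.ext
    rw [AlgEquiv.smul_units_def, Units.coe_map, Units.val_pow_eq_pow_val]
    show n (ζ ^ a) = ζ ^ a
    rw [map_pow]
    congr 1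
    exact (IntermediateField.mem_fixingSubgroup_iff K0 n).1 hn ζ hζK
  obtain ⟨β, hβ⟩ := Fermat.Agent.PT.BR.InfGalois13.hilbert90_level (K := ℚ_[p])
    K0.fixingSubgroup E' cm
    (fun g s hs => by
      by_cases hg : g ∈ K0.fixingSubgroup
      · have hgs : g * s ∈ K0.fixingSubgroup := mul_mem hg (hE'S hs)
        rw [hcm _ hgs, hcm _ hg]
        have : (⟨g * s, hgs⟩ : ↥K0.fixingSubgroup) = ⟨g, hg⟩ * ⟨s, hE'S hs⟩ := rfl
        rw [this, hadd, hE0 ⟨s, hE'S hs⟩ (hE'E hs), add_zero]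
      · have hgs : g * s ∉ K0.fixingSubgroup := by
          intro h
          apply hg
          have := mul_mem h (inv_mem (hE'S hs))
          rwa [mul_inv_cancel_right] at this
        simp only [cm, dif_neg hg, dif_neg hgs])
    (fun g => by
      by_cases hg : g ∈ K0.fixingSubgroup
      · rw [hcm _ hg, Units.val_pow_eq_pow_val]
        exact pow_mem ((le_sup_right : K0 ≤ E') hζK) _
      · simp only [cm, dif_neg hg, Units.val_one]
        exact one_mem _)
    (fun n hn n' hn' => by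
      rw [hcm _ (mul_mem hn hn'), hcm _ hn, hcm _ hn', hfixζ n hn]
      have : (⟨n * n', mul_mem hn hn'⟩ : ↥K0.fixingSubgroup) = ⟨n, hn⟩ * ⟨n', hn'⟩ := rfl
      rw [this, hadd, KummerAbs71.pow_val_add p hζup, mul_comm])
  refine ⟨(β : Ω), β.ne_zero, fun s => ?_⟩
  have h := hβ s.1 s.2
  rw [hcm _ s.2] at h
  have h' : ζu ^ (e s).val * β = (s : GQp p) • β := by
    rw [h, div_mul_cancel]
  have h'' := congrArg (fun u : Ωˣ => (u : Ω)) h'
  simp only [Units.val_mul, Units.val_pow_eq_pow_val, AlgEquiv.smul_units_def, Units.coe_map,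
    MonoidHom.coe_coe] at h''
  exact h''.symm

/-! ### Algebra of Kummer generators -/

section Algebra

variable {K0}
variable {ζ : PadicAlgCl p} {e e' : ↥K0.fixingSubgroup → ZMod p} {β β' : PadicAlgCl p}

theorem IsKum.pow_fixed (hζp : ζ ^ p = 1) (h : IsKum p K0 ζ e β) (s : ↥K0.fixingSubgroup) :
    (s : GQp p) (β ^ p) = β ^ p := by
  rw [map_pow, h s, mul_pow, ← pow_mul, mul_comm (e s).val p, pow_mul, hζp, one_pow, one_mul]

theorem IsKum.mul (hζp : ζ ^ p = 1) (h : IsKum p K0 ζ e β) (h' : IsKum p K0 ζ e' β') :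
    IsKum p K0 ζ (fun s => e s + e' s) (β * β') := by
  intro s
  rw [map_mul, h s, h' s, KummerAbs71.pow_val_add p hζp]
  ring

theorem IsKum.mul_mem (h : IsKum p K0 ζ e β) {y : PadicAlgCl p} (hy : y ∈ K0) :
    IsKum p K0 ζ e (β * y) := by
  intro s
  rw [map_mul, h s, (IntermediateField.mem_fixingSubgroup_iff K0 s.1).1 s.2 y hy]
  ring

theorem IsKum.ratio (hζ0 : ζ ≠ 0) (h : IsKum p K0 ζ e β) (h' : IsKum p K0 ζ e β')
    (hβ : β ≠ 0) (hβ' : β' ≠ 0) : ∃ y : K0ˣ, β = β' * (((y : K0ˣ) : K0) : PadicAlgCl p) := by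
  have hfix : ∀ s : ↥K0.fixingSubgroup, (s : GQp p) (β / β') = β / β' := by
    intro s
    rw [map_div₀, h s, h' s]
    have : ζ ^ (e s).val ≠ 0 := pow_ne_zero _ hζ0
    field_simp
  obtain ⟨y, hy⟩ := exists_unit_of_fixed p K0 (div_ne_zero hβ hβ') hfix
  refine ⟨y, ?_⟩
  rw [hy]
  field_simp

theorem IsKum.eq_of_same (hζ : IsPrimitiveRoot ζ p) (hβ : β ≠ 0) (h : IsKum p K0 ζ e β)
    (h' : IsKum p K0 ζ e' β) : e = e' := by
  have : NeZero p := ⟨hp.out.ne_zero⟩
  funext s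
  have h1 : ζ ^ (e s).val * β = ζ ^ (e' s).val * β := by rw [← h s, ← h' s]
  have h2 : ζ ^ (e s).val = ζ ^ (e' s).val := mul_right_cancel₀ hβ h1
  have h3 : (e s).val = (e' s).val := hζ.pow_inj (ZMod.val_lt _) (ZMod.val_lt _) h2
  exact ZMod.val_injective p h3

/-- Conjugation: `g β` is a Kummer generator for `s ↦ χ_cyc(g) · e(g⁻¹ s g)`. -/
theorem IsKum.conj (hζp : ζ ^ p = 1) (h : IsKum p K0 ζ e β) (g : GQp p)
    (hnorm : ∀ s : ↥K0.fixingSubgroup, g⁻¹ * (s : GQp p) * g ∈ K0.fixingSubgroup) :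
    IsKum p K0 ζ (fun s => KummerQp71.chiLoc p g * e ⟨g⁻¹ * (s : GQp p) * g, hnorm s⟩) (g β) := by
  intro s
  have h1 : (s : GQp p) (g β) = g ((g⁻¹ * (s : GQp p) * g) β) := by
    show (s : GQp p) (g β) = g ((g⁻¹ * ((s : GQp p) * g)) β)
    rw [AlgEquiv.mul_apply, AlgEquiv.mul_apply]
    show _ = g (g⁻¹ ((s : GQp p) (g β)))
    exact (AlgEquiv.apply_symm_apply g _).symm
  rw [h1, h ⟨g⁻¹ * (s : GQp p) * g, hnorm s⟩, map_mul, map_pow, apply_root p g hζp,
    KummerAbs71.pow_val_mul p hζp]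

end Algebra

/-! ### The trace pairing -/

section Trace

variable {k : Type} [Field k] [Algebra (ZMod p) k]

theorem trPair_add_left (c c' x : k) :
    trPair p k (c + c') x = trPair p k c x + trPair p k c' x := by
  unfold trPair
  rw [add_mul, map_add]

theorem trPair_add_right (c x x' : k) :
    trPair p k c (x + x') = trPair p k c x + trPair p k c x' := by
  unfold trPair
  rw [mul_add, map_add]

theorem trPair_zero_right (c : k) : trPair p k c 0 = 0 := by
  unfold trPair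
  rw [mul_zero, map_zero]

theorem trPair_smul (a : ZMod p) (c x : k) :
    trPair p k (algebraMap (ZMod p) k a * c) x = a * trPair p k c x := by
  unfold trPair
  rw [mul_assoc, ← Algebra.smul_def, map_smul, smul_eq_mul]

theorem trPair_mul_right (c d x : k) : trPair p k c (d * x) = trPair p k (d * c) x := by
  unfold trPair
  congr 1
  ring

theorem eq_zero_of_trPair [Finite k] (x : k) (h : ∀ c, trPair p k c x = 0) : x = 0 := by
  have hnd := traceForm_nondegenerate (ZMod p) k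
  apply hnd.1 x
  intro c
  have := h c
  unfold trPair at this
  rw [Algebra.traceForm_apply, mul_comm]
  exact this

end Trace

/-! ### The dictionary -/

theorem conj_mem [IsGalois ℚ_[p] K0] (g : GQp p) (s : ↥K0.fixingSubgroup) :
    g⁻¹ * (s : GQp p) * g ∈ K0.fixingSubgroup := by
  have hn : K0.fixingSubgroup.Normal := inferInstance
  have := hn.conj_mem s.1 s.2 g⁻¹
  rwa [inv_inv] at this

/-- **B10, the Kummer dictionary.** -/
theorem kummerDict : KummerDict p := by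
  intro K0 _ _ ζ hζ G' hG' k _ _ _ χ hχ
  classical
  have : NeZero p := ⟨hp.out.ne_zero⟩
  set ζΩ : Ω := ((ζ : K0) : Ω) with hζΩdef
  have hζΩ : IsPrimitiveRoot ζΩ p := hζ.map_of_injective (f := algebraMap K0 Ω)
    (algebraMap K0 Ω).injective
  have hζp : ζΩ ^ p = 1 := hζΩ.pow_eq_one
  have hζ0 : ζΩ ≠ 0 := hζΩ.ne_zero hp.out.ne_zero
  have hζK : ζΩ ∈ K0 := ζ.2
  -- the exponent functions
  let ex : ↥(EqHoms p K0 G' k χ) → k → ↥K0.fixingSubgroup → ZMod p :=
    fun f c s => trPair p k c (f.1 s)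
  have hex : ∀ f c, ∃ β : Ω, β ≠ 0 ∧ IsKum p K0 ζΩ (ex f c) β := by
    intro f c
    obtain ⟨hadd, -, E, hE, hE0⟩ := f.2
    refine exists_kum p K0 hζK hζp (ex f c) (fun s s' => ?_) ⟨E, hE, fun s hs => ?_⟩
    · show trPair p k c (f.1 (s * s')) = _
      rw [hadd, trPair_add_right]
    · show trPair p k c (f.1 s) = 0
      rw [hE0 s hs, trPair_zero_right]
  choose β hβ0 hβ using hex
  have hpow : ∀ f c, ∃ x : K0ˣ, (((x : K0ˣ) : K0) : Ω) = β f c ^ p := fun f c =>
    exists_unit_of_fixed p K0 (pow_ne_zero _ (hβ0 f c)) (fun s => (hβ f c).pow_fixed p hζp s)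
  choose Φ hΦ using hpow
  refine ⟨Φ, ?_, ?_, ?_, ?_⟩
  · -- (kum)
    intro f c
    exact ⟨β f c, (hΦ f c).symm, fun s => hβ f c s⟩
  · -- (add)
    intro f c c'
    have h1 : IsKum p K0 ζΩ (ex f (c + c')) (β f c * β f c') := by
      have h := (hβ f c).mul p hζp (hβ f c')
      have e : ex f (c + c') = fun s => ex f c s + ex f c' s := by
        funext s
        exact trPair_add_left p c c' (f.1 s)
      rw [e]
      exact h
    obtain ⟨y, hy⟩ := (hβ f (c + c')).ratio p hζ0 h1 (hβ0 _ _)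
      (mul_ne_zero (hβ0 _ _) (hβ0 _ _))
    refine ⟨y, ?_⟩
    apply Units.ext
    apply Subtype.ext
    show (((Φ f (c + c') : K0ˣ) : K0) : Ω) =
      (((Φ f c : K0ˣ) : K0) : Ω) * (((Φ f c' : K0ˣ) : K0) : Ω) * (((y : K0ˣ) : K0) : Ω) ^ p
    rw [hΦ, hΦ, hΦ, hy]
    ring
  · -- (equi)
    intro f g c
    obtain ⟨-, hequi, -⟩ := f.2
    set c'' : k := (omegaU p k g : k) * (((χ g)⁻¹ : kˣ) : k) * c with hc''
    have h1 : IsKum p K0 ζΩ (ex f c'') ((g : GQp p) (β f c)) := by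
      have h := (hβ f c).conj p hζp (g : GQp p) (conj_mem p K0 (g : GQp p))
      have e : ex f c'' = fun s : ↥K0.fixingSubgroup => KummerQp71.chiLoc p (g : GQp p) *
          ex f c ⟨(g : GQp p)⁻¹ * (s : GQp p) * g, conj_mem p K0 (g : GQp p) s⟩ := by
        funext s
        show trPair p k c'' (f.1 s) = KummerQp71.chiLoc p (g : GQp p) * trPair p k c (f.1 _)
        have hfs : f.1 s = (χ g : k) *
            f.1 ⟨(g : GQp p)⁻¹ * (s : GQp p) * g, conj_mem p K0 (g : GQp p) s⟩ := by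
          apply hequi g ⟨(g : GQp p)⁻¹ * (s : GQp p) * g, conj_mem p K0 (g : GQp p) s⟩ s
          show (s : GQp p) = g * ((g : GQp p)⁻¹ * (s : GQp p) * g) * (g : GQp p)⁻¹
          group
        rw [hfs, ← trPair_smul, trPair_mul_right, hc'', coe_omegaU]
        congr 1
        have hχ0 : (χ g : k) ≠ 0 := (χ g).ne_zero
        rw [Units.val_inv_eq_inv_val]
        field_simp
      rw [e]
      exact h
    have hgβ0 : (g : GQp p) (β f c) ≠ 0 := by
      rw [Ne, map_eq_zero_iff _ (AlgEquiv.injective _)]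
      exact hβ0 f c
    obtain ⟨y, hy⟩ := h1.ratio p hζ0 (hβ f c'') hgβ0 (hβ0 _ _)
    refine ⟨y, ?_⟩
    rw [hΦ, hΦ, map_pow, hy]
    ring
  · -- (sep)
    intro f f' hff'
    apply Subtype.ext
    funext s
    have hsub : f.1 s - f'.1 s = 0 := by
      apply eq_zero_of_trPair p
      intro c
      obtain ⟨y, hy⟩ := hff' c
      -- `β f c = β f' c * (y * r)` with `r` a `p`-th root of unity
      have hyΩ : β f c ^ p = (β f' c * (((y : K0ˣ) : K0) : Ω)) ^ p := by
        rw [mul_pow, ← hΦ, ← hΦ, hy]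
        rfl
      have hy0 : (((y : K0ˣ) : K0) : Ω) ≠ 0 := by
        intro h
        exact y.ne_zero (Subtype.ext h)
      have hden : β f' c * (((y : K0ˣ) : K0) : Ω) ≠ 0 := mul_ne_zero (hβ0 _ _) hy0
      have hr : (β f c / (β f' c * (((y : K0ˣ) : K0) : Ω))) ^ p = 1 := by
        rw [div_pow, hyΩ, div_self (pow_ne_zero _ hden)]
      obtain ⟨i, -, hi⟩ := hζΩ.eq_pow_of_pow_eq_one hr
      have hβeq : β f c = β f' c * ((((y : K0ˣ) : K0) : Ω) * ζΩ ^ i) := by
        rw [hi]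
        have hb' : β f' c ≠ 0 := hβ0 f' c
        field_simp
      have hmem : (((y : K0ˣ) : K0) : Ω) * ζΩ ^ i ∈ K0 :=
        mul_mem (y : K0).2 (pow_mem hζK _)
      have hk : IsKum p K0 ζΩ (ex f' c) (β f c) := by
        rw [hβeq]
        exact (hβ f' c).mul_mem p hmem
      have he := IsKum.eq_of_same p hζΩ (hβ0 f c) (hβ f c) hk
      have hes := congrFun he s
      show trPair p k c (f.1 s - f'.1 s) = 0
      have : trPair p k c (f.1 s) = trPair p k c (f'.1 s) := hes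
      unfold trPair at this ⊢
      rw [mul_sub, map_sub, this, sub_self]
    exact sub_eq_zero.1 hsub

end Fermat.Agent.TW.Cnt.KumDict55
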