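/-
TW / WP7-CNT (helper72): wiring of the counting theorems.  With `KF92.kummerFontaine` (KF),
`KumDict55.kummerDict` (B10), `InstFinal90.concreteN1/concreteN2` (INST) and the closure properties
`ClosureSpec68.closureProd/closureQuot`, `Unr68.star` plugged in, the counting theorems
T1 = `Table72.CharCount`, T2 = `Table72.IndCount` and ORD3 = `Table72.CoinvExact` are unconditional.
-/
import Mathlib
import Fermat.Agent.TW.Cnt.IndCount72
import Fermat.Agent.TW.Cnt.KumDict55
import Fermat.Agent.TW.Cnt.InstFinal90
import Fermat.Agent.TW.FF.KF92
import Fermat.Agent.TW.FF.ClosureSpec68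
import Fermat.Agent.TW.FF.Unr68

set_option autoImplicit false

namespace Fermat.Agent.TW.Cnt.Wire72

open Fermat.Agent.TW.FF Fermat.Agent.TW.Cnt

variable (p : ℕ) [Fact p.Prime]

/-- **T1**, unconditional. -/
theorem charCount : Table72.CharCount p (ClosureSpec68.closureProd p) :=
  CharCount72.charCount KF92.kummerFontaine (KumDict55.kummerDict p) (InstFinal90.concreteN1 p) _

/-- **T2**, unconditional. -/
theorem indCount : Table72.IndCount p (ClosureSpec68.closureProd p) :=
  IndCount72.indCount KF92.kummerFontaine (KumDict55.kummerDict p) (InstFinal90.concreteN2 p) _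

/-- **ORD3**: exactness of inertia-coinvariants on flat modules, unconditional. -/
theorem coinvExact : Table72.CoinvExact p :=
  Table72.coinvExact_of_star (Unr68.star p) (ClosureSpec68.closureQuot p)

end Fermat.Agent.TW.Cnt.Wire72
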