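/-
TW / WP7 (helper72): **THE WP7 DELIVERABLE, UNCONDITIONAL** — `Contract52.LocalBoundFlat p ρbar`
under the hypotheses of S56 on `ρbar` (`p` odd, cyclotomic determinant, split characteristic polynomials).

Assembly: `AsmFlat89.localBoundFlat` (ASM, helper89) fed with
* `Wire72.charCount`, `Wire72.indCount` (T1, T2: KF + Kummer dictionary + unit counts),
* `Shape97.indShape` (SHAPE, helper97).
-/
import Mathlib
import Fermat.Agent.TW.Cnt.Wire72
import Fermat.Agent.TW.Cnt.AsmFlat89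
import Fermat.Agent.TW.Cnt.Shape97

set_option autoImplicit false

namespace Fermat.Agent.TW.Cnt.Flat72

open Polynomial
open Fermat.Agent.TW.Spec.Defs52 Fermat.Agent.TW.Spec.Contract52
open Fermat.Agent.TW.Cnt

/-- **WP7.**  The flat local bound at `p`:
`dim H¹_flat(ℚ_p, ad⁰ ρbar) ≤ h⁰(ℚ_p, ad⁰ ρbar) + [k : 𝔽_p]`. -/
theorem localBoundFlat (p : ℕ) [Fact p.Prime] {k : Type} [Field k] [Algebra (ZMod p) k] [Finite k]
    (ρbar : ResidualGaloisRep k) (hp2 : p ≠ 2)
    (hdet : (GaloisRepAdic.ofResidualGaloisRep ρbar).DetIsCyclotomic p)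
    (hsplit : ∀ σ : GQ, ∃ α β : k, LinearMap.charpoly (ρbar.ρ σ) = (X - C α) * (X - C β)) :
    LocalBoundFlat p ρbar :=
  AsmFlat89.localBoundFlat p ρbar hp2 hdet hsplit (Wire72.charCount p) (Wire72.indCount p)
    (Shape97.indShape p)

end Fermat.Agent.TW.Cnt.Flat72
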