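/-
Program TW (S56), work package WP7-CNT (the count), brick C4 (helper55): the induced case, variant
without the hypothesis (ETA) of `AdInd55` (requested by helper72, #630).

Same setting as `AdInd55`: `M` realised as `ad⁰` of `R : G →* M₂(k)`, `H ≤ G` of index `2`, `R`
diagonal on `H` and antidiagonal off `H`.  Let `η : G →* kˣ` be the quadratic character with
kernel `H`.  The upper left entry `M → k(η)` is `G`-equivariant, so if `H1adm 𝒩 k(η) = 0` then the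
diagonal entry of every admissible cocycle vanishes on `H` (`DIAG0`), which is all the proof of
`AdInd55.H1π_eq_zero_of_upper` needs.  Hence again
`dim H1adm(G, M) ≤ dim H1adm(H, k(ψ₁/ψ₂))`.
-/
import Mathlib
import Fermat.Agent.TW.Cnt.AdCases55

set_option autoImplicit false

open CategoryTheory groupCohomology Module

namespace Fermat.Agent.TW.Cnt.AdIndEta55

open Fermat.Agent.TW.Cnt.AdmH1_55 Fermat.Agent.TW.Cnt.AdmRes55 Fermat.Agent.TW.Cnt.AdReal55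
  Fermat.Agent.TW.Cnt.AdFilt55 Fermat.Agent.TW.Cnt.AdInd55

variable {F k G : Type} [Field F] [Field k] [Algebra F k] [Group G] {M : Rep.{0} F G}
  (r : Ad0Real F k M) (H : Subgroup G)

section Key

variable [hHn : H.Normal] (hdiag : ∀ h ∈ H, r.R h 0 1 = 0 ∧ r.R h 1 0 = 0)
  (hanti : ∀ g ∉ H, r.R g 0 0 = 0 ∧ r.R g 1 1 = 0) (hind : H.index = 2) (h2 : (2 : F) ≠ 0)
  (𝒩 : AdmFamily G) (hM : IsAdmRep 𝒩 M)
  (hD0 : ∀ c : cocycles₁ M, c ∈ Zadm 𝒩 M → ∀ h ∈ H, r.ι (c h) 0 0 = 0)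

include hdiag hanti hind h2 hM hD0 in
/-- **Key lemma**, with the hypothesis `DIAG0` (the diagonal entry of every admissible cocycle
vanishes on `H`). -/
theorem H1π_eq_zero_of_upper_of_diag0 (c : cocycles₁ M) (hc : c ∈ Zadm 𝒩 M) (a : k)
    (ha : ∀ h ∈ H, r.ι (c h) 0 1 = r.R h 0 0 * r.R h⁻¹ 1 1 * a - a) :
    (H1π M).hom c = 0 := by
  obtain ⟨s, hs⟩ : ∃ s : G, s ∉ H := by
    by_contra hcon
    simp only [not_exists, not_not] at hcon
    have : H = ⊤ := (Subgroup.eq_top_iff' H).2 hcon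
    rw [this, Subgroup.index_top] at hind
    exact absurd hind (by norm_num)
  set c₁ : cocycles₁ M := c - cob (up r a) with hc₁
  have h01₁ : ∀ h ∈ H, r.ι (c₁ h) 0 1 = 0 := by
    intro h hh
    rw [hc₁, sub_cob_apply, map_sub, map_sub, Matrix.sub_apply, Matrix.sub_apply, ha h hh,
      r.equivariant, conj_diag_apply r H hdiag hh, ι_up, Matrix.single_apply_same]
    ring
  set a' : k := (r.R s 0 1 * r.R s⁻¹ 0 1)⁻¹ * r.ι (c₁ s) 0 1 with ha'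
  set c₂ : cocycles₁ M := c₁ - cob (low r a') with hc₂
  have h01₂ : ∀ h ∈ H, r.ι (c₂ h) 0 1 = 0 := by
    intro h hh
    rw [hc₂, sub_cob_apply, map_sub, map_sub, Matrix.sub_apply, Matrix.sub_apply, h01₁ h hh,
      r.equivariant, conj_diag_apply r H hdiag hh, ι_low,
      Matrix.single_apply_of_ne _ _ _ _ _ (by decide)]
    ring
  have h10₂ : ∀ h ∈ H, r.ι (c₂ h) 1 0 = 0 := by
    intro h hh
    rw [hc₂, sub_cob_apply, map_sub, map_sub, Matrix.sub_apply, Matrix.sub_apply,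
      lower_eq_of_upper_zero r H hdiag hanti c₁ hs h01₁ hh,
      r.equivariant, conj_diag_apply r H hdiag hh, ι_low, Matrix.single_apply_same, ← ha']
    ring
  have hadm₂ : c₂ ∈ Zadm 𝒩 M := by
    refine Submodule.sub_mem _ (Submodule.sub_mem _ hc ?_) ?_
    · exact d₀₁_mem_Zadm 𝒩 hM (up r a) _ (cob_apply _)
    · exact d₀₁_mem_Zadm 𝒩 hM (low r a') _ (cob_apply _)
  have hvan : ∀ h ∈ H, c₂ h = 0 := by
    intro h hh
    apply r.inj
    rw [map_zero]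
    have e0 := hD0 c₂ hadm₂ h hh
    have e4 := r.trace_zero (c₂ h)
    rw [trace_two] at e4
    apply ext_two
    · exact e0
    · exact h01₂ h hh
    · exact h10₂ h hh
    · change r.ι (c₂ h) 1 1 = 0
      rw [e0, zero_add] at e4
      exact e4
  have : H.FiniteIndex := ⟨by rw [hind]; norm_num⟩
  have hn : ((H.index : ℕ) : F) ≠ 0 := by
    rw [hind]; exact_mod_cast h2
  obtain ⟨b, hb⟩ := exists_eq_d₀₁_of_vanish H hn c₂ hvan
  rw [H1π_eq_zero_iff]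
  refine ⟨b + up r a + low r a', ?_⟩
  funext g
  rw [d₀₁_hom_apply]
  have e := hb g
  rw [hc₂, sub_cob_apply, hc₁, sub_cob_apply] at e
  rw [map_add, map_add]
  rw [sub_eq_iff_eq_add, sub_eq_iff_eq_add] at e
  rw [e]
  abel

end Key

section Eta

variable (hdiag : ∀ h ∈ H, r.R h 0 1 = 0 ∧ r.R h 1 0 = 0)
  (hanti : ∀ g ∉ H, r.R g 0 0 = 0 ∧ r.R g 1 1 = 0)
  (η : G →* kˣ) (hηH : ∀ g ∈ H, η g = 1) (hηs : ∀ g ∉ H, ((η g : kˣ) : k) = -1)

include hdiag hanti hηH hηs in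
/-- The upper left entry is `G`-equivariant `M → k(η)`. -/
lemma ι_ρ_00_eta (g : G) (m : M.V) :
    r.ι (M.ρ g m) 0 0 = ((η g : kˣ) : k) * r.ι m 0 0 := by
  by_cases hg : g ∈ H
  · rw [r.equivariant, conj_diag_apply r H hdiag hg, hηH g hg, Units.val_one, one_mul]
    have := diag_mul_00 r H hdiag hg
    calc _ = (r.R g 0 0 * r.R g⁻¹ 0 0) * r.ι m 0 0 := by ring
      _ = _ := by rw [this, one_mul]
  · rw [r.equivariant, conj_anti_00 r H hanti hg, hηs g hg]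
    have e4 := r.trace_zero m
    rw [trace_two] at e4
    linear_combination e4

/-- The upper left entry, as a morphism `M → k(η)`. -/
noncomputable def toEta : M ⟶ charRep F η :=
  mkHom (A := M) (B := charRep F η) (ent r 0 0)
    (fun g m => ι_ρ_00_eta r H hdiag hanti η hηH hηs g m)

include hdiag hanti hηH hηs in
/-- If `H1adm 𝒩 k(η) = 0`, the diagonal entry of every admissible cocycle vanishes on `H`. -/
lemma diag0_of_eta (𝒩 : AdmFamily G) (hη0 : H1adm 𝒩 (charRep F η) = ⊥)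
    (c : cocycles₁ M) (hc : c ∈ Zadm 𝒩 M) {h : G} (hh : h ∈ H) : r.ι (c h) 0 0 = 0 := by
  set φ := toEta r H hdiag hanti η hηH hηs with hφ
  have h1 : (H1π (charRep F η)).hom (Z1map φ c) ∈ H1adm 𝒩 (charRep F η) :=
    H1π_mem_H1adm 𝒩 (Z1map_mem_Zadm φ 𝒩 hc)
  rw [hη0, Submodule.mem_bot, H1π_eq_zero_iff] at h1
  obtain ⟨a₀, ha₀⟩ := h1
  have e := congrFun ha₀ h
  rw [d₀₁_hom_apply] at e
  have e' : ((η h : kˣ) : k) * a₀ - a₀ = r.ι (c h) 0 0 := e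
  rw [← e', hηH h hh, Units.val_one, one_mul, sub_self]

end Eta

section Count

variable [hHn : H.Normal] (hdiag : ∀ h ∈ H, r.R h 0 1 = 0 ∧ r.R h 1 0 = 0)
  (ψ₁ ψ₂ : H →* kˣ) (hψ₁ : ∀ h : H, (ψ₁ h : k) = r.R (h : G) 0 0)
  (hψ₂ : ∀ h : H, (ψ₂ h : k) = r.R (h : G) 1 1)
  (hanti : ∀ g ∉ H, r.R g 0 0 = 0 ∧ r.R g 1 1 = 0) (hind : H.index = 2) (h2 : (2 : F) ≠ 0)
  (𝒩 : AdmFamily G) (hM : IsAdmRep 𝒩 M)
  (η : G →* kˣ) (hηH : ∀ g ∈ H, η g = 1) (hηs : ∀ g ∉ H, ((η g : kˣ) : k) = -1)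
  (hη0 : H1adm 𝒩 (charRep F η) = ⊥)

include hdiag hψ₁ hψ₂ hanti hind h2 hM hηH hηs hη0 in
/-- **Induced case, η-variant.** `dim H1adm(G, M) ≤ dim H1adm(H, k(ψ₁/ψ₂))`, assuming
`H1adm 𝒩 k(η) = 0` for the quadratic character `η` with kernel `H`. -/
theorem finrank_H1adm_induced_le_of_eta
    [FiniteDimensional F (H1adm (comapFamily 𝒩 H) (charRep F (ψ₁ / ψ₂)))] :
    FiniteDimensional F (H1adm 𝒩 M) ∧
      finrank F (H1adm 𝒩 M) ≤ finrank F (H1adm (comapFamily 𝒩 H) (charRep F (ψ₁ / ψ₂))) := by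
  set Φ := upperCoc r H hdiag ψ₁ ψ₂ hψ₁ hψ₂ with hΦ
  set ρ' : cocycles₁ M →ₗ[F] H1 (charRep F (ψ₁ / ψ₂)) :=
    (H1π (charRep F (ψ₁ / ψ₂))).hom ∘ₗ Φ with hρ'
  have hle : (Zadm 𝒩 M).map ρ' ≤ H1adm (comapFamily 𝒩 H) (charRep F (ψ₁ / ψ₂)) := by
    rintro _ ⟨c, hc, rfl⟩
    exact H1π_mem_H1adm _ (upperCoc_mem_Zadm r H hdiag ψ₁ ψ₂ hψ₁ hψ₂ 𝒩 hc)
  have : FiniteDimensional F ((Zadm 𝒩 M).map ρ') := Submodule.finiteDimensional_of_le hle
  have hker : Zadm 𝒩 M ⊓ LinearMap.ker ρ' ≤ LinearMap.ker (H1π M).hom := by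
    rintro c ⟨hc, hk⟩
    rw [SetLike.mem_coe, LinearMap.mem_ker] at hk
    rw [LinearMap.mem_ker]
    have hk' : (H1π (charRep F (ψ₁ / ψ₂))).hom (Φ c) = 0 := hk
    rw [H1π_eq_zero_iff] at hk'
    obtain ⟨a, ha⟩ := hk'
    refine H1π_eq_zero_of_upper_of_diag0 r H hdiag hanti hind h2 𝒩 hM
      (fun c' hc' h hh => diag0_of_eta r H hdiag hanti η hηH hηs 𝒩 hη0 c' hc' hh)
      c hc a (fun h hh => ?_)
    have e := congrFun ha ⟨h, hh⟩
    rw [d₀₁_hom_apply] at e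
    have e' : (((ψ₁ / ψ₂) ⟨h, hh⟩ : kˣ) : k) * a - a = r.ι (c h) 0 1 := e
    rw [← e', char_eq r H hdiag ψ₁ ψ₂ hψ₁ hψ₂]
  obtain ⟨h1, h2'⟩ := finrank_map_le_of_ker_le ρ' (H1π M).hom (Zadm 𝒩 M) hker
  exact ⟨h1, h2'.trans (Submodule.finrank_mono hle)⟩

end Count

section EndModel

open Fermat.Agent.TW.Spec.Defs52 Fermat.Agent.TW.Cnt.AdRealEnd55 Fermat.Agent.TW.Cnt.AdCases55

variable (p : ℕ) [Fact p.Prime] {k : Type} [Field k] [Algebra (ZMod p) k]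
  (ρbar : ResidualGaloisRep k) {G : Type} [Group G] (f : G →* GQ) (𝒩 : AdmFamily G)
  (b : Module.Basis (Fin 2) k ρbar.V) (H : Subgroup G) [hHn : H.Normal]
  (hdg : ∀ h ∈ H, (∃ a : k, ρbar.ρ (f h) (b 0) = a • b 0) ∧ ∃ a : k, ρbar.ρ (f h) (b 1) = a • b 1)
  (hsw : ∀ g ∉ H, (∃ a : k, ρbar.ρ (f g) (b 0) = a • b 1) ∧ ∃ a : k, ρbar.ρ (f g) (b 1) = a • b 0)

include hsw in
/-- **Induced case, η-variant**, on the End-model of Contract52. -/
theorem finrank_H1adm_ad0_induced_of_eta (hind : H.index = 2) (h2 : (2 : ZMod p) ≠ 0)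
    (hM : IsAdmRep 𝒩 (Rep.res f (ad0 p ρbar)))
    (η : G →* kˣ) (hηH : ∀ g ∈ H, η g = 1) (hηs : ∀ g ∉ H, ((η g : kˣ) : k) = -1)
    (hη0 : H1adm 𝒩 (charRep (ZMod p) η) = ⊥)
    [FiniteDimensional (ZMod p) (H1adm (comapFamily 𝒩 H)
      (charRep (ZMod p) (indChar p ρbar f b H hdg 0 / indChar p ρbar f b H hdg 1)))] :
    FiniteDimensional (ZMod p) (H1adm 𝒩 (Rep.res f (ad0 p ρbar))) ∧
      finrank (ZMod p) (H1adm 𝒩 (Rep.res f (ad0 p ρbar))) ≤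
        finrank (ZMod p) (H1adm (comapFamily 𝒩 H)
          (charRep (ZMod p) (indChar p ρbar f b H hdg 0 / indChar p ρbar f b H hdg 1))) :=
  finrank_H1adm_induced_le_of_eta (realOfBasis p ρbar f b) H
    (fun _ hh => R_diag p ρbar f b H hdg hh)
    (indChar p ρbar f b H hdg 0) (indChar p ρbar f b H hdg 1) (fun _ => rfl) (fun _ => rfl)
    (fun _ hg => R_anti p ρbar f b H hsw hg) hind h2 𝒩 hM η hηH hηs hη0

end EndModel

end Fermat.Agent.TW.Cnt.AdIndEta55
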