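/-
Program TW (S56), work package WP7-CNT, brick ASM (helper89), file 3: the inertia-augmentation line
`I_aug V̄` of `ρ̄|_{G_p}` and the cyclicity of the prime-to-`p` characters of inertia.

* `augLine p ρbar : Submodule k ρbar.V` : the `k`-span of the `ρ̄(τ) v - v`, `τ` in inertia;
  `coe_augLine` (it is the additive subgroup `Table72.inertiaAug … ⊤`), `mem_closure_of_mem_augLine`
  (the form used by `Spec72.Star`), `rbarLoc_mem_augLine` (stable under `G_p`), `augLine_ne_bot`;
* `eq_zero_of_mem_augLine_of_fixed` : STAR for `V̄`;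
* `exists_inertia_generator` : there is `τ₀ ∈ I` such that for every `τ ∈ I` there is `n : ℤ` with
  `ψ τ = ψ τ₀ ^ n` for all characters `ψ : G_p →* kˣ` factoring through `ρ̄ ∘ loc` (`k` finite of
  characteristic `p`), from helper96's `TameImage96.exists_generator_mod_wild`.
-/
import Mathlib
import Fermat.Agent.TW.Cnt.Table72
import Fermat.Agent.TW.Bridge.LocalInertia97
import Fermat.Agent.TW.OrdLocal.PadicPlace97
import Fermat.Agent.TW.LocalQ.TameImage96

set_option autoImplicit false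
set_option linter.unusedSectionVars false

open Module ExtCitation
open Fermat.Agent.TW.Spec.Defs52
open Fermat.Agent.TW.FF.FlatModel68 (GQp LocalFlatModel)
open Fermat.Agent.TW.FF.Spec72 (inertiaSet KilledByP Star)
open Fermat.Agent.TW.Cnt.BridgeFlat54 Fermat.Agent.TW.Cnt.BridgeAdm54 Fermat.Agent.TW.Cnt.Table72

namespace Fermat.Agent.TW.Cnt.AsmAug89

local notation "Qb" => AlgebraicClosure ℚ

section Aug

variable (p : ℕ) [Fact p.Prime] {k : Type} [Field k] (ρbar : ResidualGaloisRep k)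

/-- The generators `ρ̄(τ) v - v`, `τ` in inertia. -/
def augGen : Set ρbar.V := {w | ∃ τ ∈ inertiaSet p, ∃ v : ρbar.V, w = rbarLoc p ρbar τ v - v}

/-- The inertia-augmentation subspace `I_aug V̄`. -/
def augLine : Submodule k ρbar.V := Submodule.span k (augGen p ρbar)

theorem smul_mem_augGen (a : k) {w : ρbar.V} (hw : w ∈ augGen p ρbar) : a • w ∈ augGen p ρbar := by
  obtain ⟨τ, hτ, v, rfl⟩ := hw
  exact ⟨τ, hτ, a • v, by rw [smul_sub, map_smul]⟩

theorem smul_mem_closure (a : k) {x : ρbar.V} (hx : x ∈ AddSubgroup.closure (augGen p ρbar)) :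
    a • x ∈ AddSubgroup.closure (augGen p ρbar) := by
  induction hx using AddSubgroup.closure_induction with
  | mem w hw => exact AddSubgroup.subset_closure (smul_mem_augGen p ρbar a hw)
  | zero => rw [smul_zero]; exact AddSubgroup.zero_mem _
  | add x y _ _ hx hy => rw [smul_add]; exact AddSubgroup.add_mem _ hx hy
  | neg x _ hx => rw [smul_neg]; exact AddSubgroup.neg_mem _ hx

/-- `I_aug V̄` is the additive subgroup generated by the `ρ̄(τ) v - v`. -/
theorem mem_augLine_iff (x : ρbar.V) :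
    x ∈ augLine p ρbar ↔ x ∈ AddSubgroup.closure (augGen p ρbar) := by
  constructor
  · intro hx
    unfold augLine at hx
    induction hx using Submodule.span_induction with
    | mem w hw => exact AddSubgroup.subset_closure hw
    | zero => exact AddSubgroup.zero_mem _
    | add x y _ _ hx hy => exact AddSubgroup.add_mem _ hx hy
    | smul a x _ hx => exact smul_mem_closure p ρbar a hx
  · intro hx
    induction hx using AddSubgroup.closure_induction with
    | mem w hw => exact Submodule.subset_span hw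
    | zero => exact Submodule.zero_mem _
    | add x y _ _ hx hy => exact Submodule.add_mem _ hx hy
    | neg x _ hx => exact Submodule.neg_mem _ hx

/-- The form of the augmentation subgroup used by `Spec72.Star`. -/
theorem mem_closure_of_mem_augLine {x : ρbar.V} (hx : x ∈ augLine p ρbar) :
    x ∈ AddSubgroup.closure {w : ρbar.V | ∃ τ ∈ inertiaSet p, ∃ v : ρbar.V,
      w = (fun τ v => rbarLoc p ρbar τ v) τ v - v} :=
  (mem_augLine_iff p ρbar x).1 hx

/-- The form of the augmentation subgroup used by `Table72.inertiaAug`. -/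
theorem coe_augLine :
    (augLine p ρbar : Set ρbar.V) =
      (inertiaAug p (fun τ v => rbarLoc p ρbar τ v) ⊤ : Set ρbar.V) := by
  ext x
  rw [SetLike.mem_coe, SetLike.mem_coe, mem_augLine_iff]
  have h : augGen p ρbar = {w : ρbar.V | ∃ τ ∈ inertiaSet p, ∃ v ∈ (⊤ : AddSubgroup ρbar.V),
      w = (fun τ v => rbarLoc p ρbar τ v) τ v - v} := by
    ext w
    constructor
    · rintro ⟨τ, hτ, v, rfl⟩
      exact ⟨τ, hτ, v, AddSubgroup.mem_top v, rfl⟩
    · rintro ⟨τ, hτ, v, -, rfl⟩
      exact ⟨τ, hτ, v, rfl⟩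
  unfold inertiaAug
  rw [h]

/-- `I_aug V̄` is stable under `G_p`. -/
theorem rbarLoc_mem_augLine (g : GQp p) {x : ρbar.V} (hx : x ∈ augLine p ρbar) :
    rbarLoc p ρbar g x ∈ augLine p ρbar := by
  unfold augLine at hx ⊢
  induction hx using Submodule.span_induction with
  | mem w hw =>
    obtain ⟨τ, hτ, v, rfl⟩ := hw
    apply Submodule.subset_span
    refine ⟨g * τ * g⁻¹, conj_mem_inertiaSet p g τ hτ, rbarLoc p ρbar g v, ?_⟩
    rw [map_sub, rbarLoc_mul, rbarLoc_mul, Module.End.mul_apply, Module.End.mul_apply]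
    have h1 : rbarLoc p ρbar g⁻¹ (rbarLoc p ρbar g v) = v := by
      rw [← Module.End.mul_apply, ← rbarLoc_mul, inv_mul_cancel, rbarLoc_one, Module.End.one_apply]
    rw [h1]
  | zero => rw [map_zero]; exact Submodule.zero_mem _
  | add x y _ _ hx hy => rw [map_add]; exact Submodule.add_mem _ hx hy
  | smul a x _ hx => rw [map_smul]; exact Submodule.smul_mem _ _ hx

theorem sub_mem_augLine {τ : GQp p} (hτ : τ ∈ inertiaSet p) (v : ρbar.V) :
    rbarLoc p ρbar τ v - v ∈ augLine p ρbar :=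
  Submodule.subset_span ⟨τ, hτ, v, rfl⟩

/-- `I_aug V̄ ≠ 0` when inertia acts nontrivially. -/
theorem augLine_ne_bot {τ : GQp p} (hτ : τ ∈ inertiaSet p) (hne : rbarLoc p ρbar τ ≠ 1) :
    augLine p ρbar ≠ ⊥ := by
  intro h
  apply hne
  refine LinearMap.ext fun v => ?_
  have h1 := sub_mem_augLine p ρbar hτ v
  rw [h, Submodule.mem_bot, sub_eq_zero] at h1
  rw [h1, Module.End.one_apply]

/-- **STAR for `V̄`**: an inertia-fixed vector of `I_aug V̄` vanishes. -/
theorem eq_zero_of_mem_augLine_of_fixed [Algebra (ZMod p) k] [Finite k] (hp2 : p ≠ 2)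
    (hstar : Star p) (hV : LocalFlatModel p ρbar.V (fun τ v => rbarLoc p ρbar τ v))
    {x : ρbar.V} (hx : x ∈ augLine p ρbar) (hfix : ∀ τ ∈ inertiaSet p, rbarLoc p ρbar τ x = x) :
    x = 0 := by
  have := finite_V ρbar
  exact hstar hp2 ρbar.V (fun τ v => rbarLoc p ρbar τ v) hV (killedByP_of_module (k := k) p _) x
    hfix (mem_closure_of_mem_augLine p ρbar hx)

end Aug

/-! ### Cyclicity of the prime-to-`p` characters of inertia -/

section Cyclic

local instance isAlgClosureQb89 : IsAlgClosure ℚ Qb := ⟨inferInstance, inferInstance⟩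
local instance normalQb89 : Normal ℚ Qb := IsAlgClosure.normal ℚ Qb

variable (p : ℕ) [Fact p.Prime] {k : Type} [Field k] [Algebra (ZMod p) k] [Finite k]
  (ρbar : ResidualGaloisRep k)

/-- An element of `kˣ` killed by a power of `p` is `1` (`k` finite of characteristic `p`). -/
theorem eq_one_of_pow_p_pow_eq_one (u : kˣ) (a : ℕ) (h : u ^ p ^ a = 1) : u = 1 := by
  have : CharP (ZMod p) p := ZMod.charP p
  have : CharP k p := charP_of_injective_algebraMap (algebraMap (ZMod p) k).injective p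
  have h1 : ((u : k)) ^ p ^ a = 1 := by
    have := congrArg (fun v : kˣ => (v : k)) h
    simpa using this
  have h2 : ((u : k) - 1) ^ p ^ a = 0 := by
    rw [sub_pow_char_pow, h1, one_pow, sub_self]
  have h3 : (u : k) - 1 = 0 := pow_eq_zero_iff (pow_ne_zero _ (Fact.out : p.Prime).ne_zero) |>.mp h2
  exact Units.ext (by rw [Units.val_one]; exact sub_eq_zero.mp h3)

/-- **Tame inertia is cyclic on prime-to-`p` characters.** -/
theorem exists_inertia_generator :
    ∃ τ₀ : GQp p, τ₀ ∈ inertiaSet p ∧ ∀ τ : GQp p, τ ∈ inertiaSet p → ∃ n : ℤ,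
      ∀ ψ : GQp p →* kˣ, (∀ g : GQp p, rbarLoc p ρbar g = 1 → ψ g = 1) → ψ τ = ψ τ₀ ^ n := by
  have hp : p.Prime := Fact.out
  have hA := Fermat.Agent.TW.OrdLocal.PadicPlace97.padicPlace_liesOverPrime p
  obtain ⟨L0, hL0fin, hL0⟩ := ρbar.factorsThroughFiniteLevel
  let L : IntermediateField ℚ Qb := IntermediateField.normalClosure ℚ L0 Qb
  have : FiniteDimensional ℚ L := normalClosure.is_finiteDimensional ℚ L0 Qb
  have : Normal ℚ L := normalClosure.normal ℚ L0 Qb
  have hL : ∀ σ : GQ, σ ∈ L.fixingSubgroup → ρbar.ρ σ = 1 := by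
    intro σ hσ
    apply hL0 σ
    intro x hx
    exact (IntermediateField.mem_fixingSubgroup_iff L σ).1 hσ x
      (IntermediateField.le_normalClosure L0 hx)
  obtain ⟨σ₀, hσ₀, hgen⟩ :=
    Fermat.Agent.TW.LocalQ.TameImage96.exists_generator_mod_wild (A := padicPlace p) (K := L) hp hA
  obtain ⟨τ₀, hτ₀σ, hτ₀⟩ :=
    Fermat.Agent.TW.Bridge.LocalInertia97.exists_local_inertia_of_mem_inertia p hσ₀
  refine ⟨τ₀, hτ₀, fun τ hτ => ?_⟩
  have hσ : localGaloisToGlobal p τ ∈ (padicPlace p).inertiaSubgroupIn ℚ :=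
    (Fermat.Agent.TW.Bridge.LocalInertia97.localGaloisToGlobal_mem_inertia_iff p τ).2 hτ
  obtain ⟨n, a, hna⟩ := hgen _ hσ
  refine ⟨n, fun ψ hψ => ?_⟩
  set g : GQp p := (τ₀ ^ n)⁻¹ * τ with hg
  have hgl : localGaloisToGlobal p (g ^ p ^ a) =
      ((σ₀ ^ n)⁻¹ * localGaloisToGlobal p τ) ^ p ^ a := by
    rw [map_pow, hg, map_mul, map_inv, map_zpow, hτ₀σ]
  have h1 : rbarLoc p ρbar (g ^ p ^ a) = 1 := by
    unfold rbarLoc
    rw [hgl]
    exact hL _ hna
  have h2 : ψ g ^ p ^ a = 1 := by
    rw [← map_pow]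
    exact hψ _ h1
  have h3 : ψ g = 1 := eq_one_of_pow_p_pow_eq_one p (ψ g) a h2
  have h4 : τ = τ₀ ^ n * g := by rw [hg]; group
  rw [h4, map_mul, h3, mul_one, map_zpow]

end Cyclic

end Fermat.Agent.TW.Cnt.AsmAug89
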