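/-
Program TW (S56), work package WP7-CNT, brick ASM (helper89), file 1: the INDUCED case without the
hypothesis `hETA` of `AdInd55`.

Setting of `AdInd55` (helper55): `M` realised as `ad⁰` of `R : G →* M₂(k)`, `H ≤ G` of index `2`, `R h`
diagonal for `h ∈ H`, antidiagonal for `g ∉ H`.  The diagonal entry `g ↦ ι (c g) 0 0` of a cocycle `c` of
`M` is a cocycle of `G` with values in `k(η)`, `η` the sign character of `G/H` (`η = 1` on `H`, `-1` off
`H`).  So instead of `hETA` it suffices to know `H1adm(G, k(η)) = 0` (hypothesis `hη` below, in cocycle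
form), which in the application is T1 for the unramified nontrivial character `η`.

* `signChar H hind : G →* kˣ`, `coe_signChar`;
* `H1π_eq_zero_of_upper'`, `finrank_H1adm_induced_le'` : the `hη`-versions of helper55's theorems;
* `hη_of_H1adm_eq_bot` : `hη` from `H1adm 𝒩 (charRep F (signChar H hind)) = ⊥`.
-/
import Mathlib
import Fermat.Agent.TW.Cnt.AdInd55

set_option autoImplicit false

open CategoryTheory groupCohomology Module

namespace Fermat.Agent.TW.Cnt.AsmInd89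

open Fermat.Agent.TW.Cnt.AdmH1_55 Fermat.Agent.TW.Cnt.AdmRes55 Fermat.Agent.TW.Cnt.AdReal55
  Fermat.Agent.TW.Cnt.AdFilt55 Fermat.Agent.TW.Cnt.AdInd55

/-! ### The sign character of an index-two subgroup -/

section Sign

variable {k G : Type} [Field k] [Group G] (H : Subgroup G) (hind : H.index = 2)

open Classical in
/-- The sign character of `G/H` for `H` of index two, with values in `kˣ`. -/
noncomputable def signChar : G →* kˣ where
  toFun g := if g ∈ H then 1 else -1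
  map_one' := by rw [if_pos H.one_mem]
  map_mul' g g' := by
    have h := Subgroup.mul_mem_iff_of_index_two hind (a := g) (b := g')
    by_cases hg : g ∈ H <;> by_cases hg' : g' ∈ H
    · rw [if_pos (h.2 (iff_of_true hg hg')), if_pos hg, if_pos hg', one_mul]
    · rw [if_neg (fun hh => hg' ((h.1 hh).1 hg)), if_pos hg, if_neg hg', one_mul]
    · rw [if_neg (fun hh => hg ((h.1 hh).2 hg')), if_neg hg, if_pos hg', mul_one]
    · rw [if_pos (h.2 (iff_of_false hg hg')), if_neg hg, if_neg hg', neg_mul_neg, one_mul]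

theorem signChar_of_mem {g : G} (hg : g ∈ H) : signChar (k := k) H hind g = 1 := by
  classical
  exact if_pos hg

theorem signChar_of_notMem {g : G} (hg : g ∉ H) : signChar (k := k) H hind g = -1 := by
  classical
  exact if_neg hg

open Classical in
theorem coe_signChar (g : G) :
    ((signChar (k := k) H hind g : kˣ) : k) = if g ∈ H then 1 else -1 := by
  by_cases hg : g ∈ H
  · rw [signChar_of_mem H hind hg, if_pos hg, Units.val_one]
  · rw [signChar_of_notMem H hind hg, if_neg hg, Units.val_neg, Units.val_one]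

end Sign

variable {F k G : Type} [Field F] [Field k] [Algebra F k] [Group G] {M : Rep.{0} F G}
  (r : Ad0Real F k M) (H : Subgroup G)

section Main

variable [hHn : H.Normal] (hdiag : ∀ h ∈ H, r.R h 0 1 = 0 ∧ r.R h 1 0 = 0)
  (hanti : ∀ g ∉ H, r.R g 0 0 = 0 ∧ r.R g 1 1 = 0) (hind : H.index = 2) (h2 : (2 : F) ≠ 0)
  (𝒩 : AdmFamily G) (hM : IsAdmRep 𝒩 M)

open Classical in
include hdiag hanti in
omit hHn in
/-- The diagonal entry of a cocycle of `M` is a cocycle with values in `k(η)`. -/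
theorem diag_cocycle (c : cocycles₁ M) (g g' : G) :
    r.ι (c (g * g')) 0 0 = (if g ∈ H then r.ι (c g') 0 0 else - r.ι (c g') 0 0) + r.ι (c g) 0 0 := by
  have hcoc := (mem_cocycles₁_iff c).1 c.2 g g'
  rw [hcoc, map_add, Matrix.add_apply, r.equivariant]
  congr 1
  split_ifs with hg
  · rw [conj_diag_apply r H hdiag hg]
    have := diag_mul_00 r H hdiag hg
    calc r.R g 0 0 * r.ι (c g') 0 0 * r.R g⁻¹ 0 0
        = (r.R g 0 0 * r.R g⁻¹ 0 0) * r.ι (c g') 0 0 := by ring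
      _ = r.ι (c g') 0 0 := by rw [this, one_mul]
  · rw [conj_anti_00 r H hanti hg]
    have e4 := r.trace_zero (c g')
    rw [trace_two] at e4
    exact eq_neg_of_add_eq_zero_right e4

open Classical in
include hdiag hanti hind h2 hM in
/-- **Key lemma (`hη`-version).** If the upper right entry of an admissible cocycle is a coboundary on
`H` (for the character `ψ₁/ψ₂`), the cocycle is a coboundary on `G`. -/
theorem H1π_eq_zero_of_upper'
    (hη : ∀ z : G → k, (∀ g g' : G, z (g * g') = (if g ∈ H then z g' else - z g') + z g) →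
      (∃ N ∈ 𝒩.sets, ∀ n ∈ N, z n = 0) → ∀ h ∈ H, z h = 0)
    (c : cocycles₁ M) (hc : c ∈ Zadm 𝒩 M) (a : k)
    (ha : ∀ h ∈ H, r.ι (c h) 0 1 = r.R h 0 0 * r.R h⁻¹ 1 1 * a - a) :
    (H1π M).hom c = 0 := by
  obtain ⟨s, hs⟩ : ∃ s : G, s ∉ H := by
    by_contra hcon
    simp only [not_exists, not_not] at hcon
    have : H = ⊤ := (Subgroup.eq_top_iff' H).2 hcon
    rw [this, Subgroup.index_top] at hind
    exact absurd hind (by norm_num)
  -- first correction
  set c₁ : cocycles₁ M := c - cob (up r a) with hc₁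
  have h01₁ : ∀ h ∈ H, r.ι (c₁ h) 0 1 = 0 := by
    intro h hh
    rw [hc₁, sub_cob_apply, map_sub, map_sub, Matrix.sub_apply, Matrix.sub_apply, ha h hh,
      r.equivariant, conj_diag_apply r H hdiag hh, ι_up, Matrix.single_apply_same]
    ring
  -- second correction
  set a' : k := (r.R s 0 1 * r.R s⁻¹ 0 1)⁻¹ * r.ι (c₁ s) 0 1 with ha'
  set c₂ : cocycles₁ M := c₁ - cob (low r a') with hc₂
  have h01₂ : ∀ h ∈ H, r.ι (c₂ h) 0 1 = 0 := by
    intro h hh
    rw [hc₂, sub_cob_apply, map_sub, map_sub, Matrix.sub_apply, Matrix.sub_apply, h01₁ h hh,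
      r.equivariant, conj_diag_apply r H hdiag hh, ι_low,
      Matrix.single_apply_of_ne _ _ _ _ _ (by decide)]
    ring
  have h10₂ : ∀ h ∈ H, r.ι (c₂ h) 1 0 = 0 := by
    intro h hh
    rw [hc₂, sub_cob_apply, map_sub, map_sub, Matrix.sub_apply, Matrix.sub_apply,
      lower_eq_of_upper_zero r H hdiag hanti c₁ hs h01₁ hh,
      r.equivariant, conj_diag_apply r H hdiag hh, ι_low, Matrix.single_apply_same, ← ha']
    ring
  -- the diagonal entry
  have hadm₂ : c₂ ∈ Zadm 𝒩 M := by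
    refine Submodule.sub_mem _ (Submodule.sub_mem _ hc ?_) ?_
    · exact d₀₁_mem_Zadm 𝒩 hM (up r a) _ (cob_apply _)
    · exact d₀₁_mem_Zadm 𝒩 hM (low r a') _ (cob_apply _)
  have hy : ∀ h ∈ H, r.ι (c₂ h) 0 0 = 0 := by
    refine hη (fun g => r.ι (c₂ g) 0 0) (fun g g' => diag_cocycle r H hdiag hanti c₂ g g') ?_
    obtain ⟨N, hN, hcN⟩ := hadm₂
    exact ⟨N, hN, fun n hn => by
      rw [hcN n hn, map_zero]; rfl⟩
  have hvan : ∀ h ∈ H, c₂ h = 0 := by
    intro h hh
    apply r.inj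
    rw [map_zero]
    have e0 := hy h hh
    have e4 := r.trace_zero (c₂ h)
    rw [trace_two] at e4
    apply ext_two
    · exact e0
    · exact h01₂ h hh
    · exact h10₂ h hh
    · change r.ι (c₂ h) 1 1 = 0
      rw [e0, zero_add] at e4
      exact e4
  have : H.FiniteIndex := ⟨by rw [hind]; norm_num⟩
  have hn : ((H.index : ℕ) : F) ≠ 0 := by
    rw [hind]; exact_mod_cast h2
  obtain ⟨b, hb⟩ := exists_eq_d₀₁_of_vanish H hn c₂ hvan
  rw [H1π_eq_zero_iff]
  refine ⟨b + up r a + low r a', ?_⟩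
  funext g
  rw [d₀₁_hom_apply]
  have e := hb g
  rw [hc₂, sub_cob_apply, hc₁, sub_cob_apply] at e
  rw [map_add, map_add]
  rw [sub_eq_iff_eq_add, sub_eq_iff_eq_add] at e
  rw [e]
  abel

end Main

section Count

variable [hHn : H.Normal] (hdiag : ∀ h ∈ H, r.R h 0 1 = 0 ∧ r.R h 1 0 = 0)
  (ψ₁ ψ₂ : H →* kˣ) (hψ₁ : ∀ h : H, (ψ₁ h : k) = r.R (h : G) 0 0)
  (hψ₂ : ∀ h : H, (ψ₂ h : k) = r.R (h : G) 1 1)
  (hanti : ∀ g ∉ H, r.R g 0 0 = 0 ∧ r.R g 1 1 = 0) (hind : H.index = 2) (h2 : (2 : F) ≠ 0)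
  (𝒩 : AdmFamily G) (hM : IsAdmRep 𝒩 M)

open Classical in
include hdiag hψ₁ hψ₂ hanti hind h2 hM in
/-- **Induced case (`hη`-version).** `dim H1adm(G, M) ≤ dim H1adm(H, k(ψ₁/ψ₂))`. -/
theorem finrank_H1adm_induced_le'
    (hη : ∀ z : G → k, (∀ g g' : G, z (g * g') = (if g ∈ H then z g' else - z g') + z g) →
      (∃ N ∈ 𝒩.sets, ∀ n ∈ N, z n = 0) → ∀ h ∈ H, z h = 0)
    [FiniteDimensional F (H1adm (comapFamily 𝒩 H) (charRep F (ψ₁ / ψ₂)))] :
    FiniteDimensional F (H1adm 𝒩 M) ∧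
      finrank F (H1adm 𝒩 M) ≤ finrank F (H1adm (comapFamily 𝒩 H) (charRep F (ψ₁ / ψ₂))) := by
  set Φ := upperCoc r H hdiag ψ₁ ψ₂ hψ₁ hψ₂ with hΦ
  set ρ' : cocycles₁ M →ₗ[F] H1 (charRep F (ψ₁ / ψ₂)) :=
    (H1π (charRep F (ψ₁ / ψ₂))).hom ∘ₗ Φ with hρ'
  have hle : (Zadm 𝒩 M).map ρ' ≤ H1adm (comapFamily 𝒩 H) (charRep F (ψ₁ / ψ₂)) := by
    rintro _ ⟨c, hc, rfl⟩
    exact H1π_mem_H1adm _ (upperCoc_mem_Zadm r H hdiag ψ₁ ψ₂ hψ₁ hψ₂ 𝒩 hc)
  have : FiniteDimensional F ((Zadm 𝒩 M).map ρ') := Submodule.finiteDimensional_of_le hle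
  have hker : Zadm 𝒩 M ⊓ LinearMap.ker ρ' ≤ LinearMap.ker (H1π M).hom := by
    rintro c ⟨hc, hk⟩
    rw [SetLike.mem_coe, LinearMap.mem_ker] at hk
    rw [LinearMap.mem_ker]
    have hk' : (H1π (charRep F (ψ₁ / ψ₂))).hom (Φ c) = 0 := hk
    rw [H1π_eq_zero_iff] at hk'
    obtain ⟨a, ha⟩ := hk'
    refine H1π_eq_zero_of_upper' r H hdiag hanti hind h2 𝒩 hM hη c hc a (fun h hh => ?_)
    have e := congrFun ha ⟨h, hh⟩
    rw [d₀₁_hom_apply] at e
    have e' : (((ψ₁ / ψ₂) ⟨h, hh⟩ : kˣ) : k) * a - a = r.ι (c h) 0 1 := e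
    rw [← e', char_eq r H hdiag ψ₁ ψ₂ hψ₁ hψ₂]
  obtain ⟨h1, h2'⟩ := finrank_map_le_of_ker_le ρ' (H1π M).hom (Zadm 𝒩 M) hker
  exact ⟨h1, h2'.trans (Submodule.finrank_mono hle)⟩

end Count

/-! ### `hη` from the vanishing of `H1adm(G, k(η))` -/

section Eta

variable (F) (hind : H.index = 2) (𝒩 : AdmFamily G)

open Classical in
theorem hη_of_H1adm_eq_bot
    (hbot : H1adm 𝒩 (charRep F (signChar (k := k) H hind)) = ⊥)
    (z : G → k) (hz : ∀ g g' : G, z (g * g') = (if g ∈ H then z g' else - z g') + z g)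
    (hadm : ∃ N ∈ 𝒩.sets, ∀ n ∈ N, z n = 0) : ∀ h ∈ H, z h = 0 := by
  have hzc : z ∈ cocycles₁ (charRep F (signChar (k := k) H hind)) := by
    rw [mem_cocycles₁_iff]
    intro g g'
    rw [hz g g', charRep_apply, coe_signChar]
    congr 1
    split_ifs with hg
    · rw [one_mul]
    · rw [neg_one_mul]
  set c : cocycles₁ (charRep F (signChar (k := k) H hind)) := ⟨z, hzc⟩ with hc
  have hcadm : c ∈ Zadm 𝒩 (charRep F (signChar (k := k) H hind)) := by
    obtain ⟨N, hN, hzN⟩ := hadm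
    exact ⟨N, hN, fun n hn => hzN n hn⟩
  have h0 : (H1π (charRep F (signChar (k := k) H hind))).hom c = 0 := by
    have := H1π_mem_H1adm 𝒩 hcadm
    rw [hbot, Submodule.mem_bot] at this
    exact this
  rw [H1π_eq_zero_iff] at h0
  obtain ⟨a, ha⟩ := h0
  intro h hh
  have e := congrFun ha h
  rw [d₀₁_hom_apply] at e
  have e' : (charRep F (signChar (k := k) H hind)).ρ h a - a = z h := e
  rw [charRep_apply, signChar_of_mem H hind hh, Units.val_one, one_mul, sub_self] at e'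
  exact e'.symm

end Eta

end Fermat.Agent.TW.Cnt.AsmInd89
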