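/-
Program TW (S56), work package WP7-CNT, brick ASM (helper89), file 2: the consumers of the counting
theorems T1 (`Table72.CharCount`) and T2 (`Table72.IndCount`), in the shapes needed by helper55's case
analysis (`AdCases55`), and the cyclotomic facts on the local group at `p`.

* `charRep_eq` : the two `k(χ)` (`CharRep72.charRep` and `AdReal55.charRep`) agree;
* `det_eq_omegaK` : `det ρ̄(loc τ) = ω(τ)` (from `hdet`);
* `exists_mem_inertiaLoc_det_eq_neg_one`, `exists_mem_inertiaLoc_omegaK_ne_one` : `ω` is nontrivial on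
  inertia (`p` odd);
* `charCount_defect` : T1 as a bound for the defect `dim H1adm(k(χ)) - dim k(χ)^G`;
* `H1adm_one_defect` : defect `0` for the trivial character;
* `H1adm_signChar_eq_bot` : `H1adm(k(η)) = 0` for the sign character of an index-two `H ⊇ I`;
* `indCount_bridge` : T2 for `AdReal55.charRep` and `AdInd55.comapFamily`.
-/
import Mathlib
import Fermat.Agent.TW.Cnt.Table72
import Fermat.Agent.TW.Cnt.AdCases55
import Fermat.Agent.TW.Cnt.AsmInd89
import Fermat.Agent.TW.Bridge.LocalInertia97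
import Fermat.Agent.TW.OrdLocal.PadicPlace97
import Fermat.Agent.Lib.InertiaCyclo69

set_option autoImplicit false
set_option linter.unusedSectionVars false

open CategoryTheory groupCohomology Module ExtCitation Polynomial
open Fermat.Agent.TW.Spec.Defs52 Fermat.Agent.TW.Spec.Contract52
open Fermat.Agent.TW.FF.Spec72 (ClosureProd inertiaSet)
open Fermat.Agent.TW.Cnt.AdmH1_55 Fermat.Agent.TW.Cnt.BridgeFlat54 Fermat.Agent.TW.Cnt.BridgeAdm54
open Fermat.Agent.TW.Cnt.Table72 Fermat.Agent.TW.Cnt.AsmInd89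

namespace Fermat.Agent.TW.Cnt.AsmChar89

local notation "Qb" => AlgebraicClosure ℚ

/-! ### Bridge between the two `k(χ)` -/

section Bridges

variable (p : ℕ) [Fact p.Prime] {k : Type} [Field k] [Algebra (ZMod p) k] {G : Type} [Group G]

theorem charRep_eq (χ : G →* kˣ) :
    CharRep72.charRep p χ = AdReal55.charRep (ZMod p) χ := rfl

end Bridges

/-! ### The cyclotomic character on the local group -/

section Omega

variable (p : ℕ) [Fact p.Prime] {k : Type} [Field k] [Algebra (ZMod p) k]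
  (ρbar : ResidualGaloisRep k)

theorem natCast_p_eq_zero : ((p : ℕ) : k) = 0 := by
  have : CharP (ZMod p) p := ZMod.charP p
  have : CharP k p := charP_of_injective_algebraMap (algebraMap (ZMod p) k).injective p
  exact CharP.cast_eq_zero k p

theorem neg_one_ne_one (hp2 : p ≠ 2) : (-1 : k) ≠ 1 := by
  have : CharP (ZMod p) p := ZMod.charP p
  have : CharP k p := charP_of_injective_algebraMap (algebraMap (ZMod p) k).injective p
  intro h
  have h2 : ((2 : ℕ) : k) = 0 := by
    rw [Nat.cast_ofNat]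
    have : (1 : k) + 1 = 0 := by
      nth_rewrite 1 [← h]
      exact neg_add_cancel 1
    rw [← this]; norm_num
  rw [CharP.cast_eq_zero_iff k p] at h2
  exact hp2 ((Nat.prime_dvd_prime_iff_eq (Fact.out : p.Prime) Nat.prime_two).mp h2)

/-- `det ρ̄(σ) = a` in `k` when `σ` raises the `p`-th roots of unity to the power `a`. -/
theorem det_eq_natCast (hdet : (GaloisRepAdic.ofResidualGaloisRep ρbar).DetIsCyclotomic p)
    (σ : GQ) (a : ℕ) (hσ : ∀ μ : Qb, μ ^ p ^ 1 = 1 → σ μ = μ ^ a) :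
    LinearMap.det (ρbar.ρ σ) = (a : k) := by
  have h := hdet.2 1 σ a hσ
  have hp0 : ((p ^ 1 : ℕ) : k) = 0 := by rw [pow_one]; exact natCast_p_eq_zero p
  rw [hp0, Ideal.mem_span_singleton, zero_dvd_iff, sub_eq_zero] at h
  exact h

/-- `det ρ̄` is the mod `p` cyclotomic character (global form). -/
theorem det_eq_cycloChar (hdet : (GaloisRepAdic.ofResidualGaloisRep ρbar).DetIsCyclotomic p)
    (σ : GQ) :
    LinearMap.det (ρbar.ρ σ) = algebraMap (ZMod p) k ((cycloChar p σ : (ZMod p)ˣ) : ZMod p) := by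
  have : NeZero p := ⟨(Fact.out : p.Prime).ne_zero⟩
  rw [coe_cycloChar, map_natCast]
  apply det_eq_natCast p ρbar hdet
  intro μ hμ
  rw [pow_one] at hμ
  have hμu : IsUnit μ := IsUnit.of_pow_eq_one hμ (Fact.out : p.Prime).ne_zero
  obtain ⟨u, rfl⟩ := hμu
  have hu : u ∈ rootsOfUnity p Qb := by
    rw [mem_rootsOfUnity]
    exact Units.ext (by simpa using hμ)
  exact modularCyclotomicCharacter.spec Qb (card_rootsOfUnity_eq_self p) (σ : Qb ≃+* Qb) hu

/-- `det ρ̄(loc τ) = ω(τ)`. -/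
theorem det_eq_omegaK (hdet : (GaloisRepAdic.ofResidualGaloisRep ρbar).DetIsCyclotomic p)
    (τ : Gp p) :
    LinearMap.det (ρbar.ρ (locAt (pPrime p) τ)) = ((omegaK p k τ : kˣ) : k) :=
  det_eq_cycloChar p ρbar hdet (locAt (pPrime p) τ)

/-- Some inertia element at `p` has determinant `-1`. -/
theorem exists_mem_inertiaLoc_det_eq_neg_one
    (hdet : (GaloisRepAdic.ofResidualGaloisRep ρbar).DetIsCyclotomic p) :
    ∃ τ ∈ inertiaLoc p, LinearMap.det (ρbar.ρ (locAt (pPrime p) τ)) = -1 := by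
  have hp : p.Prime := Fact.out
  have hA := Fermat.Agent.TW.OrdLocal.PadicPlace97.padicPlace_liesOverPrime p
  have hcop : (p - 1).Coprime p := by
    refine Nat.Coprime.symm ((Nat.Prime.coprime_iff_not_dvd hp).2 ?_)
    exact Nat.not_dvd_of_pos_of_lt (Nat.sub_pos_of_lt hp.one_lt) (Nat.sub_lt hp.pos one_pos)
  obtain ⟨σ, hσI, hσ⟩ :=
    Fermat.Agent.Lib.InertiaCyclo69.exists_mem_inertia_forall_apply_eq_pow hp hA 1 hcop
  obtain ⟨τ, hτσ, hτ⟩ :=
    Fermat.Agent.TW.Bridge.LocalInertia97.exists_local_inertia_of_mem_inertia p hσI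
  refine ⟨toLoc p τ, hτ, ?_⟩
  have h1 : locAt (pPrime p) (toLoc p τ) = σ := hτσ
  rw [h1, det_eq_natCast p ρbar hdet σ (p - 1) hσ, Nat.cast_sub hp.one_le, natCast_p_eq_zero p,
    Nat.cast_one, zero_sub]

/-- `ω` is nontrivial on inertia (`p` odd). -/
theorem exists_mem_inertiaLoc_omegaK_ne_one (hp2 : p ≠ 2)
    (hdet : (GaloisRepAdic.ofResidualGaloisRep ρbar).DetIsCyclotomic p) :
    ∃ τ ∈ inertiaLoc p, omegaK p k τ ≠ 1 := by
  obtain ⟨τ, hτ, hd⟩ := exists_mem_inertiaLoc_det_eq_neg_one p ρbar hdet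
  refine ⟨τ, hτ, fun h => ?_⟩
  rw [det_eq_omegaK p ρbar hdet, h, Units.val_one] at hd
  exact neg_one_ne_one p hp2 hd.symm

end Omega

/-! ### Consumers of T1 and T2 -/

section Count

variable (p : ℕ) [Fact p.Prime] {k : Type} [Field k] [Algebra (ZMod p) k] [Finite k]
  (hprod : ClosureProd p)

open Classical in
/-- **T1 as a defect bound.** -/
theorem charCount_defect (hT1 : CharCount p hprod) (hp2 : p ≠ 2) (χ : Gp p →* kˣ)
    (hadm : ∃ N ∈ (admFam p hprod).sets, ∀ n ∈ N, χ n = 1) :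
    FiniteDimensional (ZMod p) (H1adm (admFam p hprod) (AdReal55.charRep (ZMod p) χ)) ∧
      finrank (ZMod p) (H1adm (admFam p hprod) (AdReal55.charRep (ZMod p) χ)) ≤
        finrank (ZMod p) (AdReal55.charRep (ZMod p) χ).ρ.invariants +
          (if ∀ τ ∈ inertiaLoc p, χ τ = omegaK p k τ then finrank (ZMod p) k else 0) := by
  obtain ⟨hfin, hle⟩ := hT1 hp2 k χ hadm
  refine ⟨hfin, ?_⟩
  by_cases hχ : χ = 1
  · have hinv : finrank (ZMod p) (AdReal55.charRep (ZMod p) χ).ρ.invariants =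
        finrank (ZMod p) k := by
      have h1 : (AdReal55.charRep (ZMod p) χ).ρ.invariants = ⊤ := by
        rw [hχ]
        exact CharRep72.invariants_charRep_one p
      rw [h1]
      exact finrank_top (ZMod p) k
    rw [if_pos hχ] at hle
    have hle' : finrank (ZMod p) (H1adm (admFam p hprod) (AdReal55.charRep (ZMod p) χ)) ≤
        (if ∀ τ ∈ inertiaLoc p, χ τ = omegaK p k τ then finrank (ZMod p) k else 0) +
          finrank (ZMod p) k := hle
    omega
  · rw [if_neg hχ] at hle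
    have hle' : finrank (ZMod p) (H1adm (admFam p hprod) (AdReal55.charRep (ZMod p) χ)) ≤
        (if ∀ τ ∈ inertiaLoc p, χ τ = omegaK p k τ then finrank (ZMod p) k else 0) + 0 := hle
    omega

open Classical in
/-- The defect of the trivial character is `0` (as `ω` is nontrivial on inertia). -/
theorem H1adm_one_defect (hT1 : CharCount p hprod) (hp2 : p ≠ 2)
    (hω : ∃ τ ∈ inertiaLoc p, omegaK p k τ ≠ 1) :
    FiniteDimensional (ZMod p)
        (H1adm (admFam p hprod) (AdReal55.charRep (ZMod p) (1 : Gp p →* kˣ))) ∧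
      finrank (ZMod p) (H1adm (admFam p hprod) (AdReal55.charRep (ZMod p) (1 : Gp p →* kˣ))) ≤
        finrank (ZMod p) (AdReal55.charRep (ZMod p) (1 : Gp p →* kˣ)).ρ.invariants + 0 := by
  obtain ⟨N, hN⟩ := (admFam p hprod).nonempty
  obtain ⟨hfin, hle⟩ := charCount_defect p hprod hT1 hp2 (1 : Gp p →* kˣ)
    ⟨N, hN, fun _ _ => rfl⟩
  refine ⟨hfin, ?_⟩
  rw [if_neg] at hle
  · exact hle
  · intro h
    obtain ⟨τ, hτ, hne⟩ := hω
    exact hne (h τ hτ).symm

/-- **`H1adm(k(η)) = 0`** for the sign character `η` of an index-two subgroup `H ⊇ I` containing an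
admissible subgroup. -/
theorem H1adm_signChar_eq_bot (hT1 : CharCount p hprod) (hp2 : p ≠ 2)
    (hω : ∃ τ ∈ inertiaLoc p, omegaK p k τ ≠ 1)
    (H : Subgroup (Gp p)) (hind : H.index = 2) (hI : inertiaLoc p ⊆ (H : Set (Gp p)))
    (hN : ∃ N ∈ (admFam p hprod).sets, N ≤ H) :
    H1adm (admFam p hprod) (AdReal55.charRep (ZMod p) (signChar (k := k) H hind)) = ⊥ := by
  classical
  obtain ⟨N, hNmem, hNH⟩ := hN
  obtain ⟨hfin, hle⟩ := charCount_defect p hprod hT1 hp2 (signChar (k := k) H hind)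
    ⟨N, hNmem, fun n hn => signChar_of_mem H hind (hNH hn)⟩
  have hne : signChar (k := k) H hind ≠ 1 := by
    obtain ⟨s, hs⟩ : ∃ s : Gp p, s ∉ H := by
      by_contra hcon
      simp only [not_exists, not_not] at hcon
      have : H = ⊤ := (Subgroup.eq_top_iff' H).2 hcon
      rw [this, Subgroup.index_top] at hind
      exact absurd hind (by norm_num)
    intro h
    have h1 := DFunLike.congr_fun h s
    rw [signChar_of_notMem H hind hs, MonoidHom.one_apply] at h1
    have h2 := congrArg (fun u : kˣ => (u : k)) h1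
    simp only [Units.val_neg, Units.val_one] at h2
    exact neg_one_ne_one p hp2 h2
  have hinv : finrank (ZMod p)
      (AdReal55.charRep (ZMod p) (signChar (k := k) H hind)).ρ.invariants = 0 := by
    have h1 : (AdReal55.charRep (ZMod p) (signChar (k := k) H hind)).ρ.invariants = ⊥ :=
      CharRep72.invariants_charRep_of_ne_one p hne
    rw [h1]
    exact finrank_bot (ZMod p) k
  rw [if_neg, hinv] at hle
  · have h0 : finrank (ZMod p)
        (H1adm (admFam p hprod) (AdReal55.charRep (ZMod p) (signChar (k := k) H hind))) = 0 := by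
      omega
    exact Submodule.finrank_eq_zero.mp h0
  · intro h
    obtain ⟨τ, hτ, hne'⟩ := hω
    apply hne'
    rw [← h τ hτ, signChar_of_mem H hind (hI hτ)]

/-- **T2** for `AdReal55.charRep` and `AdInd55.comapFamily`. -/
theorem indCount_bridge (hT2 : IndCount p hprod) (hp2 : p ≠ 2) (H : Subgroup (Gp p))
    (ξ : ↥H →* kˣ) (hind : H.index = 2) (hI : inertiaLoc p ⊆ (H : Set (Gp p)))
    (hadm : ∃ N ∈ (admFam p hprod).sets, N ≤ H ∧ ∀ n : ↥H, (n : Gp p) ∈ N → ξ n = 1)
    (hconj : ∀ (s : Gp p) (h h' : ↥H), s ∉ H → (h' : Gp p) = s * h * s⁻¹ → ξ h' = (ξ h)⁻¹)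
    (hlev : ∀ τ : ↥H, (τ : Gp p) ∈ inertiaLoc p → ξ τ ^ (p + 1) = 1)
    (hnt : ∃ τ : ↥H, (τ : Gp p) ∈ inertiaLoc p ∧ ξ τ ≠ 1)
    (hcorner : ¬ (p = 3 ∧ ∀ τ : ↥H, (τ : Gp p) ∈ inertiaLoc p → ξ τ = omegaK p k τ)) :
    FiniteDimensional (ZMod p)
        (H1adm (AdInd55.comapFamily (admFam p hprod) H) (AdReal55.charRep (ZMod p) ξ)) ∧
      finrank (ZMod p)
        (H1adm (AdInd55.comapFamily (admFam p hprod) H) (AdReal55.charRep (ZMod p) ξ)) ≤
        finrank (ZMod p) k := by
  exact hT2 hp2 k H ξ hind hI hadm hconj hlev hnt hcorner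

end Count

end Fermat.Agent.TW.Cnt.AsmChar89
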