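/-
Program TW (S56), work package WP7-CNT, brick ASM (helper89), file 4: the REDUCIBLE case of the flat
local bound.  `ρ̄|_{G_p}` stabilises a line and `V̄` is a local flat model.

* `exists_adm_ker`, `adm_of_factors` : characters factoring through `ρ̄ ∘ loc` are admissible;
* `exists_inertia_generator_loc` : the generator of tame inertia, on the Prelude local group;
* `finrank_augLine_eq_one_of_corner` : in the corner `(χ₀/χ₁)|I = ω|I = (χ₁/χ₀)|I` the augmentation
  subspace `I_aug V̄` is a line;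
* `localBoundFlat_of_stable_line` : `Contract52.LocalBoundFlat` in the reducible case.
-/
import Mathlib
import Fermat.Agent.TW.Cnt.AsmAug89
import Fermat.Agent.TW.Cnt.AsmChar89
import Fermat.Agent.TW.Cnt.OrdShape54
import Fermat.Agent.TW.Cnt.AdCases55
import Fermat.Agent.TW.FF.Unr68
import Fermat.Agent.TW.FF.ClosureSpec68

set_option autoImplicit false
set_option linter.unusedSectionVars false

open CategoryTheory groupCohomology Module ExtCitation Polynomial
open Fermat.Agent.TW.Spec.Defs52 Fermat.Agent.TW.Spec.Contract52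
open Fermat.Agent.TW.FF.FlatModel68 (GQp LocalFlatModel)
open Fermat.Agent.TW.FF.Spec72 (ClosureProd inertiaSet Star)
open Fermat.Agent.TW.Cnt.AdmH1_55 Fermat.Agent.TW.Cnt.BridgeFlat54 Fermat.Agent.TW.Cnt.BridgeAdm54
open Fermat.Agent.TW.Cnt.Table72 Fermat.Agent.TW.Cnt.AdmFlat72
open Fermat.Agent.TW.Cnt.AsmAug89 Fermat.Agent.TW.Cnt.AsmChar89 Fermat.Agent.TW.Cnt.AdCases55

namespace Fermat.Agent.TW.Cnt.AsmRed89

section Adm

variable (p : ℕ) [Fact p.Prime] {k : Type} [Field k] [Algebra (ZMod p) k] [Finite k]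
  (ρbar : ResidualGaloisRep k) (hprod : ClosureProd p)

/-- The kernel of `ρ̄ ∘ loc` contains an admissible subgroup. -/
theorem exists_adm_ker (hV : LocalFlatModel p ρbar.V (fun τ v => rbarLoc p ρbar τ v)) :
    ∃ N ∈ (admFam p hprod).sets, ∀ n ∈ N, ρbar.ρ (locAt (pPrime p) n) = 1 := by
  have := finite_V ρbar
  refine ⟨(kerOf hV).comap (toLoc p).symm.toMonoidHom,
    comap_symm_mem_admFam p hprod (kerOf_mem_admFamily hV (killedByP_of_module (k := k) p _)),
    fun n hn => ?_⟩
  have h1 : ∀ v, rbarLoc p ρbar ((toLoc p).symm n) v = v := hn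
  exact LinearMap.ext h1

/-- A character factoring through `ρ̄ ∘ loc` is admissible. -/
theorem adm_of_factors (hV : LocalFlatModel p ρbar.V (fun τ v => rbarLoc p ρbar τ v))
    (ψ : Gp p →* kˣ) (hψ : ∀ g : Gp p, ρbar.ρ (locAt (pPrime p) g) = 1 → ψ g = 1) :
    ∃ N ∈ (admFam p hprod).sets, ∀ n ∈ N, ψ n = 1 := by
  obtain ⟨N, hN, h⟩ := exists_adm_ker p ρbar hprod hV
  exact ⟨N, hN, fun n hn => hψ n (h n hn)⟩

/-- The generator of tame inertia on the Prelude local group. -/
theorem exists_inertia_generator_loc :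
    ∃ τ₀ : Gp p, τ₀ ∈ inertiaLoc p ∧ ∀ τ : Gp p, τ ∈ inertiaLoc p → ∃ n : ℤ,
      ∀ ψ : Gp p →* kˣ, (∀ g : Gp p, ρbar.ρ (locAt (pPrime p) g) = 1 → ψ g = 1) →
        ψ τ = ψ τ₀ ^ n := by
  obtain ⟨τ₀, hτ₀, h⟩ := exists_inertia_generator p ρbar
  refine ⟨toLoc p τ₀, hτ₀, fun τ hτ => ?_⟩
  obtain ⟨n, hn⟩ := h ((toLoc p).symm τ) hτ
  refine ⟨n, fun ψ hψ => ?_⟩
  exact hn (ψ.comp (toLoc p).toMonoidHom) (fun g hg => hψ (toLoc p g) hg)

end Adm

/-! ### The corner: `I_aug V̄` is a line -/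

section Corner

/-- The arithmetic of the corner. -/
theorem corner_units {k : Type} [Field k] (x0 x1 w : kˣ) (h1 : x0 / x1 = w) (h2 : x1 / x0 = w)
    (h3 : x0 * x1 = w) (hw : w ≠ 1) : x1 = 1 ∨ x0 = 1 := by
  have e1 : (x0 : k) = (w : k) * (x1 : k) := by
    rw [← h1, Units.val_div_eq_div_val]
    field_simp
  have e2 : (x1 : k) = (w : k) * (x0 : k) := by
    rw [← h2, Units.val_div_eq_div_val]
    field_simp
  have e3 : (x0 : k) * (x1 : k) = (w : k) := by
    rw [← h3, Units.val_mul]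
  have hx1 : (x1 : k) ≠ 0 := x1.ne_zero
  have hw0 : (w : k) ≠ 0 := w.ne_zero
  have hww : (w : k) * (w : k) = 1 := by
    have : (x1 : k) * ((w : k) * (w : k) - 1) = 0 := by
      have h := e2
      rw [e1] at h
      linear_combination -h
    rcases mul_eq_zero.1 this with h | h
    · exact absurd h hx1
    · exact sub_eq_zero.1 h
  have hw1 : (w : k) = -1 := by
    have : ((w : k) - 1) * ((w : k) + 1) = 0 := by linear_combination hww
    rcases mul_eq_zero.1 this with h | h
    · exact absurd (Units.ext (by rw [Units.val_one]; exact sub_eq_zero.1 h)) hw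
    · exact eq_neg_of_add_eq_zero_left h
  have hx11 : (x1 : k) * (x1 : k) = 1 := by
    have : (w : k) * ((x1 : k) * (x1 : k) - 1) = 0 := by
      have h := e3
      rw [e1] at h
      linear_combination h
    rcases mul_eq_zero.1 this with h | h
    · exact absurd h hw0
    · exact sub_eq_zero.1 h
  have : ((x1 : k) - 1) * ((x1 : k) + 1) = 0 := by linear_combination hx11
  rcases mul_eq_zero.1 this with h | h
  · left
    exact Units.ext (by rw [Units.val_one]; exact sub_eq_zero.1 h)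
  · right
    have hx1' : (x1 : k) = -1 := eq_neg_of_add_eq_zero_left h
    apply Units.ext
    rw [Units.val_one, e1, hw1, hx1']
    ring

variable (p : ℕ) [Fact p.Prime] {k : Type} [Field k] [Algebra (ZMod p) k] [Finite k]
  (ρbar : ResidualGaloisRep k) (b : Basis (Fin 2) k ρbar.V)

omit [Fact p.Prime] [Algebra (ZMod p) k] [Finite k] in
/-- The columns of the matrix of an endomorphism. -/
theorem apply_basis (φ : Module.End k ρbar.V) (j : Fin 2) :
    φ (b j) = LinearMap.toMatrix b b φ 0 j • b 0 + LinearMap.toMatrix b b φ 1 j • b 1 := by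
  have h := b.sum_repr (φ (b j))
  rw [Fin.sum_univ_two] at h
  rw [LinearMap.toMatrix_apply, LinearMap.toMatrix_apply]
  exact h.symm

variable (hst : ∀ g : Gp p, ∃ a : k, ρbar.ρ (locAt (pPrime p) g) (b 0) = a • b 0)

/-- The diagonal characters are trivial on the kernel of `ρ̄ ∘ loc`. -/
theorem lineChar_eq_one_of_ker (i : Fin 2) (g : Gp p) (hg : ρbar.ρ (locAt (pPrime p) g) = 1) :
    lineChar p ρbar (locAt (pPrime p)) b hst i g = 1 := by
  apply Units.ext
  rw [lineChar_apply, hg, Units.val_one]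
  have : LinearMap.toMatrix b b (1 : Module.End k ρbar.V) = 1 := LinearMap.toMatrix_one b
  rw [this, Matrix.one_apply_eq]

/-- `ω` is trivial on the kernel of `ρ̄ ∘ loc`. -/
theorem omegaK_eq_one_of_ker (hdet : (GaloisRepAdic.ofResidualGaloisRep ρbar).DetIsCyclotomic p)
    (g : Gp p) (hg : ρbar.ρ (locAt (pPrime p) g) = 1) : omegaK p k g = 1 := by
  apply Units.ext
  rw [← det_eq_omegaK p ρbar hdet, hg, Units.val_one]
  exact LinearMap.det_id

/-- `χ₀ χ₁ = ω`. -/
theorem lineChar_mul (hdet : (GaloisRepAdic.ofResidualGaloisRep ρbar).DetIsCyclotomic p)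
    (g : Gp p) :
    lineChar p ρbar (locAt (pPrime p)) b hst 0 g * lineChar p ρbar (locAt (pPrime p)) b hst 1 g =
      omegaK p k g := by
  apply Units.ext
  rw [Units.val_mul, lineChar_apply, lineChar_apply, ← det_eq_omegaK p ρbar hdet,
    ← LinearMap.det_toMatrix b, Matrix.det_fin_two]
  have h0 : LinearMap.toMatrix b b (ρbar.ρ (locAt (pPrime p) g)) 1 0 = 0 :=
    Fermat.Agent.TW.Cnt.AdDiag55.R_lower_eq_zero p ρbar (locAt (pPrime p)) b hst g
  rw [h0, mul_zero, sub_zero]

/-- Inertia acts nontrivially on `V̄`. -/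
theorem exists_inertia_rbarLoc_ne_one
    (hp2 : p ≠ 2) (hdet : (GaloisRepAdic.ofResidualGaloisRep ρbar).DetIsCyclotomic p) :
    ∃ τ : GQp p, τ ∈ inertiaSet p ∧ rbarLoc p ρbar τ ≠ 1 := by
  obtain ⟨τ, hτ, hd⟩ := exists_mem_inertiaLoc_det_eq_neg_one p ρbar hdet
  refine ⟨(toLoc p).symm τ, hτ, fun h => ?_⟩
  have h1 : ρbar.ρ (locAt (pPrime p) τ) = 1 := h
  rw [h1] at hd
  have h2 : LinearMap.det (1 : Module.End k ρbar.V) = 1 := LinearMap.det_id
  rw [h2] at hd
  exact neg_one_ne_one p hp2 hd.symm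

omit [Finite k] in
/-- If the quotient character is trivial on inertia, `I_aug V̄` lies in the stable line. -/
theorem augLine_le_span_of_lineChar_one
    (h1 : ∀ τ ∈ inertiaLoc p, lineChar p ρbar (locAt (pPrime p)) b hst 1 τ = 1) :
    augLine p ρbar ≤ Submodule.span k {b 0} := by
  unfold augLine
  rw [Submodule.span_le]
  rintro w ⟨τ, hτ, v, rfl⟩
  have hb0 : b 0 ∈ Submodule.span k {b 0} := Submodule.mem_span_singleton_self _
  set φ : Module.End k ρbar.V := ρbar.ρ (locAt (pPrime p) (toLoc p τ)) with hφ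
  have hφv : ∀ v, rbarLoc p ρbar τ v = φ v := fun v => rfl
  have e0 : φ (b 0) - b 0 ∈ Submodule.span k {b 0} := by
    rw [apply_basis ρbar b φ 0]
    have h0 : LinearMap.toMatrix b b φ 1 0 = 0 :=
      Fermat.Agent.TW.Cnt.AdDiag55.R_lower_eq_zero p ρbar (locAt (pPrime p)) b hst (toLoc p τ)
    rw [h0, zero_smul, add_zero]
    exact Submodule.sub_mem _ (Submodule.smul_mem _ _ hb0) hb0
  have e1 : φ (b 1) - b 1 ∈ Submodule.span k {b 0} := by
    rw [apply_basis ρbar b φ 1]
    have h11 : LinearMap.toMatrix b b φ 1 1 = 1 := by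
      have := congrArg (fun u : kˣ => (u : k)) (h1 (toLoc p τ) hτ)
      simpa [lineChar_apply] using this
    rw [h11, one_smul, add_sub_cancel_right]
    exact Submodule.smul_mem _ _ hb0
  have hv : v = b.repr v 0 • b 0 + b.repr v 1 • b 1 := by
    have h := b.sum_repr v
    rw [Fin.sum_univ_two] at h
    exact h.symm
  have key : rbarLoc p ρbar τ v - v =
      b.repr v 0 • (φ (b 0) - b 0) + b.repr v 1 • (φ (b 1) - b 1) := by
    rw [hφv]
    nth_rewrite 1 2 [hv]
    rw [map_add, map_smul, map_smul, smul_sub, smul_sub]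
    abel
  rw [SetLike.mem_coe, key]
  exact Submodule.add_mem _ (Submodule.smul_mem _ _ e0) (Submodule.smul_mem _ _ e1)

/-- **The corner.**  If `(χ₀/χ₁)|I = ω|I = (χ₁/χ₀)|I` then `I_aug V̄` is a line. -/
theorem finrank_augLine_eq_one_of_corner (hp2 : p ≠ 2)
    (hdet : (GaloisRepAdic.ofResidualGaloisRep ρbar).DetIsCyclotomic p)
    (hstar : Star p) (hV : LocalFlatModel p ρbar.V (fun τ v => rbarLoc p ρbar τ v))
    (hA : ∀ τ ∈ inertiaLoc p, (lineChar p ρbar (locAt (pPrime p)) b hst 0 /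
      lineChar p ρbar (locAt (pPrime p)) b hst 1) τ = omegaK p k τ)
    (hB : ∀ τ ∈ inertiaLoc p, (lineChar p ρbar (locAt (pPrime p)) b hst 1 /
      lineChar p ρbar (locAt (pPrime p)) b hst 0) τ = omegaK p k τ) :
    finrank k (augLine p ρbar) = 1 := by
  obtain ⟨τ₀, hτ₀, hgen⟩ := exists_inertia_generator_loc p ρbar
  obtain ⟨τ', hτ', hne'⟩ := exists_inertia_rbarLoc_ne_one p ρbar hp2 hdet
  have hnebot : augLine p ρbar ≠ ⊥ := augLine_ne_bot p ρbar hτ' hne'
  have hpos : finrank k (augLine p ρbar) ≠ 0 := by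
    intro h0
    exact hnebot (Submodule.finrank_eq_zero.1 h0)
  have hw : omegaK p k τ₀ ≠ 1 := by
    intro h1
    obtain ⟨τ, hτ, hne⟩ := exists_mem_inertiaLoc_omegaK_ne_one p ρbar hp2 hdet (k := k)
    obtain ⟨n, hn⟩ := hgen τ hτ
    apply hne
    rw [hn (omegaK p k) (omegaK_eq_one_of_ker p ρbar hdet), h1, one_zpow]
  have h1 := hA τ₀ hτ₀
  have h2 := hB τ₀ hτ₀
  rw [MonoidHom.div_apply] at h1 h2
  rcases corner_units _ _ _ h1 h2 (lineChar_mul p ρbar b hst hdet τ₀) hw with hc | hc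
  · -- `χ₁ = 1` on inertia
    have hχ1 : ∀ τ ∈ inertiaLoc p, lineChar p ρbar (locAt (pPrime p)) b hst 1 τ = 1 := by
      intro τ hτ
      obtain ⟨n, hn⟩ := hgen τ hτ
      rw [hn _ (lineChar_eq_one_of_ker p ρbar b hst 1), hc, one_zpow]
    have hle := Submodule.finrank_mono (augLine_le_span_of_lineChar_one p ρbar b hst hχ1)
    rw [finrank_span_singleton (b.ne_zero 0)] at hle
    omega
  · -- `χ₀ = 1` on inertia
    have hχ0 : ∀ τ ∈ inertiaLoc p, lineChar p ρbar (locAt (pPrime p)) b hst 0 τ = 1 := by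
      intro τ hτ
      obtain ⟨n, hn⟩ := hgen τ hτ
      rw [hn _ (lineChar_eq_one_of_ker p ρbar b hst 0), hc, one_zpow]
    have hfix : ∀ τ ∈ inertiaSet p, rbarLoc p ρbar τ (b 0) = b 0 := by
      intro τ hτ
      set φ : Module.End k ρbar.V := ρbar.ρ (locAt (pPrime p) (toLoc p τ)) with hφ
      show φ (b 0) = b 0
      rw [apply_basis ρbar b φ 0]
      have h0 : LinearMap.toMatrix b b φ 1 0 = 0 :=
        Fermat.Agent.TW.Cnt.AdDiag55.R_lower_eq_zero p ρbar (locAt (pPrime p)) b hst (toLoc p τ)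
      have h00 : LinearMap.toMatrix b b φ 0 0 = 1 := by
        have := congrArg (fun u : kˣ => (u : k)) (hχ0 (toLoc p τ) hτ)
        simpa [lineChar_apply] using this
      rw [h0, h00, one_smul, zero_smul, add_zero]
    have hb0 : b 0 ∉ augLine p ρbar := fun hmem =>
      b.ne_zero 0 (eq_zero_of_mem_augLine_of_fixed p ρbar hp2 hstar hV hmem hfix)
    have hnetop : augLine p ρbar ≠ ⊤ := by
      intro h
      apply hb0
      rw [h]
      exact Submodule.mem_top
    have hlt := Submodule.finrank_lt hnetop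
    rw [ρbar.finrank_eq] at hlt
    omega

end Corner

/-! ### The reducible case -/

section Main

variable (p : ℕ) [Fact p.Prime] {k : Type} [Field k] [Algebra (ZMod p) k] [Finite k]
  (ρbar : ResidualGaloisRep k)

open Classical in
/-- **The reducible case of the flat local bound.** -/
theorem localBoundFlat_of_stable_line (hp2 : p ≠ 2)
    (hdet : (GaloisRepAdic.ofResidualGaloisRep ρbar).DetIsCyclotomic p)
    (hprod : ClosureProd p) (hstar : Star p) (hT1 : CharCount p hprod)
    (hV : LocalFlatModel p ρbar.V (fun τ v => rbarLoc p ρbar τ v))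
    (v0 : ρbar.V) (hv0 : v0 ≠ 0)
    (hst0 : ∀ τ : Gp p, ∃ a : k, ρbar.ρ (locAt (pPrime p) τ) v0 = a • v0) :
    LocalBoundFlat p ρbar := by
  obtain ⟨b, hb⟩ := Fermat.Agent.TW.Cnt.AdDiag55.exists_basis_zero_eq ρbar v0 hv0
  have hst : ∀ g : Gp p, ∃ a : k, ρbar.ρ (locAt (pPrime p) g) (b 0) = a • b 0 := by
    rw [hb]; exact hst0
  have hω := exists_mem_inertiaLoc_omegaK_ne_one p ρbar hp2 hdet (k := k)
  have hM := isAdmRep_ad0 p ρbar hprod hV
  obtain ⟨hfin1, hle1⟩ := H1adm_one_defect p hprod hT1 hp2 hω (k := k)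
  -- admissibility of quotients of diagonal characters
  have hadmq : ∀ (b' : Basis (Fin 2) k ρbar.V)
      (hst' : ∀ g : Gp p, ∃ a : k, ρbar.ρ (locAt (pPrime p) g) (b' 0) = a • b' 0) (i j : Fin 2),
      ∃ N ∈ (admFam p hprod).sets, ∀ n ∈ N,
        (lineChar p ρbar (locAt (pPrime p)) b' hst' i /
          lineChar p ρbar (locAt (pPrime p)) b' hst' j) n = 1 := by
    intro b' hst' i j
    apply adm_of_factors p ρbar hprod hV
    intro g hg
    rw [MonoidHom.div_apply, lineChar_eq_one_of_ker p ρbar b' hst' i g hg,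
      lineChar_eq_one_of_ker p ρbar b' hst' j g hg, div_one]
  by_cases hcorner :
      (∀ τ ∈ inertiaLoc p, (lineChar p ρbar (locAt (pPrime p)) b hst 0 /
        lineChar p ρbar (locAt (pPrime p)) b hst 1) τ = omegaK p k τ) ∧
      (∀ τ ∈ inertiaLoc p, (lineChar p ρbar (locAt (pPrime p)) b hst 1 /
        lineChar p ρbar (locAt (pPrime p)) b hst 0) τ = omegaK p k τ)
  · -- the corner: ordinary classes in a basis adapted to `I_aug V̄`
    obtain ⟨hA, hB⟩ := hcorner
    have hℓ1 := finrank_augLine_eq_one_of_corner p ρbar b hst hp2 hdet hstar hV hA hB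
    have hnebot : augLine p ρbar ≠ ⊥ := by
      intro h
      rw [h, finrank_bot] at hℓ1
      exact absurd hℓ1 (by norm_num)
    obtain ⟨v1, hv1mem, hv1ne⟩ := Submodule.exists_mem_ne_zero_of_ne_bot hnebot
    have hspan : Submodule.span k {v1} = augLine p ρbar := by
      apply Submodule.eq_of_le_of_finrank_eq
      · rw [Submodule.span_le]
        intro x hx
        rw [Set.mem_singleton_iff] at hx
        rw [hx]
        exact hv1mem
      · rw [finrank_span_singleton hv1ne, hℓ1]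
    obtain ⟨b', hb'⟩ := Fermat.Agent.TW.Cnt.AdDiag55.exists_basis_zero_eq ρbar v1 hv1ne
    have hst' : ∀ g : Gp p, ∃ a : k, ρbar.ρ (locAt (pPrime p) g) (b' 0) = a • b' 0 := by
      intro g
      have hmem : rbarLoc p ρbar ((toLoc p).symm g) v1 ∈ augLine p ρbar :=
        rbarLoc_mem_augLine p ρbar _ hv1mem
      rw [← hspan, Submodule.mem_span_singleton] at hmem
      obtain ⟨a, ha⟩ := hmem
      refine ⟨a, ?_⟩
      rw [hb']
      exact ha.symm
    obtain ⟨hfin', hle'⟩ := charCount_defect p hprod hT1 hp2 _ (hadmq b' hst' 0 1)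
    have hle'' : finrank (ZMod p) (H1adm (admFam p hprod) (AdReal55.charRep (ZMod p)
        (lineChar p ρbar (locAt (pPrime p)) b' hst' 0 /
          lineChar p ρbar (locAt (pPrime p)) b' hst' 1))) ≤
        finrank (ZMod p) (AdReal55.charRep (ZMod p)
          (lineChar p ρbar (locAt (pPrime p)) b' hst' 0 /
            lineChar p ρbar (locAt (pPrime p)) b' hst' 1)).ρ.invariants +
          finrank (ZMod p) k := by
      refine hle'.trans ?_
      split_ifs <;> omega
    obtain ⟨hLfin, hLle⟩ := finrank_ordinary_le p ρbar (locAt (pPrime p)) (admFam p hprod) b' hst'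
      hM 0 (finrank (ZMod p) k) hle1 hle''
    have hex := Fermat.Agent.TW.Cnt.OrdShape54.coinvExact_of_star p hstar hp2
    have hℓ : ∀ v, v ∈ augLine p ρbar ↔
        v ∈ Fermat.Agent.TW.Cnt.OrdShape54.Iaug p (fun τ v => rbarLoc p ρbar τ v) ⊤ := by
      intro v
      rw [Fermat.Agent.TW.Cnt.OrdShape54.Iaug_top_eq]
      exact mem_augLine_iff p ρbar v
    have hh0 : h0At (pPrime p) (ad0 p ρbar) =
        finrank (ZMod p) (Rep.res (locAt (pPrime p)) (ad0 p ρbar)).ρ.invariants := rfl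
    refine localBoundFlat_of_flatClass p ρbar
      (ordinaryClasses p ρbar (locAt (pPrime p)) (admFam p hprod) b' hst') hLfin
      (hLle.trans (by omega)) (fun y hy => ?_)
    obtain ⟨c', hc'y, hc'adm, hpres⟩ :=
      Fermat.Agent.TW.Cnt.OrdShape54.flatClass_exists_zadm_preserving p ρbar hex hp2 hprod
        (augLine p ρbar) hℓ1 hℓ hy
    rw [← hc'y]
    apply mem_ordinary p ρbar (locAt (pPrime p)) (admFam p hprod) b' hst' c' hc'adm
    intro g
    have h1 := hpres g (b' 0) (by rw [hb']; exact hv1mem)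
    rw [← hspan, Submodule.mem_span_singleton] at h1
    obtain ⟨a, ha⟩ := h1
    refine ⟨a, ?_⟩
    rw [← hb'] at ha
    exact ha.symm
  · -- the generic case
    obtain ⟨hfin01, hle01⟩ := charCount_defect p hprod hT1 hp2 _ (hadmq b hst 0 1)
    obtain ⟨hfin10, hle10⟩ := charCount_defect p hprod hT1 hp2 _ (hadmq b hst 1 0)
    obtain ⟨hfin, hle⟩ := finrank_H1adm_ad0_reducible p ρbar (locAt (pPrime p)) (admFam p hprod)
      b hst hM 0 _ _ hle1 hle01 hle10
    have hh0 : h0At (pPrime p) (ad0 p ρbar) =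
        finrank (ZMod p) (Rep.res (locAt (pPrime p)) (ad0 p ρbar)).ρ.invariants := rfl
    refine localBoundFlat_of_H1adm p ρbar hprod hfin (hle.trans ?_)
    rw [not_and_or] at hcorner
    rcases hcorner with h | h
    · rw [if_neg h]
      split_ifs <;> omega
    · rw [if_neg h]
      split_ifs <;> omega

end Main

end Fermat.Agent.TW.Cnt.AsmRed89
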