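/-
Program TW (S56), work package WP7-CNT, brick ASM (helper89), file 5: the ASSEMBLY.
`Contract52.LocalBoundFlat p ρbar` from the counting theorems T1 (`Table72.CharCount`), T2
(`Table72.IndCount`) and SHAPE (`Table72.IndShape`).

* `localBoundFlat_of_induced` : the induced case (no stable line);
* `localBoundFlat` : the assembly.
-/
import Mathlib
import Fermat.Agent.TW.Cnt.AsmRed89

set_option autoImplicit false
set_option linter.unusedSectionVars false

open CategoryTheory groupCohomology Module ExtCitation Polynomial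
open Fermat.Agent.TW.Spec.Defs52 Fermat.Agent.TW.Spec.Contract52
open Fermat.Agent.TW.FF.FlatModel68 (GQp LocalFlatModel)
open Fermat.Agent.TW.FF.Spec72 (ClosureProd ClosureQuot inertiaSet Star)
open Fermat.Agent.TW.Cnt.AdmH1_55 Fermat.Agent.TW.Cnt.BridgeFlat54 Fermat.Agent.TW.Cnt.BridgeAdm54
open Fermat.Agent.TW.Cnt.Table72 Fermat.Agent.TW.Cnt.AdmFlat72
open Fermat.Agent.TW.Cnt.AsmAug89 Fermat.Agent.TW.Cnt.AsmChar89 Fermat.Agent.TW.Cnt.AsmRed89
open Fermat.Agent.TW.Cnt.AsmInd89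

namespace Fermat.Agent.TW.Cnt.AsmFlat89

section Induced

variable (p : ℕ) [Fact p.Prime] {k : Type} [Field k] [Algebra (ZMod p) k] [Finite k]
  (ρbar : ResidualGaloisRep k)

theorem two_ne_zero_zmod (hp2 : p ≠ 2) : (2 : ZMod p) ≠ 0 := by
  intro h
  have h3 : ((2 : ℕ) : ZMod p) = 0 := by exact_mod_cast h
  rw [ZMod.natCast_eq_zero_iff] at h3
  exact hp2 ((Nat.prime_dvd_prime_iff_eq (Fact.out : p.Prime) Nat.prime_two).1 h3)

/-- **The induced case of the flat local bound.** -/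
theorem localBoundFlat_of_induced (hp2 : p ≠ 2)
    (hdet : (GaloisRepAdic.ofResidualGaloisRep ρbar).DetIsCyclotomic p)
    (hprod : ClosureProd p) (hT1 : CharCount p hprod) (hT2 : IndCount p hprod)
    (hV : LocalFlatModel p ρbar.V (fun τ v => rbarLoc p ρbar τ v))
    (H : Subgroup (Gp p)) (b : Basis (Fin 2) k ρbar.V) (χ₁ χ₂ : ↥H →* kˣ)
    (hind : H.index = 2) (hI : inertiaLoc p ⊆ (H : Set (Gp p)))
    (hdiagM : ∀ h : ↥H, LinearMap.toMatrix b b (ρbar.ρ (locAt (pPrime p) (h : Gp p))) =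
        Matrix.diagonal ![(χ₁ h : k), (χ₂ h : k)])
    (hantiM : ∀ s : Gp p, s ∉ H →
        LinearMap.toMatrix b b (ρbar.ρ (locAt (pPrime p) s)) 0 0 = 0 ∧
        LinearMap.toMatrix b b (ρbar.ρ (locAt (pPrime p) s)) 1 1 = 0)
    (hpow : ∀ τ : ↥H, (τ : Gp p) ∈ inertiaLoc p → χ₂ τ = χ₁ τ ^ p)
    (hne : ∃ τ : ↥H, (τ : Gp p) ∈ inertiaLoc p ∧ χ₁ τ ≠ χ₂ τ) :
    LocalBoundFlat p ρbar := by
  classical
  have hHn : H.Normal := Subgroup.normal_of_index_eq_two hind
  set r := Fermat.Agent.TW.Cnt.AdRealEnd55.realOfBasis p ρbar (locAt (pPrime p)) b with hr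
  have hR : ∀ g : Gp p, r.R g = LinearMap.toMatrix b b (ρbar.ρ (locAt (pPrime p) g)) :=
    fun g => rfl
  have hdiag : ∀ h ∈ H, r.R h 0 1 = 0 ∧ r.R h 1 0 = 0 := by
    intro h hh
    rw [hR, hdiagM ⟨h, hh⟩]
    exact ⟨Matrix.diagonal_apply_ne _ (by decide), Matrix.diagonal_apply_ne _ (by decide)⟩
  have hψ₁ : ∀ h : ↥H, (χ₁ h : k) = r.R (h : Gp p) 0 0 := by
    intro h
    rw [hR, hdiagM h, Matrix.diagonal_apply_eq]
    rfl
  have hψ₂ : ∀ h : ↥H, (χ₂ h : k) = r.R (h : Gp p) 1 1 := by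
    intro h
    rw [hR, hdiagM h, Matrix.diagonal_apply_eq]
    rfl
  have hanti : ∀ g ∉ H, r.R g 0 0 = 0 ∧ r.R g 1 1 = 0 := fun g hg => hantiM g hg
  have h2 := two_ne_zero_zmod p hp2
  have hM := isAdmRep_ad0 p ρbar hprod hV
  have hω := exists_mem_inertiaLoc_omegaK_ne_one p ρbar hp2 hdet (k := k)
  obtain ⟨N, hNmem, hNker⟩ := exists_adm_ker p ρbar hprod hV
  have hone : LinearMap.toMatrix b b (1 : Module.End k ρbar.V) = 1 := LinearMap.toMatrix_one b
  have hNH : N ≤ H := by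
    intro n hn
    by_contra hnH
    have h0 := (hantiM n hnH).1
    rw [hNker n hn, hone, Matrix.one_apply_eq] at h0
    exact one_ne_zero h0
  -- an element outside `H`
  obtain ⟨s, hs⟩ : ∃ s : Gp p, s ∉ H := by
    by_contra hcon
    simp only [not_exists, not_not] at hcon
    have : H = ⊤ := (Subgroup.eq_top_iff' H).2 hcon
    rw [this, Subgroup.index_top] at hind
    exact absurd hind (by norm_num)
  -- conjugation by `s` swaps the two characters
  have hswap : ∀ (s : Gp p) (h h' : ↥H), s ∉ H → (h' : Gp p) = s * h * s⁻¹ →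
      χ₁ h' = χ₂ h ∧ χ₂ h' = χ₁ h := by
    intro s h h' hs hh'
    constructor
    · apply Units.ext
      rw [hψ₁, hh', Fermat.Agent.TW.Cnt.AdInd55.R_conj_00 r H hanti hs, ← hψ₂]
    · apply Units.ext
      rw [hψ₂, hh', Fermat.Agent.TW.Cnt.AdInd55.R_conj_11 r H hanti hs, ← hψ₁]
  -- `χ₁ = χ₂ ^ p` on inertia as well
  have hpow' : ∀ τ : ↥H, (τ : Gp p) ∈ inertiaLoc p → χ₁ τ = χ₂ τ ^ p := by
    intro τ hτ
    set τ' : ↥H := ⟨s * τ * s⁻¹, hHn.conj_mem τ τ.2 s⟩ with hτ'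
    have hτ'I : (τ' : Gp p) ∈ inertiaLoc p :=
      conj_mem_inertiaSet p ((toLoc p).symm s) ((toLoc p).symm (τ : Gp p)) hτ
    obtain ⟨e1, e2⟩ := hswap s τ τ' hs rfl
    have := hpow τ' hτ'I
    rw [e1, e2] at this
    exact this
  -- the determinant
  have hdetH : ∀ h : ↥H, χ₁ h * χ₂ h = omegaK p k (h : Gp p) := by
    intro h
    apply Units.ext
    rw [Units.val_mul, ← det_eq_omegaK p ρbar hdet, ← LinearMap.det_toMatrix b, hdiagM h,
      Matrix.det_diagonal, Fin.prod_univ_two]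
    rfl
  -- T1 for the sign character
  have hbot := H1adm_signChar_eq_bot p hprod hT1 hp2 hω H hind hI ⟨N, hNmem, hNH⟩ (k := k)
  have hη := hη_of_H1adm_eq_bot (ZMod p) H hind (admFam p hprod) hbot
  -- T2 for `χ₁ / χ₂`
  obtain ⟨hfin2, hle2⟩ := indCount_bridge p hprod hT2 hp2 H (χ₁ / χ₂) hind hI
    (by
      refine ⟨N, hNmem, hNH, fun n hn => ?_⟩
      have h1 := hdiagM n
      rw [hNker _ hn, hone] at h1
      have e1 : χ₁ n = 1 := by
        apply Units.ext
        have := congrFun (congrFun h1 0) 0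
        rw [Matrix.one_apply_eq, Matrix.diagonal_apply_eq] at this
        rw [Units.val_one]
        exact this.symm
      have e2 : χ₂ n = 1 := by
        apply Units.ext
        have := congrFun (congrFun h1 1) 1
        rw [Matrix.one_apply_eq, Matrix.diagonal_apply_eq] at this
        rw [Units.val_one]
        exact this.symm
      rw [MonoidHom.div_apply, e1, e2, div_one])
    (by
      intro s h h' hs hh'
      obtain ⟨e1, e2⟩ := hswap s h h' hs hh'
      rw [MonoidHom.div_apply, MonoidHom.div_apply, e1, e2, inv_div])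
    (by
      intro τ hτ
      rw [MonoidHom.div_apply, div_pow, pow_succ, pow_succ, ← hpow τ hτ, ← hpow' τ hτ, mul_comm]
      exact div_self' _)
    (by
      obtain ⟨τ, hτ, hne'⟩ := hne
      refine ⟨τ, hτ, fun h => hne' ?_⟩
      rw [MonoidHom.div_apply] at h
      exact div_eq_one.1 h)
    (by
      rintro ⟨hp3, hcor⟩
      obtain ⟨τ, hτ, hne'⟩ := hne
      apply hne'
      have h1 := hcor τ hτ
      rw [MonoidHom.div_apply, ← hdetH τ] at h1
      -- `χ₂ τ ^ 2 = 1`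
      have h3 : χ₂ τ * χ₂ τ = 1 := by
        have h4 : χ₁ τ = χ₁ τ * χ₂ τ * χ₂ τ := div_eq_iff_eq_mul.1 h1
        have h5 : χ₁ τ * 1 = χ₁ τ * (χ₂ τ * χ₂ τ) := by rw [mul_one, ← mul_assoc]; exact h4
        exact (mul_left_cancel h5).symm
      have h6 : χ₂ τ ^ p = χ₂ τ ^ 3 := congrArg (fun n : ℕ => χ₂ τ ^ n) hp3
      rw [hpow' τ hτ, h6, pow_succ, pow_two, h3, one_mul])
  have := hfin2
  obtain ⟨hfin, hle⟩ := finrank_H1adm_induced_le' r H hdiag χ₁ χ₂ hψ₁ hψ₂ hanti hind h2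
    (admFam p hprod) hM hη
  refine localBoundFlat_of_H1adm p ρbar hprod hfin ((hle.trans hle2).trans ?_)
  omega

end Induced

/-! ### The assembly -/

section Assembly

variable (p : ℕ) [Fact p.Prime] {k : Type} [Field k] [Algebra (ZMod p) k] [Finite k]
  (ρbar : ResidualGaloisRep k)

/-- `V̄` is a local flat model as soon as some class of `H¹(G_p, ad⁰ ρ̄)` is flat. -/
theorem localFlatModel_of_flatClass (hquot : ClosureQuot p)
    {y : H1 (resAt (pPrime p) (ad0 p ρbar))} (hy : FlatClass p ρbar y) :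
    LocalFlatModel p ρbar.V (fun τ v => rbarLoc p ρbar τ v) := by
  obtain ⟨c, -, -, hflat⟩ := hy
  have := finite_V ρbar
  exact hquot (ρbar.V × ρbar.V) ρbar.V _ (fun τ v => rbarLoc p ρbar τ v) hflat
    (AddMonoidHom.fst ρbar.V ρbar.V) Prod.fst_surjective (fun τ m => rfl)

/-- **ASM, with all `Spec72` inputs as hypotheses.** -/
theorem localBoundFlat_of_parts (hp2 : p ≠ 2)
    (hdet : (GaloisRepAdic.ofResidualGaloisRep ρbar).DetIsCyclotomic p)
    (hsplit : ∀ σ : GQ, ∃ α β : k, LinearMap.charpoly (ρbar.ρ σ) = (X - C α) * (X - C β))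
    (hprod : ClosureProd p) (hquot : ClosureQuot p) (hstar : Star p)
    (hT1 : CharCount p hprod) (hT2 : IndCount p hprod) (hshape : IndShape p) :
    LocalBoundFlat p ρbar := by
  by_cases hex : ∃ y, FlatClass p ρbar y
  · obtain ⟨y, hy⟩ := hex
    have hV := localFlatModel_of_flatClass p ρbar hquot hy
    by_cases hline : ∃ v0 : ρbar.V, v0 ≠ 0 ∧
        ∀ τ : Gp p, ∃ a : k, ρbar.ρ (locAt (pPrime p) τ) v0 = a • v0
    · obtain ⟨v0, hv0, hst0⟩ := hline
      exact localBoundFlat_of_stable_line p ρbar hp2 hdet hprod hstar hT1 hV v0 hv0 hst0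
    · have hno : ∀ v : ρbar.V, v ≠ 0 →
          ∃ τ : Gp p, ¬ ∃ a : k, ρbar.ρ (locAt (pPrime p) τ) v = a • v := by
        intro v hv
        by_contra hcon
        apply hline
        refine ⟨v, hv, fun τ => ?_⟩
        by_contra hτ
        exact hcon ⟨τ, hτ⟩
      obtain ⟨H, b, χ₁, χ₂, hind, hI, hdiagM, hantiM, hpow, hne⟩ :=
        hshape hp2 k ρbar hsplit hno
      exact localBoundFlat_of_induced p ρbar hp2 hdet hprod hT1 hT2 hV H b χ₁ χ₂ hind hI
        hdiagM hantiM hpow hne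
  · refine localBoundFlat_of_flatClass p ρbar ⊥ inferInstance ?_
      (fun y hy => absurd ⟨y, hy⟩ hex)
    rw [finrank_bot]
    exact Nat.zero_le _

/-- **ASM.**  `Contract52.LocalBoundFlat` from the counting theorems T1, T2 and SHAPE. -/
theorem localBoundFlat (hp2 : p ≠ 2)
    (hdet : (GaloisRepAdic.ofResidualGaloisRep ρbar).DetIsCyclotomic p)
    (hsplit : ∀ σ : GQ, ∃ α β : k, LinearMap.charpoly (ρbar.ρ σ) = (X - C α) * (X - C β))
    (hT1 : CharCount p (Fermat.Agent.TW.FF.ClosureSpec68.closureProd p))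
    (hT2 : IndCount p (Fermat.Agent.TW.FF.ClosureSpec68.closureProd p))
    (hshape : IndShape p) :
    LocalBoundFlat p ρbar :=
  localBoundFlat_of_parts p ρbar hp2 hdet hsplit
    (Fermat.Agent.TW.FF.ClosureSpec68.closureProd p)
    (Fermat.Agent.TW.FF.ClosureSpec68.closureQuot p)
    (Fermat.Agent.TW.FF.Unr68.star p) hT1 hT2 hshape

end Assembly

end Fermat.Agent.TW.Cnt.AsmFlat89
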