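/-
TW / WP7-CNT (helper72): the splitting field of a flat module.

For a finite module `V` with `LocalFlatModel p V act`, the kernel `AdmFlat72.kerOf hV` of the action
contains the fixing subgroup of a finite extension `E/ℚ_p` (generated by the values of the points on a
finite set of module generators of the Hopf algebra).  Hence every member of `AdmFlat72.admFamily p` is
open.
-/
import Mathlib
import Fermat.Agent.TW.Cnt.AdmFlat72

set_option autoImplicit false

noncomputable section

namespace Fermat.Agent.TW.Cnt.SplitField72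

open Fermat.Agent.TW.FF.FlatModel68 (GQp LocalFlatModel)
open Fermat.Agent.TW.Cnt.AdmFlat72
open WithConv

variable {p : ℕ} [Fact p.Prime]

/-- The kernel of the action on a finite flat module contains the fixing subgroup of a finite
extension of `ℚ_p`. -/
theorem exists_fixingSubgroup_le_kerOf {V : Type} [AddCommGroup V] [Finite V]
    {act : GQp p → V → V} (hV : LocalFlatModel p V act) :
    ∃ E : IntermediateField ℚ_[p] (PadicAlgCl p), FiniteDimensional ℚ_[p] E ∧
      E.fixingSubgroup ≤ kerOf hV := by
  obtain ⟨H, i1, i2, hfin, -, -, e, -, hact⟩ := id hV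
  haveI : Finite (WithConv (H →ₐ[ℤ_[p]] PadicAlgCl p)) := Finite.of_equiv V e.symm
  obtain ⟨s, hs⟩ := hfin.fg_top
  -- the finite set of values
  set T : Set (PadicAlgCl p) :=
    Set.range (fun x : WithConv (H →ₐ[ℤ_[p]] PadicAlgCl p) × ↥s => x.1.ofConv (x.2 : H)) with hT
  haveI : Finite T := Set.finite_range _
  refine ⟨IntermediateField.adjoin ℚ_[p] T,
    IntermediateField.finiteDimensional_adjoin (fun x _ => Algebra.IsIntegral.isIntegral x), ?_⟩
  intro τ hτ v
  obtain ⟨f, rfl⟩ := e.surjective v
  have hfix : ∀ h : H, τ (f.ofConv h) = f.ofConv h := by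
    -- the two `ℤ_p`-linear maps agree on the generators
    have hlin : ((((τ : PadicAlgCl p →ₐ[ℚ_[p]] PadicAlgCl p).restrictScalars ℤ_[p]).comp
        f.ofConv).toLinearMap : H →ₗ[ℤ_[p]] PadicAlgCl p) = f.ofConv.toLinearMap := by
      apply LinearMap.ext_on hs
      intro h hh
      have hmem : f.ofConv h ∈ IntermediateField.adjoin ℚ_[p] T :=
        IntermediateField.subset_adjoin _ _ ⟨(f, ⟨h, hh⟩), rfl⟩
      exact (IntermediateField.mem_fixingSubgroup_iff _ _).1 hτ _ hmem
    intro h
    exact congrArg (fun l : H →ₗ[ℤ_[p]] PadicAlgCl p => l h) hlin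
  exact (hact τ f f (fun h => (hfix h).symm)).symm

/-- Every admissible subgroup contains the fixing subgroup of a finite extension. -/
theorem exists_fixingSubgroup_le_of_mem_admFamily {N : Subgroup (GQp p)} (hN : N ∈ admFamily p) :
    ∃ E : IntermediateField ℚ_[p] (PadicAlgCl p), FiniteDimensional ℚ_[p] E ∧
      E.fixingSubgroup ≤ N := by
  obtain ⟨V, _, _, act, hV, -, rfl⟩ := hN
  exact exists_fixingSubgroup_le_kerOf hV

end Fermat.Agent.TW.Cnt.SplitField72
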