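/-
TW / WP7-CNT (helper72): **T1 = `Table72.CharCount`** from the Kummer–Fontaine theorem (`Spec72.KummerFontaine`),
the Kummer dictionary (`KumSpec72.KummerDict`, B10) and the instantiated unit count (`KumSpec72.ConcreteN1`).

Route: `S := ker χ ⊓ ker ω` is open normal of index prime to `p`; `K0 :=` its fixed field (TameField97);
restriction to `S` (AdmRes55) bounds `H1adm` by the equivariant admissible homomorphisms `S → k(χ)`; the
Kummer dictionary turns them into a flat (KF), additive, `ωχ⁻¹`-equivariant, separating family of Kummer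
data in `K0ˣ`, which `ConcreteN1` counts.
-/
import Mathlib
import Fermat.Agent.TW.Cnt.Table72
import Fermat.Agent.TW.Cnt.KumSpec72
import Fermat.Agent.TW.Cnt.SplitField72
import Fermat.Agent.TW.Cnt.TameField97
import Fermat.Agent.TW.Cnt.AdmRes55

set_option autoImplicit false

noncomputable section

namespace Fermat.Agent.TW.Cnt.CharCount72

open Fermat.Agent.TW.Spec.Defs52
open Fermat.Agent.TW.FF.FlatModel68 (GQp LocalFlatModel)
open Fermat.Agent.TW.FF.Spec72
open Fermat.Agent.TW.Cnt.BridgeFlat54 Fermat.Agent.TW.Cnt.BridgeAdm54 Fermat.Agent.TW.Cnt.AdmH1_55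
open Fermat.Agent.TW.Cnt.AdmRes55 Fermat.Agent.TW.Cnt.AdmFlat72
open Fermat.Agent.TW.Cnt.AdReal55 (charRep)
open Fermat.Agent.TW.Cnt.Table72 Fermat.Agent.TW.Cnt.KumSpec72 Fermat.Agent.TW.Cnt.SplitField72
open Fermat.Agent.TW.Cnt.TameField97
open Fermat.Agent.TW.OrdLocal
open ExtCitation groupCohomology CategoryTheory Module

variable {p : ℕ} [Fact p.Prime]

/-! ### Generic lemmas -/

/-- From a cardinality bound to a dimension bound over `ZMod p`. -/
theorem finrank_le_of_card_le {W : Type*} [AddCommGroup W] [Module (ZMod p) W] [Finite W]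
    {k : Type*} [Field k] [Finite k] [Algebra (ZMod p) k] {m : ℕ}
    (h : Nat.card W ≤ Nat.card k ^ m) :
    finrank (ZMod p) W ≤ finrank (ZMod p) k * m := by
  have hp : 1 < p := (Fact.out : p.Prime).one_lt
  have h1 : Nat.card W = p ^ finrank (ZMod p) W := by
    rw [Module.natCard_eq_pow_finrank (K := ZMod p), Nat.card_zmod]
  have h2 : Nat.card k = p ^ finrank (ZMod p) k := by
    rw [Module.natCard_eq_pow_finrank (K := ZMod p), Nat.card_zmod]
  rw [h1, h2, ← pow_mul] at h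
  exact (Nat.pow_le_pow_iff_right hp).1 h

/-- `p` does not divide the order of `kˣ × 𝔽_pˣ`. -/
theorem not_dvd_card_units_prod (k : Type*) [Field k] [Finite k] [Algebra (ZMod p) k] :
    ¬ p ∣ Nat.card (kˣ × (ZMod p)ˣ) := by
  have hp : p.Prime := Fact.out
  have h2 : Nat.card k = p ^ finrank (ZMod p) k := by
    rw [Module.natCard_eq_pow_finrank (K := ZMod p), Nat.card_zmod]
  have hd : 0 < finrank (ZMod p) k := Module.finrank_pos
  rw [Nat.card_prod, Nat.card_units, h2, Nat.card_eq_fintype_card, ZMod.card_units]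
  intro h
  rcases (Nat.Prime.dvd_mul hp).1 h with h | h
  · have h3 : p ∣ p ^ finrank (ZMod p) k := dvd_pow_self p hd.ne'
    have h4 : 1 ≤ p ^ finrank (ZMod p) k := Nat.one_le_pow _ _ hp.pos
    have h5 : p ∣ 1 := by
      have := (Nat.dvd_sub h3 h)
      rwa [Nat.sub_sub_self h4] at this
    exact hp.one_lt.ne' (Nat.dvd_one.1 h5)
  · have := Nat.le_of_dvd (by have := hp.two_le; omega) h
    have := hp.two_le
    omega

/-! ### The cyclotomic character on `G_p` -/

/-- The mod `p` cyclotomic character of `G_p`. -/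
def omegaHom : GQp p →* (ZMod p)ˣ := (cycloChar p).comp (localGaloisToGlobal p)

theorem coe_omegaHom (g : GQp p) : ((omegaHom g : (ZMod p)ˣ) : ZMod p) = KummerQp71.chiLoc p g := rfl

/-- Elements of the kernel of the cyclotomic character fix the `p`-th roots of unity. -/
theorem apply_root_of_omegaHom_eq_one {τ : GQp p} (hτ : omegaHom τ = 1) (z : PadicAlgCl p)
    (hz : z ^ p = 1) : τ z = z := by
  have hp : p.Prime := Fact.out
  have hζ : IsPrimitiveRoot ((KummerQp71.zetaLoc p : (PadicAlgCl p)ˣ) : PadicAlgCl p) p :=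
    IsPrimitiveRoot.coe_units_iff.2 (KummerQp71.zetaLoc_spec p)
  obtain ⟨j, -, rfl⟩ := hζ.eq_pow_of_pow_eq_one hz
  have h1 : KummerQp71.chiLoc p τ = 1 := by rw [← coe_omegaHom, hτ, Units.val_one]
  have h2 := congrArg (fun u : (PadicAlgCl p)ˣ => (u : PadicAlgCl p)) (KummerQp71.smul_zetaLoc p τ)
  simp only [AlgEquiv.smul_units_def, Units.coe_map, MonoidHom.coe_coe, Units.val_pow_eq_pow_val] at h2
  rw [h1, ZMod.val_one, pow_one] at h2
  rw [map_pow, h2]

/-- The kernel of the cyclotomic character contains the fixing subgroup of a finite extension. -/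
theorem exists_fixingSubgroup_le_ker_omegaHom :
    ∃ E : IntermediateField ℚ_[p] (PadicAlgCl p), FiniteDimensional ℚ_[p] E ∧
      E.fixingSubgroup ≤ (omegaHom (p := p)).ker := by
  obtain ⟨E, hE, h⟩ := KummerQp71.isLevelFun_chiLoc p
  refine ⟨E, hE, fun s hs => ?_⟩
  rw [MonoidHom.mem_ker]
  apply Units.ext
  rw [coe_omegaHom, Units.val_one]
  have := h 1 s hs
  rwa [one_mul, KummerQp71.chiLoc_one] at this

/-! ### The core count, in `GQp`-language -/

section Core

variable {k : Type} [Field k] [Finite k] [Algebra (ZMod p) k]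

/-- The homomorphism `(χ, ω) : G_p → kˣ × 𝔽_pˣ` whose kernel is `S`. -/
def chiOmega (χ : GQp p →* kˣ) : GQp p →* kˣ × (ZMod p)ˣ := χ.prod omegaHom

theorem mem_ker_chiOmega (χ : GQp p →* kˣ) (s : GQp p) :
    s ∈ (chiOmega χ).ker ↔ χ s = 1 ∧ omegaHom s = 1 := by
  rw [MonoidHom.mem_ker, chiOmega, MonoidHom.prod_apply, Prod.mk_eq_one]

theorem omegaU_eq (g : GQp p) :
    omegaU p k g = Units.map ((algebraMap (ZMod p) k : ZMod p →+* k) : ZMod p →* k) (omegaHom g) :=
  rfl

open Classical in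
/-- **Core count.**  Any injectively parametrised family of `χ`-equivariant admissible additive
functions on `S = ker (χ, ω)` has at most `|k|^([χ|I = ω|I] + [χ = 1])` members. -/
theorem card_family_le (hp2 : p ≠ 2) (hKF : KummerFontaine p) (hB10 : KummerDict p)
    (hN1 : ConcreteN1 p) (χ : GQp p →* kˣ) (hχ : ∃ N ∈ admFamily p, ∀ n ∈ N, χ n = 1)
    (F : Type) (ι : F → (↥(chiOmega χ).ker → k)) (hι : Function.Injective ι)
    (hadd : ∀ f (s s' : ↥(chiOmega χ).ker), ι f (s * s') = ι f s + ι f s')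
    (hequi : ∀ f (g : GQp p) (s s' : ↥(chiOmega χ).ker), (s' : GQp p) = g * s * g⁻¹ →
      ι f s' = (χ g : k) * ι f s)
    (hadm : ∀ f, ∃ N ∈ admFamily p, ∀ s : ↥(chiOmega χ).ker, (s : GQp p) ∈ N → ι f s = 0) :
    Finite F ∧ Nat.card F ≤ Nat.card k ^
      ((if ∀ τ ∈ inertiaSet p, χ τ = omegaU p k τ then 1 else 0) + (if χ = 1 then 1 else 0)) := by
  -- the tame field `K0`
  obtain ⟨N0, hN0, hχN0⟩ := hχ
  obtain ⟨E0, hE0, hE0N⟩ := exists_fixingSubgroup_le_of_mem_admFamily hN0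
  obtain ⟨Eζ, hEζ, hEζω⟩ := exists_fixingSubgroup_le_ker_omegaHom (p := p)
  have hF : (E0 ⊔ Eζ).fixingSubgroup ≤ (chiOmega χ).ker := by
    intro s hs
    rw [mem_ker_chiOmega]
    exact ⟨hχN0 s (hE0N (IntermediateField.fixingSubgroup_antitone le_sup_left hs)),
      MonoidHom.mem_ker.1 (hEζω (IntermediateField.fixingSubgroup_antitone le_sup_right hs))⟩
  have hfdF : FiniteDimensional ℚ_[p] ↥(E0 ⊔ Eζ) := IntermediateField.finiteDimensional_sup E0 Eζ
  obtain ⟨K0, hK0fd, hK0gal, hK0fix, hSfin, hSidx, hSp, hK0tame, hK0ζ⟩ :=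
    exists_tame_field_of_hom (chiOmega χ) (not_dvd_card_units_prod k) (E0 ⊔ Eζ) hF
  obtain ⟨ζ, hζ⟩ := hK0ζ (fun τ hτ z hz =>
    apply_root_of_omegaHom_eq_one ((mem_ker_chiOmega χ τ).1 hτ).2 z hz)
  -- `Gal(K0/ℚ_p)` is abelian
  have hab : ∀ σ τ : K0 ≃ₐ[ℚ_[p]] K0, σ * τ = τ * σ := by
    intro σ τ
    obtain ⟨g, rfl⟩ := restrictNormalHom_surjective K0 σ
    obtain ⟨h, rfl⟩ := restrictNormalHom_surjective K0 τ
    rw [← map_mul, ← map_mul]
    have hc : (g * h) * (h * g)⁻¹ ∈ K0.fixingSubgroup := by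
      rw [hK0fix, MonoidHom.mem_ker, map_mul, map_inv, map_mul, map_mul,
        mul_comm ((chiOmega χ) g), mul_inv_cancel]
    rw [← IntermediateField.restrictNormalHom_ker, MonoidHom.mem_ker, map_mul, map_inv,
      mul_inv_eq_one] at hc
    exact hc
  -- the Kummer dictionary
  let χT : ↥(⊤ : Subgroup (GQp p)) →* kˣ := χ.comp (⊤ : Subgroup (GQp p)).subtype
  have hχT : ∀ g : ↥(⊤ : Subgroup (GQp p)), (g : GQp p) ∈ K0.fixingSubgroup → χT g = 1 := by
    intro g hg
    rw [hK0fix] at hg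
    exact ((mem_ker_chiOmega χ _).1 hg).1
  obtain ⟨Φ, hkum, hΦadd, hΦequi, hΦsep⟩ := hB10 K0 ζ hζ ⊤ le_top k χT hχT
  have hmemS : ∀ s : GQp p, s ∈ K0.fixingSubgroup → s ∈ (chiOmega χ).ker := fun s hs => by
    rwa [hK0fix] at hs
  let toS : ↥K0.fixingSubgroup → ↥(chiOmega χ).ker := fun s => ⟨s, hmemS s s.2⟩
  have hj : ∀ f : F, (fun s : ↥K0.fixingSubgroup => ι f (toS s)) ∈ EqHoms p K0 ⊤ k χT := by
    intro f
    refine ⟨fun s s' => ?_, fun g s s' hss' => ?_, ?_⟩
    · exact hadd f (toS s) (toS s')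
    · exact hequi f g (toS s) (toS s') hss'
    · obtain ⟨N, hN, hfN⟩ := hadm f
      obtain ⟨E, hE, hEN⟩ := exists_fixingSubgroup_le_of_mem_admFamily hN
      exact ⟨E, hE, fun s hs => hfN (toS s) (hEN hs)⟩
  let j : F → ↥(EqHoms p K0 ⊤ k χT) := fun f => ⟨_, hj f⟩
  have hjinj : Function.Injective j := by
    intro f f' h
    apply hι
    funext s
    have hs : (s : GQp p) ∈ K0.fixingSubgroup := by rw [hK0fix]; exact s.2
    exact congrFun (congrArg Subtype.val h) ⟨s, hs⟩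
  -- flatness of the Kummer data: Kummer–Fontaine
  have hflat : ∀ f c, IsFlatUnit p K0 ((Φ (j f) c : K0ˣ) : K0) := by
    intro f c
    obtain ⟨z, hz, hzs⟩ := hkum (j f) c
    obtain ⟨N, hN, hfN⟩ := hadm f
    obtain ⟨V, iV1, iV2, act, hV, hkill, rfl⟩ := hN
    refine hKF hp2 V act hV hkill K0 hK0tame ⟨ζ, hζ⟩ _ z (Units.ne_zero _) hz (fun τ hτK hτV => ?_)
    have hτ : τ ∈ K0.fixingSubgroup :=
      (IntermediateField.mem_fixingSubgroup_iff _ _).2 (fun x hx => hτK ⟨x, hx⟩)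
    have h1 := hzs ⟨τ, hτ⟩
    have h0 : (j f).1 ⟨τ, hτ⟩ = 0 := hfN _ hτV
    rw [h0] at h1
    simpa [trPair] using h1
  -- the count
  let ψ : GQp p →* kˣ := omegaU p k * χ⁻¹
  have hψS : ∀ s ∈ K0.fixingSubgroup, ψ s = 1 := by
    intro s hs
    rw [hK0fix, mem_ker_chiOmega] at hs
    show omegaU p k s * (χ s)⁻¹ = 1
    rw [hs.1, omegaU_eq, hs.2, map_one, inv_one, mul_one]
  have hequi' : ∀ f (g : GQp p) c, ∃ y : K0ˣ,
      g (((Φ (j f) c : K0ˣ) : K0) : PadicAlgCl p) =
        (((Φ (j f) ((ψ g : k) * c) : K0ˣ) : K0) : PadicAlgCl p) *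
          (((y : K0ˣ) : K0) : PadicAlgCl p) ^ p := by
    intro f g c
    obtain ⟨y, hy⟩ := hΦequi (j f) ⟨g, Subgroup.mem_top g⟩ c
    refine ⟨y, ?_⟩
    have hψg : (ψ g : k) = (omegaU p k g : k) * (((χ g)⁻¹ : kˣ) : k) := by
      show ((omegaU p k g * (χ g)⁻¹ : kˣ) : k) = _
      rw [Units.val_mul]
    rw [hψg]
    exact hy
  have hfin : ¬ p ∣ Module.finrank ℚ_[p] K0 := by rwa [← hSidx]
  obtain ⟨hFfin, hcard⟩ := hN1 hp2 K0 hfin ⟨ζ, hζ⟩ hab k ψ hψS F (fun f c => Φ (j f) c) hflat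
    (fun f c c' => hΦadd (j f) c c') hequi' (fun f f' h => hjinj (hΦsep (j f) (j f') h))
  refine ⟨hFfin, hcard.trans (Nat.pow_le_pow_right Nat.card_pos ?_)⟩
  have h1 : (∀ τ ∈ inertiaSet p, ψ τ = 1) → ∀ τ ∈ inertiaSet p, χ τ = omegaU p k τ := by
    intro h τ hτ
    have := h τ hτ
    have h2 : omegaU p k τ * (χ τ)⁻¹ = 1 := this
    exact (mul_inv_eq_one.1 h2).symm
  have h2 : ψ = omegaU p k → χ = 1 := by
    intro h
    ext g
    have h3 : omegaU p k g * (χ g)⁻¹ = omegaU p k g := congrArg (fun φ : GQp p →* kˣ => φ g) h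
    have h4 : (χ g)⁻¹ = 1 := mul_eq_left.1 h3
    rw [inv_eq_one.1 h4]
    rfl
  apply add_le_add
  · split_ifs with ha hb hb
    · exact le_rfl
    · exact absurd (h1 ha) hb
    · exact Nat.zero_le _
    · exact le_rfl
  · split_ifs with ha hb hb
    · exact le_rfl
    · exact absurd (h2 ha) hb
    · exact Nat.zero_le _
    · exact le_rfl

end Core

/-! ### T1 -/

/-- **T1.**  `Table72.CharCount` from Kummer–Fontaine, the Kummer dictionary and the instantiated count. -/
theorem charCount (hKF : KummerFontaine p) (hB10 : KummerDict p) (hN1 : ConcreteN1 p)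
    (hprod : ClosureProd p) : CharCount p hprod := by
  intro hp2 k _ _ _ χ hχ
  classical
  obtain ⟨N, hN, hχN⟩ := hχ
  -- transport to `GQp p`
  let χ' : GQp p →* kˣ := χ.comp (toLoc p).toMonoidHom
  have hχ' : ∃ N' ∈ admFamily p, ∀ n ∈ N', χ' n = 1 :=
    ⟨N.comap (toLoc p).toMonoidHom, hN, fun n hn => hχN _ hn⟩
  let S : Subgroup (GQp p) := (chiOmega χ').ker
  let S' : Subgroup (Gp p) := S.comap (toLoc p).symm.toMonoidHom
  have hSn : S'.Normal := by
    have : S.Normal := MonoidHom.normal_ker _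
    exact Subgroup.Normal.comap this _
  have hidx : S'.index = S.index :=
    Subgroup.index_comap_of_surjective S (toLoc p).symm.surjective
  have hdvd : S.index ∣ Nat.card (kˣ × (ZMod p)ˣ) := index_ker_dvd_card (chiOmega χ')
  have hSfin : S'.FiniteIndex := by
    constructor
    rw [hidx]
    intro h0
    rw [h0, zero_dvd_iff] at hdvd
    exact Nat.card_pos.ne' hdvd
  have hn : ((S'.index : ℕ) : ZMod p) ≠ 0 := by
    rw [Ne, ZMod.natCast_eq_zero_iff, hidx]
    exact fun h => not_dvd_card_units_prod k (h.trans hdvd)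
  have hS : ∀ s ∈ S', ∀ a : (charRep (ZMod p) χ).V, (charRep (ZMod p) χ).ρ s a = a := by
    intro s hs a
    have h1 : χ' ((toLoc p).symm s) = 1 := ((mem_ker_chiOmega χ' _).1 hs).1
    have h2 : χ s = 1 := h1
    show ((χ s : kˣ) : k) * (show k from a) = a
    rw [h2, Units.val_one, one_mul]
  -- the family of equivariant admissible homomorphisms
  let F := ↥(HomEq (admFam p hprod) S' (charRep (ZMod p) χ))
  let ι : F → (↥(chiOmega χ').ker → k) := fun f s => (f : ↥S' → k) ⟨toLoc p s, s.2⟩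
  have hι : Function.Injective ι := by
    intro f f' h
    apply Subtype.ext
    funext s
    exact congrFun h ⟨(toLoc p).symm s, s.2⟩
  obtain ⟨hFfin, hcard⟩ := card_family_le hp2 hKF hB10 hN1 χ' hχ' F ι hι
    (fun f s s' => f.2.1 ⟨toLoc p s, s.2⟩ ⟨toLoc p s', s'.2⟩)
    (fun f g s s' hss' => by
      have h1 := f.2.2.1 (toLoc p g) ⟨toLoc p s, s.2⟩
      have h2 : (⟨toLoc p s', s'.2⟩ : ↥S') =
          ⟨toLoc p g * toLoc p s * (toLoc p g)⁻¹, hSn.conj_mem _ s.2 _⟩ := Subtype.ext hss'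
      show (f : ↥S' → k) ⟨toLoc p s', s'.2⟩ = _
      rw [h2, h1]
      rfl)
    (fun f => by
      obtain ⟨N', hN', hfN'⟩ := f.2.2.2
      exact ⟨N'.comap (toLoc p).toMonoidHom, hN', fun s hs => hfN' ⟨toLoc p s, s.2⟩ hs⟩)
  haveI : Finite F := hFfin
  have hfd : FiniteDimensional (ZMod p) (HomEq (admFam p hprod) S' (charRep (ZMod p) χ)) :=
    Module.Finite.of_finite
  obtain ⟨hfdH, hrank⟩ := finrank_H1adm_le_finrank_HomEq (admFam p hprod) S' hn hS
  refine ⟨hfdH, hrank.trans ((finrank_le_of_card_le hcard).trans ?_)⟩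
  rw [mul_add]
  apply add_le_add
  · split_ifs with ha hb hb
    · rw [mul_one]
    · exfalso
      apply hb
      intro τ hτ
      exact ha ((toLoc p).symm τ) hτ
    · rw [mul_zero]; exact Nat.zero_le _
    · rw [mul_zero]
  · split_ifs with ha hb hb
    · rw [mul_one]
    · exfalso
      apply hb
      ext g
      have := congrArg (fun φ : GQp p →* kˣ => φ ((toLoc p).symm g)) ha
      exact congrArg Units.val this
    · rw [mul_zero]; exact Nat.zero_le _
    · rw [mul_zero]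

end Fermat.Agent.TW.Cnt.CharCount72
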