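/-
TW / WP7-CNT (helper54): **characters of inertia from `Star68.Unr`.**

Everything below is elementary in `Ω = PadicAlgCl p` and uses the single arithmetic hypothesis
`hunr : Star68.Unr p` (the fixed field of inertia is unramified; helper68).

* `norm_eq_zpow_of_fixed`       : an inertia-fixed `y ≠ 0` has `‖y‖ ∈ p^ℤ`;
* `exists_inertia_chiLoc_ne_one`: the mod `p` cyclotomic character is nontrivial on inertia (`p` odd);
* `exists_inertia_omega_ne_one` : the same for `Table72.omegaK p k` on `Table72.inertiaLoc p`;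
* `quad_unique`                 : two characters with open kernel, of square one and nontrivial on
                                  inertia, agree on inertia.
-/
import Mathlib
import Fermat.Agent.TW.FF.Star68
import Fermat.Agent.TW.OrdLocal.KummerQp71
import Fermat.Agent.M1.Ram.CycloVal20
import Fermat.Agent.TW.Cnt.TameField97
import Fermat.Agent.TW.Cnt.Table72
import Fermat.Agent.TW.Cnt.OrdShape54

set_option autoImplicit false

noncomputable section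

namespace Fermat.Agent.TW.Cnt.InertiaChar54

open Fermat.Agent.TW.FF.FlatModel68 (GQp LocalFlatModel)
open Fermat.Agent.TW.FF.Spec72 Fermat.Agent.TW.FF.Star68
open Fermat.Agent.TW.OrdLocal.KummerQp71

variable (p : ℕ) [Fact p.Prime]

/-! ### Norms of inertia-fixed elements -/

theorem norm_p_zpow (n : ℤ) : ‖((p : PadicAlgCl p)) ^ n‖ = ((p : ℝ)⁻¹) ^ n := by
  rw [norm_zpow, Fermat.Agent.TW.FF.RigidOmega92.norm_natCast_padicAlgCl]

theorem apply_p_zpow (τ : GQp p) (n : ℤ) : τ ((p : PadicAlgCl p) ^ n) = (p : PadicAlgCl p) ^ n := by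
  rw [map_zpow₀, map_natCast]

variable {p}

/-- **Unramifiedness, multiplicative form**: an inertia-fixed `y ≠ 0` has norm in `p^ℤ`. -/
theorem norm_eq_zpow_of_fixed (hunr : Unr p) {y : PadicAlgCl p} (hy : y ≠ 0)
    (hfix : ∀ τ ∈ inertiaSet p, τ y = y) : ∃ n : ℤ, ‖y‖ = (p : ℝ) ^ n := by
  have hp : p.Prime := Fact.out
  have hp1 : (1 : ℝ) < p := by exact_mod_cast hp.one_lt
  have hp0 : (0 : ℝ) < p := lt_trans zero_lt_one hp1
  obtain ⟨n, hn1, hn2⟩ := exists_mem_Ico_zpow (norm_pos_iff.2 hy) hp1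
  refine ⟨n, le_antisymm ?_ hn1⟩
  -- `w = y * p^(n+1)` has norm in `[1/p, 1)`
  set w : PadicAlgCl p := y * (p : PadicAlgCl p) ^ (n + 1) with hw
  have hwn : ‖w‖ = ‖y‖ * ((p : ℝ) ^ (n + 1))⁻¹ := by
    rw [hw, norm_mul, norm_p_zpow, inv_zpow]
  have hpos : (0 : ℝ) < (p : ℝ) ^ (n + 1) := zpow_pos hp0 _
  have hw1 : ‖w‖ < 1 := by
    rw [hwn, ← div_eq_mul_inv, div_lt_one hpos]
    exact hn2
  have hwfix : ∀ τ ∈ inertiaSet p, τ w = w := by
    intro τ hτ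
    rw [hw, map_mul, hfix τ hτ, apply_p_zpow]
  have h := hunr w hwfix hw1
  rw [hwn] at h
  have h2 : ‖y‖ ≤ (p : ℝ)⁻¹ * (p : ℝ) ^ (n + 1) := by
    have := mul_le_mul_of_nonneg_right h hpos.le
    rwa [mul_assoc, inv_mul_cancel₀ hpos.ne', mul_one] at this
  have h3 : (p : ℝ)⁻¹ * (p : ℝ) ^ (n + 1) = (p : ℝ) ^ n := by
    rw [zpow_add_one₀ hp0.ne']
    field_simp
  rwa [h3] at h2

/-! ### The cyclotomic character is ramified -/

theorem nnnorm_zeta_sub_one_pow :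
    ‖((zetaLoc p : (PadicAlgCl p)ˣ) : PadicAlgCl p) - 1‖ ^ (p - 1) = (p : ℝ)⁻¹ := by
  classical
  have hp : p.Prime := Fact.out
  have hζ : IsPrimitiveRoot ((zetaLoc p : (PadicAlgCl p)ˣ) : PadicAlgCl p) p :=
    (zetaLoc_spec p).map_of_injective (f := Units.coeHom (PadicAlgCl p)) Units.val_injective
  have h := Fermat.Agent.M1.Ram.CycloVal20.val_sub_one_pow_eq
    (v := (NormedField.valuation (K := PadicAlgCl p))) hp hζ
  have h2 := congrArg (fun x : NNReal => (x : ℝ)) h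
  simp only [NormedField.valuation_apply, NNReal.coe_pow, coe_nnnorm] at h2
  rw [h2, Fermat.Agent.TW.FF.RigidOmega92.norm_natCast_padicAlgCl]

theorem apply_zetaLoc (τ : GQp p) :
    τ ((zetaLoc p : (PadicAlgCl p)ˣ) : PadicAlgCl p) =
      ((zetaLoc p : (PadicAlgCl p)ˣ) : PadicAlgCl p) ^ (chiLoc p τ).val := by
  have h := congrArg (fun u : (PadicAlgCl p)ˣ => (u : PadicAlgCl p)) (smul_zetaLoc p τ)
  simpa using h

theorem exists_inertia_chiLoc_ne_one (hunr : Unr p) (hp2 : p ≠ 2) :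
    ∃ τ ∈ inertiaSet p, chiLoc p τ ≠ 1 := by
  by_contra hcon
  push Not at hcon
  have hp : p.Prime := Fact.out
  have hp1 : (1 : ℝ) < p := by exact_mod_cast hp.one_lt
  have hp0 : (0 : ℝ) < p := lt_trans zero_lt_one hp1
  have : Fact (1 < p) := ⟨hp.one_lt⟩
  set ζ : PadicAlgCl p := ((zetaLoc p : (PadicAlgCl p)ˣ) : PadicAlgCl p) with hζdef
  have hζ : IsPrimitiveRoot ζ p :=
    (zetaLoc_spec p).map_of_injective (f := Units.coeHom (PadicAlgCl p)) Units.val_injective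
  have hne : ζ - 1 ≠ 0 := sub_ne_zero.2 (hζ.ne_one hp.one_lt)
  have hfix : ∀ τ ∈ inertiaSet p, τ (ζ - 1) = ζ - 1 := by
    intro τ hτ
    rw [map_sub, map_one, hζdef, apply_zetaLoc, hcon τ hτ, ZMod.val_one, pow_one]
  obtain ⟨n, hn⟩ := norm_eq_zpow_of_fixed hunr hne hfix
  have h := nnnorm_zeta_sub_one_pow (p := p)
  rw [← hζdef, hn, ← zpow_natCast, ← zpow_mul, ← zpow_neg_one] at h
  have h2 := zpow_right_injective₀ hp0 hp1.ne' h
  -- `n * (p - 1) = -1` in `ℤ`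
  have h3 : ((p - 1 : ℕ) : ℤ) ∣ 1 := ⟨-n, by rw [mul_comm, neg_mul]; omega⟩
  have h4 : (p - 1 : ℕ) ∣ 1 := by exact_mod_cast h3
  have h5 := Nat.dvd_one.1 h4
  have := hp.two_le
  omega

/-! ### Sign vectors and the uniqueness of the ramified quadratic character -/

theorem norm_two (hp2 : p ≠ 2) : ‖(2 : PadicAlgCl p)‖ = 1 := by
  have hp : p.Prime := Fact.out
  have h : ((2 : ℕ) : PadicAlgCl p) = algebraMap ℚ_[p] (PadicAlgCl p) ((2 : ℕ) : ℚ_[p]) := by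
    rw [map_natCast]
  have h2 : (2 : PadicAlgCl p) = ((2 : ℕ) : PadicAlgCl p) := by norm_num
  rw [h2, h, PadicAlgCl.norm_extends]
  rw [Padic.norm_natCast_eq_one_iff]
  exact (Nat.coprime_primes hp Nat.prime_two).2 hp2

/-- `z ≠ 0` on which every `τ` in inertia acts by `+1` (if `τ ∈ T`) or `-1` (if `τ ∉ T`). -/
def IsSignVec (T : Set (GQp p)) (z : PadicAlgCl p) : Prop :=
  z ≠ 0 ∧ ∀ τ ∈ inertiaSet p, (τ ∈ T → τ z = z) ∧ (τ ∉ T → τ z = -z)

theorem IsSignVec.norm_sq (hunr : Unr p) {T : Set (GQp p)} {z : PadicAlgCl p}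
    (hz : IsSignVec T z) : ∃ n : ℤ, ‖z‖ ^ 2 = (p : ℝ) ^ n := by
  have hfix : ∀ τ ∈ inertiaSet p, τ (z ^ 2) = z ^ 2 := by
    intro τ hτ
    rw [map_pow]
    by_cases h : τ ∈ T
    · rw [(hz.2 τ hτ).1 h]
    · rw [(hz.2 τ hτ).2 h, neg_sq]
  obtain ⟨n, hn⟩ := norm_eq_zpow_of_fixed hunr (pow_ne_zero 2 hz.1) hfix
  exact ⟨n, by rw [← norm_pow, hn]⟩

theorem IsSignVec.subset_of_norm (hp2 : p ≠ 2) {T : Set (GQp p)} {z : PadicAlgCl p}
    (hz : IsSignVec T z) {m : ℤ} (hm : ‖z‖ = (p : ℝ) ^ m) : inertiaSet p ⊆ T := by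
  intro τ hτ
  by_contra hT
  have hp : p.Prime := Fact.out
  have hp0 : (0 : ℝ) < p := by exact_mod_cast hp.pos
  set w : PadicAlgCl p := z * (p : PadicAlgCl p) ^ m with hw
  have hwn : ‖w‖ = 1 := by
    rw [hw, norm_mul, norm_p_zpow, hm, inv_zpow, mul_inv_cancel₀ (zpow_pos hp0 m).ne']
  have hτw : τ w = -w := by
    rw [hw, map_mul, apply_p_zpow, (hz.2 τ hτ).2 hT, neg_mul]
  have h := hτ w hwn.le
  rw [hτw] at h
  have h2 : -w - w = -(2 * w) := by ring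
  rw [h2, norm_neg, norm_mul, norm_two hp2, hwn, one_mul] at h
  exact lt_irrefl _ h

theorem IsSignVec.mul {T T' : Set (GQp p)} {z z' : PadicAlgCl p}
    (hz : IsSignVec T z) (hz' : IsSignVec T' z') : IsSignVec {τ | τ ∈ T ↔ τ ∈ T'} (z * z') := by
  refine ⟨mul_ne_zero hz.1 hz'.1, fun τ hτ => ⟨fun h => ?_, fun h => ?_⟩⟩
  · rw [map_mul]
    by_cases hT : τ ∈ T
    · rw [(hz.2 τ hτ).1 hT, (hz'.2 τ hτ).1 (h.1 hT)]
    · rw [(hz.2 τ hτ).2 hT, (hz'.2 τ hτ).2 (fun h' => hT (h.2 h')), neg_mul_neg]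
  · rw [map_mul]
    by_cases hT : τ ∈ T
    · have hT' : τ ∉ T' := fun h' => h ⟨fun _ => h', fun _ => hT⟩
      rw [(hz.2 τ hτ).1 hT, (hz'.2 τ hτ).2 hT', mul_neg]
    · have hT' : τ ∈ T' := by
        by_contra h'
        exact h ⟨fun h'' => absurd h'' hT, fun h'' => absurd h'' h'⟩
      rw [(hz.2 τ hτ).2 hT, (hz'.2 τ hτ).1 hT', neg_mul]

variable {k : Type*} [Field k]

/-- In the units of a field, two elements of square one, both different from `1`, are equal. -/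
theorem unit_eq_of_sq {u v : kˣ} (hu : u ^ 2 = 1) (hv : v ^ 2 = 1) (hu1 : u ≠ 1) (hv1 : v ≠ 1) :
    u = v := by
  have h : ∀ w : kˣ, w ^ 2 = 1 → w ≠ 1 → (w : k) = -1 := by
    intro w hw hw1
    have h1 : (w : k) * (w : k) = 1 := by
      have := congrArg (fun x : kˣ => (x : k)) hw
      simpa [sq] using this
    rcases mul_self_eq_one_iff.1 h1 with h2 | h2
    · exact absurd (Units.ext h2) hw1
    · exact h2
  exact Units.ext ((h u hu hu1).trans (h v hv hv1).symm)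

theorem exists_isSignVec (ψ : GQp p →* kˣ) (F : IntermediateField ℚ_[p] (PadicAlgCl p))
    [FiniteDimensional ℚ_[p] F] (hF : F.fixingSubgroup ≤ ψ.ker)
    (h2 : ∀ τ ∈ inertiaSet p, ψ τ ^ 2 = 1) :
    ∃ z : PadicAlgCl p, IsSignVec {τ | ψ τ = 1} z := by
  by_cases htriv : ∀ τ ∈ inertiaSet p, ψ τ = 1
  · exact ⟨1, one_ne_zero, fun τ hτ => ⟨fun _ => map_one τ, fun h => absurd (htriv τ hτ) h⟩⟩
  push Not at htriv
  obtain ⟨τ0, hτ0, hψ0⟩ := htriv
  have hfix := Fermat.Agent.TW.Cnt.TameField97.fixingSubgroup_fixedField ψ.ker F hF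
  have hτ0N : τ0 ∉ (IntermediateField.fixedField ψ.ker).fixingSubgroup := by
    rw [hfix, MonoidHom.mem_ker]
    exact hψ0
  rw [IntermediateField.mem_fixingSubgroup_iff] at hτ0N
  push Not at hτ0N
  obtain ⟨x, hxN, hx0⟩ := hτ0N
  rw [IntermediateField.mem_fixedField_iff] at hxN
  refine ⟨x - τ0 x, sub_ne_zero.2 (Ne.symm hx0), fun τ hτ => ⟨fun h => ?_, fun h => ?_⟩⟩
  · have h1 : ψ τ = 1 := h
    have hx1 : τ x = x := hxN τ (MonoidHom.mem_ker.2 h1)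
    have hx2 : (τ0⁻¹ * τ * τ0) x = x := by
      apply hxN
      rw [MonoidHom.mem_ker, map_mul, map_mul, h1, mul_one, map_inv, inv_mul_cancel]
    have hx3 : τ (τ0 x) = τ0 x := by
      have : τ (τ0 x) = τ0 ((τ0⁻¹ * τ * τ0) x) := by
        simp [AlgEquiv.mul_apply]
      rw [this, hx2]
    rw [map_sub, hx1, hx3]
  · have h1 : ψ τ ≠ 1 := h
    have he : ψ τ = ψ τ0 := unit_eq_of_sq (h2 τ hτ) (h2 τ0 hτ0) h1 hψ0
    have hx1 : (τ0⁻¹ * τ) x = x := by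
      apply hxN
      rw [MonoidHom.mem_ker, map_mul, map_inv, he, inv_mul_cancel]
    have hx2 : τ x = τ0 x := by
      have : τ x = τ0 ((τ0⁻¹ * τ) x) := by simp [AlgEquiv.mul_apply]
      rw [this, hx1]
    have hx3 : τ (τ0 x) = x := by
      have : τ (τ0 x) = (τ * τ0) x := rfl
      rw [this]
      apply hxN
      rw [MonoidHom.mem_ker, map_mul, he, ← sq, h2 τ0 hτ0]
    rw [map_sub, hx2, hx3, neg_sub]

theorem norm_eq_of_sq_eq {z : PadicAlgCl p} {m : ℤ} (h : ‖z‖ ^ 2 = (p : ℝ) ^ (2 * m)) :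
    ‖z‖ = (p : ℝ) ^ m := by
  have hp : p.Prime := Fact.out
  have hp0 : (0 : ℝ) < p := by exact_mod_cast hp.pos
  have h1 : ‖z‖ ^ 2 = ((p : ℝ) ^ m) ^ 2 := by
    rw [h, ← zpow_natCast ((p : ℝ) ^ m) 2, ← zpow_mul]
    congr 1
    push_cast
    ring
  exact (pow_left_inj₀ (norm_nonneg z) (zpow_pos hp0 m).le two_ne_zero).1 h1

/-- A sign vector for a set `T` not containing all of inertia has `‖z‖² = p^odd`. -/
theorem IsSignVec.odd_of_not_subset (hunr : Unr p) (hp2 : p ≠ 2) {T : Set (GQp p)}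
    {z : PadicAlgCl p} (hz : IsSignVec T z) (hT : ¬ inertiaSet p ⊆ T) :
    ∃ m : ℤ, ‖z‖ ^ 2 = (p : ℝ) ^ (2 * m + 1) := by
  obtain ⟨n, hn⟩ := hz.norm_sq hunr
  rcases Int.even_or_odd' n with ⟨m, hm | hm⟩
  · exfalso
    rw [hm] at hn
    exact hT (hz.subset_of_norm hp2 (norm_eq_of_sq_eq hn))
  · exact ⟨m, by rw [hn, hm]⟩

/-- **Uniqueness of the ramified quadratic character of inertia.** -/
theorem quad_unique (hunr : Unr p) (hp2 : p ≠ 2) (ψ ψ' : GQp p →* kˣ)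
    (F F' : IntermediateField ℚ_[p] (PadicAlgCl p))
    [FiniteDimensional ℚ_[p] F] [FiniteDimensional ℚ_[p] F']
    (hF : F.fixingSubgroup ≤ ψ.ker) (hF' : F'.fixingSubgroup ≤ ψ'.ker)
    (h2 : ∀ τ ∈ inertiaSet p, ψ τ ^ 2 = 1) (h2' : ∀ τ ∈ inertiaSet p, ψ' τ ^ 2 = 1)
    (hr : ∃ τ ∈ inertiaSet p, ψ τ ≠ 1) (hr' : ∃ τ ∈ inertiaSet p, ψ' τ ≠ 1) :
    ∀ τ ∈ inertiaSet p, ψ τ = ψ' τ := by
  obtain ⟨z, hz⟩ := exists_isSignVec ψ F hF h2
  obtain ⟨z', hz'⟩ := exists_isSignVec ψ' F' hF' h2'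
  have hT : ¬ inertiaSet p ⊆ {τ | ψ τ = 1} := by
    obtain ⟨τ, hτ, h⟩ := hr
    exact fun hsub => h (hsub hτ)
  have hT' : ¬ inertiaSet p ⊆ {τ | ψ' τ = 1} := by
    obtain ⟨τ, hτ, h⟩ := hr'
    exact fun hsub => h (hsub hτ)
  obtain ⟨m, hm⟩ := hz.odd_of_not_subset hunr hp2 hT
  obtain ⟨m', hm'⟩ := hz'.odd_of_not_subset hunr hp2 hT'
  have hprod : ‖z * z'‖ ^ 2 = (p : ℝ) ^ (2 * (m + m' + 1)) := by
    have hp : p.Prime := Fact.out
    have hp0 : (p : ℝ) ≠ 0 := by exact_mod_cast hp.ne_zero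
    rw [norm_mul, mul_pow, hm, hm', ← zpow_add₀ hp0]
    congr 1
    ring
  have hsub := (hz.mul hz').subset_of_norm hp2 (norm_eq_of_sq_eq hprod)
  intro τ hτ
  have hiff : ψ τ = 1 ↔ ψ' τ = 1 := hsub hτ
  by_cases h1 : ψ τ = 1
  · rw [h1, hiff.1 h1]
  · exact unit_eq_of_sq (h2 τ hτ) (h2' τ hτ) h1 (fun h => h1 (hiff.2 h))

/-! ### Transport to the vocabulary of `Table72` -/

section Table

open Fermat.Agent.TW.Cnt.BridgeFlat54 Fermat.Agent.TW.Cnt.Table72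
open ExtCitation

theorem omegaLoc_toLoc (τ : GQp p) :
    ((omegaLoc p (toLoc p τ) : (ZMod p)ˣ) : ZMod p) = chiLoc p τ := rfl

/-- **OMEGA-RAM.** The mod `p` cyclotomic character is nontrivial on inertia (`p` odd). -/
theorem exists_inertia_omegaLoc_ne_one (hunr : Unr p) (hp2 : p ≠ 2) :
    ∃ τ ∈ inertiaLoc p, omegaLoc p τ ≠ 1 := by
  obtain ⟨τ, hτ, h⟩ := exists_inertia_chiLoc_ne_one hunr hp2
  refine ⟨toLoc p τ, ?_, fun h1 => h ?_⟩
  · show (toLoc p).symm (toLoc p τ) ∈ inertiaSet p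
    rw [MulEquiv.symm_apply_apply]
    exact hτ
  · rw [← omegaLoc_toLoc, h1, Units.val_one]

theorem exists_inertia_omegaK_ne_one (hunr : Unr p) (hp2 : p ≠ 2) (k : Type) [Field k]
    [Algebra (ZMod p) k] : ∃ τ ∈ inertiaLoc p, omegaK p k τ ≠ 1 := by
  obtain ⟨τ, hτ, h⟩ := exists_inertia_omegaLoc_ne_one hunr hp2
  refine ⟨τ, hτ, fun h1 => h ?_⟩
  have h2 : ((omegaK p k τ : kˣ) : k) = 1 := by rw [h1, Units.val_one]
  have h3 : algebraMap (ZMod p) k ((omegaLoc p τ : (ZMod p)ˣ) : ZMod p) = 1 := h2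
  have h4 := (algebraMap (ZMod p) k).injective (h3.trans (map_one _).symm)
  exact Units.ext h4

end Table

end Fermat.Agent.TW.Cnt.InertiaChar54
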