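/-
Program TW (S56), work package WP7-CNT (the count): the group-theoretic core of SHAPE (helper55).

`ρ : G →* End_k(V)`, `dim V = 2`.

* `Induced.exists_subgroup`: if some `ρ τ₀` has two distinct eigenvalues in `k`, commutes with all
  its conjugates `ρ (g⁻¹ τ₀ g)`, and `G` has no stable line, then `H := Stab(k · v_a)` is a normal
  subgroup of index `2`, `ρ` is diagonal on `H` and swaps the two eigenlines off `H`
  (exactly the hypotheses `hdg`, `hsw` of `AdCases55.finrank_H1adm_ad0_induced`).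
* `scalar_or_ne_of_pow_eq_one`: an endomorphism of finite order prime to the characteristic with
  split characteristic polynomial `(X - a)(X - b)` is the scalar `a` or has `a ≠ b`.
* `exists_stable_line_of_scalar`: if a normal subgroup `T` acts by scalars, `G = ⟨φ⟩ T` and `ρ φ`
  has an eigenvector, then `G` has a stable line.
-/
import Mathlib

set_option autoImplicit false

open Module

namespace Fermat.Agent.TW.Cnt.ShapeAbs55

variable {k V G : Type*} [Field k] [AddCommGroup V] [Module k V] [Group G]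

section Basis

variable (b : Module.Basis (Fin 2) k V)

lemma pair_eq_zero {s t : k} (h : s • b 0 + t • b 1 = 0) : s = 0 ∧ t = 0 := by
  have hli : LinearIndependent k ![b 0, b 1] := by
    have : (![b 0, b 1] : Fin 2 → V) = b := by
      ext i; fin_cases i <;> rfl
    rw [this]
    exact b.linearIndependent
  exact LinearIndependent.pair_iff.1 hli s t h

lemma eq_pair (w : V) : w = b.repr w 0 • b 0 + b.repr w 1 • b 1 := by
  conv_lhs => rw [← b.sum_repr w, Fin.sum_univ_two]

variable (A : Module.End k V) {a a' : k} (ha : A (b 0) = a • b 0) (ha' : A (b 1) = a' • b 1)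
  (hne : a ≠ a')

include ha ha' hne in
/-- An eigenvector of `A` lies on one of the two eigenlines. -/
lemma repr_eq_zero_of_eigen {w : V} {c : k} (hw : A w = c • w) :
    b.repr w 0 = 0 ∨ b.repr w 1 = 0 := by
  set x := b.repr w 0
  set y := b.repr w 1
  have e1 : w = x • b 0 + y • b 1 := eq_pair b w
  have e2 : (x * a - c * x) • b 0 + (y * a' - c * y) • b 1 = 0 := by
    have : A w = (x * a) • b 0 + (y * a') • b 1 := by
      conv_lhs => rw [e1]
      rw [map_add, map_smul, map_smul, ha, ha', smul_smul, smul_smul]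
    rw [this] at hw
    conv_rhs at hw => rw [e1]
    rw [smul_add, smul_smul, smul_smul] at hw
    rw [sub_smul, sub_smul]
    rw [← sub_eq_zero] at hw
    rw [← hw]
    abel
  obtain ⟨h0, h1⟩ := pair_eq_zero b e2
  by_contra hcon
  rw [not_or] at hcon
  obtain ⟨hx, hy⟩ := hcon
  have h0' : a = c := by
    have : x * (a - c) = 0 := by rw [mul_sub]; linear_combination h0
    rcases mul_eq_zero.1 this with h | h
    · exact absurd h hx
    · exact sub_eq_zero.1 h
  have h1' : a' = c := by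
    have : y * (a' - c) = 0 := by rw [mul_sub]; linear_combination h1
    rcases mul_eq_zero.1 this with h | h
    · exact absurd h hy
    · exact sub_eq_zero.1 h
  exact hne (h0'.trans h1'.symm)

include ha ha' hne in
/-- An endomorphism commuting with `A` preserves the eigenline `k · b 0`. -/
lemma comm_apply_zero {B : Module.End k V} (hB : B * A = A * B) : ∃ c : k, B (b 0) = c • b 0 := by
  have hw : A (B (b 0)) = a • B (b 0) := by
    rw [← Module.End.mul_apply, ← hB, Module.End.mul_apply, ha, map_smul]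
  -- coordinates of `B (b 0)`
  set w := B (b 0)
  have e1 : w = b.repr w 0 • b 0 + b.repr w 1 • b 1 := eq_pair b w
  have key : b.repr w 1 = 0 := by
    have e2 : A w = (b.repr w 0 * a) • b 0 + (b.repr w 1 * a') • b 1 := by
      conv_lhs => rw [e1]
      rw [map_add, map_smul, map_smul, ha, ha', smul_smul, smul_smul]
    rw [e2] at hw
    conv_rhs at hw => rw [e1]
    rw [smul_add, smul_smul, smul_smul] at hw
    have e3 : (b.repr w 0 * a - a * b.repr w 0) • b 0 + (b.repr w 1 * a' - a * b.repr w 1) • b 1 = 0 := by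
      rw [sub_smul, sub_smul]
      rw [← sub_eq_zero] at hw
      rw [← hw]
      abel
    obtain ⟨-, h1⟩ := pair_eq_zero b e3
    have : b.repr w 1 * (a' - a) = 0 := by rw [mul_sub]; linear_combination h1
    rcases mul_eq_zero.1 this with h | h
    · exact h
    · exact absurd (sub_eq_zero.1 h).symm hne
  refine ⟨b.repr w 0, ?_⟩
  conv_lhs => rw [e1]
  rw [key, zero_smul, add_zero]

end Basis

section Induced

variable (ρ : G →* Module.End k V) (b : Module.Basis (Fin 2) k V) (τ₀ : G) {a a' : k}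
  (ha : ρ τ₀ (b 0) = a • b 0) (ha' : ρ τ₀ (b 1) = a' • b 1) (hne : a ≠ a')
  (hcomm : ∀ g : G, ρ (g⁻¹ * τ₀ * g) * ρ τ₀ = ρ τ₀ * ρ (g⁻¹ * τ₀ * g))

/-- The swapped basis. -/
noncomputable def swapBasis : Module.Basis (Fin 2) k V := b.reindex (Equiv.swap 0 1)

lemma swapBasis_zero : swapBasis b 0 = b 1 := by
  simp [swapBasis, Module.Basis.reindex_apply]

lemma swapBasis_one : swapBasis b 1 = b 0 := by
  simp [swapBasis, Module.Basis.reindex_apply]

omit [Group G] in
lemma ρ_injective' (A A' : Module.End k V) (h : A' * A = 1) : Function.Injective A := by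
  intro v w hvw
  have := congrArg A' hvw
  rwa [← Module.End.mul_apply, ← Module.End.mul_apply, h, Module.End.one_apply,
    Module.End.one_apply] at this

lemma ρ_injective (g : G) : Function.Injective (ρ g) :=
  ρ_injective' (ρ g) (ρ g⁻¹) (by rw [← map_mul, inv_mul_cancel, map_one])

include ha ha' hne hcomm in
/-- `ρ g (b 0)` lies on one of the two eigenlines. -/
lemma apply_zero_mem (g : G) :
    (∃ c : k, ρ g (b 0) = c • b 0) ∨ ∃ c : k, ρ g (b 0) = c • b 1 := by
  obtain ⟨c, hc⟩ := comm_apply_zero b (ρ τ₀) ha ha' hne (hcomm g)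
  have hw : ρ τ₀ (ρ g (b 0)) = c • ρ g (b 0) := by
    have e : ρ τ₀ * ρ g = ρ g * ρ (g⁻¹ * τ₀ * g) := by
      rw [← map_mul, ← map_mul]; congr 1; group
    rw [← Module.End.mul_apply, e, Module.End.mul_apply, hc, map_smul]
  rcases repr_eq_zero_of_eigen b (ρ τ₀) ha ha' hne hw with h | h
  · right
    refine ⟨b.repr (ρ g (b 0)) 1, ?_⟩
    conv_lhs => rw [eq_pair b (ρ g (b 0)), h, zero_smul, zero_add]
  · left
    refine ⟨b.repr (ρ g (b 0)) 0, ?_⟩
    conv_lhs => rw [eq_pair b (ρ g (b 0)), h, zero_smul, add_zero]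

include ha ha' hne hcomm in
/-- `ρ g (b 1)` lies on one of the two eigenlines. -/
lemma apply_one_mem (g : G) :
    (∃ c : k, ρ g (b 1) = c • b 1) ∨ ∃ c : k, ρ g (b 1) = c • b 0 := by
  have h := apply_zero_mem ρ (swapBasis b) τ₀ (a := a') (a' := a)
    (by rw [swapBasis_zero]; exact ha') (by rw [swapBasis_one]; exact ha) hne.symm hcomm g
  rw [swapBasis_zero, swapBasis_one] at h
  exact h

omit [Group G] in
lemma smul_eq_smul_imp {c c' : k} (h : c • b 0 = c' • b 1) : c = 0 ∧ c' = 0 := by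
  have : c • b 0 + (-c') • b 1 = 0 := by rw [neg_smul, h, add_neg_cancel]
  obtain ⟨h0, h1⟩ := pair_eq_zero b this
  exact ⟨h0, neg_eq_zero.1 h1⟩

/-- The stabiliser of the line `k · b 0`. -/
def lineStab : Subgroup G where
  carrier := {g | ∃ c : k, ρ g (b 0) = c • b 0}
  one_mem' := ⟨1, by rw [map_one, Module.End.one_apply, one_smul]⟩
  mul_mem' := by
    rintro g h ⟨c, hc⟩ ⟨c', hc'⟩
    exact ⟨c' * c, by rw [map_mul, Module.End.mul_apply, hc', map_smul, hc, smul_smul]⟩
  inv_mem' := by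
    rintro g ⟨c, hc⟩
    have hc0 : c ≠ 0 := by
      intro h0
      rw [h0, zero_smul] at hc
      have := ρ_injective ρ g (hc.trans (map_zero (ρ g)).symm)
      exact b.ne_zero 0 this
    refine ⟨c⁻¹, ?_⟩
    apply ρ_injective ρ g
    rw [← Module.End.mul_apply, ← map_mul, mul_inv_cancel, map_one, Module.End.one_apply,
      map_smul, hc, smul_smul, inv_mul_cancel₀ hc0, one_smul]

lemma mem_lineStab (g : G) : g ∈ lineStab ρ b ↔ ∃ c : k, ρ g (b 0) = c • b 0 := Iff.rfl

include ha ha' hne hcomm in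
/-- Off the stabiliser, `b 0` is sent to the other line. -/
lemma apply_zero_of_not_mem {g : G} (hg : g ∉ lineStab ρ b) : ∃ c : k, ρ g (b 0) = c • b 1 := by
  rcases apply_zero_mem ρ b τ₀ ha ha' hne hcomm g with h | h
  · exact absurd h hg
  · exact h

include ha ha' hne hcomm in
/-- On the stabiliser, `b 1` is an eigenvector as well. -/
lemma apply_one_of_mem {g : G} (hg : g ∈ lineStab ρ b) : ∃ c : k, ρ g (b 1) = c • b 1 := by
  rcases apply_one_mem ρ b τ₀ ha ha' hne hcomm g with h | ⟨c', hc'⟩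
  · exact h
  · exfalso
    obtain ⟨c, hc⟩ := hg
    have e : ρ g (c' • b 0 + (-c) • b 1) = 0 := by
      rw [map_add, map_smul, map_smul, hc, hc', smul_smul, smul_smul, mul_comm, ← add_smul,
        neg_mul, add_neg_cancel, zero_smul]
    have e' := ρ_injective ρ g (e.trans (map_zero (ρ g)).symm)
    obtain ⟨h0, h1⟩ := pair_eq_zero b e'
    rw [neg_eq_zero] at h1
    rw [h1, zero_smul] at hc
    exact b.ne_zero 0 (ρ_injective ρ g (hc.trans (map_zero (ρ g)).symm))

include ha ha' hne hcomm in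
/-- Off the stabiliser, `b 1` is sent to the line `k · b 0`. -/
lemma apply_one_of_not_mem {g : G} (hg : g ∉ lineStab ρ b) : ∃ c : k, ρ g (b 1) = c • b 0 := by
  rcases apply_one_mem ρ b τ₀ ha ha' hne hcomm g with ⟨c', hc'⟩ | h
  · exfalso
    obtain ⟨c, hc⟩ := apply_zero_of_not_mem ρ b τ₀ ha ha' hne hcomm hg
    have e : ρ g (c' • b 0 + (-c) • b 1) = 0 := by
      rw [map_add, map_smul, map_smul, hc, hc', smul_smul, smul_smul, mul_comm, ← add_smul,
        neg_mul, add_neg_cancel, zero_smul]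
    have e' := ρ_injective ρ g (e.trans (map_zero (ρ g)).symm)
    obtain ⟨h0, h1⟩ := pair_eq_zero b e'
    rw [neg_eq_zero] at h1
    rw [h1, zero_smul] at hc
    exact b.ne_zero 0 (ρ_injective ρ g (hc.trans (map_zero (ρ g)).symm))
  · exact h

include ha ha' hne hcomm in
/-- The stabiliser of the line has index `2` when `G` does not stabilise it. -/
lemma index_lineStab (hns : ∃ s : G, s ∉ lineStab ρ b) : (lineStab ρ b).index = 2 := by
  obtain ⟨s, hs⟩ := hns
  rw [Subgroup.index_eq_two_iff]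
  refine ⟨s, fun g => ?_⟩
  obtain ⟨c, hc⟩ := apply_zero_of_not_mem ρ b τ₀ ha ha' hne hcomm hs
  have hc0 : c ≠ 0 := by
    intro h0
    rw [h0, zero_smul] at hc
    exact b.ne_zero 0 (ρ_injective ρ s (hc.trans (map_zero (ρ s)).symm))
  by_cases hg : g ∈ lineStab ρ b
  · right
    refine ⟨hg, ?_⟩
    intro hgs
    obtain ⟨c1, hc1⟩ := apply_one_of_mem ρ b τ₀ ha ha' hne hcomm hg
    obtain ⟨c2, hc2⟩ := hgs
    rw [map_mul, Module.End.mul_apply, hc, map_smul, hc1, smul_smul] at hc2
    obtain ⟨h0, h1⟩ := smul_eq_smul_imp b hc2.symm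
    rcases mul_eq_zero.1 h1 with h | h
    · exact hc0 h
    · rw [h, zero_smul] at hc1
      exact b.ne_zero 1 (ρ_injective ρ g (hc1.trans (map_zero (ρ g)).symm))
  · left
    refine ⟨?_, hg⟩
    obtain ⟨c1, hc1⟩ := apply_one_of_not_mem ρ b τ₀ ha ha' hne hcomm hg
    exact ⟨c * c1, by rw [map_mul, Module.End.mul_apply, hc, map_smul, hc1, smul_smul]⟩

include ha ha' hne hcomm in
/-- **SHAPE, induced case.** If `ρ τ₀` has two distinct eigenvalues with eigenbasis `b`, commutes
with its conjugates, and `G` does not stabilise the line `k · b 0`, then `H := lineStab ρ b` is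
normal of index `2`, contains `τ₀`, `ρ` is diagonal on `H` and swaps the lines off `H`. -/
theorem exists_subgroup (hns : ∃ s : G, s ∉ lineStab ρ b) :
    ∃ H : Subgroup G, H.Normal ∧ H.index = 2 ∧ τ₀ ∈ H ∧
      (∀ h ∈ H, (∃ c : k, ρ h (b 0) = c • b 0) ∧ ∃ c : k, ρ h (b 1) = c • b 1) ∧
      (∀ g ∉ H, (∃ c : k, ρ g (b 0) = c • b 1) ∧ ∃ c : k, ρ g (b 1) = c • b 0) := by
  have hidx := index_lineStab ρ b τ₀ ha ha' hne hcomm hns
  exact ⟨lineStab ρ b, Subgroup.normal_of_index_eq_two hidx, hidx, ⟨a, ha⟩,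
    fun h hh => ⟨hh, apply_one_of_mem ρ b τ₀ ha ha' hne hcomm hh⟩,
    fun g hg => ⟨apply_zero_of_not_mem ρ b τ₀ ha ha' hne hcomm hg,
      apply_one_of_not_mem ρ b τ₀ ha ha' hne hcomm hg⟩⟩

end Induced

section Eigen

open Polynomial

variable [Module.Finite k V] (hV : finrank k V = 2)

/-- A root of a split characteristic polynomial has an eigenvector. -/
lemma exists_eigenvector (A : Module.End k V) {a a' : k}
    (hA : LinearMap.charpoly A = (X - C a) * (X - C a')) : ∃ v : V, v ≠ 0 ∧ A v = a • v := by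
  have hroot : (LinearMap.charpoly A).IsRoot a := by
    rw [hA, IsRoot.def, eval_mul, eval_sub, eval_X, eval_C, sub_self, zero_mul]
  obtain ⟨v, hv⟩ := ((Module.End.hasEigenvalue_iff_isRoot_charpoly A a).2
    hroot).exists_hasEigenvector
  exact ⟨v, hv.2, hv.apply_eq_smul⟩

include hV in
/-- Distinct roots of a split characteristic polynomial give an eigenbasis. -/
lemma exists_eigenbasis (A : Module.End k V) {a a' : k}
    (hA : LinearMap.charpoly A = (X - C a) * (X - C a')) (hne : a ≠ a') :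
    ∃ b : Module.Basis (Fin 2) k V, A (b 0) = a • b 0 ∧ A (b 1) = a' • b 1 := by
  obtain ⟨v, hv0, hv⟩ := exists_eigenvector A hA
  obtain ⟨v', hv'0, hv'⟩ := exists_eigenvector A (a := a') (a' := a) (by rw [hA, mul_comm])
  have hli : LinearIndependent k ![v, v'] := by
    rw [LinearIndependent.pair_iff]
    intro s t hst
    have h1 := congrArg A hst
    rw [map_add, map_smul, map_smul, hv, hv', map_zero] at h1
    have h2 : (s * (a - a')) • v = 0 := by
      have h3 : a' • (s • v + t • v') = 0 := by rw [hst, smul_zero]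
      rw [smul_add] at h3
      have h4 : s • a • v + t • a' • v' - (a' • s • v + a' • t • v') = 0 := by
        rw [h1, h3, sub_zero]
      rw [← h4, mul_sub, sub_smul, mul_smul, mul_smul, smul_comm a' s v, smul_comm a' t v']
      abel
    have hs : s = 0 := by
      rcases smul_eq_zero.1 h2 with h | h
      · rcases mul_eq_zero.1 h with h | h
        · exact h
        · exact absurd (sub_eq_zero.1 h) hne
      · exact absurd h hv0
    rw [hs, zero_smul, zero_add] at hst
    rcases smul_eq_zero.1 hst with h | h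
    · exact ⟨hs, h⟩
    · exact absurd h hv'0
  have hcard : Fintype.card (Fin 2) = finrank k V := by rw [hV]; rfl
  refine ⟨basisOfLinearIndependentOfCardEqFinrank hli hcard, ?_, ?_⟩
  · rw [coe_basisOfLinearIndependentOfCardEqFinrank]; exact hv
  · rw [coe_basisOfLinearIndependentOfCardEqFinrank]; exact hv'

/-- An endomorphism of finite order prime to the characteristic with characteristic polynomial
`(X - a)(X - a')` is the scalar `a`, or `a ≠ a'`. -/
lemma scalar_or_ne_of_pow_eq_one (A : Module.End k V) {a a' : k}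
    (hA : LinearMap.charpoly A = (X - C a) * (X - C a')) {n : ℕ} (hn : (n : k) ≠ 0)
    (hAn : A ^ n = 1) : A = a • (1 : Module.End k V) ∨ a ≠ a' := by
  by_cases hne : a = a'
  · left
    subst hne
    set N : Module.End k V := A - a • 1 with hN
    have hNN : N * N = 0 := by
      have h := LinearMap.aeval_self_charpoly A
      rw [hA, map_mul, map_sub, aeval_X, aeval_C] at h
      rw [hN, ← h, Algebra.algebraMap_eq_smul_one]
    have hAeq : A = a • 1 + N := by rw [hN]; abel
    have hpow : ∀ m : ℕ, A ^ (m + 1) = a ^ (m + 1) • 1 + (((m + 1 : ℕ) : k) * a ^ m) • N := by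
      intro m
      induction m with
      | zero => simp [hAeq]
      | succ m ih =>
        rw [pow_succ, ih]
        conv_lhs => rw [hAeq]
        simp only [add_mul, mul_add, smul_mul_assoc, mul_smul_comm, one_mul, mul_one, hNN,
          smul_zero, add_zero]
        push_cast
        module
    obtain ⟨m, rfl⟩ : ∃ m, n = m + 1 := by
      refine Nat.exists_eq_succ_of_ne_zero ?_
      rintro rfl
      exact hn (by simp)
    have h1 := hpow m
    rw [hAn] at h1
    by_contra hcon
    have hN0 : N ≠ 0 := by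
      intro h0
      apply hcon
      rw [hAeq, h0, add_zero]
    -- multiply by N
    have h2 : N = a ^ (m + 1) • N := by
      have := congrArg (fun B => B * N) h1
      simp only [one_mul, add_mul, smul_mul_assoc, hNN, smul_zero, add_zero] at this
      exact this
    have h3 : a ^ (m + 1) = 1 := by
      have : (1 - a ^ (m + 1)) • N = 0 := by
        rw [sub_smul, one_smul, ← h2, sub_self]
      rcases smul_eq_zero.1 this with h | h
      · exact (sub_eq_zero.1 h).symm
      · exact absurd h hN0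
    rw [h3, one_smul, left_eq_add] at h1
    rcases smul_eq_zero.1 h1 with h | h
    · rcases mul_eq_zero.1 h with h | h
      · exact hn h
      · have ha0 : a = 0 := by
          by_contra hane
          exact pow_ne_zero m hane h
        rw [ha0, zero_pow (Nat.succ_ne_zero m)] at h3
        exact zero_ne_one h3
    · exact hN0 h
  · right; exact hne

end Eigen

section Scalar

variable (ρ : G →* Module.End k V)

/-- The stabiliser of the line through a nonzero vector. -/
def vecStab (v : V) (hv : v ≠ 0) : Subgroup G where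
  carrier := {g | ∃ c : k, ρ g v = c • v}
  one_mem' := ⟨1, by rw [map_one, Module.End.one_apply, one_smul]⟩
  mul_mem' := by
    rintro g h ⟨c, hc⟩ ⟨c', hc'⟩
    exact ⟨c' * c, by rw [map_mul, Module.End.mul_apply, hc', map_smul, hc, smul_smul]⟩
  inv_mem' := by
    rintro g ⟨c, hc⟩
    have hc0 : c ≠ 0 := by
      intro h0
      rw [h0, zero_smul] at hc
      exact hv (ρ_injective ρ g (hc.trans (map_zero (ρ g)).symm))
    refine ⟨c⁻¹, ?_⟩
    apply ρ_injective ρ g
    rw [← Module.End.mul_apply, ← map_mul, mul_inv_cancel, map_one, Module.End.one_apply,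
      map_smul, hc, smul_smul, inv_mul_cancel₀ hc0, one_smul]

/-- If a subgroup `T` acts by scalars, `G = ⟨φ⟩ T`, and `ρ φ` has an eigenvector `v`, then `k · v`
is a `G`-stable line. -/
theorem exists_stable_line_of_scalar (T : Subgroup G)
    (hT : ∀ τ ∈ T, ∃ c : k, ρ τ = c • (1 : Module.End k V))
    (φ : G) (hφ : ∀ g : G, ∃ m : ℤ, ∃ τ ∈ T, g = φ ^ m * τ)
    {v : V} (hv : v ≠ 0) {c : k} (hc : ρ φ v = c • v) (g : G) : ∃ c' : k, ρ g v = c' • v := by
  obtain ⟨m, τ, hτ, rfl⟩ := hφ g
  have h1 : φ ∈ vecStab ρ v hv := ⟨c, hc⟩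
  have h2 : τ ∈ vecStab ρ v hv := by
    obtain ⟨c', hc'⟩ := hT τ hτ
    exact ⟨c', by rw [hc', LinearMap.smul_apply, Module.End.one_apply]⟩
  exact (vecStab ρ v hv).mul_mem ((vecStab ρ v hv).zpow_mem h1 m) h2

end Scalar

section PGroup

variable (ρ : G →* Module.End k V) (p : ℕ) [Fact p.Prime] [CharP k p] [Finite k] [Module.Finite k V]

/-- A subgroup whose image is a `p`-group has a nonzero fixed vector (`char k = p`, `V ≠ 0`). -/
theorem exists_fixed_vector (P : Subgroup G) (hP : ∀ x ∈ P, ∃ n : ℕ, ρ x ^ (p ^ n) = 1)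
    (hV : 0 < finrank k V) : ∃ v : V, v ≠ 0 ∧ ∀ x ∈ P, ρ x v = v := by
  classical
  have : Finite V := Module.finite_of_finite k
  set f : P →* (Module.End k V)ˣ := ρ.toHomUnits.comp P.subtype with hf
  have hfx : ∀ x : P, ((f x : (Module.End k V)ˣ) : Module.End k V) = ρ (x : G) := fun x => rfl
  have hPg : IsPGroup p f.range := by
    rintro ⟨u, x, rfl⟩
    obtain ⟨n, hn⟩ := hP x x.2
    refine ⟨n, ?_⟩
    apply Subtype.ext
    apply Units.ext
    change ((f x) ^ (p ^ n) : (Module.End k V)ˣ).val = 1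
    rw [Units.val_pow_eq_pow_val, hfx, hn]
  have hmod := hPg.card_modEq_card_fixedPoints V
  have hcardV : p ∣ Nat.card V := by
    have : Fintype k := Fintype.ofFinite k
    have : Fintype V := Fintype.ofFinite V
    rw [Nat.card_eq_fintype_card, Module.card_eq_pow_finrank (K := k) (V := V)]
    have hpk : p ∣ Fintype.card k := by
      have := CharP.cast_eq_zero_iff k p (Fintype.card k)
      exact this.1 (by simp)
    exact dvd_pow hpk (Nat.pos_iff_ne_zero.1 hV)
  have hfix : p ∣ Nat.card (MulAction.fixedPoints f.range V) := by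
    exact (Nat.modEq_zero_iff_dvd.1 ((hmod.symm.trans (Nat.modEq_zero_iff_dvd.2 hcardV))))
  have h0mem : (0 : V) ∈ MulAction.fixedPoints f.range V := by
    rw [MulAction.mem_fixedPoints]
    rintro ⟨u, hu⟩
    exact map_zero (u : Module.End k V)
  -- more than one fixed point
  have hcard2 : 1 < Nat.card (MulAction.fixedPoints f.range V) := by
    have hpos : 0 < Nat.card (MulAction.fixedPoints f.range V) :=
      Nat.card_pos_iff.2 ⟨⟨⟨0, h0mem⟩⟩, inferInstance⟩
    have hp2 : 2 ≤ p := (Fact.out : p.Prime).two_le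
    have := Nat.le_of_dvd hpos hfix
    omega
  obtain ⟨⟨v, hv⟩, ⟨w, hw⟩, hvw⟩ := (Finite.one_lt_card_iff_nontrivial.1 hcard2).exists_pair_ne
  have hfixed : ∀ u : V, u ∈ MulAction.fixedPoints f.range V → ∀ x ∈ P, ρ x u = u := by
    intro u hu x hx
    rw [MulAction.mem_fixedPoints] at hu
    exact hu ⟨f ⟨x, hx⟩, ⟨x, hx⟩, rfl⟩
  by_cases hv0 : v = 0
  · refine ⟨w, ?_, hfixed w hw⟩
    rintro rfl
    exact hvw (Subtype.ext hv0)
  · exact ⟨v, hv0, hfixed v hv⟩

end PGroup

section Combined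

open Polynomial

variable (ρ : G →* Module.End k V) (p : ℕ) [Fact p.Prime] [CharP k p] [Finite k]
  [Module.Finite k V] (hV : finrank k V = 2)

include hV in
/-- A normal subgroup whose image is a `p`-group acts trivially if `G` has no stable line. -/
theorem trivial_of_pgroup (P : Subgroup G) [hPn : P.Normal]
    (hP : ∀ x ∈ P, ∃ n : ℕ, ρ x ^ (p ^ n) = 1)
    (hirr : ¬ ∃ v : V, v ≠ 0 ∧ ∀ g, ∃ c : k, ρ g v = c • v) : ∀ x ∈ P, ρ x = 1 := by
  -- the fixed space
  let W : Submodule k V :=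
    { carrier := {v | ∀ x ∈ P, ρ x v = v}
      add_mem' := fun {u v} hu hv x hx => by rw [map_add, hu x hx, hv x hx]
      zero_mem' := fun x _ => map_zero _
      smul_mem' := fun c v hv x hx => by rw [map_smul, hv x hx] }
  have hWst : ∀ g : G, ∀ v ∈ W, ρ g v ∈ W := by
    intro g v hv x hx
    have hx' : g⁻¹ * x * g ∈ P := by
      have := hPn.conj_mem x hx g⁻¹
      rwa [inv_inv] at this
    have e : ρ x * ρ g = ρ g * ρ (g⁻¹ * x * g) := by
      rw [← map_mul, ← map_mul]; congr 1; group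
    rw [← Module.End.mul_apply, e, Module.End.mul_apply, hv _ hx']
  obtain ⟨w, hw0, hw⟩ := exists_fixed_vector ρ p P hP (by rw [hV]; norm_num)
  have hwW : w ∈ W := hw
  by_cases htop : W = ⊤
  · intro x hx
    ext v
    have : v ∈ W := by rw [htop]; exact Submodule.mem_top
    rw [Module.End.one_apply]
    exact this x hx
  · exfalso
    apply hirr
    refine ⟨w, hw0, fun g => ?_⟩
    have hlt : finrank k W < 2 := by
      rw [← hV]
      exact Submodule.finrank_lt htop
    have hpos : 0 < finrank k W := by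
      rw [Module.finrank_pos_iff_exists_ne_zero]
      exact ⟨⟨w, hwW⟩, fun h => hw0 (congrArg Subtype.val h)⟩
    have h1 : finrank k W = 1 := by omega
    have hne : (⟨w, hwW⟩ : W) ≠ 0 := fun h => hw0 (congrArg Subtype.val h)
    obtain ⟨c, hc⟩ := (finrank_eq_one_iff_of_nonzero' (⟨w, hwW⟩ : W) hne).1 h1
      ⟨ρ g w, hWst g w hwW⟩
    exact ⟨c, (congrArg Subtype.val hc).symm⟩

include hV in
/-- **SHAPE (abstract).** `T ⊲ G` with `T/P` abelian of order prime to `p`, `P ⊲ G` with `p`-group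
image, `G = ⟨φ⟩ T`, all characteristic polynomials split, no stable line.  Then there are a normal
subgroup `H ⊇ T` of index `2` and a basis in which `ρ` is diagonal on `H` and antidiagonal off `H`;
moreover some `τ₀ ∈ T` has distinct eigenvalues on the two basis vectors. -/
theorem shape (T P : Subgroup G) [hTn : T.Normal] [hPn : P.Normal]
    (hP : ∀ x ∈ P, ∃ n : ℕ, ρ x ^ (p ^ n) = 1)
    (hTab : ∀ τ ∈ T, ∀ τ' ∈ T, τ * τ' * τ⁻¹ * τ'⁻¹ ∈ P)
    (hTord : ∀ τ ∈ T, ∃ n : ℕ, ¬ p ∣ n ∧ τ ^ n ∈ P)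
    (hsplit : ∀ g, ∃ a a' : k, LinearMap.charpoly (ρ g) = (X - C a) * (X - C a'))
    (φ : G) (hφ : ∀ g : G, ∃ m : ℤ, ∃ τ ∈ T, g = φ ^ m * τ)
    (hirr : ¬ ∃ v : V, v ≠ 0 ∧ ∀ g, ∃ c : k, ρ g v = c • v) :
    ∃ (H : Subgroup G) (b : Module.Basis (Fin 2) k V), H.Normal ∧ H.index = 2 ∧ T ≤ H ∧
      (∀ h ∈ H, (∃ c : k, ρ h (b 0) = c • b 0) ∧ ∃ c : k, ρ h (b 1) = c • b 1) ∧
      (∀ g ∉ H, (∃ c : k, ρ g (b 0) = c • b 1) ∧ ∃ c : k, ρ g (b 1) = c • b 0) ∧
      ∃ τ₀ ∈ T, ∃ a a' : k, a ≠ a' ∧ ρ τ₀ (b 0) = a • b 0 ∧ ρ τ₀ (b 1) = a' • b 1 := by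
  have h1 := trivial_of_pgroup ρ p hV P hP hirr
  have hcommT : ∀ τ ∈ T, ∀ τ' ∈ T, ρ τ * ρ τ' = ρ τ' * ρ τ := by
    intro τ hτ τ' hτ'
    have e := h1 _ (hTab τ hτ τ' hτ')
    have e2 : τ * τ' = (τ * τ' * τ⁻¹ * τ'⁻¹) * (τ' * τ) := by group
    rw [← map_mul, e2, map_mul, e, one_mul, map_mul]
  have hordT : ∀ τ ∈ T, ∃ n : ℕ, (n : k) ≠ 0 ∧ ρ τ ^ n = 1 := by
    intro τ hτ
    obtain ⟨n, hpn, hn⟩ := hTord τ hτ
    refine ⟨n, ?_, ?_⟩
    · rw [Ne, CharP.cast_eq_zero_iff k p]; exact hpn
    · rw [← map_pow]; exact h1 _ hn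
  by_cases hsc : ∀ τ ∈ T, ∃ c : k, ρ τ = c • (1 : Module.End k V)
  · exfalso
    obtain ⟨a, a', ha⟩ := hsplit φ
    obtain ⟨v, hv0, hv⟩ := exists_eigenvector (ρ φ) ha
    exact hirr ⟨v, hv0, exists_stable_line_of_scalar ρ T hsc φ hφ hv0 hv⟩
  · simp only [not_forall] at hsc
    obtain ⟨τ₀, hτ₀, hns⟩ := hsc
    obtain ⟨a, a', ha⟩ := hsplit τ₀
    obtain ⟨n, hn0, hn⟩ := hordT τ₀ hτ₀
    have hne : a ≠ a' := by
      rcases scalar_or_ne_of_pow_eq_one (ρ τ₀) ha hn0 hn with h | h
      · exact absurd ⟨a, h⟩ hns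
      · exact h
    obtain ⟨b, hb0, hb1⟩ := exists_eigenbasis hV (ρ τ₀) ha hne
    have hcomm : ∀ g : G, ρ (g⁻¹ * τ₀ * g) * ρ τ₀ = ρ τ₀ * ρ (g⁻¹ * τ₀ * g) := by
      intro g
      have hmem : g⁻¹ * τ₀ * g ∈ T := by
        have := hTn.conj_mem τ₀ hτ₀ g⁻¹
        rwa [inv_inv] at this
      exact hcommT _ hmem _ hτ₀
    have hnst : ∃ s : G, s ∉ lineStab ρ b := by
      by_contra hcon
      simp only [not_exists, not_not] at hcon
      exact hirr ⟨b 0, b.ne_zero 0, fun g => hcon g⟩
    have hidx := index_lineStab ρ b τ₀ hb0 hb1 hne hcomm hnst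
    refine ⟨lineStab ρ b, b, Subgroup.normal_of_index_eq_two hidx, hidx, ?_,
      fun h hh => ⟨hh, apply_one_of_mem ρ b τ₀ hb0 hb1 hne hcomm hh⟩,
      fun g hg => ⟨apply_zero_of_not_mem ρ b τ₀ hb0 hb1 hne hcomm hg,
        apply_one_of_not_mem ρ b τ₀ hb0 hb1 hne hcomm hg⟩,
      τ₀, hτ₀, a, a', hne, hb0, hb1⟩
    intro τ hτ
    exact comm_apply_zero b (ρ τ₀) hb0 hb1 hne (hcommT τ hτ τ₀ hτ₀)

end Combined

end Fermat.Agent.TW.Cnt.ShapeAbs55
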