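/-
Program TW (S56), work package WP7-CNT: abstract SHAPE with characters (helper55).

`ρ : Γ →* End_k(V)`, `dim V = 2`, `k` finite of characteristic `p`; `I, W ⊲ Γ` with `ρ(W)` a `p`-group,
`[I, I] ⊆ W`, `φ τ φ⁻¹ ≡ τ^p mod W` on `I`, `ρ(Γ) = ρ(⟨φ⟩ I)`, all characteristic polynomials split, no
stable line.  Then `ρ` is induced from an index-two subgroup `H ⊇ I`: there are a basis `b` and
characters `χ₁ χ₂ : H →* kˣ` such that `ρ|H = diag(χ₁, χ₂)`, `ρ` is antidiagonal off `H`, `χ₂ = χ₁^p` on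
`I`, and `χ₁ ≠ χ₂` somewhere on `I`  (the literal conclusion of `Table72.IndShape`).
-/
import Mathlib
import Fermat.Agent.TW.Cnt.ShapeAbs55

set_option autoImplicit false

open Module Polynomial

namespace Fermat.Agent.TW.Cnt.ShapeChar55

open Fermat.Agent.TW.Cnt.ShapeAbs55

variable {k V Γ : Type*} [Field k] [AddCommGroup V] [Module k V] [Group Γ]

/-! ### Linear algebra -/

lemma pow_apply_eigen (A : Module.End k V) {v : V} {c : k} (h : A v = c • v) (n : ℕ) :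
    (A ^ n) v = c ^ n • v := by
  induction n with
  | zero => rw [pow_zero, pow_zero, Module.End.one_apply, one_smul]
  | succ n ih =>
    rw [pow_succ, Module.End.mul_apply, h, map_smul, ih, smul_smul, pow_succ, mul_comm]

/-- A commuting family of endomorphisms of a plane with split characteristic polynomials has a
common eigenvector. -/
theorem exists_common_eigenvector [Module.Finite k V] (hV : finrank k V = 2)
    (S : Set (Module.End k V)) (hcomm : ∀ A ∈ S, ∀ B ∈ S, A * B = B * A)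
    (hsplit : ∀ A ∈ S, ∃ a a' : k, LinearMap.charpoly A = (X - C a) * (X - C a')) :
    ∃ v : V, v ≠ 0 ∧ ∀ A ∈ S, ∃ c : k, A v = c • v := by
  by_cases hsc : ∀ A ∈ S, ∃ c : k, A = c • (1 : Module.End k V)
  · have hpos : 0 < finrank k V := by rw [hV]; norm_num
    obtain ⟨v, hv⟩ := Module.finrank_pos_iff_exists_ne_zero.1 hpos
    refine ⟨v, hv, fun A hA => ?_⟩
    obtain ⟨c, hc⟩ := hsc A hA
    exact ⟨c, by rw [hc, LinearMap.smul_apply, Module.End.one_apply]⟩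
  · simp only [not_forall] at hsc
    obtain ⟨A, hA, hns⟩ := hsc
    obtain ⟨a, a', ha⟩ := hsplit A hA
    obtain ⟨v, hv0, hv⟩ := exists_eigenvector A ha
    -- the eigenspace of `A`
    let E : Submodule k V := LinearMap.ker (A - a • (1 : Module.End k V))
    have hmemE : ∀ w : V, w ∈ E ↔ A w = a • w := by
      intro w
      rw [LinearMap.mem_ker, LinearMap.sub_apply, LinearMap.smul_apply, Module.End.one_apply,
        sub_eq_zero]
    have hvE : v ∈ E := (hmemE v).2 hv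
    have htop : E ≠ ⊤ := by
      intro h
      apply hns
      refine ⟨a, ?_⟩
      ext w
      rw [LinearMap.smul_apply, Module.End.one_apply]
      exact (hmemE w).1 (by rw [h]; exact Submodule.mem_top)
    have hlt : finrank k E < 2 := by
      rw [← hV]
      exact Submodule.finrank_lt htop
    have hne : (⟨v, hvE⟩ : E) ≠ 0 := fun h => hv0 (congrArg Subtype.val h)
    have hpos : 0 < finrank k E := by
      rw [Module.finrank_pos_iff_exists_ne_zero]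
      exact ⟨⟨v, hvE⟩, hne⟩
    have h1 : finrank k E = 1 := by omega
    refine ⟨v, hv0, fun B hB => ?_⟩
    have hBv : B v ∈ E := by
      rw [hmemE, ← Module.End.mul_apply, hcomm A hA B hB, Module.End.mul_apply, hv, map_smul]
    obtain ⟨c, hc⟩ := (finrank_eq_one_iff_of_nonzero' (⟨v, hvE⟩ : E) hne).1 h1 ⟨B v, hBv⟩
    exact ⟨c, (congrArg Subtype.val hc).symm⟩

/-! ### Eigencharacters -/

section EigChar

variable (ρ : Γ →* Module.End k V) (H : Subgroup Γ) {v : V}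
  (h : ∀ g ∈ H, ∃ c : k, ρ g v = c • v)

/-- The eigenvalue of `ρ g` on `v`. -/
noncomputable def eigFun (g : ↥H) : k := (h g g.2).choose

lemma eigFun_spec (g : ↥H) : ρ g v = eigFun ρ H h g • v := (h g g.2).choose_spec

variable (hv : v ≠ 0)

include hv in
lemma eigFun_unique (g : ↥H) {c : k} (hc : ρ g v = c • v) : eigFun ρ H h g = c := by
  have e : (eigFun ρ H h g - c) • v = 0 := by
    rw [sub_smul, ← eigFun_spec ρ H h g, hc, sub_self]
  rcases smul_eq_zero.1 e with h0 | h0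
  · exact sub_eq_zero.1 h0
  · exact absurd h0 hv

/-- The character by which `H` acts on the line `k · v`. -/
noncomputable def eigChar : ↥H →* kˣ :=
  MonoidHom.toHomUnits
    { toFun := eigFun ρ H h
      map_one' := eigFun_unique ρ H h hv 1 (by
        rw [Subgroup.coe_one, map_one, Module.End.one_apply, one_smul])
      map_mul' := fun g g' => eigFun_unique ρ H h hv (g * g') (by
        rw [Subgroup.coe_mul, map_mul, Module.End.mul_apply, eigFun_spec ρ H h g', map_smul,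
          eigFun_spec ρ H h g, smul_smul, mul_comm]) }

lemma eigChar_spec (g : ↥H) : ρ g v = ((eigChar ρ H h hv g : kˣ) : k) • v := by
  rw [eigChar, MonoidHom.coe_toHomUnits]
  exact eigFun_spec ρ H h g

lemma eigChar_unique (g : ↥H) {c : k} (hc : ρ g v = c • v) :
    ((eigChar ρ H h hv g : kˣ) : k) = c := by
  rw [eigChar, MonoidHom.coe_toHomUnits]
  exact eigFun_unique ρ H h hv g hc

end EigChar

/-! ### Stable lines from scalars (`ρ`-form of `G = ⟨φ⟩ T`) -/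

theorem exists_stable_line_of_scalar' (ρ : Γ →* Module.End k V) (T : Subgroup Γ)
    (hT : ∀ τ ∈ T, ∃ c : k, ρ τ = c • (1 : Module.End k V))
    (φ : Γ) (hφ : ∀ g : Γ, ∃ m : ℤ, ∃ τ ∈ T, ρ g = ρ (φ ^ m * τ))
    {v : V} (hv : v ≠ 0) {c : k} (hc : ρ φ v = c • v) (g : Γ) : ∃ c' : k, ρ g v = c' • v := by
  obtain ⟨m, τ, hτ, e⟩ := hφ g
  have h1 : φ ∈ vecStab ρ v hv := ⟨c, hc⟩
  have h2 : τ ∈ vecStab ρ v hv := by
    obtain ⟨c', hc'⟩ := hT τ hτ
    exact ⟨c', by rw [hc', LinearMap.smul_apply, Module.End.one_apply]⟩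
  rw [e]
  exact (vecStab ρ v hv).mul_mem ((vecStab ρ v hv).zpow_mem h1 m) h2

/-! ### The abstract shape theorem -/

section Main

variable (ρ : Γ →* Module.End k V) (p : ℕ) [Fact p.Prime] [CharP k p] [Finite k]
  [Module.Finite k V] (hV : finrank k V = 2)

include hV in
/-- **SHAPE (abstract, with characters).** -/
theorem indShape_abstract (I W : Subgroup Γ) [hIn : I.Normal] [hWn : W.Normal]
    (ha : ∀ w ∈ W, ∃ a : ℕ, ρ w ^ (p ^ a) = 1)
    (hb : ∀ τ ∈ I, ∀ τ' ∈ I, τ * τ' * τ⁻¹ * τ'⁻¹ ∈ W)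
    (φ : Γ) (hc : ∀ τ ∈ I, φ * τ * φ⁻¹ * (τ ^ p)⁻¹ ∈ W)
    (hd : ∀ g : Γ, ∃ m : ℤ, ∃ τ ∈ I, ρ g = ρ (φ ^ m * τ))
    (he : ∀ g, ∃ a a' : k, LinearMap.charpoly (ρ g) = (X - C a) * (X - C a'))
    (hf : ∀ v : V, v ≠ 0 → ∃ g : Γ, ¬ ∃ a : k, ρ g v = a • v) :
    ∃ (H : Subgroup Γ) (b : Module.Basis (Fin 2) k V) (χ₁ χ₂ : ↥H →* kˣ), H.index = 2 ∧ I ≤ H ∧
      (∀ h : ↥H, LinearMap.toMatrix b b (ρ h) = Matrix.diagonal ![(χ₁ h : k), (χ₂ h : k)]) ∧
      (∀ s : Γ, s ∉ H →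
        LinearMap.toMatrix b b (ρ s) 0 0 = 0 ∧ LinearMap.toMatrix b b (ρ s) 1 1 = 0) ∧
      (∀ τ : ↥H, (τ : Γ) ∈ I → χ₂ τ = χ₁ τ ^ p) ∧
      (∃ τ : ↥H, (τ : Γ) ∈ I ∧ χ₁ τ ≠ χ₂ τ) := by
  have hirr : ¬ ∃ v : V, v ≠ 0 ∧ ∀ g, ∃ c : k, ρ g v = c • v := by
    rintro ⟨v, hv0, hv⟩
    obtain ⟨g, hg⟩ := hf v hv0
    exact hg (hv g)
  have h1 := trivial_of_pgroup ρ p hV W ha hirr
  have hcommI : ∀ τ ∈ I, ∀ τ' ∈ I, ρ τ * ρ τ' = ρ τ' * ρ τ := by
    intro τ hτ τ' hτ'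
    have e := h1 _ (hb τ hτ τ' hτ')
    have e2 : τ * τ' = (τ * τ' * τ⁻¹ * τ'⁻¹) * (τ' * τ) := by group
    rw [← map_mul, e2, map_mul, e, one_mul, map_mul]
  -- a common eigenvector of `ρ(I)`
  obtain ⟨v₁, hv₁0, hv₁'⟩ := exists_common_eigenvector hV (ρ '' (I : Set Γ))
    (by
      rintro _ ⟨τ, hτ, rfl⟩ _ ⟨τ', hτ', rfl⟩
      exact hcommI τ hτ τ' hτ')
    (by
      rintro _ ⟨τ, -, rfl⟩
      exact he τ)
  have hv₁ : ∀ τ ∈ I, ∃ c : k, ρ τ v₁ = c • v₁ := fun τ hτ => hv₁' _ ⟨τ, hτ, rfl⟩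
  obtain ⟨g₀, hg₀⟩ := hf v₁ hv₁0
  set v₂ : V := ρ g₀ v₁ with hv₂def
  have hv₂ : ∀ τ ∈ I, ∃ c : k, ρ τ v₂ = c • v₂ := by
    intro τ hτ
    have hmem : g₀⁻¹ * τ * g₀ ∈ I := by
      have := hIn.conj_mem τ hτ g₀⁻¹
      rwa [inv_inv] at this
    obtain ⟨c, hc'⟩ := hv₁ _ hmem
    refine ⟨c, ?_⟩
    have e : ρ τ * ρ g₀ = ρ g₀ * ρ (g₀⁻¹ * τ * g₀) := by
      rw [← map_mul, ← map_mul]; congr 1; group
    rw [hv₂def, ← Module.End.mul_apply, e, Module.End.mul_apply, hc', map_smul]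
  -- the basis `(v₁, v₂)`
  have hli : LinearIndependent k ![v₁, v₂] := by
    rw [LinearIndependent.pair_iff]
    intro s t hst
    have ht : t = 0 := by
      by_contra ht
      apply hg₀
      refine ⟨-(t⁻¹ * s), ?_⟩
      have : t • v₂ = -(s • v₁) := eq_neg_of_add_eq_zero_right hst
      have h2 : v₂ = t⁻¹ • (t • v₂) := by rw [smul_smul, inv_mul_cancel₀ ht, one_smul]
      conv_lhs => rw [h2, this]
      rw [smul_neg, smul_smul, neg_smul]
    rw [ht, zero_smul, add_zero] at hst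
    rcases smul_eq_zero.1 hst with h | h
    · exact ⟨h, ht⟩
    · exact absurd h hv₁0
  have hcard : Fintype.card (Fin 2) = finrank k V := by rw [hV]; rfl
  let b : Module.Basis (Fin 2) k V := basisOfLinearIndependentOfCardEqFinrank hli hcard
  have hb0 : b 0 = v₁ := by
    show basisOfLinearIndependentOfCardEqFinrank hli hcard 0 = v₁
    rw [coe_basisOfLinearIndependentOfCardEqFinrank]; rfl
  have hb1 : b 1 = v₂ := by
    show basisOfLinearIndependentOfCardEqFinrank hli hcard 1 = v₂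
    rw [coe_basisOfLinearIndependentOfCardEqFinrank]; rfl
  by_cases hsc : ∀ τ ∈ I, ∃ c : k, ρ τ = c • (1 : Module.End k V)
  · exfalso
    obtain ⟨a, a', haφ⟩ := he φ
    obtain ⟨v, hv0, hv⟩ := exists_eigenvector (ρ φ) haφ
    exact hirr ⟨v, hv0, exists_stable_line_of_scalar' ρ I hsc φ hd hv0 hv⟩
  · simp only [not_forall] at hsc
    obtain ⟨τ₀, hτ₀, hns⟩ := hsc
    obtain ⟨a, ha0⟩ := hv₁ τ₀ hτ₀
    obtain ⟨a', ha1⟩ := hv₂ τ₀ hτ₀
    rw [← hb0] at ha0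
    rw [← hb1] at ha1
    have hne : a ≠ a' := by
      intro haa
      apply hns
      refine ⟨a, ?_⟩
      apply b.ext
      intro i
      fin_cases i
      · show ρ τ₀ (b 0) = _
        rw [ha0, LinearMap.smul_apply, Module.End.one_apply]
        rfl
      · show ρ τ₀ (b 1) = _
        rw [ha1, LinearMap.smul_apply, Module.End.one_apply, haa]
        rfl
    have hcomm : ∀ g : Γ, ρ (g⁻¹ * τ₀ * g) * ρ τ₀ = ρ τ₀ * ρ (g⁻¹ * τ₀ * g) := by
      intro g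
      have hmem : g⁻¹ * τ₀ * g ∈ I := by
        have := hIn.conj_mem τ₀ hτ₀ g⁻¹
        rwa [inv_inv] at this
      exact hcommI _ hmem _ hτ₀
    have hnst : ∃ s : Γ, s ∉ lineStab ρ b := by
      by_contra hcon
      simp only [not_exists, not_not] at hcon
      exact hirr ⟨b 0, b.ne_zero 0, fun g => hcon g⟩
    have hidx := index_lineStab ρ b τ₀ ha0 ha1 hne hcomm hnst
    have hIH : I ≤ lineStab ρ b := by
      intro τ hτ
      obtain ⟨c, hc'⟩ := hv₁ τ hτ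
      exact ⟨c, by rw [hb0]; exact hc'⟩
    -- the two characters
    have hd0 : ∀ g ∈ lineStab ρ b, ∃ c : k, ρ g (b 0) = c • b 0 := fun g hg => hg
    have hd1 : ∀ g ∈ lineStab ρ b, ∃ c : k, ρ g (b 1) = c • b 1 :=
      fun g hg => apply_one_of_mem ρ b τ₀ ha0 ha1 hne hcomm hg
    let χ₁ : ↥(lineStab ρ b) →* kˣ := eigChar ρ (lineStab ρ b) hd0 (b.ne_zero 0)
    let χ₂ : ↥(lineStab ρ b) →* kˣ := eigChar ρ (lineStab ρ b) hd1 (b.ne_zero 1)
    have hχ₁ : ∀ g : ↥(lineStab ρ b), ρ g (b 0) = ((χ₁ g : kˣ) : k) • b 0 :=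
      eigChar_spec ρ (lineStab ρ b) hd0 (b.ne_zero 0)
    have hχ₂ : ∀ g : ↥(lineStab ρ b), ρ g (b 1) = ((χ₂ g : kˣ) : k) • b 1 :=
      eigChar_spec ρ (lineStab ρ b) hd1 (b.ne_zero 1)
    -- `φ ∉ H`
    have hφH : φ ∉ lineStab ρ b := by
      intro hφ
      obtain ⟨s, hs⟩ := hnst
      apply hs
      obtain ⟨m, τ, hτ, e⟩ := hd s
      have hmem : φ ^ m * τ ∈ lineStab ρ b :=
        (lineStab ρ b).mul_mem ((lineStab ρ b).zpow_mem hφ m) (hIH hτ)
      obtain ⟨c, hc'⟩ := hmem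
      exact ⟨c, by rw [e]; exact hc'⟩
    obtain ⟨c', hc'⟩ := apply_one_of_not_mem ρ b τ₀ ha0 ha1 hne hcomm hφH
    have hc'0 : c' ≠ 0 := by
      intro h0
      rw [h0, zero_smul] at hc'
      exact b.ne_zero 1 (ρ_injective ρ φ (hc'.trans (map_zero (ρ φ)).symm))
    refine ⟨lineStab ρ b, b, χ₁, χ₂, hidx, hIH, ?_, ?_, ?_, ?_⟩
    · intro h
      ext i j
      rw [LinearMap.toMatrix_apply]
      fin_cases i <;> fin_cases j
      · show b.repr (ρ h (b 0)) 0 = _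
        rw [hχ₁ h]
        simp
      · show b.repr (ρ h (b 1)) 0 = _
        rw [hχ₂ h]
        simp
      · show b.repr (ρ h (b 0)) 1 = _
        rw [hχ₁ h]
        simp
      · show b.repr (ρ h (b 1)) 1 = _
        rw [hχ₂ h]
        simp
    · intro s hs
      obtain ⟨c0, hc0⟩ := apply_zero_of_not_mem ρ b τ₀ ha0 ha1 hne hcomm hs
      obtain ⟨c1, hc1⟩ := apply_one_of_not_mem ρ b τ₀ ha0 ha1 hne hcomm hs
      rw [LinearMap.toMatrix_apply, LinearMap.toMatrix_apply, hc0, hc1]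
      simp
    · intro τ hτ
      have hw := h1 _ (hc τ hτ)
      have e : ρ φ * ρ τ = ρ (τ : Γ) ^ p * ρ φ := by
        have e2 : φ * τ = (φ * τ * φ⁻¹ * ((τ : Γ) ^ p)⁻¹) * ((τ : Γ) ^ p * φ) := by group
        rw [← map_mul, e2, map_mul, hw, one_mul, map_mul, map_pow]
      have e3 := congrArg (fun A : Module.End k V => A (b 1)) e
      simp only [Module.End.mul_apply] at e3
      rw [hχ₂ τ, map_smul, hc', map_smul, pow_apply_eigen (ρ (τ : Γ)) (hχ₁ τ) p, smul_smul,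
        smul_smul] at e3
      have e4 : ((χ₂ τ : kˣ) : k) * c' = c' * ((χ₁ τ : kˣ) : k) ^ p := by
        have e5 : (((χ₂ τ : kˣ) : k) * c' - c' * ((χ₁ τ : kˣ) : k) ^ p) • b 0 = 0 := by
          rw [sub_smul, e3, sub_self]
        rcases smul_eq_zero.1 e5 with h | h
        · exact sub_eq_zero.1 h
        · exact absurd h (b.ne_zero 0)
      apply Units.ext
      rw [Units.val_pow_eq_pow_val]
      have e6 : c' * ((χ₂ τ : kˣ) : k) = c' * ((χ₁ τ : kˣ) : k) ^ p := by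
        rw [mul_comm]; exact e4
      exact mul_left_cancel₀ hc'0 e6
    · refine ⟨⟨τ₀, hIH hτ₀⟩, hτ₀, ?_⟩
      intro h
      apply hne
      have e1 : ((χ₁ ⟨τ₀, hIH hτ₀⟩ : kˣ) : k) = a :=
        eigChar_unique ρ (lineStab ρ b) hd0 (b.ne_zero 0) ⟨τ₀, hIH hτ₀⟩ ha0
      have e2 : ((χ₂ ⟨τ₀, hIH hτ₀⟩ : kˣ) : k) = a' :=
        eigChar_unique ρ (lineStab ρ b) hd1 (b.ne_zero 1) ⟨τ₀, hIH hτ₀⟩ ha1
      rw [← e1, ← e2, h]

include hV in
/-- The same with `ρ(Γ) = ρ(⟨φ⟩ I)` stated with natural exponents. -/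
theorem indShape_abstract_nat (I W : Subgroup Γ) [hIn : I.Normal] [hWn : W.Normal]
    (ha : ∀ w ∈ W, ∃ a : ℕ, ρ w ^ (p ^ a) = 1)
    (hb : ∀ τ ∈ I, ∀ τ' ∈ I, τ * τ' * τ⁻¹ * τ'⁻¹ ∈ W)
    (φ : Γ) (hc : ∀ τ ∈ I, φ * τ * φ⁻¹ * (τ ^ p)⁻¹ ∈ W)
    (hd : ∀ g : Γ, ∃ m : ℕ, ∃ τ ∈ I, ρ g = ρ (φ ^ m * τ))
    (he : ∀ g, ∃ a a' : k, LinearMap.charpoly (ρ g) = (X - C a) * (X - C a'))
    (hf : ∀ v : V, v ≠ 0 → ∃ g : Γ, ¬ ∃ a : k, ρ g v = a • v) :
    ∃ (H : Subgroup Γ) (b : Module.Basis (Fin 2) k V) (χ₁ χ₂ : ↥H →* kˣ), H.index = 2 ∧ I ≤ H ∧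
      (∀ h : ↥H, LinearMap.toMatrix b b (ρ h) = Matrix.diagonal ![(χ₁ h : k), (χ₂ h : k)]) ∧
      (∀ s : Γ, s ∉ H →
        LinearMap.toMatrix b b (ρ s) 0 0 = 0 ∧ LinearMap.toMatrix b b (ρ s) 1 1 = 0) ∧
      (∀ τ : ↥H, (τ : Γ) ∈ I → χ₂ τ = χ₁ τ ^ p) ∧
      (∃ τ : ↥H, (τ : Γ) ∈ I ∧ χ₁ τ ≠ χ₂ τ) :=
  indShape_abstract ρ p hV I W ha hb φ hc
    (fun g => by
      obtain ⟨m, τ, hτ, e⟩ := hd g
      exact ⟨(m : ℤ), τ, hτ, by rw [zpow_natCast]; exact e⟩)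
    he hf

end Main

end Fermat.Agent.TW.Cnt.ShapeChar55
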