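/-
Program TW (S56), WP7 brick B11 (CNT-P), helper71.

The top level `T = p j₀` of the unit filtration when `O` contains a primitive `p`-th root of unity
`ζ`, `ζ - 1 = π^j₀ v₀`:

* `eq_of_zeta` : `(p-1) j₀ = e`;
* `beta` : `c ↦ q (1 + (ζ-1)^p c)` is additive, factors through `O/π`, kills `c^p - c`, and its
  range is the level `lvl (p j₀)`; that level has at most `p` elements;
* if `g ζ = ζ^m` then `g` acts on `lvl (p j₀)` as multiplication by `m`.
-/
import Mathlib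
import Fermat.Agent.TW.Cnt.UnitGr71

set_option autoImplicit false
set_option linter.unusedSectionVars false
set_option linter.style.haveILetI false

namespace Fermat.Agent.TW.Cnt.TopPiece71

open Fermat.Agent.TW.Cnt.UnitFil71 Fermat.Agent.TW.Cnt.UnitGr71

variable {O : Type*} [CommRing O] {p : ℕ} {π u u' : O} {e : ℕ}

section Zeta

variable (S : UnitSetup O p π u u' e) {ζ v₀ : O} (hζp : ζ ^ p = 1) {j₀ : ℕ} (hj₀ : 1 ≤ j₀)
  (hv₀ : IsUnit v₀) (hζ : ζ - 1 = π ^ j₀ * v₀)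

include S in
/-- Uniqueness of the `π`-adic valuation of `π^a * unit`. -/
theorem pow_eq_of_isUnit {a b : ℕ} {A C : O} (hA : IsUnit A) (hC : IsUnit C)
    (h : π ^ a * A = π ^ b * C) : a = b := by
  have key : ∀ {a b : ℕ} {A C : O}, IsUnit A → π ^ a * A = π ^ b * C → ¬ a < b := by
    intro a b A C hA h hab
    obtain ⟨d, rfl⟩ : ∃ d, b = a + (d + 1) := ⟨b - a - 1, by omega⟩
    have h1 : A = π ^ (d + 1) * C := by
      apply S.complete.pow_mul_cancel a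
      rw [h, pow_add]; ring
    apply S.not_dvd_one
    obtain ⟨A', hA'⟩ := hA.exists_right_inv
    exact ⟨π ^ d * C * A', by rw [← hA', h1]; ring⟩
  rcases lt_trichotomy a b with hlt | heq | hgt
  · exact absurd hlt (key hA h)
  · exact heq
  · exact absurd hgt (key hC h.symm)

include S hζp hj₀ hv₀ hζ in
/-- `p (1 + (ζ-1) c) = -(ζ-1)^(p-1)`. -/
theorem exists_prime_eq : ∃ c : O, (p : O) * (1 + (ζ - 1) * c) = -(ζ - 1) ^ (p - 1) := by
  have hp := S.prime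
  obtain ⟨c, hc⟩ := add_pow_prime_expand hp (1 : O) (ζ - 1)
  refine ⟨c, ?_⟩
  have h1 : (1 : O) + (ζ - 1) = ζ := by ring
  rw [h1, hζp, one_pow, one_pow, mul_one] at hc
  have hpp : (ζ - 1) ^ p = (ζ - 1) * (ζ - 1) ^ (p - 1) := by
    rw [← pow_succ', Nat.sub_add_cancel hp.one_lt.le]
  -- `(ζ-1) * (p + p (ζ-1) c + (ζ-1)^(p-1)) = 0`
  have h2 : (ζ - 1) * ((p : O) * (1 + (ζ - 1) * c) + (ζ - 1) ^ (p - 1)) = 0 := by
    have : (ζ - 1) * ((p : O) * (1 + (ζ - 1) * c) + (ζ - 1) ^ (p - 1))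
        = (p : O) * (ζ - 1) + (p : O) * (ζ - 1) ^ 2 * c + (ζ - 1) ^ p := by
      rw [hpp]; ring
    rw [this]
    have h3 : (1 : O) = 1 + (p : O) * (ζ - 1) + (p : O) * (ζ - 1) ^ 2 * c + (ζ - 1) ^ p := hc
    have h4 : (p : O) * (ζ - 1) + (p : O) * (ζ - 1) ^ 2 * c + (ζ - 1) ^ p
        = (1 + (p : O) * (ζ - 1) + (p : O) * (ζ - 1) ^ 2 * c + (ζ - 1) ^ p) - 1 := by ring
    rw [h4, ← h3, sub_self]
  -- cancel `ζ - 1 = π^j₀ v₀`
  rw [hζ] at h2
  obtain ⟨v₀', hv₀'⟩ := hv₀.exists_right_inv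
  have h5 : π ^ j₀ * ((p : O) * (1 + π ^ j₀ * v₀ * c) + (π ^ j₀ * v₀) ^ (p - 1)) = π ^ j₀ * 0 := by
    have : π ^ j₀ * ((p : O) * (1 + π ^ j₀ * v₀ * c) + (π ^ j₀ * v₀) ^ (p - 1))
        = v₀' * (π ^ j₀ * v₀ * ((p : O) * (1 + π ^ j₀ * v₀ * c) + (π ^ j₀ * v₀) ^ (p - 1))) := by
      have : v₀' * (π ^ j₀ * v₀ * ((p : O) * (1 + π ^ j₀ * v₀ * c) + (π ^ j₀ * v₀) ^ (p - 1)))
          = (v₀ * v₀') * (π ^ j₀ * ((p : O) * (1 + π ^ j₀ * v₀ * c) + (π ^ j₀ * v₀) ^ (p - 1))) := by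
        ring
      rw [this, hv₀', one_mul]
    rw [this, h2, mul_zero, mul_zero]
  have h6 := S.complete.pow_mul_cancel j₀ h5
  rw [hζ]
  exact eq_neg_of_add_eq_zero_left h6

include S hζp hj₀ hv₀ hζ in
/-- `(p-1) j₀ = e` and `u ≡ -v₀^(p-1) mod π`. -/
theorem eq_of_zeta_aux : (p - 1) * j₀ = e ∧ π ∣ u + v₀ ^ (p - 1) := by
  have hp := S.prime
  obtain ⟨c, hc⟩ := exists_prime_eq S hζp hj₀ hv₀ hζ
  rw [S.hpe, hζ, mul_pow, ← pow_mul] at hc
  -- `π^e * (u (1 + Y c)) = π^(j₀ (p-1)) * (-(v₀^(p-1)))`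
  have hA : IsUnit (u * (1 + π ^ j₀ * v₀ * c)) := by
    refine (IsUnit.of_mul_eq_one _ (by rw [mul_comm]; exact S.hu)).mul ?_
    have := S.isUnit_one_add hj₀ (v₀ * c)
    rwa [← mul_assoc] at this
  have hC : IsUnit (-(v₀ ^ (p - 1))) := (hv₀.pow _).neg
  have h1 : π ^ e * (u * (1 + π ^ j₀ * v₀ * c)) = π ^ (j₀ * (p - 1)) * (-(v₀ ^ (p - 1))) := by
    rw [← mul_assoc, mul_comm (π ^ e) u, hc]; ring
  have he : e = j₀ * (p - 1) := pow_eq_of_isUnit S hA hC h1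
  refine ⟨by rw [he, mul_comm], ?_⟩
  rw [← he] at h1
  have h2 := S.complete.pow_mul_cancel e h1
  refine ⟨-(π ^ (j₀ - 1) * u * v₀ * c), ?_⟩
  have h3 : u + v₀ ^ (p - 1) = -(u * (π ^ j₀ * v₀ * c)) := by
    have : u * (1 + π ^ j₀ * v₀ * c) = u + u * (π ^ j₀ * v₀ * c) := by ring
    rw [this] at h2
    rw [← sub_eq_zero]
    have : u + v₀ ^ (p - 1) - -(u * (π ^ j₀ * v₀ * c))
        = (u + u * (π ^ j₀ * v₀ * c)) - (-(v₀ ^ (p - 1))) := by ring
    rw [this, h2, sub_self]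
  rw [h3]
  obtain ⟨j', rfl⟩ : ∃ j', j₀ = j' + 1 := ⟨j₀ - 1, by omega⟩
  simp only [Nat.add_sub_cancel, pow_succ]
  ring

include S hζp hj₀ hv₀ hζ in
theorem eq_of_zeta : (p - 1) * j₀ = e := (eq_of_zeta_aux S hζp hj₀ hv₀ hζ).1

end Zeta

section Beta

variable (S : UnitSetup O p π u u' e) {ζ v₀ : O} (hζp : ζ ^ p = 1) {j₀ : ℕ} (hj₀ : 1 ≤ j₀)
  (hv₀ : IsUnit v₀) (hζ : ζ - 1 = π ^ j₀ * v₀)
variable {B : Type*} [AddCommGroup B] (q : O → B)
  (hq_mul : ∀ a b : O, IsUnit a → IsUnit b → q (a * b) = q a + q b)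
  (hq_pow : ∀ a : O, IsUnit a → q (a ^ p) = 0)

include hζ in
theorem zeta_pow_mul (c : O) : (ζ - 1) ^ p * c = π ^ (p * j₀) * (v₀ ^ p * c) := by
  rw [hζ, mul_pow, ← pow_mul, mul_comm j₀ p]; ring

include S hζp hj₀ hv₀ hζ hq_mul hq_pow in
theorem lvl_top_succ_eq_bot : lvl π q hq_mul (p * j₀ + 1) = ⊥ := by
  have hp := S.prime
  apply lvl_eq_bot q hq_mul S hq_pow
  have he := eq_of_zeta S hζp hj₀ hv₀ hζ
  have : (p - 1) * (p * j₀) = p * e := by rw [← he]; ring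
  rw [Nat.mul_add, this]
  have : 1 ≤ p - 1 := by have := hp.two_le; omega
  omega

include S hj₀ in
theorem one_le_top : 1 ≤ p * j₀ :=
  Nat.one_le_iff_ne_zero.mpr (Nat.mul_ne_zero S.prime.ne_zero (by omega))

/-- `c ↦ q (1 + (ζ-1)^p c)`. -/
def betaFun (ζ : O) (q : O → B) (p : ℕ) (c : O) : B := q (1 + (ζ - 1) ^ p * c)

include S hζp hj₀ hv₀ hζ hq_mul hq_pow in
theorem betaFun_add (c₁ c₂ : O) :
    betaFun ζ q p (c₁ + c₂) = betaFun ζ q p c₁ + betaFun ζ q p c₂ := by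
  unfold betaFun
  rw [zeta_pow_mul hζ, zeta_pow_mul hζ, zeta_pow_mul hζ]
  have h := q_add_mem q hq_mul S (one_le_top S hj₀) (c := v₀ ^ p * (c₁ + c₂)) (c₁ := v₀ ^ p * c₁)
    (c₂ := v₀ ^ p * c₂) ⟨0, by ring⟩
  rw [lvl_top_succ_eq_bot S hζp hj₀ hv₀ hζ q hq_mul hq_pow, AddSubgroup.mem_bot, sub_eq_zero] at h
  exact h

include S hζp hj₀ hv₀ hζ hq_mul hq_pow in
theorem betaFun_congr {c c' : O} (h : π ∣ c - c') : betaFun ζ q p c = betaFun ζ q p c' := by
  unfold betaFun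
  rw [zeta_pow_mul hζ, zeta_pow_mul hζ]
  have h' : π ∣ v₀ ^ p * c - v₀ ^ p * c' := by
    rw [← mul_sub]; exact Dvd.dvd.mul_left h _
  have h2 := q_congr_mem q hq_mul S (one_le_top S hj₀) h'
  rw [lvl_top_succ_eq_bot S hζp hj₀ hv₀ hζ q hq_mul hq_pow, AddSubgroup.mem_bot, sub_eq_zero] at h2
  exact h2

include S hζp hj₀ hv₀ hζ hq_mul hq_pow in
/-- `β (x^p - x) = 0`. -/
theorem betaFun_wp (x : O) : betaFun ζ q p (x ^ p - x) = 0 := by
  have hp := S.prime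
  obtain ⟨he, d, hd⟩ := eq_of_zeta_aux S hζp hj₀ hv₀ hζ
  unfold betaFun
  rw [zeta_pow_mul hζ]
  have h1 := q_crit_mem q hq_mul S hq_pow hj₀ he (v₀ * x)
  rw [lvl_top_succ_eq_bot S hζp hj₀ hv₀ hζ q hq_mul hq_pow, AddSubgroup.mem_bot] at h1
  have h' : π ∣ v₀ ^ p * (x ^ p - x) - ((v₀ * x) ^ p + u * (v₀ * x)) := by
    refine ⟨-(d * v₀ * x), ?_⟩
    have hvp : v₀ ^ p = v₀ * v₀ ^ (p - 1) := by
      rw [← pow_succ', Nat.sub_add_cancel hp.one_lt.le]
    have : v₀ ^ p * (x ^ p - x) - ((v₀ * x) ^ p + u * (v₀ * x))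
        = -((u + v₀ ^ (p - 1)) * (v₀ * x)) := by
      rw [mul_pow, hvp]; ring
    rw [this, hd]; ring
  have h2 := q_congr_mem q hq_mul S (one_le_top S hj₀) h'
  rw [lvl_top_succ_eq_bot S hζp hj₀ hv₀ hζ q hq_mul hq_pow, AddSubgroup.mem_bot, sub_eq_zero] at h2
  rw [h2, h1]

/-- `β` as an additive map. -/
def beta : O →+ B :=
  AddMonoidHom.mk' (betaFun ζ q p) (betaFun_add S hζp hj₀ hv₀ hζ q hq_mul hq_pow)

theorem beta_apply (c : O) :
    beta S hζp hj₀ hv₀ hζ q hq_mul hq_pow c = q (1 + (ζ - 1) ^ p * c) := rfl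

theorem beta_congr {c c' : O} (h : π ∣ c - c') :
    beta S hζp hj₀ hv₀ hζ q hq_mul hq_pow c = beta S hζp hj₀ hv₀ hζ q hq_mul hq_pow c' :=
  betaFun_congr S hζp hj₀ hv₀ hζ q hq_mul hq_pow h

theorem beta_pow (c : O) :
    beta S hζp hj₀ hv₀ hζ q hq_mul hq_pow (c ^ p) = beta S hζp hj₀ hv₀ hζ q hq_mul hq_pow c := by
  have h := betaFun_wp S hζp hj₀ hv₀ hζ q hq_mul hq_pow c
  have h2 : c ^ p = (c ^ p - c) + c := by ring
  rw [h2, map_add]
  show betaFun ζ q p (c ^ p - c) + _ = _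
  rw [h, zero_add]

theorem beta_pow_pow (c : O) (n : ℕ) :
    beta S hζp hj₀ hv₀ hζ q hq_mul hq_pow (c ^ p ^ n)
      = beta S hζp hj₀ hv₀ hζ q hq_mul hq_pow c := by
  induction n with
  | zero => simp
  | succ n ih => rw [pow_succ, pow_mul, beta_pow, ih]

theorem mem_lvl_top_iff {b : B} :
    b ∈ lvl π q hq_mul (p * j₀) ↔ ∃ c : O, beta S hζp hj₀ hv₀ hζ q hq_mul hq_pow c = b := by
  constructor
  · intro hb
    obtain ⟨c, rfl⟩ := exists_of_mem_lvl q hq_mul hb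
    obtain ⟨v₀', hv₀'⟩ := hv₀.exists_right_inv
    refine ⟨v₀' ^ p * c, ?_⟩
    rw [beta_apply, zeta_pow_mul hζ]
    congr 2
    have : π ^ (p * j₀) * (v₀ ^ p * (v₀' ^ p * c)) = π ^ (p * j₀) * ((v₀ * v₀') ^ p * c) := by
      rw [mul_pow]; ring
    rw [this, hv₀', one_pow, one_mul]
  · rintro ⟨c, rfl⟩
    rw [beta_apply, zeta_pow_mul hζ]
    exact q_one_add_mem q hq_mul S (one_le_top S hj₀) _

end Beta

section Card

variable (S : UnitSetup O p π u u' e) {ζ v₀ : O} (hζp : ζ ^ p = 1) {j₀ : ℕ} (hj₀ : 1 ≤ j₀)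
  (hv₀ : IsUnit v₀) (hζ : ζ - 1 = π ^ j₀ * v₀)
variable {B : Type*} [AddCommGroup B] (q : O → B)
  (hq_mul : ∀ a b : O, IsUnit a → IsUnit b → q (a * b) = q a + q b)
  (hq_pow : ∀ a : O, IsUnit a → q (a ^ p) = 0)
variable {κ : Type*} [Field κ] [Finite κ] (res : O →+* κ) (hres : Function.Surjective res)
  (hker : ∀ c : O, res c = 0 ↔ π ∣ c)

include S hker in
theorem charP_residue : CharP κ p := by
  rw [CharP.charP_iff_prime_eq_zero S.prime]
  have : (p : κ) = res (p : O) := by rw [map_natCast]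
  rw [this, hker, S.hpe]
  obtain ⟨e', he'⟩ : ∃ e', e = e' + 1 := ⟨e - 1, by have := S.e_pos; omega⟩
  exact ⟨u * π ^ e', by rw [he', pow_succ]; ring⟩

/-- `β` descended to the residue field. -/
noncomputable def betaBar : κ →+ B :=
  AddMonoidHom.mk' (fun x => beta S hζp hj₀ hv₀ hζ q hq_mul hq_pow (Function.surjInv hres x))
    (by
      intro x y
      rw [← map_add]
      apply beta_congr
      rw [← hker, map_sub, map_add, Function.surjInv_eq hres, Function.surjInv_eq hres,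
        Function.surjInv_eq hres, sub_self])

theorem betaBar_res (c : O) :
    betaBar S hζp hj₀ hv₀ hζ q hq_mul hq_pow res hres hker (res c)
      = beta S hζp hj₀ hv₀ hζ q hq_mul hq_pow c := by
  show beta S hζp hj₀ hv₀ hζ q hq_mul hq_pow (Function.surjInv hres (res c)) = _
  apply beta_congr
  rw [← hker, map_sub, Function.surjInv_eq hres, sub_self]

theorem betaBar_pow (x : κ) :
    betaBar S hζp hj₀ hv₀ hζ q hq_mul hq_pow res hres hker (x ^ p)
      = betaBar S hζp hj₀ hv₀ hζ q hq_mul hq_pow res hres hker x := by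
  obtain ⟨c, rfl⟩ := hres x
  rw [← map_pow, betaBar_res, betaBar_res, beta_pow]

theorem betaBar_pow_pow (x : κ) (n : ℕ) :
    betaBar S hζp hj₀ hv₀ hζ q hq_mul hq_pow res hres hker (x ^ p ^ n)
      = betaBar S hζp hj₀ hv₀ hζ q hq_mul hq_pow res hres hker x := by
  obtain ⟨c, rfl⟩ := hres x
  rw [← map_pow, betaBar_res, betaBar_res, beta_pow_pow]

theorem mem_lvl_top_iff_betaBar {b : B} :
    b ∈ lvl π q hq_mul (p * j₀) ↔
      ∃ x : κ, betaBar S hζp hj₀ hv₀ hζ q hq_mul hq_pow res hres hker x = b := by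
  rw [mem_lvl_top_iff S hζp hj₀ hv₀ hζ q hq_mul hq_pow]
  constructor
  · rintro ⟨c, rfl⟩
    exact ⟨res c, betaBar_res _ _ _ _ _ _ _ _ _ _ _ _⟩
  · rintro ⟨x, rfl⟩
    obtain ⟨c, rfl⟩ := hres x
    exact ⟨c, (betaBar_res _ _ _ _ _ _ _ _ _ _ _ _).symm⟩

include S hζp hj₀ hv₀ hζ hq_pow hres hker in
/-- The top level has at most `p` elements. -/
theorem card_lvl_top_le : Nat.card (lvl π q hq_mul (p * j₀)) ≤ p := by
  classical
  have hp := S.prime
  haveI : CharP κ p := charP_residue S res hker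
  haveI : Fact p.Prime := ⟨hp⟩
  set g := betaBar S hζp hj₀ hv₀ hζ q hq_mul hq_pow res hres hker with hg
  -- the Artin–Schreier map
  let wp : κ →+ κ := AddMonoidHom.mk' (fun x => x ^ p - x) (by
    intro x y
    rw [add_pow_char]; ring)
  have hwp : wp.range ≤ g.ker := by
    rintro _ ⟨x, rfl⟩
    rw [AddMonoidHom.mem_ker]
    show g (x ^ p - x) = 0
    rw [map_sub, hg, betaBar_pow, sub_self]
  -- cardinalities
  have h1 : Nat.card κ = Nat.card g.range * Nat.card g.ker := by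
    rw [AddSubgroup.card_eq_card_quotient_mul_card_addSubgroup g.ker]
    congr 1
    exact Nat.card_congr (QuotientAddGroup.quotientKerEquivRange g).toEquiv
  have h2 : Nat.card κ = Nat.card wp.range * Nat.card wp.ker := by
    rw [AddSubgroup.card_eq_card_quotient_mul_card_addSubgroup wp.ker]
    congr 1
    exact Nat.card_congr (QuotientAddGroup.quotientKerEquivRange wp).toEquiv
  have h3 : Nat.card wp.range ≤ Nat.card g.ker := AddSubgroup.card_le_of_le hwp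
  have h4 : Nat.card wp.ker ≤ p := by
    have hfin : Fintype κ := Fintype.ofFinite κ
    let R : Finset κ := (Polynomial.X ^ p - Polynomial.X : Polynomial κ).roots.toFinset
    have hRcard : R.card ≤ p := by
      calc R.card ≤ Multiset.card (Polynomial.X ^ p - Polynomial.X : Polynomial κ).roots :=
            Multiset.toFinset_card_le _
        _ ≤ (Polynomial.X ^ p - Polynomial.X : Polynomial κ).natDegree :=
            Polynomial.card_roots' _
        _ = p := FiniteField.X_pow_card_sub_X_natDegree_eq κ hp.one_lt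
    have hinj : Function.Injective (fun x : wp.ker => (⟨x.1, by
        have hx : x.1 ^ p - x.1 = 0 := x.2
        simp only [R, Multiset.mem_toFinset]
        rw [Polynomial.mem_roots (FiniteField.X_pow_card_sub_X_ne_zero κ hp.one_lt)]
        simp [hx]⟩ : {x // x ∈ R})) := by
      intro x y h
      apply Subtype.ext
      exact congrArg (fun z : {x // x ∈ R} => z.1) h
    calc Nat.card wp.ker ≤ Nat.card {x // x ∈ R} := Nat.card_le_card_of_injective _ hinj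
      _ = R.card := by simp
      _ ≤ p := hRcard
  -- `lvl = range g`
  have h5 : Nat.card (lvl π q hq_mul (p * j₀)) = Nat.card g.range := by
    apply Nat.card_congr
    refine Equiv.subtypeEquivRight fun b => ?_
    rw [mem_lvl_top_iff_betaBar S hζp hj₀ hv₀ hζ q hq_mul hq_pow res hres hker]
    exact Iff.rfl
  rw [h5]
  have hkpos : 0 < Nat.card g.ker := Nat.card_pos
  have hle : Nat.card g.range * Nat.card g.ker ≤ p * Nat.card g.ker := by
    rw [← h1, h2, mul_comm]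
    exact Nat.mul_le_mul h4 h3
  exact Nat.le_of_mul_le_mul_right hle hkpos

include S hζp hj₀ hv₀ hζ hq_pow hres hker in
theorem finite_lvl_top : Finite (lvl π q hq_mul (p * j₀)) := by
  have hsurj : Function.Surjective (fun x : κ =>
      (⟨betaBar S hζp hj₀ hv₀ hζ q hq_mul hq_pow res hres hker x,
        (mem_lvl_top_iff_betaBar S hζp hj₀ hv₀ hζ q hq_mul hq_pow res hres hker).mpr ⟨x, rfl⟩⟩ :
        lvl π q hq_mul (p * j₀))) := by
    rintro ⟨b, hb⟩
    obtain ⟨x, hx⟩ :=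
      (mem_lvl_top_iff_betaBar S hζp hj₀ hv₀ hζ q hq_mul hq_pow res hres hker).mp hb
    exact ⟨x, Subtype.ext hx⟩
  exact Finite.of_surjective _ hsurj

end Card

end Fermat.Agent.TW.Cnt.TopPiece71
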