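/-
Program TW (S56), WP7 brick B11 (CNT-P), helper71.

The top level of the unit filtration as a `Δ`-module: `Δ` acts on `lvl (p j₀)` through the
cyclotomic exponent `ω` (`g ζ = ζ^(ω g)`), and

  `card_eqHom_top_le : #eqHom (p j₀) ≤ #k`, and `#eqHom (p j₀) = 1` unless `ψ g = ω g` for all `g`.
-/
import Mathlib
import Fermat.Agent.TW.Cnt.TopPiece71
import Fermat.Agent.TW.Cnt.UnitMult71

set_option autoImplicit false
set_option linter.unusedSectionVars false
set_option linter.style.haveILetI false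

namespace Fermat.Agent.TW.Cnt.TopCount71

open Fermat.Agent.TW.Cnt.UnitFil71 Fermat.Agent.TW.Cnt.UnitGr71 Fermat.Agent.TW.Cnt.TopPiece71
  Fermat.Agent.TW.Cnt.UnitMult71

/-- Every ring automorphism of a finite field of characteristic `p` is a power of Frobenius. -/
theorem exists_frobenius_pow {κ : Type*} [Field κ] [Finite κ] (p : ℕ) [Fact p.Prime] [CharP κ p]
    (σ : κ ≃+* κ) : ∃ n : ℕ, ∀ x : κ, σ x = x ^ p ^ n := by
  classical
  letI : Algebra (ZMod p) κ := ZMod.algebra κ p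
  let σ' : κ ≃ₐ[ZMod p] κ := AlgEquiv.ofRingEquiv (f := σ) (by
    intro c
    obtain ⟨n, rfl⟩ := ZMod.natCast_zmod_surjective c
    simp)
  obtain ⟨n, hn⟩ := (FiniteField.bijective_frobeniusAlgEquivOfAlgebraic_pow (ZMod p) κ).2 σ'
  refine ⟨n.1, fun x => ?_⟩
  have h1 : σ x = σ' x := rfl
  have h2 := congrArg (fun τ : κ ≃ₐ[ZMod p] κ => τ x) hn
  simp only at h2
  rw [h1, ← h2, AlgEquiv.coe_pow, FiniteField.coe_frobeniusAlgEquivOfAlgebraic_iterate, ZMod.card]

variable {O : Type*} [CommRing O] {p : ℕ} [Fact p.Prime] {π u u' : O} {e : ℕ}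
variable {Δ : Type*} [Group Δ] [Finite Δ] [MulSemiringAction Δ O]
variable {B : Type*} [AddCommGroup B]
variable {κ : Type*} [Field κ] [Finite κ] [Algebra (ZMod p) κ] [MulSemiringAction Δ κ]
variable {k : Type*} [Field k] [Finite k] [Algebra (ZMod p) k]

section Action

variable (S : UnitSetup O p π u u' e) {ζ v₀ : O} (hζp : ζ ^ p = 1) {j₀ : ℕ} (hj₀ : 1 ≤ j₀)
  (hv₀ : IsUnit v₀) (hζ : ζ - 1 = π ^ j₀ * v₀)
  (ω : Δ → ℕ) (hω : ∀ g : Δ, g • ζ = ζ ^ ω g)
  (q : O → B) (hq_mul : ∀ a b : O, IsUnit a → IsUnit b → q (a * b) = q a + q b)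
  (hq_pow : ∀ a : O, IsUnit a → q (a ^ p) = 0)
  (act : Δ →* AddMonoid.End B) (hq_act : ∀ (g : Δ) (a : O), IsUnit a → q (g • a) = act g (q a))
  (res : O →+* κ) (hres : Function.Surjective res) (hker : ∀ c : O, res c = 0 ↔ π ∣ c)
  (hres_smul : ∀ (g : Δ) (a : O), res (g • a) = g • res a)

include hj₀ hζ hker in
theorem res_zeta : res ζ = 1 := by
  have h : res (ζ - 1) = 0 := by
    rw [hker, hζ]
    obtain ⟨j', rfl⟩ : ∃ j', j₀ = j' + 1 := ⟨j₀ - 1, by omega⟩
    exact ⟨π ^ j' * v₀, by rw [pow_succ]; ring⟩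
  rw [map_sub, map_one, sub_eq_zero] at h
  exact h

include S hζp hj₀ hv₀ hζ hω hq_act hres hker hres_smul in
/-- `g` acts on the top level through `ω g`. -/
theorem act_beta (g : Δ) (c : O) :
    act g (beta S hζp hj₀ hv₀ hζ q hq_mul hq_pow c)
      = ω g • beta S hζp hj₀ hv₀ hζ q hq_mul hq_pow c := by
  classical
  have hp := S.prime
  haveI : CharP κ p := charP_residue S res hker
  -- `g` is a power of Frobenius on `κ`
  obtain ⟨n, hn⟩ := exists_frobenius_pow p (MulSemiringAction.toRingEquiv Δ κ g)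
  have hn' : ∀ x : κ, g • x = x ^ p ^ n := hn
  -- `g • (ζ - 1) = (ζ - 1) * s`
  set s : O := ∑ i ∈ Finset.range (ω g), ζ ^ i with hs
  have h1 : g • (ζ - 1) = (ζ - 1) * s := by
    rw [smul_sub, smul_one, hω g, hs, mul_comm, geom_sum_mul]
  have hunit : IsUnit (1 + (ζ - 1) ^ p * c) := by
    rw [zeta_pow_mul hζ]
    exact S.isUnit_one_add (one_le_top S hj₀) _
  rw [beta_apply, ← hq_act g _ hunit]
  have h2 : g • (1 + (ζ - 1) ^ p * c) = 1 + (ζ - 1) ^ p * (s ^ p * g • c) := by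
    rw [smul_add, smul_one, smul_mul', smul_pow', h1, mul_pow]; ring
  rw [h2, ← beta_apply S hζp hj₀ hv₀ hζ q hq_mul hq_pow]
  -- compare modulo `π`
  have hres_s : res s = (ω g : κ) := by
    rw [hs, map_sum]
    simp only [map_pow, res_zeta hj₀ hζ res hker, one_pow, Finset.sum_const, Finset.card_range,
      nsmul_eq_mul, mul_one]
  have h3 : π ∣ s ^ p * g • c - (ω g : O) * c ^ p ^ n := by
    rw [← hker, map_sub, map_mul, map_mul, map_pow, map_pow, map_natCast, hres_s, hres_smul, hn',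
      ← frobenius_def, map_natCast, sub_self]
  rw [beta_congr S hζp hj₀ hv₀ hζ q hq_mul hq_pow h3, ← nsmul_eq_mul, map_nsmul, beta_pow_pow]
  rfl

include S hζp hj₀ hv₀ hζ hω hq_pow hq_act hres hker hres_smul in
theorem act_of_mem_lvl_top (g : Δ) {b : B} (hb : b ∈ lvl π q hq_mul (p * j₀)) :
    act g b = ω g • b := by
  obtain ⟨c, rfl⟩ := (mem_lvl_top_iff S hζp hj₀ hv₀ hζ q hq_mul hq_pow).mp hb
  exact act_beta S hζp hj₀ hv₀ hζ ω hω q hq_mul hq_pow act hq_act res hres hker hres_smul g c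

end Action

section Final

variable (S : UnitSetup O p π u u' e) (ζ v₀ : O) (hζp : ζ ^ p = 1) {j₀ : ℕ} (hj₀ : 1 ≤ j₀)
  (hv₀ : IsUnit v₀) (hζ : ζ - 1 = π ^ j₀ * v₀)
  (ω : Δ → ℕ) (hω : ∀ g : Δ, g • ζ = ζ ^ ω g)
  (w : Δ → O) (hw : ∀ g : Δ, g • π = π * w g)
  (q : O → B) (hq_mul : ∀ a b : O, IsUnit a → IsUnit b → q (a * b) = q a + q b)
  (hpB : ∀ b : B, p • b = 0)
  (act : Δ →* AddMonoid.End B) (hq_act : ∀ (g : Δ) (a : O), IsUnit a → q (g • a) = act g (q a))
  (res : O →+* κ) (hres : Function.Surjective res) (hker : ∀ c : O, res c = 0 ↔ π ∣ c)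
  (hres_smul : ∀ (g : Δ) (a : O), res (g • a) = g • res a) (ψ : Δ →* kˣ)

include hq_mul hpB in
theorem hq_pow_of_torsion (a : O) (ha : IsUnit a) : q (a ^ p) = 0 := by
  rw [q_pow q hq_mul ha, hpB]

include S hζp hj₀ hv₀ hζ hω hpB hq_act hres hker hres_smul in
/-- **The top piece.** -/
theorem card_eqHom_top_le :
    Nat.card (eqHom π q hq_mul act ψ (p * j₀)) ≤ Nat.card k ∧
      ((∃ g : Δ, (ψ g : k) ≠ ((ω g : ℕ) : k)) →
        Nat.card (eqHom π q hq_mul act ψ (p * j₀)) = 1) := by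
  classical
  have hp := S.prime
  have hq_pow := hq_pow_of_torsion q hq_mul hpB
  have hact : ∀ (g : Δ) {b : B}, b ∈ lvl π q hq_mul (p * j₀) → act g b = ω g • b := fun g b hb =>
    act_of_mem_lvl_top S hζp hj₀ hv₀ hζ ω hω q hq_mul hq_pow act hq_act res hres hker hres_smul g hb
  constructor
  · -- the bound
    haveI hfin : Finite (lvl π q hq_mul (p * j₀)) :=
      finite_lvl_top S hζp hj₀ hv₀ hζ q hq_mul hq_pow res hres hker
    have hcard : Nat.card (lvl π q hq_mul (p * j₀)) ≤ p :=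
      card_lvl_top_le S hζp hj₀ hv₀ hζ q hq_mul hq_pow res hres hker
    letI : Module (ZMod p) B := AddCommGroup.zmodModule hpB
    have : Module.Finite (ZMod p) k := Module.Finite.of_finite
    let b := Module.finBasis (ZMod p) k
    let ev : eqHom π q hq_mul act ψ (p * j₀) →
        (Fin (Module.finrank (ZMod p) k) → lvl π q hq_mul (p * j₀)) :=
      fun Φ i => ⟨Φ.1 (b i), Φ.2.1 _⟩
    have hev : Function.Injective ev := by
      intro Φ Φ' h
      apply Subtype.ext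
      apply AddMonoidHom.toZModLinearMap_injective p
      apply b.ext
      intro i
      have := congrArg (fun f : Fin (Module.finrank (ZMod p) k) → lvl π q hq_mul (p * j₀) =>
        ((f i : lvl π q hq_mul (p * j₀)) : B)) h
      exact this
    calc Nat.card (eqHom π q hq_mul act ψ (p * j₀))
        ≤ Nat.card (Fin (Module.finrank (ZMod p) k) → lvl π q hq_mul (p * j₀)) :=
          Nat.card_le_card_of_injective ev hev
      _ = Nat.card (lvl π q hq_mul (p * j₀)) ^ Module.finrank (ZMod p) k := by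
          rw [Nat.card_fun, Nat.card_fin]
      _ ≤ p ^ Module.finrank (ZMod p) k := Nat.pow_le_pow_left hcard _
      _ = Nat.card k := by
          rw [Module.natCard_eq_pow_finrank (K := ZMod p) (V := k), Nat.card_zmod]
  · -- vanishing
    rintro ⟨g, hg⟩
    have hbot : eqHom π q hq_mul act ψ (p * j₀) = ⊥ := by
      rw [eq_bot_iff]
      intro Φ hΦ
      rw [AddSubgroup.mem_bot]
      obtain ⟨h1, h2⟩ := hΦ
      have hd : (ψ g : k) - ((ω g : ℕ) : k) ≠ 0 := sub_ne_zero.mpr hg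
      ext a
      have h3 : Φ (((ψ g : k) - ((ω g : ℕ) : k)) * a) = 0 := by
        rw [sub_mul, map_sub, h2 g a, hact g (h1 a), ← nsmul_eq_mul, map_nsmul, sub_self]
      have h4 := h3
      have : a = ((ψ g : k) - ((ω g : ℕ) : k)) * (((ψ g : k) - ((ω g : ℕ) : k))⁻¹ * a) := by
        rw [← mul_assoc, mul_inv_cancel₀ hd, one_mul]
      have h5 : Φ (((ψ g : k) - ((ω g : ℕ) : k)) * (((ψ g : k) - ((ω g : ℕ) : k))⁻¹ * a)) = 0 := by
        rw [sub_mul, map_sub, h2 g _, hact g (h1 _), ← nsmul_eq_mul, map_nsmul, sub_self]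
      rw [this, h5]
      rfl
    rw [hbot]
    exact AddSubgroup.card_bot

end Final

end Fermat.Agent.TW.Cnt.TopCount71
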