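/-
Program TW (S56), WP7 brick B11 (CNT-P): the top piece in the literal form `AbsN75.TopSpec p`
required by helper75's `AbsN75.absN1` / `AbsN75.absN2`.  helper71.

* `topSpec p : AbsN75.TopSpec p` -- from `TopPiece71.eq_of_zeta` and
  `TopCount71.card_eqHom_top_le`.
* `absN1 p : InstSpec90.AbsN1 p`, `absN2 p : InstSpec90.AbsN2 p` -- unconditional.
-/
import Mathlib
import Fermat.Agent.TW.Cnt.AbsN75
import Fermat.Agent.TW.Cnt.TopCount71

set_option autoImplicit false

namespace Fermat.Agent.TW.Cnt.TopSpec71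

open Fermat.Agent.TW.Cnt

/-- The top piece, in helper75's literal `Prop` form. -/
theorem topSpec (p : ℕ) [Fact p.Prime] : AbsN75.TopSpec p :=
  fun O _ π u u' e S Δ _ _ _ _hΔ _w _hw B _ q hq_mul hpB act hq_act κ _ _ _ _ res hres hker
      hres_smul ζ v₀ j₀ hζp hj1 hv₀ hζ =>
    ⟨TopPiece71.eq_of_zeta S hζp hj1 hv₀ hζ,
      fun ω hω k _ _ _ ψ =>
        TopCount71.card_eqHom_top_le S ζ v₀ hζp hj1 hv₀ hζ ω hω q hq_mul hpB act hq_act res hres
          hker hres_smul ψ⟩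

/-- helper90's `AbsN1`, unconditionally. -/
theorem absN1 (p : ℕ) [Fact p.Prime] : InstSpec90.AbsN1 p := AbsN75.absN1 (topSpec p)

/-- helper90's `AbsN2`, unconditionally. -/
theorem absN2 (p : ℕ) [Fact p.Prime] : InstSpec90.AbsN2 p := AbsN75.absN2 (topSpec p)

end Fermat.Agent.TW.Cnt.TopSpec71
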