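/-
Program TW (S56), WP7 brick B11: the abstract N1 / N2 of INST, UNCONDITIONAL.  helper75.

`AbsN75.TopSpec p` is discharged by helper71's landed top piece (`TopPiece71.eq_of_zeta`,
`TopCount71.card_eqHom_top_le`), so

* `absN1 : InstSpec90.AbsN1 p`,  `absN2 : InstSpec90.AbsN2 p`   (helper90's literal interface Props)
* `concreteN1 : KumSpec72.ConcreteN1 p`,  `concreteN2 : KumSpec72.ConcreteN2 p`
  (helper72's literal interface Props, through helper90's `InstConcrete90`).
-/
import Mathlib
import Fermat.Agent.TW.Cnt.AbsN75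
import Fermat.Agent.TW.Cnt.TopCount71
import Fermat.Agent.TW.Cnt.InstConcrete90

set_option autoImplicit false

namespace Fermat.Agent.TW.Cnt.TopSpec75

open Fermat.Agent.TW.Cnt

/-- The top piece (helper71). -/
theorem topSpec (p : ℕ) [Fact p.Prime] : AbsN75.TopSpec p := by
  intro O _ π u u' e S Δ _ _ _ _hΔ _w _hw B _ q hq_mul hpB act hq_act κ _ _ _ _ res hres hker
    hres_smul ζ v₀ j₀ hζp hj1 hv₀ hζ
  refine ⟨TopPiece71.eq_of_zeta S hζp hj1 hv₀ hζ, fun ω hω k _ _ _ ψ => ?_⟩
  exact TopCount71.card_eqHom_top_le S ζ v₀ hζp hj1 hv₀ hζ ω hω q hq_mul hpB act hq_act res hres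
    hker hres_smul ψ

/-- **Abstract N1** (helper90's literal interface Prop), unconditional. -/
theorem absN1 (p : ℕ) [Fact p.Prime] : InstSpec90.AbsN1 p := AbsN75.absN1 (topSpec p)

/-- **Abstract N2** (helper90's literal interface Prop), unconditional. -/
theorem absN2 (p : ℕ) [Fact p.Prime] : InstSpec90.AbsN2 p := AbsN75.absN2 (topSpec p)

/-- **ConcreteN1** (helper72's literal interface Prop), unconditional. -/
theorem concreteN1 (p : ℕ) [Fact p.Prime] : KumSpec72.ConcreteN1 p :=
  InstConcrete90.concreteN1 (absN1 p)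

/-- **ConcreteN2** (helper72's literal interface Prop), unconditional. -/
theorem concreteN2 (p : ℕ) [Fact p.Prime] : KumSpec72.ConcreteN2 p :=
  InstConcrete90.concreteN2 (absN2 p)

end Fermat.Agent.TW.Cnt.TopSpec75
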